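/-
helper93, row 38 (S44), package BAD_p: the two ABSTRACT assemblies, statements.
Plan: `NOTES/plan/L_S44.md` §12.

Setting: `S : SSD K F k F₁ F₂` a semistable Deuring datum (helper28), `char k = p`, `char K = 0`,
`𝓘` a set of inertial semilinear automorphisms of `F / K` (the inertia group).

* `IsK0Lift S 𝓘` : every function integral for both valuations has a `𝓘`-fixed "rational part":
  same reductions, poles only in the fibres in which the function has poles (= ARITH-0).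
* `Stmt_RayAbs` **(RAY-ABS)** : a class of the connected part `G₀` (Kummer functions `≡ 1` for
  `V₁` and for `V₂`) which is fixed by `𝓘3 ⊆ 𝓘` is trivial, under the arithmetic hypotheses of
  helper28's `H28.keyP` (`θ = 1`, `R` = the functions fixed by `𝓘3`).
* `Stmt_RayAbsTame` **(RAY-ABS-TAME)** : the same for the classes fixed by `𝓘`, when the constants
  of the maximal ideal fixed by `𝓘` are in the linear regime (`a ^ p = p a ε`).
* `Stmt_EisAbs` **(EIS-ABS)** : the slope vector of a class with the peu ramifiée structure is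
  proportional to the slope vector of the unit `U`, modulo `p`.
-/
import Fermat.Agent.BAD.H28_NodeRad2
import Fermat.Agent.BAD.H28_KeyStmt

set_option autoImplicit false

noncomputable section

open AlgebraicCurve

namespace Fermat.Agent.BADP

open Fermat.Agent.RED.H17 Fermat.Agent.RED Fermat.Agent.BAD

section Defs

variable {K F k F₁ F₂ : Type*} [Field K] [Field F] [Algebra K F] [Field k] [Field F₁]
  [Algebra k F₁] [Field F₂] [Algebra k F₂]

/-- **(K0), abstract form of ARITH-0**: every function `u` integral for both valuations has a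
`𝓘`-fixed part `u0`, integral for both valuations, with the same two reductions, whose poles lie
in fibres (of both partial reduction maps) which contain a pole of `u`. -/
def IsK0Lift (S : SSD K F k F₁ F₂) (𝓘 : Set (SemilinearAut K F)) : Prop :=
  ∀ u : F, u ∈ S.c₁.V → u ∈ S.c₂.V →
    ∃ u0 : F, (∀ τ ∈ 𝓘, τ • u0 = u0) ∧ u0 ∈ S.c₁.V ∧ u0 ∈ S.c₂.V ∧
      S.c₁.rd u0 = S.c₁.rd u ∧ S.c₂.rd u0 = S.c₂.rd u ∧
      ∀ P : Place K F, P.ord u0 < 0 →
        ∃ P' : Place K F, S.c₁.r P' = S.c₁.r P ∧ S.c₂.r P' = S.c₂.r P ∧ P'.ord u < 0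

end Defs

/-- **RAY-ABS** (wild case).  Hypotheses: the numerical hypotheses of `BAD.Stmt_ABS`; `p` odd,
`char k = p`, `p ≠ 0` in `K`; `𝓘3 ⊆ 𝓘` sets of inertial automorphisms with (K0) for `𝓘`;
`π, ϖ` constants of the maximal ideal with `rd (π ^ (p - 1) / p) = -1`, `ϖ ^ p / p` a unit;
`σ ∈ 𝓘` with (A2) on the functions fixed by `𝓘3` and (A3) on the constants of the maximal ideal
fixed by `𝓘3`.  Then a Kummer function `f ≡ 1` for `V₁` (`p ∣ div f`) of a class which has a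
Kummer function `f' ≡ 1` for `V₂` and which is fixed by `𝓘3` is a constant times a `p`-th power.

Proof (plan §12.3): non-special pair `(A₁, A₂)` (`Stmt_NodalNS`), adapted coordinates
(`Stmt_Coords`), their `𝓘`-fixed parts by (K0) are again adapted coordinates (no zero on the fibres
of the nodes: `DIn`), `P∞` := the zero of a `𝓘`-fixed coordinate at a good point outside `A₁`;
`H51.stmt_MoveP`, `H51.canon_p`, `H51.canon_fixed` (for `τ ∈ 𝓘3`), then `H28.keyP` with `θ = 1`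
and `R` the subfield of the functions fixed by `𝓘3`. -/
def Stmt_RayAbs : Prop :=
  ∀ (K F k F₁ F₂ : Type) [Field K] [Field F] [Algebra K F] [Field k] [Field F₁]
    [Algebra k F₁] [Field F₂] [Algebra k F₂] [IsAlgClosed K] [IsAlgClosed k]
    (S : SSD K F k F₁ F₂), FFHyp K F → FFHyp k F₁ → FFHyp k F₂ →
    ∀ (g g₁ g₂ : ℕ) (c c₁ c₂ : ℤ), IsGenus K F g c → IsGenus k F₁ g₁ c₁ → IsGenus k F₂ g₂ c₂ →
    g + 1 ≤ g₁ + g₂ + S.nodes.card →
    ∀ (p : ℕ), p.Prime → p ≠ 2 → CharP k p → (p : K) ≠ 0 →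
    ∀ (𝓘 𝓘3 : Set (SemilinearAut K F)), (∀ τ ∈ 𝓘, S.IsInertial τ) → 𝓘3 ⊆ 𝓘 → IsK0Lift S 𝓘 →
    ∀ (π ϖ : K), S.IsCM π → π ≠ 0 → S.c₁.rd (algebraMap K F (π ^ (p - 1) / p)) = -1 →
      S.IsCM ϖ → S.IsCU (ϖ ^ p / p) →
    ∀ σ ∈ 𝓘,
      (∀ y : F, (∀ τ ∈ 𝓘3, τ • y = y) → y ∈ S.c₁.V →
        (σ • y - y) / algebraMap K F π ∈ S.c₁.V) →
      (∀ y : F, (∀ τ ∈ 𝓘3, τ • y = y) → y ∈ S.c₂.V →
        (σ • y - y) / algebraMap K F π ∈ S.c₂.V) →
      (∀ a : K, (∀ τ ∈ 𝓘3, SemilinearAut.baseAut τ a = a) → S.IsCM a →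
        algebraMap K F (a / ϖ) ∈ S.c₁.V ∧
        S.c₁.rd (algebraMap K F ((SemilinearAut.baseAut σ a - a) / π)) =
          S.c₁.rd (algebraMap K F (a / ϖ)) ∧
        (S.c₁.rd (algebraMap K F (a / ϖ)) = 0 → algebraMap K F (a / ϖ ^ 2) ∈ S.c₁.V)) →
    ∀ (f : F), f ∈ S.c₁.V → S.c₁.rd f = 1 → (∀ P : Place K F, (p : ℤ) ∣ P.ord f) →
    ∀ (f' h₀ : F) (a : K), f' ∈ S.c₂.V → S.c₂.rd f' = 1 →
      f = algebraMap K F a * f' * h₀ ^ p →
      (∀ τ ∈ 𝓘3, ∃ (e : K) (T : F), τ • f = algebraMap K F e * f * T ^ p) →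
      ∃ (e : K) (h : F), f = algebraMap K F e * h ^ p

/-- **RAY-ABS-TAME**.  The same for a class fixed by the whole of `𝓘`, when every constant `a`
of the maximal ideal fixed by `𝓘` satisfies `a ^ p = p a ε` with `ε` in the maximal ideal
(`a ∈ p O_{K₀}`, `p ≥ 3`).  Proof: as RAY-ABS, with `H28.keyNodal_lin` instead of `H28.keyP`. -/
def Stmt_RayAbsTame : Prop :=
  ∀ (K F k F₁ F₂ : Type) [Field K] [Field F] [Algebra K F] [Field k] [Field F₁]
    [Algebra k F₁] [Field F₂] [Algebra k F₂] [IsAlgClosed K] [IsAlgClosed k]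
    (S : SSD K F k F₁ F₂), FFHyp K F → FFHyp k F₁ → FFHyp k F₂ →
    ∀ (g g₁ g₂ : ℕ) (c c₁ c₂ : ℤ), IsGenus K F g c → IsGenus k F₁ g₁ c₁ → IsGenus k F₂ g₂ c₂ →
    g + 1 ≤ g₁ + g₂ + S.nodes.card →
    ∀ (p : ℕ), p.Prime → p ≠ 2 → CharP k p → (p : K) ≠ 0 →
    ∀ (𝓘 : Set (SemilinearAut K F)), (∀ τ ∈ 𝓘, S.IsInertial τ) → IsK0Lift S 𝓘 →
      (∀ a : K, (∀ τ ∈ 𝓘, SemilinearAut.baseAut τ a = a) → S.IsCM a →
        ∃ ε : K, S.IsCM ε ∧ a ^ p = p * a * ε) →
    ∀ (f : F), f ∈ S.c₁.V → S.c₁.rd f = 1 → (∀ P : Place K F, (p : ℤ) ∣ P.ord f) →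
    ∀ (f' h₀ : F) (a : K), f' ∈ S.c₂.V → S.c₂.rd f' = 1 →
      f = algebraMap K F a * f' * h₀ ^ p →
      (∀ τ ∈ 𝓘, ∃ (e : K) (T : F), τ • f = algebraMap K F e * f * T ^ p) →
      ∃ (e : K) (h : F), f = algebraMap K F e * h ^ p

end Fermat.Agent.BADP
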