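/-
helper93, row 38 (S44), package BAD_p: interface statements of clause (d) (`S44.Stmt_SlopeP`).
Plan: `NOTES/plan/L_S44.md` §12.

`N = M p`, `p ∥ N`, `p ≥ 5`, `A` a valuation ring of `ℚ̄` over `p`, `V₁ = gaussV A N`,
`U = unitF N p` the modular unit `Δ(z)/Δ(pz)` (helper30), `j~ = jRed A N`.

* `IsEisPair A N p hd x D f c` : `(D, f)` is a Kummer pair of `x` (`x = [D]`, `p D = div f`, `f` a
  unit of `V₁`) whose reduction has an EISENSTEIN divisor modulo `p`:
  `div (red f) ≡ c · (non-cuspidal part of div (red U))  mod p`.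
* `Stmt_EisSlopeP` **(d0)-(d5), (d7)** : a class with the peu ramifiée structure has such a pair.
* `Stmt_HDropP`   **(d6) = H-DROP** : a non-Eisenstein eigenvector with such a pair lies in
  the finite part `Fin1`.  (Statement about `V₁` only.)
* `stmt_SlopeP_of` : the two give `S44.Stmt_SlopeP`.
-/
import Fermat.Agent.S44.BadP4
import Fermat.Agent.BAD.H91_Cusp
import Fermat.Agent.BAD.H30_UnitGauss

set_option autoImplicit false
set_option synthInstance.maxHeartbeats 400000
set_option maxHeartbeats 1000000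

noncomputable section

open AlgebraicCurve ModularCurve

namespace Fermat.Agent.BADP

open Fermat.Agent.BAD Fermat.Agent.S44 Fermat.Agent.S43.BadQ Fermat.Agent.S28.H73
  Fermat.Agent.RED.H73

/-- The reduction of the modular unit `Δ(z)/Δ(pz)`, as a function on the component of `∞`. -/
def unitRed (A : ValuationSubring (AlgebraicClosure ℚ)) (N p : ℕ) [NeZero N] [NeZero p]
    (hd : p ∣ N) :
    ↥(redField A (FNbar N) (hasScale_laurentBaseChange A N)) :=
  gaussRes A N ⟨Fermat.Agent.BAD.H30.unitF N p hd,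
    Fermat.Agent.BAD.H30.unitF_mem_gaussV A N p hd⟩

/-- **Eisenstein Kummer pair.**  `(D, f)` is a Kummer pair of `x` with `f` a unit of the Gauss
valuation ring, and the divisor of the reduction of `f` is congruent modulo `p` to `c` times the
non-cuspidal part of the divisor of the reduction of the modular unit. -/
def IsEisPair (A : ValuationSubring (AlgebraicClosure ℚ)) (N p : ℕ) [NeZero N] [NeZero p]
    (hd : p ∣ N)
    (x : JZero N) (D : Divisor.degZero (K := AlgebraicClosure ℚ) (F := ↥(FNbar N)))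
    (f : ↥(gaussV A N)) (c : ℤ) : Prop :=
  x = Pic0.mk D ∧ gaussRes A N f ≠ 0 ∧
  (∀ P : Place (AlgebraicClosure ℚ) ↥(FNbar N),
    (p : ℤ) * (D : Divisor (AlgebraicClosure ℚ) ↥(FNbar N)) P = P.ord ((f : ↥(FNbar N)))) ∧
  ∀ Q : Place (kV A) ↥(redField A (FNbar N) (hasScale_laurentBaseChange A N)),
    (0 ≤ Q.ord (Fermat.Agent.BAD.H91.jRed A N) →
      (p : ℤ) ∣ Q.ord (gaussRes A N f) - c * Q.ord (unitRed A N p hd)) ∧
    (Q.ord (Fermat.Agent.BAD.H91.jRed A N) < 0 → (p : ℤ) ∣ Q.ord (gaussRes A N f))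

/-- **(d0)-(d5), (d7): the slope vector is Eisenstein.**  A class `x` of `J₀(N)[p]` such that
`(σ - 1) x` lies, for `σ` in the inertia group, in a subspace `Y` on which inertia acts through
the cyclotomic character, and which is fixed by the inertia of `ℚ_p^nr(μ_p, u^(1/p))`, has an
Eisenstein Kummer pair.  (No Hecke operator.) -/
def Stmt_EisSlopeP : Prop :=
  ∀ (p : ℕ) [NeZero p], p.Prime → 5 ≤ p → ∀ (N : ℕ) [NeZero N] (hd : p ∣ N), ¬ p ^ 2 ∣ N →
    ∀ A : ValuationSubring (AlgebraicClosure ℚ), A.LiesOverPrime p →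
    ∀ (x : (jzModule N p).J) (Y : Submodule (ZMod p) (jzModule N p).J) (u : ℤ),
      (jzModule N p).IsCycOn A Y →
      (∀ σ ∈ A.inertiaSubgroupIn ℚ, (jzModule N p).gal σ x - x ∈ Y) →
      ¬ (p : ℤ) ∣ u → (jzModule N p).IsPeuFixed A u x →
      ∃ (D : Divisor.degZero (K := AlgebraicClosure ℚ) (F := ↥(FNbar N))) (f : ↥(gaussV A N))
        (c : ℤ), IsEisPair A N p hd (jzModule.pt N p x) D f c

/-- **(d6) = H-DROP: the Eisenstein slope vectors are Eisenstein for the Hecke operators.**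
A common eigenvector of the Hecke operators with a non-Eisenstein system of eigenvalues which
has an Eisenstein Kummer pair lies in the finite part.

Proof (plan §12.2 (d6)): `div (red (N_α (β f))) = α~_* β~^* div (red f)` (NORM-RED along `α` at
level `N ℓ` for the Gauss valuation, as in OLD-RED); `β U / α U = G(z)/G(pz)`, `G = Δ(ℓz)/Δ(z)`,
has reduction `G~ ^ (1 - p)` (Kronecker), a unit outside the cusps; hence `T~_ℓ Ξ = (ℓ + 1) Ξ`
for the non-cuspidal part `Ξ` of `div (red U)`, and `(t_ℓ - ℓ - 1) c Ξ ≡ 0` modulo `p`. -/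
def Stmt_HDropP : Prop :=
  ∀ (p : ℕ) [NeZero p], p.Prime → 5 ≤ p → ∀ (N : ℕ) [NeZero N] (hd : p ∣ N), ¬ p ^ 2 ∣ N →
    ∀ A : ValuationSubring (AlgebraicClosure ℚ), A.LiesOverPrime p →
    ∀ (S : Finset ℕ) (t : ℕ → ℤ) (x : (jzModule N p).J),
      (jzModule N p).IsEigen N S t x → NonEisSystem p N S t →
      ∀ (D : Divisor.degZero (K := AlgebraicClosure ℚ) (F := ↥(FNbar N))) (f : ↥(gaussV A N))
        (c : ℤ), IsEisPair A N p hd (jzModule.pt N p x) D f c →
        Fin1 A N p (jzModule.pt N p x)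

/-- **Clause (d) from its two halves.** -/
theorem stmt_SlopeP_of (h1 : Stmt_EisSlopeP) (h2 : Stmt_HDropP) : Stmt_SlopeP := by
  intro p hp hp5 N _ hd hp2 A hA S t x Y u hT hNE hY hsub hu hfix
  have : NeZero p := ⟨hp.ne_zero⟩
  obtain ⟨D, f, c, hpair⟩ := h1 p hp hp5 N hd hp2 A hA x Y u hY hsub hu hfix
  exact h2 p hp hp5 N hd hp2 A hA S t x hT hNE D f c hpair

end Fermat.Agent.BADP
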