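import Mathlib

/-!
# BAD_p (S44, row 38), package K-ARITH (helper97): first-order arithmetic of `L₀(ζ, u^(1/p))`

Route: `NOTES/plan/L_S44.md` §11 (helper93).  Abstract setting, valid both for `K₂ ⊂ ℚ̄` with a
place over `p` and for the functions `F^{I₂}` with a Gauss valuation:

* `L` a field with a valuation `v`, `L₀ ⊂ L` a subfield with `v(L₀ˣ) ⊂ v(p)^ℤ`, `v(p) < 1`;
* `ζ ∈ L` a primitive `p`-th root of unity, `π = ζ - 1`;
* `ω ∈ L` with `ω ^ p = 1 + p u₁`, `u₁ ∈ L₀` a unit (`v u₁ = 1`), `ϖ = ω - 1`, `θ = π ω / ϖ`;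
* `σ : L →+* L` preserving `v`, fixing `L₀` and `ζ`, with `σ ω = ζ ω`.

Results (`KData.*`), for `c = ∑_{l < p, j < p - 1} g l j * ϖ ^ l * π ^ j` with `g l j ∈ L₀`:

* `val_pi`, `val_varpi`, `val_theta_pow` : `v π ^ (p - 1) = v p`, `v ϖ ^ p = v p`,
  `v θ ^ (p (p - 1)) = v p`; `val_pi_eq`, `val_varpi_eq` : `v π = v θ ^ p`, `v ϖ = v θ ^ (p - 1)`;
* `sigma_varpi` : `σ ϖ = ϖ * (1 + θ)`;
* `exists_dominant` (K1) : a nonzero `c` has a dominant monomial; `v c = v θ ^ m`;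
* `val_sigma_sub` (K2) : `v c ≤ 1 → v (σ c - c) ≤ v θ ^ 2`;
* `val_sigma_div` (K3) : `c ≠ 0 → ∃ m : ℤ, v c = v θ ^ m ∧ v (σ c / c - (1 - m θ)) ≤ v θ ^ 2`.
-/

set_option autoImplicit false

open Finset

namespace Fermat.Agent.BADP.H97

variable {L : Type*} [Field L] {Γ₀ : Type*} [LinearOrderedCommGroupWithZero Γ₀]

/-- The data of K-ARITH. -/
structure KData (v : Valuation L Γ₀) (L0 : Subfield L) (p : ℕ) (ζ ω : L) (σ : L →+* L) :
    Prop where
  prime : p.Prime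
  vp_lt : v (p : L) < 1
  vp_ne : v (p : L) ≠ 0
  val0 : ∀ x ∈ L0, x ≠ 0 → ∃ n : ℤ, v x = v (p : L) ^ n
  root : IsPrimitiveRoot ζ p
  pow : ∃ u1 ∈ L0, v u1 = 1 ∧ ω ^ p = 1 + (p : L) * u1
  σv : ∀ x, v (σ x) = v x
  σ0 : ∀ x ∈ L0, σ x = x
  σζ : σ ζ = ζ
  σω : σ ω = ζ * ω

/-! ### General lemmas on valuations -/

section General

variable (v : Valuation L Γ₀)

theorem val_natCast_le_one (n : ℕ) : v (n : L) ≤ 1 := by
  induction n with
  | zero => simp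
  | succ k ih =>
    rw [Nat.cast_succ]
    exact le_trans (v.map_add _ _) (max_le ih (by rw [map_one]))

theorem val_intCast_le_one (n : ℤ) : v (n : L) ≤ 1 := by
  rcases Int.eq_nat_or_neg n with ⟨k, rfl | rfl⟩
  · rw [Int.cast_natCast]; exact val_natCast_le_one v k
  · rw [Int.cast_neg, Int.cast_natCast, v.map_neg]; exact val_natCast_le_one v k

theorem val_geom_sum_le_one {x : L} (hx : v x ≤ 1) (n : ℕ) : v (∑ i ∈ range n, x ^ i) ≤ 1 :=
  v.map_sum_le fun i _ => by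
    rw [map_pow]
    exact pow_le_one₀ zero_le hx

/-- `v (x ^ n - 1) ≤ v (x - 1)` for `x` integral. -/
theorem val_pow_sub_one_le {x : L} (hx : v x ≤ 1) (n : ℕ) : v (x ^ n - 1) ≤ v (x - 1) := by
  rw [← mul_geom_sum, map_mul]
  calc v (x - 1) * v (∑ i ∈ range n, x ^ i) ≤ v (x - 1) * 1 :=
        mul_le_mul_right (val_geom_sum_le_one v hx n) _
    _ = v (x - 1) := mul_one _

/-- `v ((1 + t) ^ n - 1) ≤ v t`. -/
theorem val_one_add_pow_sub_one {t : L} (ht : v t ≤ 1) (n : ℕ) : v ((1 + t) ^ n - 1) ≤ v t := by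
  have h1 : v (1 + t) ≤ 1 := le_trans (v.map_add _ _) (max_le (by rw [map_one]) ht)
  have := val_pow_sub_one_le v h1 n
  rwa [add_sub_cancel_left] at this

/-- `v ((1 + t) ^ n - 1 - n t) ≤ v t ^ 2`. -/
theorem val_one_add_pow_sub_lin {t : L} (ht : v t ≤ 1) (n : ℕ) :
    v ((1 + t) ^ n - 1 - n * t) ≤ v t ^ 2 := by
  have h0 : (1 + t) ^ n - 1 - n * t = t * ∑ i ∈ range n, ((1 + t) ^ i - 1) := by
    have h1 : (1 + t) ^ n - 1 = t * ∑ i ∈ range n, (1 + t) ^ i := by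
      have := mul_geom_sum (1 + t) n
      rw [add_sub_cancel_left] at this
      exact this.symm
    rw [h1, Finset.sum_sub_distrib, Finset.sum_const, card_range, nsmul_eq_mul, mul_one]
    ring
  rw [h0, map_mul, sq]
  exact mul_le_mul_right (v.map_sum_le fun i _ => val_one_add_pow_sub_one v ht i) _

end General

namespace KData

variable {v : Valuation L Γ₀} {L0 : Subfield L} {p : ℕ} {ζ ω : L} {σ : L →+* L}

/-! ### The valuations of `π`, `ϖ`, `θ` -/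

theorem p_ne_zero (h : KData v L0 p ζ ω σ) : (p : L) ≠ 0 := fun h0 => h.vp_ne (by rw [h0, map_zero])

theorem val_zeta (h : KData v L0 p ζ ω σ) : v ζ = 1 := by
  have h1 : v ζ ^ p = 1 := by rw [← map_pow, h.root.pow_eq_one, map_one]
  exact (pow_eq_one_iff.1 h1).resolve_right h.prime.ne_zero

theorem val_zeta_pow_sub_one (h : KData v L0 p ζ ω σ) {k : ℕ} (hk : ¬ p ∣ k) :
    v (ζ ^ k - 1) = v (ζ - 1) := by
  refine le_antisymm (val_pow_sub_one_le v h.val_zeta.le k) ?_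
  -- `ζ = (ζ ^ k) ^ m`
  have hcop : Nat.Coprime k p := (Nat.Coprime.symm ((Nat.Prime.coprime_iff_not_dvd h.prime).2 hk))
  obtain ⟨m, -, hm⟩ := Nat.exists_mul_mod_eq_one_of_coprime hcop h.prime.one_lt
  have h1 : (ζ ^ k) ^ m = ζ := by
    rw [← pow_mul, ← Nat.mod_add_div (k * m) p, hm, pow_add, pow_one, pow_mul,
      h.root.pow_eq_one, one_pow, mul_one]
  have h2 : v (ζ ^ k) ≤ 1 := by rw [map_pow, h.val_zeta, one_pow]
  have := val_pow_sub_one_le v h2 m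
  rwa [h1] at this

/-- `v (ζ - 1) ^ (p - 1) = v p`. -/
theorem val_pi (h : KData v L0 p ζ ω σ) : v (ζ - 1) ^ (p - 1) = v (p : L) := by
  obtain ⟨n, hn⟩ : ∃ n, p = n + 1 := ⟨p - 1, (Nat.succ_pred_eq_of_pos h.prime.pos).symm⟩
  have hroot : IsPrimitiveRoot ζ (n + 1) := hn ▸ h.root
  have h1 := hroot.prod_one_sub_pow_eq_order
  have h2 : v (∏ k ∈ range n, (1 - ζ ^ (k + 1))) = v (ζ - 1) ^ n := by
    rw [map_prod]
    have : ∀ k ∈ range n, v (1 - ζ ^ (k + 1)) = v (ζ - 1) := by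
      intro k hk
      rw [← v.map_neg, neg_sub]
      refine h.val_zeta_pow_sub_one ?_
      intro hd
      have := Nat.le_of_dvd (Nat.succ_pos k) hd
      have := mem_range.1 hk
      omega
    rw [prod_congr rfl this, prod_const, card_range]
  rw [h1] at h2
  have h3 : (p : L) = (n : L) + 1 := by rw [hn]; push_cast; ring
  rw [h3, h2, hn, Nat.add_sub_cancel]

theorem val_omega (h : KData v L0 p ζ ω σ) : v ω = 1 := by
  obtain ⟨u1, -, hu1, hω⟩ := h.pow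
  have h1 : v ((p : L) * u1) < 1 := by rw [map_mul, hu1, mul_one]; exact h.vp_lt
  have h2 : v (1 + (p : L) * u1) = 1 := by
    have := v.map_add_eq_of_lt_left (x := (1 : L)) (y := (p : L) * u1) (by rw [map_one]; exact h1)
    rw [this, map_one]
  have h3 : v ω ^ p = 1 := by rw [← map_pow, hω, h2]
  exact (pow_eq_one_iff.1 h3).resolve_right h.prime.ne_zero

theorem omega_ne_zero (h : KData v L0 p ζ ω σ) : ω ≠ 0 := fun h0 => by
  have := h.val_omega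
  rw [h0, map_zero] at this
  exact zero_ne_one this

theorem val_varpi_le (h : KData v L0 p ζ ω σ) : v (ω - 1) ≤ 1 :=
  le_trans (v.map_sub _ _) (max_le h.val_omega.le (by rw [map_one]))

/-- `ϖ ^ p = p (u₁ - ϖ r)` with `r` integral. -/
theorem varpi_pow (h : KData v L0 p ζ ω σ) :
    ∃ u1 r : L, v u1 = 1 ∧ v r ≤ 1 ∧ (ω - 1) ^ p = (p : L) * (u1 - (ω - 1) * r) := by
  obtain ⟨u1, -, hu1, hω⟩ := h.pow
  have h1 := add_pow_prime_eq h.prime (ω - 1) (1 : L)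
  rw [sub_add_cancel, hω] at h1
  refine ⟨u1, ∑ k ∈ Ioo 0 p, (ω - 1) ^ (k - 1) * (1 : L) ^ (p - k - 1) * ((p.choose k / p : ℕ) : L),
    hu1, ?_, ?_⟩
  · refine v.map_sum_le fun k _ => ?_
    rw [map_mul, map_mul, map_pow, map_pow, map_one, one_pow, mul_one]
    exact mul_le_one₀ (pow_le_one₀ zero_le h.val_varpi_le) zero_le (val_natCast_le_one v _)
  · have h2 : (ω - 1) ^ p = (1 + (p : L) * u1) - 1 ^ p - (p : L) * (ω - 1) * 1 *
        ∑ k ∈ Ioo 0 p, (ω - 1) ^ (k - 1) * (1 : L) ^ (p - k - 1) * ((p.choose k / p : ℕ) : L) := by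
      rw [h1]; ring
    rw [h2]; ring

theorem val_varpi_lt (h : KData v L0 p ζ ω σ) : v (ω - 1) < 1 := by
  obtain ⟨u1, r, hu1, hr, he⟩ := h.varpi_pow
  refine lt_of_le_of_ne h.val_varpi_le fun h1 => ?_
  have h2 : v ((ω - 1) ^ p) = 1 := by rw [map_pow, h1, one_pow]
  rw [he, map_mul] at h2
  have h3 : v (u1 - (ω - 1) * r) ≤ 1 := by
    refine le_trans (v.map_sub _ _) (max_le hu1.le ?_)
    rw [map_mul]
    exact mul_le_one₀ h.val_varpi_le zero_le hr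
  have h4 : v (p : L) * v (u1 - (ω - 1) * r) < 1 :=
    lt_of_le_of_lt (mul_le_mul_right h3 _) (by rw [mul_one]; exact h.vp_lt)
  rw [h2] at h4
  exact lt_irrefl _ h4

/-- `v (ω - 1) ^ p = v p`. -/
theorem val_varpi (h : KData v L0 p ζ ω σ) : v (ω - 1) ^ p = v (p : L) := by
  obtain ⟨u1, r, hu1, hr, he⟩ := h.varpi_pow
  rw [← map_pow, he, map_mul]
  have h1 : v ((ω - 1) * r) < v u1 := by
    rw [map_mul, hu1]
    exact lt_of_le_of_lt (mul_le_mul_right hr _) (by rw [mul_one]; exact h.val_varpi_lt)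
  rw [v.map_sub_eq_of_lt_left h1, hu1, mul_one]

theorem varpi_ne_zero (h : KData v L0 p ζ ω σ) : ω - 1 ≠ 0 := fun h0 => by
  have := h.val_varpi
  rw [h0, map_zero, zero_pow h.prime.ne_zero] at this
  exact h.vp_ne this.symm

theorem pi_ne_zero (h : KData v L0 p ζ ω σ) : ζ - 1 ≠ 0 :=
  sub_ne_zero.2 (h.root.ne_one h.prime.one_lt)

end KData

/-! ### `θ`, the monomials and their exponents -/

/-- `θ = π ω / ϖ`, a uniformiser of `L₀(ζ, ω)`. -/
noncomputable def theta (ζ ω : L) : L := (ζ - 1) * ω / (ω - 1)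

/-- The monomial `ϖ ^ l * π ^ j`. -/
def mono (ζ ω : L) (x : ℕ × ℕ) : L := (ω - 1) ^ x.1 * (ζ - 1) ^ x.2

/-- The index set `{(l, j) | l < p, j < p - 1}`. -/
def idx (p : ℕ) : Finset (ℕ × ℕ) := range p ×ˢ range (p - 1)

/-- The element `∑ g l j * ϖ ^ l * π ^ j`. -/
def ksum (p : ℕ) (ζ ω : L) (g : ℕ × ℕ → L) : L := ∑ x ∈ idx p, g x * mono ζ ω x

/-- The exponent of `v θ` in the value of `a ϖ ^ l π ^ j`, `v a = v p ^ n`. -/
def expo (p : ℕ) (n : ℤ) (x : ℕ × ℕ) : ℤ := (p : ℤ) * ((p : ℤ) - 1) * n + ((p : ℤ) - 1) * x.1 + p * x.2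

theorem expo_inj {p : ℕ} (hp : 1 < p) {n n' : ℤ} {x x' : ℕ × ℕ} (hx : x ∈ idx p) (hx' : x' ∈ idx p)
    (he : expo p n x = expo p n' x') : x = x' := by
  simp only [idx, mem_product, mem_range] at hx hx'
  obtain ⟨l, j⟩ := x
  obtain ⟨l', j'⟩ := x'
  simp only [expo] at he
  simp only at hx hx'
  have hp0 : (0 : ℤ) < p := by exact_mod_cast (by omega : 0 < p)
  -- `l = l'`
  have h1 : (p : ℤ) ∣ ((l : ℤ) - l') := by
    refine ⟨((l : ℤ) - l') + ((p : ℤ) - 1) * (n - n') + ((j : ℤ) - j'), ?_⟩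
    linear_combination -he
  have hl : (l : ℤ) = l' := by
    have h2 : |(l : ℤ) - l'| < p := by
      rw [abs_lt]
      constructor <;> omega
    have := Int.eq_zero_of_abs_lt_dvd h1 h2
    omega
  have hl' : l = l' := by exact_mod_cast hl
  subst hl'
  -- `j = j'`
  have h3 : (p : ℤ) * (((p : ℤ) - 1) * (n - n') + ((j : ℤ) - j')) = 0 := by
    linear_combination he
  have h4 : ((p : ℤ) - 1) * (n - n') + ((j : ℤ) - j') = 0 := by
    rcases mul_eq_zero.1 h3 with h | h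
    · omega
    · exact h
  have h5 : ((p : ℤ) - 1) ∣ ((j : ℤ) - j') := by
    refine ⟨-(n - n'), ?_⟩
    linear_combination h4
  have hj : (j : ℤ) = j' := by
    have h2 : |(j : ℤ) - j'| < (p : ℤ) - 1 := by
      rw [abs_lt]
      constructor <;> omega
    have := Int.eq_zero_of_abs_lt_dvd h5 h2
    omega
  have hj' : j = j' := by exact_mod_cast hj
  rw [hj']

theorem expo_ne_zero {p : ℕ} {n : ℤ} {x : ℕ × ℕ} (hx : x ∈ idx p) (hl : x.1 ≠ 0) :
    expo p n x ≠ 0 := by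
  simp only [idx, mem_product, mem_range] at hx
  intro he
  simp only [expo] at he
  have h1 : (p : ℤ) ∣ (x.1 : ℤ) := by
    refine ⟨((p : ℤ) - 1) * n + x.1 + x.2, ?_⟩
    linear_combination -he
  have h2 := Int.le_of_dvd (by omega) h1
  omega

theorem dvd_fst_add_expo (p : ℕ) (n : ℤ) (x : ℕ × ℕ) : (p : ℤ) ∣ (x.1 : ℤ) + expo p n x :=
  ⟨((p : ℤ) - 1) * n + x.1 + x.2, by simp only [expo]; ring⟩

namespace KData

variable {v : Valuation L Γ₀} {L0 : Subfield L} {p : ℕ} {ζ ω : L} {σ : L →+* L}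

theorem theta_ne_zero (h : KData v L0 p ζ ω σ) : theta ζ ω ≠ 0 :=
  div_ne_zero (mul_ne_zero h.pi_ne_zero h.omega_ne_zero) h.varpi_ne_zero

theorem val_theta (h : KData v L0 p ζ ω σ) : v (theta ζ ω) = v (ζ - 1) / v (ω - 1) := by
  rw [theta, map_div₀, map_mul, h.val_omega, mul_one]

theorem val_theta_ne_zero (h : KData v L0 p ζ ω σ) : v (theta ζ ω) ≠ 0 :=
  (Valuation.ne_zero_iff v).2 h.theta_ne_zero

/-- `v θ ^ (p (p - 1)) = v p`. -/
theorem val_theta_pow (h : KData v L0 p ζ ω σ) : v (theta ζ ω) ^ (p * (p - 1)) = v (p : L) := by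
  have h0 : v (p : L) ≠ 0 := h.vp_ne
  have h1 : (v (ζ - 1)) ^ (p * (p - 1)) = v (p : L) ^ p := by rw [mul_comm, pow_mul, h.val_pi]
  have h2 : (v (ω - 1)) ^ (p * (p - 1)) = v (p : L) ^ (p - 1) := by rw [pow_mul, h.val_varpi]
  rw [h.val_theta, div_pow, h1, h2]
  obtain ⟨n, hn⟩ : ∃ n, p = n + 1 := ⟨p - 1, (Nat.succ_pred_eq_of_pos h.prime.pos).symm⟩
  rw [hn, Nat.add_sub_cancel, pow_succ, mul_comm, mul_div_assoc,
    div_self (pow_ne_zero n (hn ▸ h0)), mul_one]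

theorem val_theta_lt (h : KData v L0 p ζ ω σ) : v (theta ζ ω) < 1 := by
  by_contra hge
  rw [not_lt] at hge
  have := one_le_pow₀ hge (n := p * (p - 1))
  rw [h.val_theta_pow] at this
  exact absurd h.vp_lt (not_lt.2 this)

theorem val_theta_pos (h : KData v L0 p ζ ω σ) : 0 < v (theta ζ ω) :=
  zero_lt_iff.2 h.val_theta_ne_zero

theorem p_sub_one_ne (h : KData v L0 p ζ ω σ) : p - 1 ≠ 0 := by
  have := h.prime.two_le
  omega

/-- `v π = v θ ^ p`. -/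
theorem val_pi_eq (h : KData v L0 p ζ ω σ) : v (ζ - 1) = v (theta ζ ω) ^ p := by
  refine (pow_left_inj₀ zero_le zero_le h.p_sub_one_ne).1 ?_
  rw [h.val_pi, ← pow_mul, h.val_theta_pow]

/-- `v ϖ = v θ ^ (p - 1)`. -/
theorem val_varpi_eq (h : KData v L0 p ζ ω σ) : v (ω - 1) = v (theta ζ ω) ^ (p - 1) := by
  refine (pow_left_inj₀ zero_le zero_le h.prime.ne_zero).1 ?_
  rw [h.val_varpi, ← pow_mul, mul_comm, h.val_theta_pow]

theorem vp_le_theta (h : KData v L0 p ζ ω σ) : v (p : L) ≤ v (theta ζ ω) := by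
  rw [← h.val_theta_pow]
  have h1 : 1 ≤ p * (p - 1) := by
    have := h.prime.two_le
    have : 1 ≤ p - 1 := by omega
    nlinarith
  calc v (theta ζ ω) ^ (p * (p - 1)) ≤ v (theta ζ ω) ^ 1 :=
        pow_le_pow_of_le_one zero_le h.val_theta_lt.le h1
    _ = v (theta ζ ω) := pow_one _

/-- The value of a monomial with coefficient in `L₀`. -/
theorem val_term (h : KData v L0 p ζ ω σ) {a : L} (ha : a ∈ L0) (ha0 : a ≠ 0) (x : ℕ × ℕ) :
    ∃ n : ℤ, v (a * mono ζ ω x) = v (theta ζ ω) ^ expo p n x := by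
  obtain ⟨n, hn⟩ := h.val0 a ha ha0
  refine ⟨n, ?_⟩
  have hγ := h.val_theta_ne_zero
  have hp1 := h.prime.one_le
  have hA : v a = v (theta ζ ω) ^ ((p : ℤ) * ((p : ℤ) - 1) * n) := by
    rw [hn, ← h.val_theta_pow, ← zpow_natCast, ← zpow_mul]
    congr 1
    push_cast [Nat.cast_sub hp1]
    ring
  have hB : v (ω - 1) ^ x.1 = v (theta ζ ω) ^ (((p : ℤ) - 1) * x.1) := by
    rw [h.val_varpi_eq, ← pow_mul, ← zpow_natCast]
    congr 1
    push_cast [Nat.cast_sub hp1]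
    ring
  have hC : v (ζ - 1) ^ x.2 = v (theta ζ ω) ^ ((p : ℤ) * x.2) := by
    rw [h.val_pi_eq, ← pow_mul, ← zpow_natCast]
    congr 1
  rw [mono, map_mul, map_mul, map_pow, map_pow, hA, hB, hC, expo, zpow_add₀ hγ, zpow_add₀ hγ]
  exact (mul_assoc _ _ _).symm

/-! ### The action of `σ` -/

theorem sigma_pi (h : KData v L0 p ζ ω σ) : σ (ζ - 1) = ζ - 1 := by
  rw [map_sub, h.σζ, map_one]

/-- `σ ϖ = ϖ (1 + θ)`. -/
theorem sigma_varpi (h : KData v L0 p ζ ω σ) : σ (ω - 1) = (ω - 1) * (1 + theta ζ ω) := by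
  have h0 := h.varpi_ne_zero
  rw [map_sub, h.σω, map_one, theta, mul_add, mul_one, mul_div_cancel₀ _ h0]
  ring

theorem mono_ne_zero (h : KData v L0 p ζ ω σ) (x : ℕ × ℕ) : mono ζ ω x ≠ 0 :=
  mul_ne_zero (pow_ne_zero _ h.varpi_ne_zero) (pow_ne_zero _ h.pi_ne_zero)

theorem sigma_term (h : KData v L0 p ζ ω σ) {a : L} (ha : a ∈ L0) (x : ℕ × ℕ) :
    σ (a * mono ζ ω x) = a * mono ζ ω x * (1 + theta ζ ω) ^ x.1 := by
  rw [mono, map_mul, map_mul, map_pow, map_pow, h.σ0 a ha, h.sigma_pi, h.sigma_varpi, mul_pow]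
  ring

theorem sigma_ksum (h : KData v L0 p ζ ω σ) {g : ℕ × ℕ → L} (hg : ∀ x, g x ∈ L0) :
    σ (ksum p ζ ω g) = ∑ x ∈ idx p, g x * mono ζ ω x * (1 + theta ζ ω) ^ x.1 := by
  rw [ksum, map_sum]
  exact sum_congr rfl fun x _ => h.sigma_term (hg x) x

/-! ### (K1): the dominant monomial -/

theorem zpow_theta_inj (h : KData v L0 p ζ ω σ) {a b : ℤ}
    (hab : v (theta ζ ω) ^ a = v (theta ζ ω) ^ b) : a = b :=
  zpow_right_injective₀ h.val_theta_pos h.val_theta_lt.ne hab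

theorem zpow_theta_le (h : KData v L0 p ζ ω σ) {a b : ℤ} :
    v (theta ζ ω) ^ a ≤ v (theta ζ ω) ^ b ↔ b ≤ a :=
  zpow_le_zpow_iff_right_of_lt_one₀ h.val_theta_pos h.val_theta_lt

/-- **(K1)** if some coefficient is nonzero, `∑ g l j ϖ ^ l π ^ j` has a dominant term (in
particular it is nonzero). -/
theorem exists_dominant_of_coeff (h : KData v L0 p ζ ω σ) {g : ℕ × ℕ → L} (hg : ∀ x, g x ∈ L0)
    (hc : ∃ x₁ ∈ idx p, g x₁ ≠ 0) :
    ∃ x₀ ∈ idx p, g x₀ ≠ 0 ∧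
      (∀ x ∈ idx p, x ≠ x₀ → v (g x * mono ζ ω x) < v (g x₀ * mono ζ ω x₀)) ∧
      v (ksum p ζ ω g) = v (g x₀ * mono ζ ω x₀) := by
  classical
  obtain ⟨x₁, hx₁, hx₁0⟩ := hc
  obtain ⟨x₀, hx₀, hmax⟩ := exists_max_image (idx p) (fun x => v (g x * mono ζ ω x)) ⟨x₁, hx₁⟩
  have hpos : v (g x₀ * mono ζ ω x₀) ≠ 0 := by
    have h1 : v (g x₁ * mono ζ ω x₁) ≠ 0 :=
      (Valuation.ne_zero_iff v).2 (mul_ne_zero hx₁0 (h.mono_ne_zero x₁))
    intro h0
    have := hmax x₁ hx₁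
    rw [h0] at this
    exact h1 (le_antisymm this zero_le)
  have hg0 : g x₀ ≠ 0 := fun h0 => hpos (by rw [h0, zero_mul, map_zero])
  have hlt : ∀ x ∈ idx p, x ≠ x₀ → v (g x * mono ζ ω x) < v (g x₀ * mono ζ ω x₀) := by
    intro x hx hne
    refine lt_of_le_of_ne (hmax x hx) fun heq => hne ?_
    have hgx : g x ≠ 0 := fun h0 => hpos (by rw [← heq, h0, zero_mul, map_zero])
    obtain ⟨n, hn⟩ := h.val_term (hg x) hgx x
    obtain ⟨n', hn'⟩ := h.val_term (hg x₀) hg0 x₀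
    rw [hn, hn'] at heq
    exact expo_inj h.prime.one_lt hx hx₀ (h.zpow_theta_inj heq)
  refine ⟨x₀, hx₀, hg0, hlt, ?_⟩
  rw [ksum]
  refine Valuation.map_sum_eq_of_lt v hx₀ fun x hx => ?_
  rw [mem_sdiff, mem_singleton] at hx
  exact hlt x hx.1 hx.2

/-- **(K1)** a nonzero element `∑ g l j ϖ ^ l π ^ j` has a dominant term. -/
theorem exists_dominant (h : KData v L0 p ζ ω σ) {g : ℕ × ℕ → L} (hg : ∀ x, g x ∈ L0)
    (hc : ksum p ζ ω g ≠ 0) :
    ∃ x₀ ∈ idx p, g x₀ ≠ 0 ∧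
      (∀ x ∈ idx p, x ≠ x₀ → v (g x * mono ζ ω x) < v (g x₀ * mono ζ ω x₀)) ∧
      v (ksum p ζ ω g) = v (g x₀ * mono ζ ω x₀) := by
  obtain ⟨x₁, hx₁, hx₁0⟩ := exists_ne_zero_of_sum_ne_zero hc
  exact h.exists_dominant_of_coeff hg ⟨x₁, hx₁, fun h0 => hx₁0 (by rw [h0, zero_mul])⟩

/-- The monomials `ϖ ^ l π ^ j` (`l < p`, `j < p - 1`) are linearly independent over `L₀`. -/
theorem coeff_eq_zero (h : KData v L0 p ζ ω σ) {g : ℕ × ℕ → L} (hg : ∀ x, g x ∈ L0)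
    (hc : ksum p ζ ω g = 0) {x : ℕ × ℕ} (hx : x ∈ idx p) : g x = 0 := by
  by_contra hgx
  obtain ⟨x₀, -, hg0, -, hv⟩ := h.exists_dominant_of_coeff hg ⟨x, hx, hgx⟩
  rw [hc, map_zero] at hv
  exact (Valuation.ne_zero_iff v).2 (mul_ne_zero hg0 (h.mono_ne_zero x₀)) hv.symm

/-- The value group of `L₀(ζ, ω)` is generated by `v θ`. -/
theorem val_ksum (h : KData v L0 p ζ ω σ) {g : ℕ × ℕ → L} (hg : ∀ x, g x ∈ L0)
    (hc : ksum p ζ ω g ≠ 0) : ∃ m : ℤ, v (ksum p ζ ω g) = v (theta ζ ω) ^ m := by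
  obtain ⟨x₀, -, hg0, -, hv⟩ := h.exists_dominant hg hc
  obtain ⟨n, hn⟩ := h.val_term (hg x₀) hg0 x₀
  exact ⟨_, hv.trans hn⟩

/-! ### (K2) -/

theorem val_one_add_theta_pow (h : KData v L0 p ζ ω σ) (n : ℕ) :
    v ((1 + theta ζ ω) ^ n - 1) ≤ v (theta ζ ω) :=
  val_one_add_pow_sub_one v h.val_theta_lt.le n

/-- a term of value `≤ 1` involving `ϖ` has value `≤ v θ`. -/
theorem val_term_le_theta (h : KData v L0 p ζ ω σ) {a : L} (ha : a ∈ L0) {x : ℕ × ℕ}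
    (hx : x ∈ idx p) (hl : x.1 ≠ 0) (hle : v (a * mono ζ ω x) ≤ 1) :
    v (a * mono ζ ω x) ≤ v (theta ζ ω) := by
  rcases eq_or_ne a 0 with rfl | ha0
  · rw [zero_mul, map_zero]; exact zero_le
  obtain ⟨n, hn⟩ := h.val_term ha ha0 x
  rw [hn] at hle ⊢
  have h1 : (0 : ℤ) ≤ expo p n x := by
    rw [← zpow_zero (v (theta ζ ω))] at hle
    exact h.zpow_theta_le.1 hle
  have h2 : expo p n x ≠ 0 := expo_ne_zero hx hl
  have h3 : (1 : ℤ) ≤ expo p n x := by omega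
  have := h.zpow_theta_le.2 h3
  rwa [zpow_one] at this

/-- **(K2)** `σ a - a ∈ θ² O` for `a` integral. -/
theorem val_sigma_sub (h : KData v L0 p ζ ω σ) {g : ℕ × ℕ → L} (hg : ∀ x, g x ∈ L0)
    (hc : v (ksum p ζ ω g) ≤ 1) :
    v (σ (ksum p ζ ω g) - ksum p ζ ω g) ≤ v (theta ζ ω) ^ 2 := by
  rcases eq_or_ne (ksum p ζ ω g) 0 with h0 | h0
  · rw [h0, map_zero, sub_zero, map_zero]; exact zero_le
  obtain ⟨x₀, hx₀, hg0, hlt, hv⟩ := h.exists_dominant hg h0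
  have hle : ∀ x ∈ idx p, v (g x * mono ζ ω x) ≤ 1 := by
    intro x hx
    by_cases hxx : x = x₀
    · rw [hxx, ← hv]; exact hc
    · exact le_trans (hlt x hx hxx).le (hv ▸ hc)
  have e : σ (ksum p ζ ω g) - ksum p ζ ω g =
      ∑ x ∈ idx p, g x * mono ζ ω x * ((1 + theta ζ ω) ^ x.1 - 1) := by
    rw [h.sigma_ksum hg, ksum, ← sum_sub_distrib]
    exact sum_congr rfl fun x _ => by ring
  rw [e]
  refine v.map_sum_le fun x hx => ?_
  by_cases hl : x.1 = 0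
  · rw [hl, pow_zero, sub_self, mul_zero, map_zero]; exact zero_le
  · rw [map_mul, sq]
    exact mul_le_mul' (h.val_term_le_theta (hg x) hx hl (hle x hx)) (h.val_one_add_theta_pow x.1)

/-! ### (K3) -/

/-- **(K3)** `σ c / c ≡ 1 - m θ mod θ²`, `v c = v θ ^ m`. -/
theorem val_sigma_div (h : KData v L0 p ζ ω σ) {g : ℕ × ℕ → L} (hg : ∀ x, g x ∈ L0)
    (hc : ksum p ζ ω g ≠ 0) :
    ∃ m : ℤ, v (ksum p ζ ω g) = v (theta ζ ω) ^ m ∧
      v (σ (ksum p ζ ω g) / ksum p ζ ω g - (1 - (m : L) * theta ζ ω)) ≤ v (theta ζ ω) ^ 2 := by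
  obtain ⟨x₀, hx₀, hg0, hlt, hv⟩ := h.exists_dominant hg hc
  obtain ⟨n₀, hn₀⟩ := h.val_term (hg x₀) hg0 x₀
  set m : ℤ := expo p n₀ x₀ with hm
  set γ := v (theta ζ ω) with hγ
  refine ⟨m, hv.trans hn₀, ?_⟩
  have hγ1 : γ ≤ 1 := h.val_theta_lt.le
  -- the main estimate
  have key : v (σ (ksum p ζ ω g) - (1 - (m : L) * theta ζ ω) * ksum p ζ ω g) ≤
      v (ksum p ζ ω g) * γ ^ 2 := by
    have e : σ (ksum p ζ ω g) - (1 - (m : L) * theta ζ ω) * ksum p ζ ω g =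
        ∑ x ∈ idx p, g x * mono ζ ω x * ((1 + theta ζ ω) ^ x.1 - 1 + (m : L) * theta ζ ω) := by
      rw [h.sigma_ksum hg, ksum, mul_sum, ← sum_sub_distrib]
      exact sum_congr rfl fun x _ => by ring
    rw [e]
    refine v.map_sum_le fun x hx => ?_
    rw [map_mul]
    by_cases hxx : x = x₀
    · -- the dominant term
      rw [hxx, hv]
      refine mul_le_mul' le_rfl ?_
      obtain ⟨k, hk⟩ := dvd_fst_add_expo p n₀ x₀
      have e2 : (1 + theta ζ ω) ^ x₀.1 - 1 + (m : L) * theta ζ ω =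
          ((1 + theta ζ ω) ^ x₀.1 - 1 - (x₀.1 : L) * theta ζ ω) +
            (p : L) * (k : L) * theta ζ ω := by
        have : ((x₀.1 : ℤ) : L) + (m : L) = (p : L) * (k : L) := by
          rw [hm]
          exact_mod_cast congrArg (Int.cast : ℤ → L) hk
        have h2 : (m : L) = (p : L) * (k : L) - (x₀.1 : L) := by
          rw [← this]; push_cast; ring
        rw [h2]; ring
      rw [e2]
      refine le_trans (v.map_add _ _) (max_le (val_one_add_pow_sub_lin v hγ1 _) ?_)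
      rw [map_mul, map_mul, sq]
      calc v (p : L) * v (k : L) * γ ≤ γ * 1 * γ :=
            mul_le_mul' (mul_le_mul' h.vp_le_theta (val_intCast_le_one v k)) le_rfl
        _ = γ * γ := by rw [mul_one]
    · -- the other terms
      have h1 : v (g x * mono ζ ω x) ≤ v (ksum p ζ ω g) * γ := by
        rcases eq_or_ne (g x) 0 with hgx | hgx
        · rw [hgx, zero_mul, map_zero]; exact zero_le
        obtain ⟨n, hn⟩ := h.val_term (hg x) hgx x
        have h2 := hlt x hx hxx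
        rw [hn, hn₀] at h2
        have h3 : m < expo p n x := by
          by_contra hle
          rw [not_lt] at hle
          exact absurd (h.zpow_theta_le.2 hle) (not_le.2 h2)
        have h4 : m + 1 ≤ expo p n x := by omega
        rw [hn, hv, hn₀, ← zpow_add_one₀ h.val_theta_ne_zero]
        exact h.zpow_theta_le.2 h4
      have h2 : v ((1 + theta ζ ω) ^ x.1 - 1 + (m : L) * theta ζ ω) ≤ γ := by
        refine le_trans (v.map_add _ _) (max_le (h.val_one_add_theta_pow _) ?_)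
        rw [map_mul]
        calc v (m : L) * γ ≤ 1 * γ := mul_le_mul' (val_intCast_le_one v m) le_rfl
          _ = γ := one_mul _
      calc v (g x * mono ζ ω x) * v ((1 + theta ζ ω) ^ x.1 - 1 + (m : L) * theta ζ ω)
          ≤ (v (ksum p ζ ω g) * γ) * γ := mul_le_mul' h1 h2
        _ = v (ksum p ζ ω g) * γ ^ 2 := by rw [sq, mul_assoc]
  have hvc : v (ksum p ζ ω g) ≠ 0 := (Valuation.ne_zero_iff v).2 hc
  have e3 : σ (ksum p ζ ω g) / ksum p ζ ω g - (1 - (m : L) * theta ζ ω) =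
      (σ (ksum p ζ ω g) - (1 - (m : L) * theta ζ ω) * ksum p ζ ω g) / ksum p ζ ω g := by
    field_simp
  rw [e3, map_div₀, div_le_iff₀ (zero_lt_iff.2 hvc)]
  rw [mul_comm (γ ^ 2)]
  exact key

end KData

end Fermat.Agent.BADP.H97
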