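/-
helper93, row 38 (S44), package BAD_p: the abstract assembly EIS-ABS, statements.
Plan: `NOTES/plan/L_S44.md` §12.2 (d0), (d2)-(d5), (d7).

Setting: `S : SSD K F k F₁ F₂`, `char k = p` odd, `𝓘 ⊇ 𝓘1 ⊇ 𝓘2` sets of inertial semilinear
automorphisms (`𝓘` = inertia, `𝓘1` = inertia of `K₀(ζ)`, `𝓘2` = inertia of `K₀(ζ, ω)`),
`F0` = the functions fixed by `𝓘`, `σ ∈ 𝓘1` with `σ ω = ζ ω`, arithmetic given by helper97's
`KData` for BOTH valuations, `θ = (ζ - 1) ω / (ω - 1)`.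
`U` = the unit (`Δ(z)/Δ(pz)`): a `V₁`-unit, `U / p ^ w` a `V₂`-unit, `p ∤ w`, without zero or
pole on the fibres of the nodes.

* `Stmt_EisAbs` (wild case): `f` a `V₁`-unit fixed by `𝓘2` with `p ∣ div f`, such that
  `σ f = e f f₀ T ^ p` where `f₀ ≡ 1` for `V₁` is a Kummer function of a class of the connected
  part (it has a Kummer function `f₀' ≡ 1` for `V₂`) fixed by `𝓘1`.  Then the orders of `rd₁ f`
  at the nodes are proportional, modulo `p`, to those of `rd₁ U`.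
* `Stmt_EisAbsTame` (tame case): the same for `f` fixed by `𝓘1` (no `σ`, no `f₀`).

Proof (plan §12.2).  (d0) canonical form `f₀c` of the class of `f₀` (`H51.stmt_MoveP`,
`H51.canon_p`), fixed by `𝓘1` with `a_Q` fixed by `𝓘1` (`H51.canon_fixed`), so
`v (a_Q) ≤ v (ζ - 1) = v θ ^ p`.  (d2) `h` with `div h = σ D - D - div f₀c / p`, normalised by
its value at a `𝓘`-fixed place `P∞`: `h` is fixed by `𝓘2`, `rd_i h = 1`, `(h - 1) / θ` integral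
(value group of `F^{𝓘2}`).  (d3) `H97.local_node`, `H97.local_good`.  (d4) `SSD.dcore_gen`
with `c_s = (G_s / σ G_s)`, resp. `(G_Q / σ G_Q) (s_Q - a_Q) / s_Q` at the good places:
`m (C_s) ≡ m (C_s')` modulo `p`.  (d5) annulus coordinates fixed by `𝓘`
(`H21.exists_isAnnCoord_of_goodLift`, thickness `p ^ e_s`, `e_s ord_{s.1} (rd₁ U) = w`),
`SSD.nodeRad`: `e_s n_s ≡ e_s' n_s'` modulo `p`.  Tame case: `SSD.nodeRad` and the value group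
`v (ζ - 1) ^ ℤ` of `F^{𝓘1}` (`H97.val_k1`).
-/
import Fermat.Agent.BADP.AbsStmts
import Fermat.Agent.BADP.H97_KArith

set_option autoImplicit false

noncomputable section

open AlgebraicCurve

namespace Fermat.Agent.BADP

open Fermat.Agent.RED.H17 Fermat.Agent.RED Fermat.Agent.BAD

/-- **EIS-ABS** (wild case). -/
def Stmt_EisAbs : Prop :=
  ∀ (K F k F₁ F₂ : Type) [Field K] [Field F] [Algebra K F] [Field k] [Field F₁]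
    [Algebra k F₁] [Field F₂] [Algebra k F₂] [IsAlgClosed K] [IsAlgClosed k]
    (S : SSD K F k F₁ F₂), FFHyp K F → FFHyp k F₁ → FFHyp k F₂ →
    ∀ (g g₁ g₂ : ℕ) (c c₁ c₂ : ℤ), IsGenus K F g c → IsGenus k F₁ g₁ c₁ → IsGenus k F₂ g₂ c₂ →
    g + 1 ≤ g₁ + g₂ + S.nodes.card →
    ∀ (p : ℕ), p.Prime → p ≠ 2 → CharP k p → (p : K) ≠ 0 →
    ∀ (𝓘 𝓘1 𝓘2 : Set (SemilinearAut K F)), (∀ τ ∈ 𝓘, S.IsInertial τ) → 𝓘1 ⊆ 𝓘 → 𝓘2 ⊆ 𝓘1 →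
      IsK0Lift S 𝓘 →
    ∀ (F0 : Subfield F), (∀ y : F, y ∈ F0 ↔ ∀ τ ∈ 𝓘, τ • y = y) →
    ∀ (ζ ω : K) (σ : SemilinearAut K F), σ ∈ 𝓘1 →
      H97.KData S.c₁.V.valuation F0 p (algebraMap K F ζ) (algebraMap K F ω)
        ((SemilinearAut.toRingAut σ : F ≃+* F) : F →+* F) →
      H97.KData S.c₂.V.valuation F0 p (algebraMap K F ζ) (algebraMap K F ω)
        ((SemilinearAut.toRingAut σ : F ≃+* F) : F →+* F) →
      -- descent: the functions fixed by `𝓘2` (by `𝓘1`) are in `F0 (ζ, ω)` (in `F0 (ζ)`)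
      (∀ y : F, (∀ τ ∈ 𝓘2, τ • y = y) →
        y ∈ IntermediateField.adjoin F0 ({algebraMap K F ζ, algebraMap K F ω} : Set F)) →
      (∀ y : F, (∀ τ ∈ 𝓘1, τ • y = y) →
        y ∈ IntermediateField.adjoin F0 ({algebraMap K F ζ} : Set F)) →
      (∀ τ ∈ 𝓘2, SemilinearAut.baseAut τ ζ = ζ ∧ SemilinearAut.baseAut τ ω = ω) →
      (∀ τ ∈ 𝓘1, SemilinearAut.baseAut τ ζ = ζ) →
      -- `σ` normalises `𝓘2`
      (∀ y : F, (∀ τ ∈ 𝓘2, τ • y = y) → ∀ τ ∈ 𝓘2, τ • (σ • y) = σ • y) →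
    -- the unit
    ∀ (U : F) (w : ℕ), S.c₁.IsGU U → (∀ τ ∈ 𝓘, τ • U = U) →
      (∀ P : Place K F, S.IsNodeP P → P.ord U = 0) →
      S.c₂.IsGU (U / algebraMap K F ((p : K) ^ w)) → ¬ p ∣ w →
    -- the Kummer function
    ∀ (f : F), S.c₁.IsGU f → (∀ P : Place K F, (p : ℤ) ∣ P.ord f) → (∀ τ ∈ 𝓘2, τ • f = f) →
    -- the class of `σ x - x`
    ∀ (f₀ f₀' h₀ T : F) (a e : K), f₀ ∈ S.c₁.V → S.c₁.rd f₀ = 1 →
      (∀ P : Place K F, (p : ℤ) ∣ P.ord f₀) → f₀' ∈ S.c₂.V → S.c₂.rd f₀' = 1 →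
      f₀ = algebraMap K F a * f₀' * h₀ ^ p →
      (∀ τ ∈ 𝓘1, ∃ (e' : K) (T' : F), τ • f₀ = algebraMap K F e' * f₀ * T' ^ p) →
      σ • f = algebraMap K F e * f * f₀ * T ^ p →
      ∃ m : ℤ, ∀ s ∈ S.nodes, (p : ℤ) ∣ s.1.ord (S.c₁.rd f) - m * s.1.ord (S.c₁.rd U)

/-- **EIS-ABS-TAME**: the class is fixed by `𝓘1`. -/
def Stmt_EisAbsTame : Prop :=
  ∀ (K F k F₁ F₂ : Type) [Field K] [Field F] [Algebra K F] [Field k] [Field F₁]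
    [Algebra k F₁] [Field F₂] [Algebra k F₂] [IsAlgClosed K] [IsAlgClosed k]
    (S : SSD K F k F₁ F₂), FFHyp K F → FFHyp k F₁ → FFHyp k F₂ →
    ∀ (g g₁ g₂ : ℕ) (c c₁ c₂ : ℤ), IsGenus K F g c → IsGenus k F₁ g₁ c₁ → IsGenus k F₂ g₂ c₂ →
    g + 1 ≤ g₁ + g₂ + S.nodes.card →
    ∀ (p : ℕ), p.Prime → p ≠ 2 → CharP k p → (p : K) ≠ 0 →
    ∀ (𝓘 𝓘1 : Set (SemilinearAut K F)), (∀ τ ∈ 𝓘, S.IsInertial τ) → 𝓘1 ⊆ 𝓘 →
      IsK0Lift S 𝓘 →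
    ∀ (F0 : Subfield F), (∀ y : F, y ∈ F0 ↔ ∀ τ ∈ 𝓘, τ • y = y) →
    ∀ (ζ : K), IsPrimitiveRoot ζ p →
      -- the values of `F0` are powers of the value of `p`, for both valuations
      (∀ y ∈ F0, y ≠ 0 → ∃ n : ℤ, S.c₁.V.valuation y = S.c₁.V.valuation (p : F) ^ n) →
      (∀ y ∈ F0, y ≠ 0 → ∃ n : ℤ, S.c₂.V.valuation y = S.c₂.V.valuation (p : F) ^ n) →
      (∀ y : F, (∀ τ ∈ 𝓘1, τ • y = y) →
        y ∈ IntermediateField.adjoin F0 ({algebraMap K F ζ} : Set F)) →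
      (∀ τ ∈ 𝓘1, SemilinearAut.baseAut τ ζ = ζ) →
    ∀ (U : F) (w : ℕ), S.c₁.IsGU U → (∀ τ ∈ 𝓘, τ • U = U) →
      (∀ P : Place K F, S.IsNodeP P → P.ord U = 0) →
      S.c₂.IsGU (U / algebraMap K F ((p : K) ^ w)) → ¬ p ∣ w →
    ∀ (f : F), S.c₁.IsGU f → (∀ P : Place K F, (p : ℤ) ∣ P.ord f) → (∀ τ ∈ 𝓘1, τ • f = f) →
      ∃ m : ℤ, ∀ s ∈ S.nodes, (p : ℤ) ∣ s.1.ord (S.c₁.rd f) - m * s.1.ord (S.c₁.rd U)

end Fermat.Agent.BADP
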