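/-
helper93, row 38 (S44), package BAD_p: the MODULAR datum at `p`, exposed (statements).
Plan: `NOTES/plan/L_S44.md` §12.1 (MOD).

`N = M p`, `p ∤ M`, `p ≥ 5` (so `TameAt M p` holds), `A` a valuation ring of `ℚ̄` over `p`.

* `IsModDatum A p M a b hab hp S` : the semistable Deuring datum `S` of `F_N ℚ̄` is the modular
  one: `V₁` = Gauss valuation ring with the Gauss reduction, `V₂ = V₁ ∘ w_p` with the reduction
  `gaussRes ∘ w_p`, Riemann's theorem for `F` and for the reduced field, the genus inequality, and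
  the inertia group acts inertially.
* `Stmt_ModP` **(MOD-P)** : such a datum exists (= `BAD.H91.modSSD_body` with the fields exposed).
* `Stmt_CuspGoodP` **(CUSP)** : the poles of `j~` (the cusps of the reduction) are good places of
  the first component of every modular datum.
-/
import Fermat.Agent.BADP.Defs
import Fermat.Agent.BAD.H28_NodeRad2

set_option autoImplicit false
set_option synthInstance.maxHeartbeats 400000
set_option maxHeartbeats 1000000

noncomputable section

open AlgebraicCurve ModularCurve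

namespace Fermat.Agent.BADP

open Fermat.Agent.BAD Fermat.Agent.S44 Fermat.Agent.S43.BadQ Fermat.Agent.S28.H73
  Fermat.Agent.RED.H73

/-- The reduced function field of level `N` at `A` (the function field of the component of `∞`
of the reduction). -/
abbrev RedF (A : ValuationSubring (AlgebraicClosure ℚ)) (N : ℕ) : Type :=
  ↥(redField A (FNbar N) (hasScale_laurentBaseChange A N))

section Datum

variable (A : ValuationSubring (AlgebraicClosure ℚ)) (p M : ℕ) (a b : ℤ)
  (hab : a * p + b * M = 1) (hp : p.Prime) [NeZero (M * p)]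

/-- **The modular semistable Deuring datum at `p`, with its fields exposed.** -/
structure IsModDatum
    (S : SSD (AlgebraicClosure ℚ) ↥(FNbar (M * p)) (kV A) (RedF A (M * p)) (RedF A (M * p))) :
    Prop where
  /-- the first valuation ring is the Gauss valuation ring -/
  mem₁ : ∀ f : ↥(FNbar (M * p)), f ∈ S.c₁.V ↔ f ∈ gaussV A (M * p)
  /-- the first reduction is the Gauss reduction -/
  red₁ : ∀ (f : ↥(gaussV A (M * p))) (hf : (f : ↥(FNbar (M * p))) ∈ S.c₁.V),
    S.c₁.red ⟨(f : ↥(FNbar (M * p))), hf⟩ = gaussRes A (M * p) f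
  /-- the second valuation ring is `V₁ ∘ w_p` -/
  mem₂ : ∀ f : ↥(FNbar (M * p)), f ∈ S.c₂.V ↔ wS p M a b hab hp • f ∈ gaussV A (M * p)
  /-- the second reduction is `gaussRes ∘ w_p` -/
  red₂ : ∀ (f : ↥(FNbar (M * p))) (hf : f ∈ S.c₂.V)
    (hf' : wS p M a b hab hp • f ∈ gaussV A (M * p)),
    S.c₂.red ⟨f, hf⟩ = gaussRes A (M * p) ⟨wS p M a b hab hp • f, hf'⟩
  /-- Riemann's theorem -/
  ff : RED.H17.FFHyp (AlgebraicClosure ℚ) ↥(FNbar (M * p))
  ff₁ : RED.H17.FFHyp (kV A) (RedF A (M * p))
  genus : ∃ (g g₁ : ℕ) (c c₁ : ℤ), RED.H17.IsGenus (AlgebraicClosure ℚ) ↥(FNbar (M * p)) g c ∧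
    RED.H17.IsGenus (kV A) (RedF A (M * p)) g₁ c₁ ∧ g + 1 ≤ g₁ + g₁ + S.nodes.card
  /-- the inertia group acts inertially -/
  inertial : ∀ σ ∈ A.inertiaSubgroupIn ℚ, S.IsInertial (galF (M * p) σ)

end Datum

/-- **(MOD-P)**: the modular semistable Deuring datum at `p ≥ 5`, `p ∤ M`, exists.
Proof: `BAD.H91.modSSD_body` (with `BAD.H23.tot_mod`), keeping `S := T.toSSD …` explicit; the
four identifications are definitional (`H91.vred1`, `H91.vred2`, `H88.mem_V2_iff`,
`H88.red2_mk`), `wS • f = wq f`. -/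
def Stmt_ModP : Prop :=
  ∀ (p : ℕ), 5 ≤ p → ∀ (M : ℕ) (a b : ℤ) (hab : a * p + b * M = 1) (hp : p.Prime)
    [NeZero (M * p)],
    ∀ A : ValuationSubring (AlgebraicClosure ℚ), A.LiesOverPrime p →
      ∃ S : SSD (AlgebraicClosure ℚ) ↥(FNbar (M * p)) (kV A) (RedF A (M * p)) (RedF A (M * p)),
        IsModDatum A p M a b hab hp S

/-- **(CUSP)**: the cusps of the reduction (the poles of `j~`) are good places of the first
component, for every modular datum.  (helper21's general-level form of helper69's CUSP leaf.) -/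
def Stmt_CuspGoodP : Prop :=
  ∀ (p : ℕ), 5 ≤ p → ∀ (M : ℕ) (a b : ℤ) (hab : a * p + b * M = 1) (hp : p.Prime)
    [NeZero (M * p)],
    ∀ A : ValuationSubring (AlgebraicClosure ℚ), A.LiesOverPrime p →
    ∀ S : SSD (AlgebraicClosure ℚ) ↥(FNbar (M * p)) (kV A) (RedF A (M * p)) (RedF A (M * p)),
      IsModDatum A p M a b hab hp S →
      ∀ Q : Place (kV A) (RedF A (M * p)),
        Q.ord (Fermat.Agent.BAD.H91.jRed A (M * p)) < 0 → Q ∈ S.c₁.good

end Fermat.Agent.BADP
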