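/-
helper93, row 38 (S44), package BAD_p: the MODULAR side of the assemblies, consumer statements.
Plan: `NOTES/plan/L_S44.md` §12.

* `inertiaAuts A N`      : the set `{galF N σ | σ ∈ I}` of semilinear automorphisms (`𝓘`).
* `stabAuts A N T`       : `{galF N σ | σ ∈ I, σ t = t for t ∈ T}` (`𝓘3` for `T = {ω}`, `𝓘1` for
                           `T = {ζ}`, `𝓘2` for `T = {ζ, ω}`).
* `Stmt_K0LiftP` **(ARITH-0, consumer form)** : `IsK0Lift S (inertiaAuts A N)` for every modular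
  datum `S` (helper11).
* `Stmt_KumCmp` **(KUM-CMP)** : two Kummer pairs of the same class differ by a constant times an
  `n`-th power.
* `Stmt_KumFix` **(KUM-FIX)** : a Kummer function `f` of a class fixed by `σ ∈ G_ℚ` satisfies
  `σ f = e f T ^ n`.
* `Stmt_KumW` **(KUM-W)** : a class of `K1 ∩ w K1` has Kummer functions `f ≡ 1` for `V₁` and
  `f' ≡ 1` for `V₂ = V₁ ∘ w` with `f = c f' h₀ ^ n`.
* `Stmt_RayMod` **(RAY-MOD)** : the corrected (RAY-K3), from the datum and (K0).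
-/
import Fermat.Agent.BADP.ModP
import Fermat.Agent.BADP.EisAbs
import Fermat.Agent.S44.BadP5

set_option autoImplicit false
set_option synthInstance.maxHeartbeats 400000
set_option maxHeartbeats 1000000

noncomputable section

open AlgebraicCurve ModularCurve

namespace Fermat.Agent.BADP

open Fermat.Agent.BAD Fermat.Agent.S44 Fermat.Agent.S43.BadQ Fermat.Agent.S28.H73
  Fermat.Agent.RED.H73

/-- The inertia group at `A`, acting on the function field of level `N`. -/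
def inertiaAuts (A : ValuationSubring (AlgebraicClosure ℚ)) (N : ℕ) :
    Set (SemilinearAut (AlgebraicClosure ℚ) ↥(FNbar N)) :=
  {τ | ∃ σ ∈ A.inertiaSubgroupIn ℚ, τ = galF N σ}

/-- The stabiliser of `T ⊆ ℚ̄` in the inertia group at `A`, acting on the function field of level
`N`. -/
def stabAuts (A : ValuationSubring (AlgebraicClosure ℚ)) (N : ℕ)
    (T : Set (AlgebraicClosure ℚ)) : Set (SemilinearAut (AlgebraicClosure ℚ) ↥(FNbar N)) :=
  {τ | ∃ σ ∈ A.inertiaSubgroupIn ℚ, (∀ t ∈ T, σ t = t) ∧ τ = galF N σ}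

/-- **(ARITH-0), consumer form**: every modular datum has `𝓘`-fixed parts. -/
def Stmt_K0LiftP : Prop :=
  ∀ (p : ℕ), 5 ≤ p → ∀ (M : ℕ) (a b : ℤ) (hab : a * p + b * M = 1) (hp : p.Prime)
    [NeZero (M * p)],
    ∀ A : ValuationSubring (AlgebraicClosure ℚ), A.LiesOverPrime p →
    ∀ S : SSD (AlgebraicClosure ℚ) ↥(FNbar (M * p)) (kV A) (RedF A (M * p)) (RedF A (M * p)),
      IsModDatum A p M a b hab hp S → IsK0Lift S (inertiaAuts A (M * p))

/-- **(KUM-CMP)**: two Kummer pairs of the same class. -/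
def Stmt_KumCmp : Prop :=
  ∀ (N : ℕ) [NeZero N] (n : ℕ)
    (D D' : Divisor.degZero (K := AlgebraicClosure ℚ) (F := ↥(FNbar N)))
    (f f' : ↥(FNbar N)), f ≠ 0 → f' ≠ 0 →
    (∀ P : Place (AlgebraicClosure ℚ) ↥(FNbar N),
      (n : ℤ) * (D : Divisor (AlgebraicClosure ℚ) ↥(FNbar N)) P = P.ord f) →
    (∀ P : Place (AlgebraicClosure ℚ) ↥(FNbar N),
      (n : ℤ) * (D' : Divisor (AlgebraicClosure ℚ) ↥(FNbar N)) P = P.ord f') →
    (Pic0.mk D : JZero N) = Pic0.mk D' →
    ∃ (e : AlgebraicClosure ℚ) (T : ↥(FNbar N)),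
      f = algebraMap (AlgebraicClosure ℚ) ↥(FNbar N) e * f' * T ^ n

/-- **(KUM-FIX)**: a Kummer function of a class fixed by `σ`. -/
def Stmt_KumFix : Prop :=
  ∀ (N : ℕ) [NeZero N] (n : ℕ) (x : JZero N)
    (D : Divisor.degZero (K := AlgebraicClosure ℚ) (F := ↥(FNbar N)))
    (f : ↥(FNbar N)), f ≠ 0 → x = Pic0.mk D →
    (∀ P : Place (AlgebraicClosure ℚ) ↥(FNbar N),
      (n : ℤ) * (D : Divisor (AlgebraicClosure ℚ) ↥(FNbar N)) P = P.ord f) →
    ∀ σ : GalQ, σ • x = x →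
      ∃ (e : AlgebraicClosure ℚ) (T : ↥(FNbar N)),
        galF N σ • f = algebraMap (AlgebraicClosure ℚ) ↥(FNbar N) e * f * T ^ n

/-- **(KUM-W)**: the Kummer functions of a class of `K1 ∩ w K1`. -/
def Stmt_KumW : Prop :=
  ∀ (p M : ℕ) (a b : ℤ) (hab : a * p + b * M = 1) (hp : p.Prime) [NeZero (M * p)] (n : ℕ),
    ∀ (A : ValuationSubring (AlgebraicClosure ℚ)) (x : JZero (M * p)),
      InK1 A (M * p) n x → InK1 A (M * p) n (wS p M a b hab hp • x) →
      ∃ (D : Divisor.degZero (K := AlgebraicClosure ℚ) (F := ↥(FNbar (M * p))))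
        (f f' h₀ : ↥(FNbar (M * p))) (c : AlgebraicClosure ℚ)
        (hf : f ∈ gaussV A (M * p)) (hf' : wS p M a b hab hp • f' ∈ gaussV A (M * p)),
        x = Pic0.mk D ∧
        (∀ P : Place (AlgebraicClosure ℚ) ↥(FNbar (M * p)),
          (n : ℤ) * (D : Divisor (AlgebraicClosure ℚ) ↥(FNbar (M * p))) P = P.ord f) ∧
        gaussRes A (M * p) ⟨f, hf⟩ = 1 ∧
        gaussRes A (M * p) ⟨wS p M a b hab hp • f', hf'⟩ = 1 ∧
        f = algebraMap (AlgebraicClosure ℚ) ↥(FNbar (M * p)) c * f' * h₀ ^ n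

/-- **(RAY-MOD)**: the corrected (RAY-K3) from the modular datum and (K0).
Proof: `H51.stmt_RayAbs` (wild case) and `H51.stmt_RayAbsTame` (tame case) applied to the
modular datum, `𝓘 = inertiaAuts A N`, `𝓘3 = stabAuts A N {ω}`; the dichotomy
`H97.karith_dichotomy`; in the wild case `KData` for the root `ω / t`, the constants by
`H97.keyP_pi_isCM`, `keyP_varpi_isCM`, `keyP_pi`, `keyP_varpi`, `keyP_A3`, (A2) by
`H97.stmt_A2_k3` with `H97.kdata_fn`, `H15.stmt_A1`, `H15.stmt_A1_two`,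
`H15.mem_adjoin_singleton_of_fixed`; in the tame case a good root lies in `K₀`, the class is fixed
by `I`, and `a ^ p = p a ε` with `ε = a ^ (p - 1) / p` (`H97.val_le_p_of_lt_one`).
Kummer functions by (KUM-W), (KUM-FIX). -/
def Stmt_RayMod : Prop :=
  Stmt_ModP → Stmt_K0LiftP → Stmt_KumFix → Stmt_KumW → Stmt_RayK3x

end Fermat.Agent.BADP
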