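/-
helper93, row 38 (S44), package BAD_p: the modular side of (d) SLOPE, consumer statements.
Plan: `NOTES/plan/L_S44.md` §12.2.

* `IsModDatumU A p M a b hab hp S` : the modular datum with the facts on the cusps and on the
  modular unit `U = Δ(z)/Δ(pz)` which the slope argument consumes.
* `Stmt_ModPlusP` **(MOD-P+)** : such a datum exists.
* `Stmt_EisMod` **(EIS-MOD)** : `Stmt_EisSlopeP` from the abstract assemblies and the modular
  leaves.
-/
import Fermat.Agent.BADP.ModStmts

set_option autoImplicit false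
set_option synthInstance.maxHeartbeats 400000
set_option maxHeartbeats 1000000

noncomputable section

open AlgebraicCurve ModularCurve

namespace Fermat.Agent.BADP

open Fermat.Agent.BAD Fermat.Agent.S44 Fermat.Agent.S43.BadQ Fermat.Agent.S28.H73
  Fermat.Agent.RED.H73

section Datum

variable (A : ValuationSubring (AlgebraicClosure ℚ)) (p M : ℕ) (a b : ℤ)
  (hab : a * p + b * M = 1) (hp : p.Prime) [NeZero (M * p)] [NeZero p]

/-- **The modular datum with the cusps and the modular unit.** -/
structure IsModDatumU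
    (S : SSD (AlgebraicClosure ℚ) ↥(FNbar (M * p)) (kV A) (RedF A (M * p)) (RedF A (M * p))) :
    Prop where
  datum : IsModDatum A p M a b hab hp S
  /-- the cusps of the reduction are good places of the first component -/
  cusp_good : ∀ Q : Place (kV A) (RedF A (M * p)),
    Q.ord (Fermat.Agent.BAD.H91.jRed A (M * p)) < 0 → Q ∈ S.c₁.good
  /-- the modular unit has neither zero nor pole on the fibres of the non-cuspidal places of the
  first component (in particular on the fibres of the nodes) -/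
  unit_ord : ∀ (P : Place (AlgebraicClosure ℚ) ↥(FNbar (M * p)))
    (Q : Place (kV A) (RedF A (M * p))), S.c₁.r P = some Q →
    0 ≤ Q.ord (Fermat.Agent.BAD.H91.jRed A (M * p)) →
    P.ord (Fermat.Agent.BAD.H30.unitF (M * p) p (Dvd.intro_left M rfl)) = 0
  /-- `U / p ^ 12` is a unit for the second valuation (`w_p U = p ^ 12 / U`) -/
  unit_two : S.c₂.IsGU (Fermat.Agent.BAD.H30.unitF (M * p) p (Dvd.intro_left M rfl) /
    algebraMap (AlgebraicClosure ℚ) ↥(FNbar (M * p)) ((p : AlgebraicClosure ℚ) ^ 12))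
  /-- the modular unit is fixed by the inertia group -/
  unit_fixed : ∀ σ ∈ A.inertiaSubgroupIn ℚ,
    galF (M * p) σ • Fermat.Agent.BAD.H30.unitF (M * p) p (Dvd.intro_left M rfl) =
      Fermat.Agent.BAD.H30.unitF (M * p) p (Dvd.intro_left M rfl)

end Datum

/-- **(MOD-P+)**: the modular datum with the cusps and the modular unit exists. -/
def Stmt_ModPlusP : Prop :=
  ∀ (p : ℕ) [NeZero p], 5 ≤ p → ∀ (M : ℕ) (a b : ℤ) (hab : a * p + b * M = 1) (hp : p.Prime)
    [NeZero (M * p)],
    ∀ A : ValuationSubring (AlgebraicClosure ℚ), A.LiesOverPrime p →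
      ∃ S : SSD (AlgebraicClosure ℚ) ↥(FNbar (M * p)) (kV A) (RedF A (M * p)) (RedF A (M * p)),
        IsModDatumU A p M a b hab hp S

/-- **(EIS-MOD)**: the slope vector is Eisenstein, from the abstract assemblies and the modular
leaves.
Proof (plan §12.2): dichotomy `H97.karith_dichotomy`.
Wild case: `I₂ = {τ ∈ I | τ ζ = ζ, τ ω = ω}`; `S36.H61.stmt_NUB0` with `H = I₂` gives a Kummer
pair `(D, h)` of `x` with `h` fixed by `I₂`; `H15.stmt_A1_gen` scales `h` to a `V₁`-unit `f`;
`y₀ = σ x - x ∈ Y ⊆ K1 ∩ w K1` (`S44.isCycOn_le`) has Kummer functions `f₀`, `f₀'` (KUM-W), its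
class is fixed by `I₁` (`IsCycOn`), `σ f = e f f₀ T ^ p` (KUM-CMP); `Stmt_EisAbs` with
`𝓘 = inertiaAuts`, `𝓘1 = stabAuts {ζ}`, `𝓘2 = stabAuts {ζ, ω}`, `KData` by `H97.kdata_fn`,
`H15.stmt_A1`, `H15.stmt_A1_two`, descent by `H15.mem_adjoin_pair_of_fixed`,
`H15.mem_adjoin_singleton_of_fixed`, `U = unitF`, `w = 12`.
Tame case: `x` is fixed by `I₁`; `Stmt_EisAbsTame`.
Then `IsEisPair` with the pair `(D, f)`: at the branches of the nodes by the abstract statement,
at the good places by the divisor identity `S.c₁.DI` and `unit_ord`, `cusp_good`. -/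
def Stmt_EisMod : Prop :=
  Stmt_ModPlusP → Stmt_K0LiftP → Stmt_KumCmp → Stmt_KumW → Stmt_EisAbs → Stmt_EisAbsTame →
    Stmt_EisSlopeP

end Fermat.Agent.BADP
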