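import Fermat.Agent.BADP.H97_KSpan
import Fermat.Agent.R.H6_UnrFix
import Fermat.Agent.S05.H37_Inertia
import Fermat.Agent.NEB.H97_Val

/-!
# BAD_p (S44, row 38), package K-ARITH (helper97): the instantiation inside `ℚ̄`

`A` a place of `ℚ̄` over the prime `p`, `I = A.inertiaSubgroupIn ℚ`, `K0 A = ℚ̄^I`.

* `K0 A` : the inertia field, a `Subfield` of `ℚ̄`; `val_K0` : its value group is `v(p)^ℤ`
  (from `R.H6.stmt_UnrFix`);
* `exists_teich` : an integer `u` prime to `p` is congruent to a `(p-1)`-th root of unity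
  `t ∈ K0 A`;
* `kdata_qbar` : the structure `KData` for `(A.valuation, K0 A, p, ζ, ω, σ)`;
* `exists_sigma` : if `c ∈ K0 A` is not a `p`-th power in `K0 A` and `ω ^ p = c`, there is
  `σ ∈ I` with `σ ζ = ζ` and `σ ω = ζ ω`;
* `isPow_of_val_lt` : `1 + p u₁` with `u₁ ∈ K0 A`, `v u₁ < 1` is a `p`-th power in `K0 A`;
* `karith_dichotomy` : for `u ∈ ℤ` prime to `p`: either `u` is a `p`-th power in `K0 A`, or
  there are `t ∈ K0 A`, `ω`, `σ ∈ I` with `(t ω) ^ p = u` and `KData`.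
-/

set_option autoImplicit false
set_option linter.style.haveILetI false

open Polynomial

namespace Fermat.Agent.BADP.H97

theorem qbIsAlg : Algebra.IsAlgebraic ℚ (AlgebraicClosure ℚ) :=
  AlgebraicClosure.isAlgebraic ℚ

attribute [local instance] qbIsAlg

/-- The inertia field `K₀ = ℚ̄^I` of a place `A` of `ℚ̄`. -/
noncomputable def K0 (A : ValuationSubring (AlgebraicClosure ℚ)) : Subfield (AlgebraicClosure ℚ) :=
  (IntermediateField.fixedField (A.inertiaSubgroupIn ℚ)).toSubfield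

variable {A : ValuationSubring (AlgebraicClosure ℚ)} {p : ℕ}

theorem mem_K0 {x : AlgebraicClosure ℚ} :
    x ∈ K0 A ↔ ∀ σ ∈ A.inertiaSubgroupIn ℚ, σ x = x := by
  unfold K0
  rw [IntermediateField.mem_toSubfield, IntermediateField.mem_fixedField_iff]

theorem natCast_mem_K0 (n : ℕ) : (n : AlgebraicClosure ℚ) ∈ K0 A := natCast_mem _ n

theorem intCast_mem_K0 (n : ℤ) : (n : AlgebraicClosure ℚ) ∈ K0 A := intCast_mem _ n

theorem val_p_lt (hA : A.LiesOverPrime p) : A.valuation (p : AlgebraicClosure ℚ) < 1 :=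
  A.mem_nonunits_iff.1 hA

theorem val_p_ne (hp : p.Prime) : A.valuation (p : AlgebraicClosure ℚ) ≠ 0 := by
  rw [Ne, map_eq_zero]
  exact Nat.cast_ne_zero.2 hp.ne_zero

/-- The value group of the inertia field is `v(p)^ℤ`. -/
theorem val_K0 (hp : p.Prime) (hA : A.LiesOverPrime p) :
    ∀ x ∈ K0 A, x ≠ 0 → ∃ n : ℤ, A.valuation x = A.valuation (p : AlgebraicClosure ℚ) ^ n :=
  fun x hx hx0 => Fermat.Agent.R.H6.stmt_UnrFix p hp A hA x hx0 (mem_K0.1 hx)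

theorem val_sigma {σ : AlgebraicClosure ℚ ≃ₐ[ℚ] AlgebraicClosure ℚ}
    (hσ : σ ∈ A.inertiaSubgroupIn ℚ) (x : AlgebraicClosure ℚ) :
    A.valuation (σ x) = A.valuation x :=
  (Fermat.Agent.S05.H37.inertia_facts A hσ).1 x

theorem val_sigma_sub_lt {σ : AlgebraicClosure ℚ ≃ₐ[ℚ] AlgebraicClosure ℚ}
    (hσ : σ ∈ A.inertiaSubgroupIn ℚ) {x : AlgebraicClosure ℚ} (hx : A.valuation x ≤ 1) :
    A.valuation (σ x - x) < 1 :=
  (Fermat.Agent.S05.H37.inertia_facts A hσ).2 x hx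

/-- **K-ARITH in `ℚ̄`**: the data `KData`. -/
theorem kdata_qbar (hp : p.Prime) (hA : A.LiesOverPrime p) {ζ ω : AlgebraicClosure ℚ}
    (hζ : IsPrimitiveRoot ζ p) {u1 : AlgebraicClosure ℚ} (hu1 : u1 ∈ K0 A)
    (hv : A.valuation u1 = 1) (hω : ω ^ p = 1 + (p : AlgebraicClosure ℚ) * u1)
    {σ : AlgebraicClosure ℚ ≃ₐ[ℚ] AlgebraicClosure ℚ} (hσ : σ ∈ A.inertiaSubgroupIn ℚ)
    (hσζ : σ ζ = ζ) (hσω : σ ω = ζ * ω) :
    KData A.valuation (K0 A) p ζ ω (σ : AlgebraicClosure ℚ →+* AlgebraicClosure ℚ) where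
  prime := hp
  vp_lt := val_p_lt hA
  vp_ne := val_p_ne hp
  val0 := val_K0 hp hA
  root := hζ
  pow := ⟨u1, hu1, hv, hω⟩
  σv := val_sigma hσ
  σ0 := fun _ hx => mem_K0.1 hx σ hσ
  σζ := hσζ
  σω := hσω

/-! ### Teichmüller representatives -/

theorem val_pred (hp : p.Prime) (hA : A.LiesOverPrime p) :
    A.valuation (((p - 1 : ℕ) : ℕ) : AlgebraicClosure ℚ) = 1 := by
  rw [Nat.cast_pred hp.pos]
  have h := val_p_lt hA
  have h1 : A.valuation (p : AlgebraicClosure ℚ) < A.valuation (1 : AlgebraicClosure ℚ) := by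
    rwa [map_one]
  rw [Valuation.map_sub_eq_of_lt_right _ h1, map_one]

/-- A `(p-1)`-th root of unity is fixed by the inertia at `p`. -/
theorem root_mem_K0 (hp : p.Prime) (hA : A.LiesOverPrime p) {t : AlgebraicClosure ℚ}
    (ht : t ^ (p - 1) = 1) : t ∈ K0 A := by
  rw [mem_K0]
  intro σ hσ
  by_contra hne
  have hp1 : p - 1 ≠ 0 := Nat.sub_ne_zero_of_lt hp.one_lt
  have ht0 : t ≠ 0 := by
    rintro rfl
    rw [zero_pow hp1] at ht
    exact zero_ne_one ht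
  have hvt : A.valuation t = 1 := by
    have h1 : A.valuation t ^ (p - 1) = 1 := by rw [← map_pow, ht, map_one]
    exact (pow_eq_one_iff.1 h1).resolve_right hp1
  have hη : (σ t / t) ^ (p - 1) = 1 := by
    rw [div_pow, ← map_pow, ht, map_one, div_one]
  have hη1 : σ t / t ≠ 1 := fun h => hne ((div_eq_one_iff_eq ht0).1 h)
  have h1 := Fermat.Agent.NEB.H97.val_root_sub_one (V := A) (val_pred hp hA) _ hη hη1
  have h2 := val_sigma_sub_lt hσ hvt.le
  have e : σ t - t = t * (σ t / t - 1) := by field_simp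
  rw [e, map_mul, hvt, h1, one_mul] at h2
  exact lt_irrefl _ h2

/-- An integer prime to `p` is congruent to a `(p-1)`-th root of unity (which lies in the
inertia field). -/
theorem exists_teich (hp : p.Prime) (hA : A.LiesOverPrime p) (u : ℤ) (hu : ¬ (p : ℤ) ∣ u) :
    ∃ t ∈ K0 A, t ^ (p - 1) = 1 ∧ A.valuation ((u : AlgebraicClosure ℚ) - t) < 1 := by
  have hp1 : p - 1 ≠ 0 := Nat.sub_ne_zero_of_lt hp.one_lt
  haveI : NeZero (((p - 1 : ℕ) : ℕ) : AlgebraicClosure ℚ) := ⟨Nat.cast_ne_zero.2 hp1⟩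
  obtain ⟨η, hη⟩ := HasEnoughRootsOfUnity.exists_primitiveRoot (AlgebraicClosure ℚ) (p - 1)
  have h1 : A.valuation ((u : AlgebraicClosure ℚ) ^ (p - 1) - 1) < 1 := by
    have hcop : IsCoprime u (p : ℤ) :=
      ((Nat.prime_iff_prime_int.1 hp).coprime_iff_not_dvd.2 hu).symm
    have h2 : (p : ℤ) ∣ u ^ (p - 1) - 1 :=
      (Int.modEq_iff_dvd.1 (Int.ModEq.pow_card_sub_one_eq_one hp hcop).symm)
    obtain ⟨k, hk⟩ := h2
    have h3 : (u : AlgebraicClosure ℚ) ^ (p - 1) - 1 = (p : AlgebraicClosure ℚ) * (k : ℤ) := by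
      have := congrArg (Int.cast : ℤ → AlgebraicClosure ℚ) hk
      push_cast at this
      exact this
    rw [h3, map_mul]
    calc A.valuation (p : AlgebraicClosure ℚ) * A.valuation ((k : ℤ) : AlgebraicClosure ℚ)
        ≤ A.valuation (p : AlgebraicClosure ℚ) * 1 :=
          mul_le_mul_right (val_intCast_le_one _ k) _
      _ = A.valuation (p : AlgebraicClosure ℚ) := mul_one _
      _ < 1 := val_p_lt hA
  obtain ⟨z, hz, hzv⟩ := Fermat.Agent.NEB.H97.exists_root_congr (E := AlgebraicClosure ℚ)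
    (L := AlgebraicClosure ℚ) (V := A) hp1 hη (u : AlgebraicClosure ℚ) h1
  exact ⟨z, root_mem_K0 hp hA hz, hz, hzv⟩

/-! ### The action of inertia on `μ_p` and on the `p`-th roots of `c ∈ K₀` -/

section Sigma

variable {ζ : AlgebraicClosure ℚ}

theorem pow_eq_pow_of_zmod {x : AlgebraicClosure ℚ} (hx : x ^ p = 1) {m n : ℕ}
    (h : (m : ZMod p) = (n : ZMod p)) : x ^ m = x ^ n := by
  have h1 : m % p = n % p := (ZMod.natCast_eq_natCast_iff' m n p).1 h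
  rw [pow_eq_pow_mod m hx, pow_eq_pow_mod n hx, h1]

theorem sigma_zeta (hp : p.Prime) (hζ : IsPrimitiveRoot ζ p)
    (σ : AlgebraicClosure ℚ ≃ₐ[ℚ] AlgebraicClosure ℚ) : ∃ a : ℕ, σ ζ = ζ ^ a := by
  have h : (σ ζ) ^ p = 1 := by rw [← map_pow, hζ.pow_eq_one, map_one]
  haveI : NeZero p := ⟨hp.ne_zero⟩
  obtain ⟨i, -, hi⟩ := hζ.eq_pow_of_pow_eq_one h
  exact ⟨i, hi.symm⟩

theorem sigma_root (hp : p.Prime) (hζ : IsPrimitiveRoot ζ p) {c ω : AlgebraicClosure ℚ}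
    (hc : c ∈ K0 A) (hω : ω ^ p = c) (hω0 : ω ≠ 0)
    {σ : AlgebraicClosure ℚ ≃ₐ[ℚ] AlgebraicClosure ℚ} (hσ : σ ∈ A.inertiaSubgroupIn ℚ) :
    ∃ b : ℕ, σ ω = ζ ^ b * ω := by
  have h : (σ ω / ω) ^ p = 1 := by
    rw [div_pow, ← map_pow, hω, mem_K0.1 hc σ hσ, div_self]
    rw [← hω]
    exact pow_ne_zero _ hω0
  haveI : NeZero p := ⟨hp.ne_zero⟩
  obtain ⟨i, -, hi⟩ := hζ.eq_pow_of_pow_eq_one h
  refine ⟨i, ?_⟩
  rw [hi]
  field_simp

/-- An element of the inertia group fixing `ζ` and moving `ω` has a power `σ` with `σ ω = ζ ω`. -/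
theorem exists_pow_sigma (hp : p.Prime) (hζ : IsPrimitiveRoot ζ p) {c ω : AlgebraicClosure ℚ}
    (hc : c ∈ K0 A) (hω : ω ^ p = c) (hω0 : ω ≠ 0)
    {σ : AlgebraicClosure ℚ ≃ₐ[ℚ] AlgebraicClosure ℚ} (hσ : σ ∈ A.inertiaSubgroupIn ℚ)
    (hσζ : σ ζ = ζ) (hne : σ ω ≠ ω) :
    ∃ m : ℕ, (σ ^ m) ζ = ζ ∧ (σ ^ m) ω = ζ * ω := by
  obtain ⟨b, hb⟩ := sigma_root hp hζ hc hω hω0 hσ
  have hpb : ¬ p ∣ b := by
    rintro ⟨k, rfl⟩
    apply hne
    rw [hb, pow_mul, hζ.pow_eq_one, one_pow, one_mul]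
  have hcop : Nat.Coprime b p := ((Nat.Prime.coprime_iff_not_dvd hp).2 hpb).symm
  obtain ⟨m, -, hm⟩ := Nat.exists_mul_mod_eq_one_of_coprime hcop hp.one_lt
  have hfix : ∀ k : ℕ, (σ ^ k) ζ = ζ := by
    intro k
    induction k with
    | zero => simp
    | succ k ih => rw [pow_succ, AlgEquiv.mul_apply, hσζ, ih]
  have hpow : ∀ k : ℕ, (σ ^ k) ω = ζ ^ (b * k) * ω := by
    intro k
    induction k with
    | zero => simp
    | succ k ih =>
      rw [pow_succ, AlgEquiv.mul_apply, hb, map_mul, map_pow, hfix k, ih, ← mul_assoc, ← pow_add]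
      congr 2
      ring
  refine ⟨m, hfix m, ?_⟩
  rw [hpow m, pow_eq_pow_mod _ hζ.pow_eq_one, hm, pow_one]

/-- **K-ARITH, the wild automorphism.**  If `c ∈ K₀` is not a `p`-th power in `K₀` and
`ω ^ p = c`, there is `σ` in the inertia group with `σ ζ = ζ` and `σ ω = ζ ω`. -/
theorem exists_sigma (hp : p.Prime) (hζ : IsPrimitiveRoot ζ p) {c ω : AlgebraicClosure ℚ}
    (hc : c ∈ K0 A) (hc0 : c ≠ 0) (hω : ω ^ p = c) (hnp : ¬ ∃ z ∈ K0 A, z ^ p = c) :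
    ∃ σ ∈ A.inertiaSubgroupIn ℚ, σ ζ = ζ ∧ σ ω = ζ * ω := by
  have hω0 : ω ≠ 0 := by
    rintro rfl
    rw [zero_pow hp.ne_zero] at hω
    exact hc0 hω.symm
  by_contra hcon
  push Not at hcon
  -- every `σ ∈ I` fixing `ζ` fixes `ω`
  have H' : ∀ σ ∈ A.inertiaSubgroupIn ℚ, σ ζ = ζ → σ ω = ω := by
    intro σ hσ hσζ
    by_contra hne
    obtain ⟨m, h1, h2⟩ := exists_pow_sigma hp hζ hc hω hω0 hσ hσζ hne
    exact hcon (σ ^ m) (Subgroup.pow_mem _ hσ m) h1 h2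
  by_cases hall : ∀ τ ∈ A.inertiaSubgroupIn ℚ, τ ζ = ζ
  · exact hnp ⟨ω, mem_K0.2 fun τ hτ => H' τ hτ (hall τ hτ), hω⟩
  · push Not at hall
    obtain ⟨τ0, hτ0, hτ0ζ⟩ := hall
    obtain ⟨a0, ha0⟩ := sigma_zeta hp hζ τ0
    obtain ⟨b0, hb0⟩ := sigma_root hp hζ hc hω hω0 hτ0
    haveI : Fact p.Prime := ⟨hp⟩
    have ha1 : (a0 : ZMod p) - 1 ≠ 0 := by
      intro h
      apply hτ0ζ
      rw [ha0]
      have h1 : (a0 : ZMod p) = ((1 : ℕ) : ZMod p) := by
        rw [Nat.cast_one]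
        exact sub_eq_zero.1 h
      rw [pow_eq_pow_of_zmod hζ.pow_eq_one h1, pow_one]
    obtain ⟨y, hyz⟩ : ∃ y : ℕ, ((a0 * y + b0 : ℕ) : ZMod p) = (y : ZMod p) := by
      refine ⟨(-(b0 : ZMod p) / ((a0 : ZMod p) - 1)).val, ?_⟩
      push_cast
      rw [ZMod.natCast_val, ZMod.cast_id', id]
      field_simp
      ring
    have hω'p : (ζ ^ y * ω) ^ p = c := by
      rw [mul_pow, ← pow_mul, mul_comm y p, pow_mul, hζ.pow_eq_one, one_pow, one_mul, hω]
    have hω'0 : ζ ^ y * ω ≠ 0 := mul_ne_zero (pow_ne_zero _ (hζ.ne_zero hp.ne_zero)) hω0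
    have hτ0ω' : τ0 (ζ ^ y * ω) = ζ ^ y * ω := by
      rw [map_mul, map_pow, ha0, hb0, ← pow_mul, ← mul_assoc, ← pow_add,
        pow_eq_pow_of_zmod hζ.pow_eq_one hyz]
    apply hnp
    refine ⟨ζ ^ y * ω, mem_K0.2 fun τ hτ => ?_, hω'p⟩
    obtain ⟨a, ha⟩ := sigma_zeta hp hζ τ
    have hswap : (τ * τ0) ζ = (τ0 * τ) ζ := by
      rw [AlgEquiv.mul_apply, AlgEquiv.mul_apply, ha0, ha, map_pow, map_pow, ha, ha0, ← pow_mul,
        ← pow_mul, mul_comm]
    have hκζ : ((τ0 * τ)⁻¹ * (τ * τ0)) ζ = ζ := by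
      rw [AlgEquiv.mul_apply, hswap]
      exact (τ0 * τ).symm_apply_apply ζ
    have hκ := H' _ (Subgroup.mul_mem _ (Subgroup.inv_mem _ (Subgroup.mul_mem _ hτ0 hτ))
      (Subgroup.mul_mem _ hτ hτ0)) hκζ
    have hκω' : ((τ0 * τ)⁻¹ * (τ * τ0)) (ζ ^ y * ω) = ζ ^ y * ω := by
      rw [map_mul, map_pow, hκζ, hκ]
    have hcomm : τ (τ0 (ζ ^ y * ω)) = τ0 (τ (ζ ^ y * ω)) := by
      have h1 := congrArg (τ0 * τ) hκω'
      rw [AlgEquiv.mul_apply ((τ0 * τ)⁻¹)] at h1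
      have h2 : (τ0 * τ) ((τ0 * τ)⁻¹ ((τ * τ0) (ζ ^ y * ω))) = (τ * τ0) (ζ ^ y * ω) :=
        (τ0 * τ).apply_symm_apply _
      rw [h2] at h1
      simpa only [AlgEquiv.mul_apply] using h1
    rw [hτ0ω'] at hcomm
    obtain ⟨d, hd⟩ := sigma_root hp hζ hc hω'p hω'0 hτ
    rw [hd, map_mul, hτ0ω'] at hcomm
    have hξ : τ0 (ζ ^ d) = ζ ^ d := (mul_right_cancel₀ hω'0 hcomm).symm
    by_cases hd1 : ζ ^ d = 1
    · rw [hd, hd1, one_mul]
    · exfalso
      apply hτ0ζ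
      have hpd : ¬ p ∣ d := by
        rintro ⟨k, rfl⟩
        exact hd1 (by rw [pow_mul, hζ.pow_eq_one, one_pow])
      have hcop : Nat.Coprime d p := ((Nat.Prime.coprime_iff_not_dvd hp).2 hpd).symm
      obtain ⟨e, -, he⟩ := Nat.exists_mul_mod_eq_one_of_coprime hcop hp.one_lt
      have hζe : (ζ ^ d) ^ e = ζ := by
        rw [← pow_mul, pow_eq_pow_mod _ hζ.pow_eq_one, he, pow_one]
      rw [← hζe, map_pow, hξ]

end Sigma

/-! ### Valuations of `ζ ^ k - 1` (no `ω` needed) -/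

section Pi

variable {L : Type*} [Field L] {Γ₀ : Type*} [LinearOrderedCommGroupWithZero Γ₀]
  (v : Valuation L Γ₀) {ζ : L}

theorem val_root_eq_one (hp : p.Prime) (hζ : ζ ^ p = 1) : v ζ = 1 := by
  have h1 : v ζ ^ p = 1 := by rw [← map_pow, hζ, map_one]
  exact (pow_eq_one_iff.1 h1).resolve_right hp.ne_zero

theorem val_root_pow_sub_one (hp : p.Prime) (hζ : ζ ^ p = 1) {k : ℕ} (hk : ¬ p ∣ k) :
    v (ζ ^ k - 1) = v (ζ - 1) := by
  refine le_antisymm (val_pow_sub_one_le v (val_root_eq_one v hp hζ).le k) ?_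
  have hcop : Nat.Coprime k p := (Nat.Coprime.symm ((Nat.Prime.coprime_iff_not_dvd hp).2 hk))
  obtain ⟨m, -, hm⟩ := Nat.exists_mul_mod_eq_one_of_coprime hcop hp.one_lt
  have h1 : (ζ ^ k) ^ m = ζ := by
    rw [← pow_mul, pow_eq_pow_mod _ hζ, hm, pow_one]
  have h2 : v (ζ ^ k) ≤ 1 := by rw [map_pow, val_root_eq_one v hp hζ, one_pow]
  have := val_pow_sub_one_le v h2 m
  rwa [h1] at this

/-- `v (ζ - 1) ^ (p - 1) = v p`. -/
theorem val_root_sub_one_pow (hp : p.Prime) (hζ : IsPrimitiveRoot ζ p) :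
    v (ζ - 1) ^ (p - 1) = v (p : L) := by
  obtain ⟨n, hn⟩ : ∃ n, p = n + 1 := ⟨p - 1, (Nat.succ_pred_eq_of_pos hp.pos).symm⟩
  have hroot : IsPrimitiveRoot ζ (n + 1) := hn ▸ hζ
  have h1 := hroot.prod_one_sub_pow_eq_order
  have h2 : v (∏ k ∈ Finset.range n, (1 - ζ ^ (k + 1))) = v (ζ - 1) ^ n := by
    rw [map_prod]
    have : ∀ k ∈ Finset.range n, v (1 - ζ ^ (k + 1)) = v (ζ - 1) := by
      intro k hk
      rw [← v.map_neg, neg_sub]
      refine val_root_pow_sub_one v hp hζ.pow_eq_one ?_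
      intro hd
      have := Nat.le_of_dvd (Nat.succ_pos k) hd
      have := Finset.mem_range.1 hk
      omega
    rw [Finset.prod_congr rfl this, Finset.prod_const, Finset.card_range]
  rw [h1] at h2
  have h3 : (p : L) = (n : L) + 1 := by rw [hn]; push_cast; ring
  rw [h3, h2, hn, Nat.add_sub_cancel]

/-- `v p < v (ζ - 1) < 1` for `p` odd. -/
theorem val_p_lt_val_pi (hp : p.Prime) (hp2 : p ≠ 2) (hζ : IsPrimitiveRoot ζ p)
    (hv : v (p : L) < 1) (hv0 : v (p : L) ≠ 0) : v (ζ - 1) < 1 ∧ v (p : L) < v (ζ - 1) := by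
  have h1 := val_root_sub_one_pow v hp hζ
  have hp1 : p - 1 ≠ 0 := Nat.sub_ne_zero_of_lt hp.one_lt
  have hπ0 : v (ζ - 1) ≠ 0 := by
    intro h0
    rw [h0, zero_pow hp1] at h1
    exact hv0 h1.symm
  have hπ1 : v (ζ - 1) < 1 := by
    by_contra hge
    rw [not_lt] at hge
    have : (1 : Γ₀) ≤ v (ζ - 1) ^ (p - 1) := one_le_pow₀ hge
    rw [h1] at this
    exact absurd hv (not_lt.2 this)
  refine ⟨hπ1, ?_⟩
  have h3 : 3 ≤ p := by
    have := hp.two_le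
    omega
  obtain ⟨k, hk⟩ : ∃ k, p - 1 = k + 2 := ⟨p - 3, by omega⟩
  rw [← h1, hk, pow_succ]
  have h4 : v (ζ - 1) ^ (k + 1) < 1 := pow_lt_one₀ zero_le hπ1 (Nat.succ_ne_zero k)
  calc v (ζ - 1) ^ (k + 1) * v (ζ - 1) < 1 * v (ζ - 1) :=
        mul_lt_mul_of_pos_right h4 (zero_lt_iff.2 hπ0)
    _ = v (ζ - 1) := one_mul _

end Pi

/-! ### Elements of `K₀` congruent to `1` modulo `p²` are `p`-th powers -/

/-- An element of `K₀` of valuation `< 1` has valuation `≤ v p`. -/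
theorem val_le_p_of_lt_one (hp : p.Prime) (hA : A.LiesOverPrime p) {x : AlgebraicClosure ℚ}
    (hx : x ∈ K0 A) (hv : A.valuation x < 1) :
    A.valuation x ≤ A.valuation (p : AlgebraicClosure ℚ) := by
  by_cases hx0 : x = 0
  · rw [hx0, map_zero]
    exact zero_le
  obtain ⟨n, hn⟩ := val_K0 hp hA x hx hx0
  have hvp := val_p_lt hA
  have hvp0 : (0 : A.ValueGroup) < A.valuation (p : AlgebraicClosure ℚ) :=
    zero_lt_iff.2 (val_p_ne hp)
  rw [hn] at hv ⊢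
  have hn1 : 1 ≤ n := by
    by_contra hlt
    rw [not_le] at hlt
    have h0 : n ≤ 0 := by omega
    have h1 : A.valuation (p : AlgebraicClosure ℚ) ^ (0 : ℤ) ≤
        A.valuation (p : AlgebraicClosure ℚ) ^ n :=
      (zpow_le_zpow_iff_right_of_lt_one₀ hvp0 hvp).2 h0
    rw [zpow_zero] at h1
    exact absurd hv (not_lt.2 h1)
  have h2 := (zpow_le_zpow_iff_right_of_lt_one₀ hvp0 hvp).2 hn1
  rwa [zpow_one] at h2

/-- **K-ARITH, the tame alternative.**  `1 + p u₁` with `u₁ ∈ K₀`, `v u₁ < 1`, is a `p`-th power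
in `K₀` (`p` odd). -/
theorem isPow_of_val_lt (hp : p.Prime) (hp2 : p ≠ 2) (hA : A.LiesOverPrime p)
    {u1 : AlgebraicClosure ℚ} (hu1 : u1 ∈ K0 A) (hv : A.valuation u1 < 1) :
    ∃ z ∈ K0 A, z ^ p = 1 + (p : AlgebraicClosure ℚ) * u1 := by
  haveI : NeZero ((p : ℕ) : AlgebraicClosure ℚ) := ⟨Nat.cast_ne_zero.2 hp.ne_zero⟩
  obtain ⟨ζ, hζ⟩ := HasEnoughRootsOfUnity.exists_primitiveRoot (AlgebraicClosure ℚ) p
  obtain ⟨ω, hω⟩ := IsAlgClosed.exists_pow_nat_eq (1 + (p : AlgebraicClosure ℚ) * u1) hp.pos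
  have hvp := val_p_lt hA
  have hle := val_le_p_of_lt_one hp hA hu1 hv
  obtain ⟨hπ1, hπp⟩ := val_p_lt_val_pi A.valuation hp hp2 hζ hvp (val_p_ne hp)
  have hπpow := val_root_sub_one_pow A.valuation hp hζ
  have hc : 1 + (p : AlgebraicClosure ℚ) * u1 ∈ K0 A :=
    add_mem (one_mem _) (mul_mem (natCast_mem_K0 p) hu1)
  have hvc : A.valuation (1 + (p : AlgebraicClosure ℚ) * u1) = 1 := by
    have h1 : A.valuation ((p : AlgebraicClosure ℚ) * u1) < A.valuation (1 : AlgebraicClosure ℚ) := by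
      rw [map_mul, map_one]
      calc A.valuation (p : AlgebraicClosure ℚ) * A.valuation u1
          ≤ A.valuation (p : AlgebraicClosure ℚ) * 1 := mul_le_mul_right hv.le _
        _ = A.valuation (p : AlgebraicClosure ℚ) := mul_one _
        _ < 1 := hvp
    rw [Valuation.map_add_eq_of_lt_left _ h1, map_one]
  have hω0 : ω ≠ 0 := by
    rintro rfl
    rw [zero_pow hp.ne_zero] at hω
    rw [← hω, map_zero] at hvc
    exact zero_ne_one hvc
  have hvω : A.valuation ω = 1 := by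
    have h1 : A.valuation ω ^ p = 1 := by rw [← map_pow, hω, hvc]
    exact (pow_eq_one_iff.1 h1).resolve_right hp.ne_zero
  -- the product formula
  have hprod : ∏ i ∈ Finset.range p, (1 - ζ ^ i * ω) =
      1 - (1 + (p : AlgebraicClosure ℚ) * u1) := by
    have h1 := X_pow_sub_C_eq_prod hζ hp.pos hω
    have h2 := congrArg (Polynomial.eval 1) h1
    simp only [eval_sub, eval_pow, eval_X, one_pow, eval_C, eval_prod] at h2
    exact h2.symm
  -- some factor is small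
  have hex : ∃ i ∈ Finset.range p, A.valuation (1 - ζ ^ i * ω) < A.valuation (ζ - 1) := by
    by_contra hcon
    push Not at hcon
    have h1 : A.valuation (ζ - 1) ^ p ≤ A.valuation (1 - (1 + (p : AlgebraicClosure ℚ) * u1)) := by
      rw [← hprod, map_prod]
      calc A.valuation (ζ - 1) ^ p = ∏ _i ∈ Finset.range p, A.valuation (ζ - 1) := by
            rw [Finset.prod_const, Finset.card_range]
        _ ≤ ∏ i ∈ Finset.range p, A.valuation (1 - ζ ^ i * ω) := Finset.prod_le_prod' hcon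
    have h2 : A.valuation (1 - (1 + (p : AlgebraicClosure ℚ) * u1)) ≤
        A.valuation (p : AlgebraicClosure ℚ) * A.valuation (p : AlgebraicClosure ℚ) := by
      rw [sub_add_cancel_left, Valuation.map_neg, map_mul]
      exact mul_le_mul_right hle _
    have h3 : A.valuation (ζ - 1) ^ p =
        A.valuation (p : AlgebraicClosure ℚ) * A.valuation (ζ - 1) := by
      rw [← hπpow, ← pow_succ, Nat.sub_add_cancel hp.one_le]
    have h4 : A.valuation (p : AlgebraicClosure ℚ) * A.valuation (p : AlgebraicClosure ℚ) <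
        A.valuation (p : AlgebraicClosure ℚ) * A.valuation (ζ - 1) :=
      mul_lt_mul_of_pos_left hπp (zero_lt_iff.2 (val_p_ne hp))
    rw [h3] at h1
    exact absurd (lt_of_lt_of_le h4 (le_trans h1 h2)) (lt_irrefl _)
  obtain ⟨i, -, hi⟩ := hex
  have hzp : (ζ ^ i * ω) ^ p = 1 + (p : AlgebraicClosure ℚ) * u1 := by
    rw [mul_pow, ← pow_mul, mul_comm i p, pow_mul, hζ.pow_eq_one, one_pow, one_mul, hω]
  have hz0 : ζ ^ i * ω ≠ 0 := mul_ne_zero (pow_ne_zero _ (hζ.ne_zero hp.ne_zero)) hω0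
  have hvz : A.valuation (ζ ^ i * ω) = 1 := by
    rw [map_mul, map_pow, val_root_eq_one A.valuation hp hζ.pow_eq_one, one_pow, one_mul, hvω]
  refine ⟨ζ ^ i * ω, mem_K0.2 fun σ hσ => ?_, hzp⟩
  obtain ⟨b, hb⟩ := sigma_root hp hζ hc hzp hz0 hσ
  by_cases hb1 : ζ ^ b = 1
  · rw [hb, hb1, one_mul]
  · exfalso
    have hpb : ¬ p ∣ b := by
      rintro ⟨k, rfl⟩
      exact hb1 (by rw [pow_mul, hζ.pow_eq_one, one_pow])
    have h1 : A.valuation (σ (ζ ^ i * ω) - ζ ^ i * ω) = A.valuation (ζ - 1) := by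
      have e : σ (ζ ^ i * ω) - ζ ^ i * ω = (ζ ^ b - 1) * (ζ ^ i * ω) := by
        rw [hb]
        ring
      rw [e, map_mul, hvz, mul_one, val_root_pow_sub_one A.valuation hp hζ.pow_eq_one hpb]
    have h2 : A.valuation (σ (ζ ^ i * ω) - ζ ^ i * ω) < A.valuation (ζ - 1) := by
      have e : σ (ζ ^ i * ω) - ζ ^ i * ω = (1 - ζ ^ i * ω) - σ (1 - ζ ^ i * ω) := by
        rw [map_sub, map_one]
        ring
      rw [e]
      refine lt_of_le_of_lt (Valuation.map_sub _ _ _) (max_lt hi ?_)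
      rw [val_sigma hσ]
      exact hi
    rw [h1] at h2
    exact lt_irrefl _ h2

/-- **K-ARITH, dichotomy.**  Let `u` be an integer prime to `p` (`p` odd).  Either `u` is a
`p`-th power in the inertia field `K₀`, or there are a root of unity `t ∈ K₀`, a `p`-th root
`t ω` of `u` and `σ` in the inertia group such that `(A.valuation, K₀, p, ζ, ω, σ)` is a
`KData`. -/
theorem karith_dichotomy (hp : p.Prime) (hp2 : p ≠ 2) (hA : A.LiesOverPrime p) (u : ℤ)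
    (hu : ¬ (p : ℤ) ∣ u) {ζ : AlgebraicClosure ℚ} (hζ : IsPrimitiveRoot ζ p) :
    (∃ z ∈ K0 A, z ^ p = (u : AlgebraicClosure ℚ)) ∨
    ∃ (t ω : AlgebraicClosure ℚ) (σ : AlgebraicClosure ℚ ≃ₐ[ℚ] AlgebraicClosure ℚ),
      t ∈ K0 A ∧ t ^ (p - 1) = 1 ∧ (t * ω) ^ p = (u : AlgebraicClosure ℚ) ∧
      σ ∈ A.inertiaSubgroupIn ℚ ∧
      KData A.valuation (K0 A) p ζ ω (σ : AlgebraicClosure ℚ →+* AlgebraicClosure ℚ) := by
  by_cases hpow : ∃ z ∈ K0 A, z ^ p = (u : AlgebraicClosure ℚ)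
  · exact Or.inl hpow
  right
  obtain ⟨t, htK, ht, htv⟩ := exists_teich hp hA u hu
  have hp1 : p - 1 ≠ 0 := Nat.sub_ne_zero_of_lt hp.one_lt
  have ht0 : t ≠ 0 := by
    rintro rfl
    rw [zero_pow hp1] at ht
    exact zero_ne_one ht
  have htp : t ^ p = t := by
    conv_lhs => rw [← Nat.sub_add_cancel hp.one_le, pow_succ, ht, one_mul]
  have hvt : A.valuation t = 1 := by
    have h1 : A.valuation t ^ (p - 1) = 1 := by rw [← map_pow, ht, map_one]
    exact (pow_eq_one_iff.1 h1).resolve_right hp1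
  have hpne : (p : AlgebraicClosure ℚ) ≠ 0 := Nat.cast_ne_zero.2 hp.ne_zero
  set u1 : AlgebraicClosure ℚ := ((u : AlgebraicClosure ℚ) - t) / (t * p) with hu1def
  have hu1K : u1 ∈ K0 A :=
    div_mem (sub_mem (intCast_mem_K0 u) htK) (mul_mem htK (natCast_mem_K0 p))
  have hc : 1 + (p : AlgebraicClosure ℚ) * u1 = (u : AlgebraicClosure ℚ) / t := by
    rw [hu1def]
    field_simp
    ring
  have hu1v : A.valuation u1 ≤ 1 := by
    have h1 := val_le_p_of_lt_one hp hA (sub_mem (intCast_mem_K0 u) htK) htv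
    rw [hu1def, map_div₀, map_mul, hvt, one_mul]
    exact div_le_one_of_le₀ h1 zero_le
  have hu1v1 : A.valuation u1 = 1 := by
    refine le_antisymm hu1v ?_
    by_contra hlt
    rw [not_le] at hlt
    obtain ⟨z, hzK, hz⟩ := isPow_of_val_lt hp hp2 hA hu1K hlt
    apply hpow
    refine ⟨z * t, mul_mem hzK htK, ?_⟩
    rw [mul_pow, hz, hc, htp]
    field_simp
  obtain ⟨ω, hω⟩ := IsAlgClosed.exists_pow_nat_eq (1 + (p : AlgebraicClosure ℚ) * u1) hp.pos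
  have hcK : 1 + (p : AlgebraicClosure ℚ) * u1 ∈ K0 A :=
    add_mem (one_mem _) (mul_mem (natCast_mem_K0 p) hu1K)
  have hc0 : 1 + (p : AlgebraicClosure ℚ) * u1 ≠ 0 := by
    rw [hc]
    refine div_ne_zero ?_ ht0
    intro h0
    apply hpow
    exact ⟨0, zero_mem _, by rw [zero_pow hp.ne_zero, h0]⟩
  have hnp : ¬ ∃ z ∈ K0 A, z ^ p = 1 + (p : AlgebraicClosure ℚ) * u1 := by
    rintro ⟨z, hzK, hz⟩
    apply hpow
    refine ⟨z * t, mul_mem hzK htK, ?_⟩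
    rw [mul_pow, hz, hc, htp]
    field_simp
  obtain ⟨σ, hσ, hσζ, hσω⟩ := exists_sigma hp hζ hcK hc0 hω hnp
  refine ⟨t, ω, σ, htK, ht, ?_, hσ, kdata_qbar hp hA hζ hu1K hu1v1 hω hσ hσζ hσω⟩
  rw [mul_pow, hω, hc, htp]
  field_simp

end Fermat.Agent.BADP.H97
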