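/-
helper93, row 38 (S44), package BAD_p: EIS-MOD split into three parts, and the assembly.
Plan: `NOTES/plan/L_S44.md` §12.2, §14.

Setting: `p ≥ 5`, `N = M p`, `p ∤ M`, `A` over `p`, `S` the modular datum (`IsModDatumU`),
`U = unitF (M p) p`.

* `Stmt_EisNodeTame` **(EM-TAME)** : `u` is a `p`-th power in the inertia field `K₀`.  Then `x`
  is fixed by the inertia group of `K₀(ζ)` and has a Kummer pair `(D, f)`, `f` a `V₁`-unit, with
  `ord_s (rd₁ f) ≡ m ord_s (rd₁ U)` modulo `p` at the nodes.  (`S36.H61.stmt_NUB0`,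
  `H15.stmt_A1_gen`, `Stmt_EisAbsTame`.)
* `Stmt_EisNodeWild` **(EM-WILD)** : the same in the wild case of `H97.karith_dichotomy`
  (`KData`).  (`S36.H61.stmt_NUB0` with `H` the stabiliser of `ζ`, `ω`; `H15.stmt_A1_gen`;
  `y₀ = σ x - x ∈ Y ⊆ K1 ∩ w K1` by `S44.isCycOn_le`; KUM-W, KUM-CMP; `Stmt_EisAbs`.)
* `Stmt_EisPairP` **(EM-PAIR)** : a Kummer pair with the congruence at the nodes is an
  Eisenstein pair (`IsEisPair`): at the good places the divisor identity `S.c₁.DI`, with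
  `unit_ord`, `cusp_good`.
* `stmt_EisSlopeP_of_parts` : the three parts and (MOD-P+) give `Stmt_EisSlopeP`.
-/
import Fermat.Agent.BADP.EisMod
import Fermat.Agent.BADP.H97_KArithQ

set_option autoImplicit false
set_option synthInstance.maxHeartbeats 400000
set_option maxHeartbeats 1000000

noncomputable section

open AlgebraicCurve ModularCurve

namespace Fermat.Agent.BADP

open Fermat.Agent.BAD Fermat.Agent.S44 Fermat.Agent.S43.BadQ Fermat.Agent.S28.H73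
  Fermat.Agent.RED.H73

/-- **(EM-TAME)**: the congruence at the nodes, tame case. -/
def Stmt_EisNodeTame : Prop :=
  ∀ (p : ℕ) [NeZero p], 5 ≤ p → ∀ (M : ℕ) (a b : ℤ) (hab : a * p + b * M = 1) (hp : p.Prime)
    [NeZero (M * p)],
    ∀ A : ValuationSubring (AlgebraicClosure ℚ), A.LiesOverPrime p →
    ∀ S : SSD (AlgebraicClosure ℚ) ↥(FNbar (M * p)) (kV A) (RedF A (M * p)) (RedF A (M * p)),
      IsModDatumU A p M a b hab hp S →
    ∀ (x : (jzModule (M * p) p).J) (u : ℤ), ¬ (p : ℤ) ∣ u →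
      (jzModule (M * p) p).IsPeuFixed A u x →
      (∃ z ∈ H97.K0 A, z ^ p = (u : AlgebraicClosure ℚ)) →
      ∃ (D : Divisor.degZero (K := AlgebraicClosure ℚ) (F := ↥(FNbar (M * p))))
        (f : ↥(FNbar (M * p))) (m : ℤ),
        jzModule.pt (M * p) p x = Pic0.mk D ∧ S.c₁.IsGU f ∧
        (∀ P : Place (AlgebraicClosure ℚ) ↥(FNbar (M * p)),
          (p : ℤ) * (D : Divisor (AlgebraicClosure ℚ) ↥(FNbar (M * p))) P = P.ord f) ∧
        ∀ s ∈ S.nodes, (p : ℤ) ∣ s.1.ord (S.c₁.rd f) -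
          m * s.1.ord (S.c₁.rd (Fermat.Agent.BAD.H30.unitF (M * p) p (Dvd.intro_left M rfl)))

/-- **(EM-WILD)**: the congruence at the nodes, wild case. -/
def Stmt_EisNodeWild : Prop :=
  ∀ (p : ℕ) [NeZero p], 5 ≤ p → ∀ (M : ℕ) (a b : ℤ) (hab : a * p + b * M = 1) (hp : p.Prime)
    [NeZero (M * p)],
    ∀ A : ValuationSubring (AlgebraicClosure ℚ), A.LiesOverPrime p →
    ∀ S : SSD (AlgebraicClosure ℚ) ↥(FNbar (M * p)) (kV A) (RedF A (M * p)) (RedF A (M * p)),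
      IsModDatumU A p M a b hab hp S →
    ∀ (x : (jzModule (M * p) p).J) (Y : Submodule (ZMod p) (jzModule (M * p) p).J) (u : ℤ),
      (jzModule (M * p) p).IsCycOn A Y →
      (∀ σ ∈ A.inertiaSubgroupIn ℚ, (jzModule (M * p) p).gal σ x - x ∈ Y) →
      ¬ (p : ℤ) ∣ u → (jzModule (M * p) p).IsPeuFixed A u x →
    ∀ (ζ t ω : AlgebraicClosure ℚ) (σ : AlgebraicClosure ℚ ≃ₐ[ℚ] AlgebraicClosure ℚ),
      IsPrimitiveRoot ζ p → t ∈ H97.K0 A → t ^ (p - 1) = 1 →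
      (t * ω) ^ p = (u : AlgebraicClosure ℚ) → σ ∈ A.inertiaSubgroupIn ℚ →
      H97.KData A.valuation (H97.K0 A) p ζ ω
        (σ : AlgebraicClosure ℚ →+* AlgebraicClosure ℚ) →
      ∃ (D : Divisor.degZero (K := AlgebraicClosure ℚ) (F := ↥(FNbar (M * p))))
        (f : ↥(FNbar (M * p))) (m : ℤ),
        jzModule.pt (M * p) p x = Pic0.mk D ∧ S.c₁.IsGU f ∧
        (∀ P : Place (AlgebraicClosure ℚ) ↥(FNbar (M * p)),
          (p : ℤ) * (D : Divisor (AlgebraicClosure ℚ) ↥(FNbar (M * p))) P = P.ord f) ∧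
        ∀ s ∈ S.nodes, (p : ℤ) ∣ s.1.ord (S.c₁.rd f) -
          m * s.1.ord (S.c₁.rd (Fermat.Agent.BAD.H30.unitF (M * p) p (Dvd.intro_left M rfl)))

/-- **(EM-PAIR)**: a Kummer pair with the congruence at the nodes is an Eisenstein pair. -/
def Stmt_EisPairP : Prop :=
  ∀ (p : ℕ) [NeZero p], 5 ≤ p → ∀ (M : ℕ) (a b : ℤ) (hab : a * p + b * M = 1) (hp : p.Prime)
    [NeZero (M * p)],
    ∀ A : ValuationSubring (AlgebraicClosure ℚ), A.LiesOverPrime p →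
    ∀ S : SSD (AlgebraicClosure ℚ) ↥(FNbar (M * p)) (kV A) (RedF A (M * p)) (RedF A (M * p)),
      IsModDatumU A p M a b hab hp S →
    ∀ (x : JZero (M * p))
      (D : Divisor.degZero (K := AlgebraicClosure ℚ) (F := ↥(FNbar (M * p))))
      (f : ↥(FNbar (M * p))) (m : ℤ),
      x = Pic0.mk D → S.c₁.IsGU f →
      (∀ P : Place (AlgebraicClosure ℚ) ↥(FNbar (M * p)),
        (p : ℤ) * (D : Divisor (AlgebraicClosure ℚ) ↥(FNbar (M * p))) P = P.ord f) →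
      (∀ s ∈ S.nodes, (p : ℤ) ∣ s.1.ord (S.c₁.rd f) -
        m * s.1.ord (S.c₁.rd (Fermat.Agent.BAD.H30.unitF (M * p) p (Dvd.intro_left M rfl)))) →
      ∃ hf : f ∈ gaussV A (M * p),
        IsEisPair A (M * p) p (Dvd.intro_left M rfl) x D ⟨f, hf⟩ m

/-- **EIS-SLOPE from the three parts.** -/
theorem stmt_EisSlopeP_of_parts (hMod : Stmt_ModPlusP) (hT : Stmt_EisNodeTame)
    (hW : Stmt_EisNodeWild) (hP : Stmt_EisPairP) : Stmt_EisSlopeP := by
  intro p _ hp hp5 N _ hd hp2 A hA x Y u hY hsub hu hfix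
  obtain ⟨M, rfl⟩ : ∃ M, N = M * p := ⟨N / p, (Nat.div_mul_cancel hd).symm⟩
  have hpM : ¬ p ∣ M := by
    rintro ⟨k, rfl⟩
    exact hp2 ⟨k, by ring⟩
  have hcop : IsCoprime (p : ℤ) (M : ℤ) :=
    Nat.isCoprime_iff_coprime.2 ((Nat.Prime.coprime_iff_not_dvd hp).2 hpM)
  obtain ⟨a, b, hab⟩ := hcop
  obtain ⟨S, hS⟩ := hMod p hp5 M a b hab hp A hA
  have hp2' : p ≠ 2 := by omega
  have hpK : NeZero ((p : ℕ) : AlgebraicClosure ℚ) := ⟨Nat.cast_ne_zero.2 hp.ne_zero⟩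
  obtain ⟨ζ, hζ⟩ : ∃ ζ : AlgebraicClosure ℚ, IsPrimitiveRoot ζ p :=
    HasEnoughRootsOfUnity.exists_primitiveRoot (AlgebraicClosure ℚ) p
  rcases H97.karith_dichotomy hp hp2' hA u hu hζ with
    hz | ⟨t, ω, σ, htK, ht, htω, hσ, hKD⟩
  · obtain ⟨D, f, m, hxD, hGU, hdiv, hnode⟩ :=
      hT p hp5 M a b hab hp A hA S hS x u hu hfix hz
    obtain ⟨hf, hpair⟩ := hP p hp5 M a b hab hp A hA S hS _ D f m hxD hGU hdiv hnode
    exact ⟨D, ⟨f, hf⟩, m, hpair⟩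
  · obtain ⟨D, f, m, hxD, hGU, hdiv, hnode⟩ :=
      hW p hp5 M a b hab hp A hA S hS x Y u hY hsub hu hfix ζ t ω σ hζ htK ht htω hσ hKD
    obtain ⟨hf, hpair⟩ := hP p hp5 M a b hab hp A hA S hS _ D f m hxD hGU hdiv hnode
    exact ⟨D, ⟨f, hf⟩, m, hpair⟩

/-- **EIS-MOD from the three parts.** -/
theorem stmt_EisMod_of_parts (hT : Stmt_EisNodeTame) (hW : Stmt_EisNodeWild)
    (hP : Stmt_EisPairP) : Stmt_EisMod :=
  fun hMod _ _ _ _ _ => stmt_EisSlopeP_of_parts hMod hT hW hP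

end Fermat.Agent.BADP
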