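import Fermat.Agent.BADP.H11_Arith0Adapt
import Fermat.Agent.BAD.H88_V2
import Fermat.Agent.BAD.Defs
import Fermat.Agent.RED.H17_Place

/-!
# S44 BADP, leaf ARITH-0 (helper11): `K0`-rational parts of modular functions

`A` a valuation subring of `ℚ̄` over `p`, `I` its inertia group, `K0 = ℚ̄^I`, `F = F_N · ℚ̄`.

* `traceOp N σ d g = ∑_i σ_i (d g)` (coefficientwise action `galF`), for a finite family `σ_i ∈ I`
  and a constant `d`.
* `exists_traceOp` : for every finite set `S ⊂ F` there are `σ, d` such that for all `g ∈ S` the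
  function `g0 = traceOp N σ d g` is fixed by `I` and, for every `c ∈ K0` with `c g` in the Gauss
  valuation ring `V1`, also `c g0 ∈ V1` with the same reduction.
* `traceOp_comm` : `traceOp` commutes with every `ℚ̄`-algebra automorphism commuting with `galF`.
* `exists_pole_of_traceOp` : a pole of `traceOp N σ d g` at `P` gives a pole of `g` at `σ_i⁻¹ P`.
* `stmt_Arith0` : **ARITH-0** in the form of `NOTES/plan/L_S44.md` §12 (level `M p`, `V1`, `V2 = V1 ∘ w_p`).
-/

set_option autoImplicit false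
set_option linter.style.haveILetI false
set_option linter.unusedSectionVars false
set_option synthInstance.maxHeartbeats 400000
set_option maxHeartbeats 1000000

noncomputable section

namespace Fermat.Agent.BADP.H11

open AlgebraicCurve ModularCurve Fermat.Agent.BAD Fermat.Agent.S28 Fermat.Agent.S28.H73
  Fermat.Agent.RED.H73

open scoped Classical

local notation "Qbar" => AlgebraicClosure ℚ

/-- The trace operator `g ↦ ∑_i σ_i (d g)` on `F_N · ℚ̄`. -/
def traceOp (N : ℕ) {ι : Type} [Fintype ι] (σ : ι → GalQ) (d : Qbar) (g : ↥(FNbar N)) :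
    ↥(FNbar N) :=
  ∑ i, galF N (σ i) • (algebraMap Qbar ↥(FNbar N) d * g)

theorem coe_traceOp (N : ℕ) {ι : Type} [Fintype ι] (σ : ι → GalQ) (d : Qbar) (g : ↥(FNbar N)) :
    ((traceOp N σ d g : ↥(FNbar N)) : LaurentSeries Qbar)
      = ∑ i, coeffMap ((σ i : Qbar ≃ₐ[ℚ] Qbar) : Qbar →+* Qbar)
          (HahnSeries.C d * (g : LaurentSeries Qbar)) := by
  rw [traceOp]
  have h : ∀ s : Finset ι, (((∑ i ∈ s, galF N (σ i) • (algebraMap Qbar ↥(FNbar N) d * g) :
      ↥(FNbar N))) : LaurentSeries Qbar)
      = ∑ i ∈ s, coeffMap ((σ i : Qbar ≃ₐ[ℚ] Qbar) : Qbar →+* Qbar)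
          (HahnSeries.C d * (g : LaurentSeries Qbar)) := by
    intro s
    induction s using Finset.induction_on with
    | empty => simp
    | insert i s hi ih =>
      rw [Finset.sum_insert hi, Finset.sum_insert hi, ← ih]
      show ((galF N (σ i) • (algebraMap Qbar ↥(FNbar N) d * g) : ↥(FNbar N)) :
        LaurentSeries Qbar) + _ = _
      rw [coe_arithmeticGalois_smul]
      congr 2
      show ((algebraMap Qbar ↥(FNbar N) d : ↥(FNbar N)) : LaurentSeries Qbar) *
        (g : LaurentSeries Qbar) = _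
      rw [coe_algebraMap_F]
  exact h Finset.univ

/-- **ARITH-0, operator form.**  For every finite set `S` of modular functions there is a trace
operator `T = traceOp N σ d` (`σ_i` in the inertia group) such that for all `g ∈ S`: `T g` is
fixed by the inertia group, and for every constant `c` fixed by the inertia group with `c g` in
the Gauss valuation ring, `c · T g` is in the Gauss valuation ring with the same reduction. -/
theorem exists_traceOp (N : ℕ) (A : ValuationSubring Qbar) {p : ℕ} (hp : p.Prime)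
    (hA : A.LiesOverPrime p) (S : Finset ↥(FNbar N)) :
    ∃ (ι : Type) (_ : Fintype ι) (σ : ι → GalQ) (d : Qbar),
      (∀ i, σ i ∈ A.inertiaSubgroupIn ℚ) ∧
      ∀ g ∈ S,
        (∀ τ ∈ A.inertiaSubgroupIn ℚ, galF N τ • traceOp N σ d g = traceOp N σ d g) ∧
        ∀ c : Qbar, (∀ τ ∈ A.inertiaSubgroupIn ℚ, τ c = c) →
          ∀ hcg : algebraMap Qbar ↥(FNbar N) c * g ∈ gaussV A N,
            ∃ hcT : algebraMap Qbar ↥(FNbar N) c * traceOp N σ d g ∈ gaussV A N,
              gaussRes A N ⟨_, hcT⟩ = gaussRes A N ⟨_, hcg⟩ := by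
  -- a number field adapted to all elements of `S`
  have hex : ∀ g : ↥(FNbar N), ∃ s : Finset Qbar,
      ∀ (L : IntermediateField ℚ Qbar) [FiniteDimensional ℚ L] [Normal ℚ L],
        (∀ c ∈ s, c ∈ L) → Adapted A L (g : LaurentSeries Qbar) :=
    fun g => exists_adapted A N g.2
  choose sf hsf using hex
  obtain ⟨L, hfin, hnorm, hL⟩ := exists_normal_finite (S.biUnion sf)
  haveI := hfin
  haveI := hnorm
  have hadapt : ∀ g ∈ S, Adapted A L (g : LaurentSeries Qbar) := by
    intro g hg
    exact hsf g L (fun c hc => hL c (Finset.mem_biUnion.mpr ⟨g, hg, hc⟩))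
  obtain ⟨d, hd⟩ := exists_isSection A L hp hA
  have hcoe : ∀ g : ↥(FNbar N),
      ((traceOp N (liftI A L) (d : Qbar) g : ↥(FNbar N)) : LaurentSeries Qbar)
        = Tser A L d (g : LaurentSeries Qbar) := fun g => coe_traceOp N _ _ g
  refine ⟨↥(inertiaRes A L), inferInstance, liftI A L, (d : Qbar), liftI_mem A L,
    fun g hg => ⟨fun τ hτ => ?_, fun c hc hcg => ?_⟩⟩
  · apply Subtype.ext
    rw [coe_arithmeticGalois_smul, hcoe]
    exact (hadapt g hg).coeffMap_Tser d τ hτ
  · have hcg' : HahnSeries.C c * (g : LaurentSeries Qbar) ∈ gaussRingV A := by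
      have := (mem_gaussValSub_iff A (hasScale_laurentBaseChange A N) _).mp hcg
      have e : ((algebraMap Qbar ↥(FNbar N) c * g : ↥(FNbar N)) : LaurentSeries Qbar)
          = HahnSeries.C c * (g : LaurentSeries Qbar) := by
        show ((algebraMap Qbar ↥(FNbar N) c : ↥(FNbar N)) : LaurentSeries Qbar) *
          (g : LaurentSeries Qbar) = _
        rw [coe_algebraMap_F]
      rwa [e] at this
    obtain ⟨h1, hred⟩ := (hadapt g hg).section_gauss hd hp hA c hc hcg'
    have e1 : ((algebraMap Qbar ↥(FNbar N) c * traceOp N (liftI A L) (d : Qbar) g : ↥(FNbar N)) :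
        LaurentSeries Qbar) = HahnSeries.C c * Tser A L d (g : LaurentSeries Qbar) := by
      show ((algebraMap Qbar ↥(FNbar N) c : ↥(FNbar N)) : LaurentSeries Qbar) *
        ((traceOp N (liftI A L) (d : Qbar) g : ↥(FNbar N)) : LaurentSeries Qbar) = _
      rw [coe_algebraMap_F, hcoe]
    have e2 : ((algebraMap Qbar ↥(FNbar N) c * g : ↥(FNbar N)) : LaurentSeries Qbar)
        = HahnSeries.C c * (g : LaurentSeries Qbar) := by
      show ((algebraMap Qbar ↥(FNbar N) c : ↥(FNbar N)) : LaurentSeries Qbar) *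
        (g : LaurentSeries Qbar) = _
      rw [coe_algebraMap_F]
    have hcT : algebraMap Qbar ↥(FNbar N) c * traceOp N (liftI A L) (d : Qbar) g ∈ gaussV A N := by
      rw [mem_gaussValSub_iff, e1]
      exact h1
    refine ⟨hcT, ?_⟩
    apply Subtype.ext
    show gaussResF A (hasScale_laurentBaseChange A N) ⟨_, hcT⟩
      = gaussResF A (hasScale_laurentBaseChange A N) ⟨_, hcg⟩
    rw [gaussResF_apply, gaussResF_apply]
    have g1 : (⟨((algebraMap Qbar ↥(FNbar N) c * traceOp N (liftI A L) (d : Qbar) g :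
        ↥(FNbar N)) : LaurentSeries Qbar), hcT⟩ : gaussRingV A) = ⟨_, h1⟩ := Subtype.ext e1
    have g2 : (⟨((algebraMap Qbar ↥(FNbar N) c * g : ↥(FNbar N)) : LaurentSeries Qbar), hcg⟩ :
        gaussRingV A) = ⟨_, hcg'⟩ := Subtype.ext e2
    exact (congrArg (gaussRedV A) g1).trans (hred.trans (congrArg (gaussRedV A) g2).symm)

/-- `traceOp` commutes with every `ℚ̄`-algebra automorphism of `F` which commutes with the
coefficientwise Galois action. -/
theorem traceOp_comm (N : ℕ) {ι : Type} [Fintype ι] (σ : ι → GalQ) (d : Qbar)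
    (w : ↥(FNbar N) ≃ₐ[Qbar] ↥(FNbar N))
    (hw : ∀ (i : ι) (x : ↥(FNbar N)), w (galF N (σ i) • x) = galF N (σ i) • w x)
    (g : ↥(FNbar N)) : w (traceOp N σ d g) = traceOp N σ d (w g) := by
  rw [traceOp, traceOp, map_sum]
  refine Finset.sum_congr rfl fun i _ => ?_
  rw [hw, map_mul, AlgEquiv.commutes]

/-- A pole of `traceOp N σ d g` at `P` comes from a pole of `g` at some `σ_i⁻¹ P`. -/
theorem exists_pole_of_traceOp (N : ℕ) {ι : Type} [Fintype ι] (σ : ι → GalQ) (d : Qbar)
    (g : ↥(FNbar N)) (P : Place Qbar ↥(FNbar N)) (hP : P.ord (traceOp N σ d g) < 0) :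
    ∃ i, ((galF N (σ i))⁻¹ • P).ord g < 0 := by
  by_contra hcon
  simp only [not_exists, not_lt] at hcon
  have hd0 : d ≠ 0 := by
    rintro rfl
    have : traceOp N σ (0 : Qbar) g = 0 := by
      rw [traceOp]
      simp
    rw [this, Place.ord_zero] at hP
    exact lt_irrefl _ hP
  have hterm : ∀ i, 0 ≤ P.ord (galF N (σ i) • (algebraMap Qbar ↥(FNbar N) d * g)) := by
    intro i
    have h1 : P.ord (galF N (σ i) • (algebraMap Qbar ↥(FNbar N) d * g))
        = ((galF N (σ i))⁻¹ • P).ord (algebraMap Qbar ↥(FNbar N) d * g) := by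
      have h2 := SemilinearAut.ord_smul (galF N (σ i)) ((galF N (σ i))⁻¹ • P)
        (algebraMap Qbar ↥(FNbar N) d * g)
      rw [smul_inv_smul] at h2
      exact h2
    rw [h1, Fermat.Agent.RED.H17.ord_algebraMap_mul _ hd0]
    exact hcon i
  have hsum : ∀ s : Finset ι,
      0 ≤ P.ord (∑ i ∈ s, galF N (σ i) • (algebraMap Qbar ↥(FNbar N) d * g)) := by
    intro s
    induction s using Finset.induction_on with
    | empty => simp [Place.ord_zero]
    | insert i s hi ih =>
      rw [Finset.sum_insert hi]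
      rcases Fermat.Agent.RED.H17.le_ord_add P (Or.inr (hterm i)) (Or.inr ih) with h | h
      · rw [h, Place.ord_zero]
      · exact h
  exact absurd hP (not_lt.mpr (hsum Finset.univ))

end Fermat.Agent.BADP.H11
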