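import Fermat.Agent.BADP.H11_Arith0Ser
import Fermat.Agent.RED.H73_GAModular

/-!
# S44 BADP, leaf ARITH-0 (helper11), part 5: adapted number fields and the section on `F_N · ℚ̄`

* `Adapted A L x` : the series `x ∈ ℚ̄((t))` is `e · a / b` with `e ∈ L` and `a, b ∈ (A ∩ L)((t))`
  primitive.
* `exists_adapted` : every element of `F_N · ℚ̄` is adapted to every finite normal `L` containing a
  suitable finite set.
* `Adapted.section_gauss` : for `x` adapted to `L`, a section `d` and a constant `c` fixed by the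
  inertia group with `c x` in the Gauss ring: `c · T x` is in the Gauss ring with the same
  reduction, where `T x = ∑_γ γ̃ (d x)` (`Tser`).
-/

set_option autoImplicit false
set_option linter.style.haveILetI false
set_option linter.unusedSectionVars false

noncomputable section

namespace Fermat.Agent.BADP.H11

open ModularCurve Fermat.Agent.S28 Fermat.Agent.S28.H73 Fermat.Agent.RED.H73

open scoped Classical

local notation "Qbar" => AlgebraicClosure ℚ

/-- `C c` is in the Gauss ring iff `c ∈ A`. -/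
theorem C_mem_gaussRingV_iff (A : ValuationSubring Qbar) (c : Qbar) :
    (HahnSeries.C c : LaurentSeries Qbar) ∈ gaussRingV A ↔ c ∈ A := by
  constructor
  · intro hm
    by_cases hc0 : c = 0
    · rw [hc0]; exact A.zero_mem
    rcases A.mem_or_inv_mem c with hc | hc
    · exact hc
    · by_cases hr : gaussRedV A ⟨HahnSeries.C c, hm⟩ = 0
      · exfalso
        have h1 : gaussRedV A (⟨HahnSeries.C c, hm⟩ * ⟨HahnSeries.C c⁻¹, C_mem_gaussRingV A hc⟩)
            = 1 := by
          have e : (⟨HahnSeries.C c, hm⟩ * ⟨HahnSeries.C c⁻¹, C_mem_gaussRingV A hc⟩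
              : gaussRingV A) = 1 := by
            apply Subtype.ext
            show (HahnSeries.C c : LaurentSeries Qbar) * HahnSeries.C c⁻¹ = 1
            rw [C_inv', mul_inv_cancel₀ (C_ne_zero' hc0)]
          rw [e, map_one]
        rw [map_mul, hr, zero_mul] at h1
        exact zero_ne_one h1
      · exact ((gaussUnit_C_iff A).1 (gaussUnit_of_gaussRedV_ne_zero A hm hr)).1
  · exact C_mem_gaussRingV A

variable (A : ValuationSubring Qbar) (L : IntermediateField ℚ Qbar)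
  [FiniteDimensional ℚ L] [Normal ℚ L]

/-- A series with coefficients in `L` comes from `L((t))`. -/
theorem exists_iotaL_eq {f : LaurentSeries Qbar} (hf : ∀ n : ℤ, f.coeff n ∈ L) :
    ∃ g : LaurentSeries ↥L, iotaL L g = f := by
  have hsupp : (Function.support fun n : ℤ => (⟨f.coeff n, hf n⟩ : ↥L)) ⊆ f.support := by
    intro n hn
    show f.coeff n ≠ 0
    intro h0
    apply hn
    exact Subtype.ext h0
  exact ⟨⟨fun n => ⟨f.coeff n, hf n⟩, f.isPWO_support.mono hsupp⟩, HahnSeries.ext rfl⟩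

/-- A primitive series with coefficients in `L` comes from a primitive series over `A ∩ L`. -/
theorem exists_prim_of_primSeries {f : LaurentSeries Qbar} (hf : ∀ n : ℤ, f.coeff n ∈ L)
    (hp : PrimSeries A.toSubring f) :
    ∃ a : LaurentSeries ↥(valL A L), redV A (toA A L a) ≠ 0 ∧ iotaL L (jO A L a) = f := by
  obtain ⟨g, hg⟩ := exists_iotaL_eq L hf
  have hco : CoeffsIn (valL A L).toSubring g := by
    intro n
    show ((g.coeff n : ↥L) : Qbar) ∈ A
    have : ((g.coeff n : ↥L) : Qbar) = f.coeff n := by rw [← hg]; rfl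
    rw [this]
    exact hp.1 n
  obtain ⟨a, ha⟩ := exists_iotaV_eq (valL A L) hco
  have hfa : iotaL L (jO A L a) = f := by
    show iotaL L (iotaV (valL A L) a) = f
    rw [ha, hg]
  refine ⟨a, ?_, hfa⟩
  obtain ⟨g', hg', hg'f⟩ := (primSeries_iff A f).1 hp
  have : g' = toA A L a := by
    apply iotaV_injective A
    rw [hg'f, iotaV_toA, hfa]
  rw [← this]
  exact hg'

/-- `x = e · a / b` with `e ∈ L` and `a, b` primitive series over `A ∩ L`. -/
def Adapted (x : LaurentSeries Qbar) : Prop :=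
  ∃ (a b : LaurentSeries ↥(valL A L)) (e : ↥L),
    redV A (toA A L a) ≠ 0 ∧ redV A (toA A L b) ≠ 0 ∧
      iotaL L (jO A L b) * x = HahnSeries.C (e : Qbar) * iotaL L (jO A L a)

/-- The trace operator on `ℚ̄((t))` (through the chosen lifts). -/
def Tser (d : ↥L) (x : LaurentSeries Qbar) : LaurentSeries Qbar :=
  ∑ γ : inertiaRes A L,
    coeffMap ((liftI A L γ : Qbar ≃ₐ[ℚ] Qbar) : Qbar →+* Qbar) (HahnSeries.C (d : Qbar) * x)

theorem Tser_iotaL (d : ↥L) (y : LaurentSeries ↥L) :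
    Tser A L d (iotaL L y) = iotaL L (TL A L d y) := by
  rw [Tser, TL, map_sum]
  refine Finset.sum_congr rfl fun γ _ => ?_
  rw [← iotaL_C, ← map_mul, coeffMap_liftI_iotaL]

theorem toA_ne_zero_of_red {b : LaurentSeries ↥(valL A L)} (hb : redV A (toA A L b) ≠ 0) :
    jO A L b ≠ 0 := by
  intro h0
  apply hb
  have : b = 0 := jO_injective A L (by rw [h0, map_zero])
  rw [this, map_zero, map_zero]

variable {A L}

/-- An adapted series comes from `L((t))`. -/
theorem Adapted.exists_eq {x : LaurentSeries Qbar} (hx : Adapted A L x) :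
    ∃ (a b : LaurentSeries ↥(valL A L)) (e : ↥L) (x' : LaurentSeries ↥L),
      redV A (toA A L a) ≠ 0 ∧ redV A (toA A L b) ≠ 0 ∧ iotaL L x' = x ∧
        jO A L b * x' = HahnSeries.C e * jO A L a := by
  obtain ⟨a, b, e, ha, hb, h⟩ := hx
  have hb0 : jO A L b ≠ 0 := toA_ne_zero_of_red A L hb
  have hb0' : iotaL L (jO A L b) ≠ 0 := fun h0 => hb0 (iotaL_injective L (by rw [h0, map_zero]))
  refine ⟨a, b, e, HahnSeries.C e * jO A L a / jO A L b, ha, hb, ?_, ?_⟩
  · rw [map_div₀, map_mul, iotaL_C, ← h, mul_div_cancel_left₀ _ hb0']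
  · rw [mul_div_cancel₀ _ hb0]

/-- The section of an adapted series has coefficients fixed by the inertia group. -/
theorem Adapted.coeffMap_Tser {x : LaurentSeries Qbar} (hx : Adapted A L x) (d : ↥L)
    (σ : Qbar ≃ₐ[ℚ] Qbar) (hσ : σ ∈ A.inertiaSubgroupIn ℚ) :
    coeffMap ((σ : Qbar ≃ₐ[ℚ] Qbar) : Qbar →+* Qbar) (Tser A L d x) = Tser A L d x := by
  obtain ⟨a, b, e, x', -, -, rfl, -⟩ := hx.exists_eq
  rw [Tser_iotaL, coeffMap_iotaL A L σ hσ, actL_TL]

theorem jO_C (e : ↥(valL A L)) :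
    jO A L (HahnSeries.C e) = HahnSeries.C ((e : ↥(valL A L)) : ↥L) := by
  show coeffMap (valL A L).subtype (HahnSeries.single 0 e) = HahnSeries.single 0 (e : ↥L)
  rw [coeffMap_single]
  rfl

/-- **The section on adapted series**: if `c` is fixed by the inertia group and `c x` is in the
Gauss ring, then `c · T x` is in the Gauss ring and has the same reduction. -/
theorem Adapted.section_gauss {x : LaurentSeries Qbar} (hx : Adapted A L x) {d : ↥L}
    (hd : IsSection A L d) {p : ℕ} (hp : p.Prime) (hA : A.LiesOverPrime p)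
    (c : Qbar) (hc : ∀ σ ∈ A.inertiaSubgroupIn ℚ, σ c = c)
    (hcx : HahnSeries.C c * x ∈ gaussRingV A) :
    ∃ h1 : HahnSeries.C c * Tser A L d x ∈ gaussRingV A,
      gaussRedV A ⟨_, h1⟩ = gaussRedV A ⟨_, hcx⟩ := by
  obtain ⟨a, b, e, x', ha, hb, hx', hbx⟩ := hx.exists_eq
  have hb0 : jO A L b ≠ 0 := toA_ne_zero_of_red A L hb
  have ha0 : jO A L a ≠ 0 := toA_ne_zero_of_red A L ha
  -- trivial cases
  by_cases hc0 : c = 0
  · subst hc0
    have e1 : HahnSeries.C (0 : Qbar) * Tser A L d x = HahnSeries.C (0 : Qbar) * x := by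
      rw [map_zero, zero_mul, zero_mul]
    refine ⟨e1 ▸ hcx, ?_⟩
    congr 1
    exact Subtype.ext e1
  by_cases he0 : e = 0
  · have hx0 : x' = 0 := by
      rw [he0, map_zero, zero_mul] at hbx
      exact (mul_eq_zero.mp hbx).resolve_left hb0
    have hxx : x = 0 := by rw [← hx', hx0, map_zero]
    have hT : Tser A L d x = 0 := by
      rw [← hx', hx0, Tser_iotaL]
      have : TL A L d 0 = 0 := by
        rw [TL]
        simp
      rw [this, map_zero]
    have e1 : HahnSeries.C c * Tser A L d x = HahnSeries.C c * x := by rw [hT, hxx]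
    refine ⟨e1 ▸ hcx, ?_⟩
    congr 1
    exact Subtype.ext e1
  -- the main case: `c = ε p^k`
  obtain ⟨k, hk⟩ := Fermat.Agent.R.H6.stmt_UnrFix p hp A hA c hc0 hc
  have hp0 : (p : ↥L) ≠ 0 := by exact_mod_cast hp.ne_zero
  have hpQ : (p : Qbar) ≠ 0 := by exact_mod_cast hp.ne_zero
  set pk : ↥L := (p : ↥L) ^ k with hpk
  have hpk0 : pk ≠ 0 := zpow_ne_zero _ hp0
  have hpkQ : ((pk : ↥L) : Qbar) = (p : Qbar) ^ k := by
    rw [hpk]
    rfl
  have hpkQ0 : ((pk : ↥L) : Qbar) ≠ 0 := by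
    rw [hpkQ]
    exact zpow_ne_zero _ hpQ
  set ε : Qbar := c / (pk : Qbar) with hε
  have hε0 : ε ≠ 0 := div_ne_zero hc0 hpkQ0
  have hεv : A.valuation ε = 1 := by
    rw [hε, map_div₀, hpkQ, map_zpow₀, hk]
    exact div_self (zpow_ne_zero _ ((Valuation.ne_zero_iff _).mpr hpQ))
  obtain ⟨hεA, hεiA⟩ := (valuation_eq_one_iff_mem A hε0).mp hεv
  have hcε : c = ε * (pk : Qbar) := by
    rw [hε, div_mul_cancel₀ _ hpkQ0]
  -- `p^k x` is in the Gauss ring
  have hpx : HahnSeries.C ((pk : ↥L) : Qbar) * x ∈ gaussRingV A := by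
    have h1 := (gaussRingV A).mul_mem (C_mem_gaussRingV A hεiA) hcx
    have h2 : HahnSeries.C ε⁻¹ * (HahnSeries.C c * x) = HahnSeries.C ((pk : ↥L) : Qbar) * x := by
      rw [← mul_assoc, ← map_mul, hcε, ← mul_assoc, inv_mul_cancel₀ hε0, one_mul]
    rwa [h2] at h1
  -- the Gauss unit `u = a / b`
  have hxu : x = HahnSeries.C (e : Qbar) * (iotaL L (jO A L a) / iotaL L (jO A L b)) := by
    rw [← hx', ← iotaL_C, ← map_div₀, ← map_mul]
    congr 1
    rw [← mul_div_assoc, ← hbx, mul_div_cancel_left₀ _ hb0]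
  have hu : GaussUnit A (iotaL L (jO A L a) / iotaL L (jO A L b)) := by
    refine ⟨toA A L b, toA A L a, hb, ha, ?_⟩
    rw [iotaV_toA, iotaV_toA]
    have hb0' : iotaL L (jO A L b) ≠ 0 :=
      fun h0 => hb0 (iotaL_injective L (by rw [h0, map_zero]))
    rw [mul_div_cancel₀ _ hb0']
  have hu0 := hu.ne_zero
  -- `p^k e ∈ A`
  have hpe : ((pk * e : ↥L) : Qbar) ∈ A := by
    rw [← C_mem_gaussRingV_iff]
    have h1 := (gaussRingV A).mul_mem hpx hu.inv.mem
    have h2 : HahnSeries.C ((pk : ↥L) : Qbar) * x * (iotaL L (jO A L a) / iotaL L (jO A L b))⁻¹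
        = HahnSeries.C (((pk * e : ↥L)) : Qbar) := by
      conv_lhs => rw [hxu]
      rw [← mul_assoc, mul_assoc, mul_inv_cancel₀ hu0, mul_one, ← map_mul]
      rfl
    rwa [h2] at h1
  set e' : ↥(valL A L) := ⟨pk * e, hpe⟩ with he'
  set a'' : LaurentSeries ↥(valL A L) := HahnSeries.C e' * a with ha''
  have hrel : jO A L b * (HahnSeries.C pk * x') = jO A L a'' := by
    rw [ha'', map_mul, jO_C, he']
    show jO A L b * (HahnSeries.C pk * x') = HahnSeries.C (pk * e) * jO A L a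
    rw [map_mul, mul_left_comm, hbx]
    ring
  obtain ⟨h1, h2, hred⟩ := hd.gauss a'' b hb (HahnSeries.C pk * x') hrel
  have hpkfix : ∀ γ : inertiaRes A L, γ • pk = pk := by
    intro γ
    show (γ : ↥L ≃ₐ[ℚ] ↥L) pk = pk
    rw [hpk, map_zpow₀, map_natCast]
  have eT : iotaL L (TL A L d (HahnSeries.C pk * x'))
      = HahnSeries.C ((pk : ↥L) : Qbar) * Tser A L d x := by
    rw [TL_C_mul A L d pk hpkfix, map_mul, iotaL_C, ← hx', Tser_iotaL]
  have eX : iotaL L (HahnSeries.C pk * x') = HahnSeries.C ((pk : ↥L) : Qbar) * x := by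
    rw [map_mul, iotaL_C, hx']
  have h1' : HahnSeries.C ((pk : ↥L) : Qbar) * Tser A L d x ∈ gaussRingV A := eT ▸ h1
  have hred' : gaussRedV A ⟨_, h1'⟩ = gaussRedV A ⟨_, hpx⟩ := by
    have e1 : (⟨_, h1'⟩ : gaussRingV A) = ⟨_, h1⟩ := Subtype.ext eT.symm
    have e2 : (⟨_, hpx⟩ : gaussRingV A) = ⟨_, h2⟩ := Subtype.ext eX.symm
    rw [e1, e2, hred]
  -- multiply by `ε`
  have hεm : (HahnSeries.C ε : LaurentSeries Qbar) ∈ gaussRingV A := C_mem_gaussRingV A hεA
  have f1 : HahnSeries.C c * Tser A L d x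
      = HahnSeries.C ε * (HahnSeries.C ((pk : ↥L) : Qbar) * Tser A L d x) := by
    rw [← mul_assoc, ← map_mul, ← hcε]
  have f2 : HahnSeries.C c * x = HahnSeries.C ε * (HahnSeries.C ((pk : ↥L) : Qbar) * x) := by
    rw [← mul_assoc, ← map_mul, ← hcε]
  have hm : HahnSeries.C c * Tser A L d x ∈ gaussRingV A := by
    rw [f1]
    exact (gaussRingV A).mul_mem hεm h1'
  refine ⟨hm, ?_⟩
  have g1 : (⟨_, hm⟩ : gaussRingV A) = ⟨_, hεm⟩ * ⟨_, h1'⟩ := Subtype.ext f1
  have g2 : (⟨_, hcx⟩ : gaussRingV A) = ⟨_, hεm⟩ * ⟨_, hpx⟩ := Subtype.ext f2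
  rw [g1, g2, map_mul, map_mul, hred']

variable (A)

/-- Zero is adapted to every `L`. -/
theorem adapted_zero (L : IntermediateField ℚ Qbar) [FiniteDimensional ℚ L] [Normal ℚ L] :
    Adapted A L 0 := by
  refine ⟨1, 1, 0, ?_, ?_, ?_⟩
  · rw [map_one, map_one]; exact one_ne_zero
  · rw [map_one, map_one]; exact one_ne_zero
  · rw [mul_zero]
    show (0 : LaurentSeries Qbar) = HahnSeries.C ((0 : ↥L) : Qbar) * _
    rw [ZeroMemClass.coe_zero, map_zero, zero_mul]

/-- **Existence of adapted fields**: a quotient of two elements of `IntSpan` is adapted to every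
finite normal `L` containing a suitable finite set. -/
theorem exists_adapted_div {a0 b0 : LaurentSeries Qbar} (ha : a0 ∈ IntSpan Qbar)
    (hb : b0 ∈ IntSpan Qbar) :
    ∃ s : Finset Qbar, ∀ (L : IntermediateField ℚ Qbar) [FiniteDimensional ℚ L] [Normal ℚ L],
      (∀ c ∈ s, c ∈ L) → Adapted A L (a0 / b0) := by
  by_cases ha0 : a0 = 0
  · refine ⟨∅, fun L _ _ _ => ?_⟩
    rw [ha0, zero_div]
    exact adapted_zero A L
  by_cases hb0 : b0 = 0
  · refine ⟨∅, fun L _ _ _ => ?_⟩
    rw [hb0, div_zero]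
    exact adapted_zero A L
  obtain ⟨ι, _, c, m, hcm⟩ := exists_repr_of_mem_intSpan ha
  obtain ⟨ι', _, c', m', hcm'⟩ := exists_repr_of_mem_intSpan hb
  obtain ⟨ca, hca, hpa⟩ := exists_primSeries_scale A ha ha0
  obtain ⟨cb, hcb, hpb⟩ := exists_primSeries_scale A hb hb0
  refine ⟨Finset.univ.image c ∪ Finset.univ.image c' ∪ {ca, cb}, fun L _ _ hL => ?_⟩
  have hcL : ∀ i, c i ∈ L := fun i => hL _ (by simp)
  have hc'L : ∀ i, c' i ∈ L := fun i => hL _ (by simp)
  have hcaL : ca ∈ L := hL _ (by simp)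
  have hcbL : cb ∈ L := hL _ (by simp)
  have hcoa : ∀ n : ℤ, (HahnSeries.C ca * a0).coeff n ∈ L := by
    intro n
    rw [HahnSeries.C_mul_eq_smul, HahnSeries.coeff_smul, smul_eq_mul, hcm, coeff_repr]
    refine L.mul_mem hcaL (L.sum_mem fun i _ => L.mul_mem (hcL i) ?_)
    exact intCast_mem L _
  have hcob : ∀ n : ℤ, (HahnSeries.C cb * b0).coeff n ∈ L := by
    intro n
    rw [HahnSeries.C_mul_eq_smul, HahnSeries.coeff_smul, smul_eq_mul, hcm', coeff_repr]
    refine L.mul_mem hcbL (L.sum_mem fun i _ => L.mul_mem (hc'L i) ?_)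
    exact intCast_mem L _
  obtain ⟨a, hared, haeq⟩ := exists_prim_of_primSeries A L hcoa hpa
  obtain ⟨b, hbred, hbeq⟩ := exists_prim_of_primSeries A L hcob hpb
  refine ⟨a, b, ⟨cb, hcbL⟩ / ⟨ca, hcaL⟩, hared, hbred, ?_⟩
  rw [haeq, hbeq]
  have e1 : (((⟨cb, hcbL⟩ / ⟨ca, hcaL⟩ : ↥L)) : Qbar) = cb / ca := rfl
  rw [e1, ← mul_assoc, ← map_mul, div_mul_cancel₀ _ hca, mul_assoc, mul_div_cancel₀ _ hb0]

/-- Every element of `F_N · ℚ̄` is adapted to every finite normal `L` containing a suitable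
finite set. -/
theorem exists_adapted (N : ℕ) {x : LaurentSeries Qbar}
    (hx : x ∈ laurentBaseChange Qbar (modularFunctionFieldFull N)) :
    ∃ s : Finset Qbar, ∀ (L : IntermediateField ℚ Qbar) [FiniteDimensional ℚ L] [Normal ℚ L],
      (∀ c ∈ s, c ∈ L) → Adapted A L x := by
  rw [laurentBaseChange_full_eq] at hx
  obtain ⟨a0, ha0, b0, hb0, rfl⟩ := IntermediateField.mem_adjoin_iff_div.1 hx
  have hle : Algebra.adjoin Qbar (divisorExpansionsC Qbar N) ≤ IntSpan Qbar :=
    Algebra.adjoin_le (divisorExpansionsC_subset_intSpan N)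
  exact exists_adapted_div A (hle ha0) (hle hb0)

/-- A finite normal extension of `ℚ` inside `ℚ̄` containing a given finite set. -/
theorem exists_normal_finite (s : Finset Qbar) :
    ∃ L : IntermediateField ℚ Qbar, FiniteDimensional ℚ L ∧ Normal ℚ L ∧ ∀ c ∈ s, c ∈ L := by
  let P : Polynomial ℚ := ∏ c ∈ s, minpoly ℚ c
  have hP0 : P ≠ 0 := Finset.prod_ne_zero_iff.mpr fun c _ =>
    minpoly.ne_zero ((AlgebraicClosure.isAlgebraic ℚ).isAlgebraic c).isIntegral
  let L : IntermediateField ℚ Qbar := IntermediateField.adjoin ℚ (P.rootSet Qbar)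
  have hsplit : (P.map (algebraMap ℚ Qbar)).Splits := IsAlgClosed.splits _
  have hsf : P.IsSplittingField ℚ L := IntermediateField.adjoin_rootSet_isSplittingField hsplit
  refine ⟨L, Polynomial.IsSplittingField.finiteDimensional L P,
    Normal.of_isSplittingField P, fun c hc => ?_⟩
  apply IntermediateField.subset_adjoin
  rw [Polynomial.mem_rootSet]
  refine ⟨hP0, ?_⟩
  rw [map_prod]
  exact Finset.prod_eq_zero hc (minpoly.aeval ℚ c)

end Fermat.Agent.BADP.H11
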