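import Fermat.Agent.BADP.H11_Arith0Res

/-!
# S44 BADP, leaf ARITH-0 (helper11), part 2: the trace section of an inertial action

Abstract setting: a field `L`, a finite group `Γ` acting faithfully on `L`, a valuation subring `O`
of `L` on which `Γ` acts inertially, such that the fixed field `E = L^Γ` is discretely valued by
`O ∩ E` (uniformiser `π`) with perfect residue field.  Then there is `d ∈ L` such that
`λ(a) := ∑_γ γ (d a)` (an `E`-linear map `L → E`) maps `O` into `O` and is the identity modulo the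
maximal ideal of `O`  (`exists_trace_section`).

Proof: `O` is the integral closure of the discrete valuation ring `O ∩ E` in `L`, hence free of
finite rank; lift the residue map on a basis (`exists_fixed_residue`) and represent the resulting
functional by the trace form.
-/

set_option autoImplicit false
set_option linter.style.haveILetI false

namespace Fermat.Agent.BADP.H11

open Polynomial

section TraceSection

variable {L : Type*} [Field L] {Γ : Type*} [Group Γ] [Fintype Γ] [MulSemiringAction Γ L]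
variable (O : ValuationSubring L)

/-- The coefficients of the characteristic polynomial of an element of a stable valuation ring
are in the valuation ring. -/
theorem charpoly_coeff_mem (hstab : ∀ (γ : Γ) (a : L), a ∈ O → γ • a ∈ O) (a : L) (ha : a ∈ O)
    (i : ℕ) : (MulSemiringAction.charpoly Γ a).coeff i ∈ O := by
  classical
  let PO : (↥O)[X] := ∏ γ : Γ, (X - C (⟨γ • a, hstab γ a ha⟩ : ↥O))
  have hPO : PO.map O.subtype = MulSemiringAction.charpoly Γ a := by
    rw [MulSemiringAction.charpoly_eq, Polynomial.map_prod]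
    refine Finset.prod_congr rfl fun γ _ => ?_
    rw [Polynomial.map_sub, map_X, map_C]
    rfl
  rw [← hPO, coeff_map]
  exact (PO.coeff i).2

/-- Powers of an element of valuation `< 1`. -/
theorem val_zpow_le_one_iff {π : L} (hπ0 : π ≠ 0) (hπ : π ∈ O.nonunits) (k : ℤ) :
    O.valuation π ^ k ≤ 1 ↔ 0 ≤ k := by
  have h1 : O.valuation π < 1 := O.mem_nonunits_iff.mp hπ
  have h0 : O.valuation π ≠ 0 := (Valuation.ne_zero_iff _).mpr hπ0
  have h0' : 0 < O.valuation π := zero_lt_iff.mpr h0
  constructor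
  · intro h
    by_contra hk
    rw [not_le] at hk
    have h2 : 1 < O.valuation π ^ k := by
      obtain ⟨n, rfl⟩ : ∃ n : ℕ, k = -((n : ℤ) + 1) := ⟨(-k - 1).toNat, by omega⟩
      rw [zpow_neg, ← Nat.cast_succ, zpow_natCast]
      have h3 : O.valuation π ^ (n + 1) < 1 := pow_lt_one₀ zero_le h1 (Nat.succ_ne_zero n)
      exact (one_lt_inv₀ (pow_pos h0' _)).mpr h3
    exact absurd h (not_le.mpr h2)
  · intro hk
    obtain ⟨n, rfl⟩ := Int.eq_ofNat_of_zero_le hk
    rw [zpow_natCast]
    exact pow_le_one₀ zero_le h1.le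

theorem val_zpow_eq_one_iff {π : L} (hπ0 : π ≠ 0) (hπ : π ∈ O.nonunits) (k : ℤ) :
    O.valuation π ^ k = 1 ↔ k = 0 := by
  have h1 : O.valuation π < 1 := O.mem_nonunits_iff.mp hπ
  have h0 : O.valuation π ≠ 0 := (Valuation.ne_zero_iff _).mpr hπ0
  constructor
  · intro h
    have hk1 : 0 ≤ k := (val_zpow_le_one_iff O hπ0 hπ k).mp h.le
    have hk2 : 0 ≤ -k := by
      apply (val_zpow_le_one_iff O hπ0 hπ (-k)).mp
      rw [zpow_neg, h, inv_one]
    omega
  · rintro rfl
    exact zpow_zero _

/-- The valuation ring `O ∩ E` of the fixed field `E = L^Γ`. -/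
abbrev fixedVal : ValuationSubring (FixedPoints.subfield Γ L) :=
  O.comap (algebraMap (FixedPoints.subfield Γ L) L)

omit [Fintype Γ] in
theorem mem_fixedVal_iff (x : FixedPoints.subfield Γ L) :
    x ∈ fixedVal (Γ := Γ) O ↔ (x : L) ∈ O := Iff.rfl

omit [Fintype Γ] in
variable {O} in
/-- The valuation ring of the fixed field is a discrete valuation ring. -/
theorem isDVR_fixedVal {π : L} (hπ0 : π ≠ 0) (hπ : π ∈ O.nonunits) (hπfix : ∀ γ : Γ, γ • π = π)
    (hdvr : ∀ x : L, x ≠ 0 → (∀ γ : Γ, γ • x = x) →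
      ∃ k : ℤ, O.valuation x = O.valuation π ^ k) :
    IsDiscreteValuationRing ↥(fixedVal (Γ := Γ) O) := by
  have hv0 : O.valuation π ≠ 0 := (Valuation.ne_zero_iff _).mpr hπ0
  have key : ∀ x : ↥(fixedVal (Γ := Γ) O), x ≠ 0 →
      ∃ n : ℕ, O.valuation (((x : FixedPoints.subfield Γ L) : L)) = O.valuation π ^ n := by
    intro x hx
    have hxL : (((x : FixedPoints.subfield Γ L) : L)) ≠ 0 := by
      intro h
      apply hx
      apply Subtype.ext
      apply Subtype.ext
      exact h
    obtain ⟨k, hk⟩ := hdvr _ hxL (fun γ => (x : FixedPoints.subfield Γ L).2 γ)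
    have h1 : O.valuation (((x : FixedPoints.subfield Γ L) : L)) ≤ 1 :=
      (O.valuation_le_one_iff _).mpr x.2
    rw [hk] at h1
    obtain ⟨n, rfl⟩ := Int.eq_ofNat_of_zero_le ((val_zpow_le_one_iff O hπ0 hπ k).mp h1)
    exact ⟨n, by rw [hk, zpow_natCast]⟩
  have hunit : ∀ x : ↥(fixedVal (Γ := Γ) O),
      O.valuation (((x : FixedPoints.subfield Γ L) : L)) = 1 → IsUnit x := by
    intro x hx
    have hx0 : (x : FixedPoints.subfield Γ L) ≠ 0 := by
      intro h
      rw [h] at hx
      simp at hx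
    have hinv : (x : FixedPoints.subfield Γ L)⁻¹ ∈ fixedVal (Γ := Γ) O := by
      rw [mem_fixedVal_iff, ← O.valuation_le_one_iff]
      push_cast
      rw [map_inv₀, hx, inv_one]
    refine ⟨⟨x, ⟨_, hinv⟩, ?_, ?_⟩, rfl⟩
    · apply Subtype.ext
      show (x : FixedPoints.subfield Γ L) * (x : FixedPoints.subfield Γ L)⁻¹ = 1
      exact mul_inv_cancel₀ hx0
    · apply Subtype.ext
      show (x : FixedPoints.subfield Γ L)⁻¹ * (x : FixedPoints.subfield Γ L) = 1
      exact inv_mul_cancel₀ hx0
  have hinj : ∀ i j : ℕ, O.valuation π ^ i = O.valuation π ^ j → i = j := by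
    intro i j h
    have h1 : O.valuation π ^ ((i : ℤ) - (j : ℤ)) = 1 := by
      rw [zpow_sub₀ hv0, zpow_natCast, zpow_natCast, h, div_self (pow_ne_zero _ hv0)]
    have := (val_zpow_eq_one_iff O hπ0 hπ _).mp h1
    omega
  let πE : FixedPoints.subfield Γ L := ⟨π, hπfix⟩
  have hπE0 : πE ≠ 0 := fun h => hπ0 (congrArg Subtype.val h)
  let π0 : ↥(fixedVal (Γ := Γ) O) := ⟨πE, O.nonunits_le hπ⟩
  have hπ00 : π0 ≠ 0 := fun h => hπE0 (congrArg Subtype.val h)
  refine IsDiscreteValuationRing.ofHasUnitMulPowIrreducibleFactorization ⟨π0, ?_, ?_⟩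
  · rw [irreducible_iff]
    refine ⟨?_, fun a b hab => ?_⟩
    · intro hu
      obtain ⟨u, hu⟩ := hu
      have h1 : π0 * ((u⁻¹ : (↥(fixedVal (Γ := Γ) O))ˣ) : ↥(fixedVal (Γ := Γ) O)) = 1 := by
        rw [← hu, Units.mul_inv]
      have h2' : π * (((((u⁻¹ : (↥(fixedVal (Γ := Γ) O))ˣ) : ↥(fixedVal (Γ := Γ) O)) :
            FixedPoints.subfield Γ L) : L)) = 1 :=
        congrArg (fun z : ↥(fixedVal (Γ := Γ) O) => (((z : FixedPoints.subfield Γ L) : L))) h1
      have h2 := congrArg O.valuation h2'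
      rw [map_mul, map_one] at h2
      have h3 : O.valuation
          (((((u⁻¹ : (↥(fixedVal (Γ := Γ) O))ˣ) : ↥(fixedVal (Γ := Γ) O)) :
            FixedPoints.subfield Γ L) : L)) ≤ 1 :=
        (O.valuation_le_one_iff _).mpr
          (((u⁻¹ : (↥(fixedVal (Γ := Γ) O))ˣ) : ↥(fixedVal (Γ := Γ) O))).2
      have h4 : O.valuation π < 1 := O.mem_nonunits_iff.mp hπ
      have h5 : O.valuation π * O.valuation
          (((((u⁻¹ : (↥(fixedVal (Γ := Γ) O))ˣ) : ↥(fixedVal (Γ := Γ) O)) :
            FixedPoints.subfield Γ L) : L)) < 1 :=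
        mul_lt_one_of_lt_of_le h4 h3
      exact absurd h2 (ne_of_lt h5)
    · have ha0 : a ≠ 0 := by
        rintro rfl
        rw [zero_mul] at hab
        exact hπ00 hab
      have hb0 : b ≠ 0 := by
        rintro rfl
        rw [mul_zero] at hab
        exact hπ00 hab
      obtain ⟨i, hi⟩ := key a ha0
      obtain ⟨j, hj⟩ := key b hb0
      have h2' : π = ((a : FixedPoints.subfield Γ L) : L) * ((b : FixedPoints.subfield Γ L) : L) :=
        congrArg (fun z : ↥(fixedVal (Γ := Γ) O) => (((z : FixedPoints.subfield Γ L) : L))) hab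
      have h2 := congrArg O.valuation h2'
      rw [map_mul, hi, hj, ← pow_add] at h2
      have h3 : O.valuation π ^ 1 = O.valuation π ^ (i + j) := by
        rw [pow_one]
        exact h2
      have h4 := hinj _ _ h3
      rcases Nat.eq_zero_or_pos i with h | h
      · left
        apply hunit
        rw [hi, h, pow_zero]
      · right
        apply hunit
        have : j = 0 := by omega
        rw [hj, this, pow_zero]
  · intro x hx
    obtain ⟨n, hn⟩ := key x hx
    refine ⟨n, ?_⟩
    have hw : (x : FixedPoints.subfield Γ L) / πE ^ n ∈ fixedVal (Γ := Γ) O := by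
      rw [mem_fixedVal_iff, ← O.valuation_le_one_iff]
      push_cast
      rw [map_div₀, map_pow, hn]
      show O.valuation π ^ n / O.valuation π ^ n ≤ 1
      rw [div_self (pow_ne_zero _ hv0)]
    have hwu : IsUnit (⟨_, hw⟩ : ↥(fixedVal (Γ := Γ) O)) := by
      apply hunit
      show O.valuation ((((x : FixedPoints.subfield Γ L) / πE ^ n : FixedPoints.subfield Γ L) : L))
        = 1
      push_cast
      rw [map_div₀, map_pow, hn]
      show O.valuation π ^ n / O.valuation π ^ n = 1
      rw [div_self (pow_ne_zero _ hv0)]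
    obtain ⟨u, hu⟩ := hwu
    refine ⟨u, ?_⟩
    rw [hu]
    apply Subtype.ext
    show πE ^ n * ((x : FixedPoints.subfield Γ L) / πE ^ n) = x
    rw [mul_div_cancel₀ _ (pow_ne_zero _ hπE0)]

variable [FaithfulSMul Γ L]

/-- **The trace section.**  There is `d ∈ L` such that `a ↦ ∑_γ γ (d a)` maps `O` to `O` and is
congruent to the identity modulo the maximal ideal of `O`. -/
theorem exists_trace_section (p : ℕ) [hp : Fact p.Prime] (hpO : (p : L) ∈ O.nonunits)
    (hstab : ∀ (γ : Γ) (a : L), a ∈ O → γ • a ∈ O)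
    (hinert : ∀ (γ : Γ) (a : L), a ∈ O → γ • a - a ∈ O.nonunits)
    (hperf : ∀ x ∈ O, (∀ γ : Γ, γ • x = x) →
      ∃ y ∈ O, (∀ γ : Γ, γ • y = y) ∧ x - y ^ p ∈ O.nonunits)
    {π : L} (hπ0 : π ≠ 0) (hπ : π ∈ O.nonunits) (hπfix : ∀ γ : Γ, γ • π = π)
    (hdvr : ∀ x : L, x ≠ 0 → (∀ γ : Γ, γ • x = x) →
      ∃ k : ℤ, O.valuation x = O.valuation π ^ k) :
    ∃ d : L, ∀ a ∈ O,
      (∑ γ : Γ, γ • (d * a)) ∈ O ∧ (∑ γ : Γ, γ • (d * a)) - a ∈ O.nonunits := by
  classical
  haveI : IsDiscreteValuationRing ↥(fixedVal (Γ := Γ) O) := isDVR_fixedVal hπ0 hπ hπfix hdvr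
  -- algebra structures
  let f : ↥(fixedVal (Γ := Γ) O) →+* ↥O :=
    { toFun := fun x => ⟨((x : FixedPoints.subfield Γ L) : L), x.2⟩
      map_one' := rfl
      map_mul' := fun _ _ => rfl
      map_zero' := rfl
      map_add' := fun _ _ => rfl }
  letI algO : Algebra ↥(fixedVal (Γ := Γ) O) ↥O := f.toAlgebra
  letI algL : Algebra ↥(fixedVal (Γ := Γ) O) L := (O.subtype.comp f).toAlgebra
  haveI : IsScalarTower ↥(fixedVal (Γ := Γ) O) ↥O L := IsScalarTower.of_algebraMap_eq (fun x => rfl)
  haveI : IsScalarTower ↥(fixedVal (Γ := Γ) O) (FixedPoints.subfield Γ L) L :=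
    IsScalarTower.of_algebraMap_eq (fun x => rfl)
  -- `O` is the integral closure of `O ∩ E` in `L`
  haveI hIC : IsIntegralClosure ↥O ↥(fixedVal (Γ := Γ) O) L :=
    { algebraMap_injective := Subtype.val_injective
      isIntegral_iff := by
        intro x
        constructor
        · intro hx
          have h1 : IsIntegral ↥O x := hx.tower_top
          exact IsIntegrallyClosed.isIntegral_iff.mp h1
        · rintro ⟨y, rfl⟩
          have hlift : MulSemiringAction.charpoly Γ (y : L)
              ∈ Polynomial.lifts (algebraMap ↥(fixedVal (Γ := Γ) O) L) := by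
            rw [Polynomial.lifts_iff_coeff_lifts]
            intro n
            refine ⟨⟨⟨_, fun γ => MulSemiringAction.smul_coeff_charpoly (y : L) n γ⟩,
              charpoly_coeff_mem O hstab (y : L) y.2 n⟩, rfl⟩
          obtain ⟨q, hq1, -, hq2⟩ := Polynomial.lifts_and_natDegree_eq_and_monic hlift
            (MulSemiringAction.monic_charpoly Γ (y : L))
          refine ⟨q, hq2, ?_⟩
          rw [← Polynomial.eval_map, hq1]
          exact MulSemiringAction.eval_charpoly Γ (y : L) }
  haveI : Module.IsTorsionFree ↥(fixedVal (Γ := Γ) O) L :=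
    .trans_faithfulSMul ↥(fixedVal (Γ := Γ) O) (FixedPoints.subfield Γ L) L
  haveI : Module.Finite ↥(fixedVal (Γ := Γ) O) ↥O :=
    IsIntegralClosure.finite ↥(fixedVal (Γ := Γ) O) (FixedPoints.subfield Γ L) L ↥O
  haveI : Module.Free ↥(fixedVal (Γ := Γ) O) ↥O :=
    IsIntegralClosure.module_free ↥(fixedVal (Γ := Γ) O) (FixedPoints.subfield Γ L) L ↥O
  haveI : IsLocalization
      (Algebra.algebraMapSubmonoid ↥O (nonZeroDivisors ↥(fixedVal (Γ := Γ) O))) L :=
    IsIntegralClosure.isLocalization ↥(fixedVal (Γ := Γ) O) (FixedPoints.subfield Γ L) L ↥O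
  let b := Module.Free.chooseBasis ↥(fixedVal (Γ := Γ) O) ↥O
  let bL : Module.Basis _ (FixedPoints.subfield Γ L) L :=
    b.localizationLocalization (FixedPoints.subfield Γ L)
      (nonZeroDivisors ↥(fixedVal (Γ := Γ) O)) L
  -- fixed lifts of the residues of the basis
  have hβ : ∀ i, ∃ β ∈ O, (∀ γ : Γ, γ • β = β) ∧ ((b i : ↥O) : L) - β ∈ O.nonunits :=
    fun i => exists_fixed_residue O p hpO hstab hinert hperf _ (b i).2
  choose β hβO hβfix hβres using hβ
  let βE : _ → FixedPoints.subfield Γ L := fun i => ⟨β i, hβfix i⟩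
  let φ : L →ₗ[FixedPoints.subfield Γ L] FixedPoints.subfield Γ L :=
    bL.constr (FixedPoints.subfield Γ L) βE
  let d : L := ((Algebra.traceForm (FixedPoints.subfield Γ L) L).toDual
    (traceForm_nondegenerate (FixedPoints.subfield Γ L) L)).symm φ
  have hd : ∀ y : L, Algebra.trace (FixedPoints.subfield Γ L) L (d * y) = φ y := by
    intro y
    rw [← Algebra.traceForm_apply]
    exact LinearMap.BilinForm.apply_toDual_symm_apply φ y
  have hsum : ∀ y : L, (∑ γ : Γ, γ • y)
      = ((Algebra.trace (FixedPoints.subfield Γ L) L y : FixedPoints.subfield Γ L) : L) := by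
    intro y
    have h1 := trace_eq_sum_automorphisms (K := FixedPoints.subfield Γ L) (L := L) y
    have h2 : algebraMap (FixedPoints.subfield Γ L) L
        (Algebra.trace (FixedPoints.subfield Γ L) L y)
        = ((Algebra.trace (FixedPoints.subfield Γ L) L y : FixedPoints.subfield Γ L) : L) := rfl
    rw [← h2, h1]
    exact Fintype.sum_equiv (FixedPoints.toAlgAutMulEquiv Γ L).toEquiv _ _ (fun γ => rfl)
  refine ⟨d, fun a ha => ?_⟩
  set aO : ↥O := ⟨a, ha⟩ with haO
  -- the value of the section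
  have hval : (∑ γ : Γ, γ • (d * a))
      = ∑ i, ((b.repr aO i : ↥(fixedVal (Γ := Γ) O)) : FixedPoints.subfield Γ L) * (β i : L) := by
    rw [hsum, hd]
    have h1 : φ a = ∑ i, bL.repr a i • βE i := by
      show bL.constr (FixedPoints.subfield Γ L) βE a = _
      rw [Module.Basis.constr_apply_fintype]
      rfl
    have h2 : ∀ i, bL.repr a i
        = algebraMap ↥(fixedVal (Γ := Γ) O) (FixedPoints.subfield Γ L) (b.repr aO i) := by
      intro i
      have : a = algebraMap ↥O L aO := rfl
      rw [this]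
      exact Module.Basis.localizationLocalization_repr_algebraMap _ _ _ b aO i
    rw [h1]
    push_cast
    refine Finset.sum_congr rfl fun i _ => ?_
    rw [h2 i]
    rfl
  -- the same sum inside `O`
  let tO : ↥O := ∑ i, f (b.repr aO i) * ⟨β i, hβO i⟩
  have htO : (tO : L) = ∑ γ : Γ, γ • (d * a) := by
    rw [hval]
    show O.subtype tO = _
    rw [map_sum]
    rfl
  have haO' : aO = ∑ i, f (b.repr aO i) * b i := by
    conv_lhs => rw [← b.sum_repr aO]
    refine Finset.sum_congr rfl fun i _ => ?_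
    rw [Algebra.smul_def]
    rfl
  have hdiff : tO - aO ∈ IsLocalRing.maximalIdeal ↥O := by
    have h1 : tO - aO = ∑ i, f (b.repr aO i) * (⟨β i, hβO i⟩ - b i) := by
      conv_lhs => rw [haO']
      rw [← Finset.sum_sub_distrib]
      refine Finset.sum_congr rfl fun i _ => ?_
      ring
    rw [h1]
    refine Ideal.sum_mem _ fun i _ => Ideal.mul_mem_left _ _ ?_
    rw [← ValuationSubring.coe_mem_nonunits_iff]
    have h2 : (((⟨β i, hβO i⟩ : ↥O) - b i : ↥O) : L) = -(((b i : ↥O) : L) - β i) := by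
      push_cast
      ring
    rw [h2]
    have h3 := hβres i
    rw [O.mem_nonunits_iff] at h3 ⊢
    rwa [Valuation.map_neg]
  constructor
  · rw [← htO]
    exact tO.2
  · rw [← htO]
    have := (ValuationSubring.coe_mem_nonunits_iff (A := O) (a := tO - aO)).mpr hdiff
    simpa using this

end TraceSection

end Fermat.Agent.BADP.H11
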