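import Fermat.Agent.BADP.H11_Arith0Alg
import Fermat.Agent.S05.H95_Inertia
import Fermat.Agent.R.H6_UnrFix
import Fermat.Agent.FL.H38_UnrConst

/-!
# S44 BADP, leaf ARITH-0 (helper11), part 3: the field-level section `λ : L → L ∩ ℚ̄^I`

`A` a valuation subring of `ℚ̄` over `p`, `I` its inertia group, `L ⊂ ℚ̄` a finite normal
extension of `ℚ`, `Γ = inertiaRes A L` the image of `I` in `Gal(L/ℚ)`.

* `exists_section_field` : there is `d ∈ L` such that for every `a ∈ L ∩ A` the element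
  `∑_{γ ∈ Γ} γ (d a)` lies in `A` and is congruent to `a` modulo the maximal ideal of `A`.

Inputs: `exists_trace_section` (abstract), `R.H6.stmt_UnrFix` (the inertia field is unramified),
`FL.H38.exists_pow_eq_one_residue` (the residue field is algebraic over `𝔽_p`).
-/

set_option autoImplicit false
set_option linter.style.haveILetI false
set_option linter.unusedSectionVars false

noncomputable section

namespace Fermat.Agent.BADP.H11

local notation "Qbar" => AlgebraicClosure ℚ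

section General

variable {K M : Type*} [Field K] [Field M]

theorem valuation_eq_one_iff_mem (B : ValuationSubring M) {z : M} (hz : z ≠ 0) :
    B.valuation z = 1 ↔ z ∈ B ∧ z⁻¹ ∈ B := by
  constructor
  · intro h
    refine ⟨(B.valuation_le_one_iff z).mp h.le, (B.valuation_le_one_iff _).mp ?_⟩
    rw [map_inv₀, h, inv_one]
  · rintro ⟨h1, h2⟩
    have e1 := (B.valuation_le_one_iff z).mpr h1
    have e2 := (B.valuation_le_one_iff _).mpr h2
    rw [map_inv₀] at e2
    have h0 : B.valuation z ≠ 0 := (Valuation.ne_zero_iff _).mpr hz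
    have e3 : 1 ≤ B.valuation z := (inv_le_one₀ (zero_lt_iff.mpr h0)).mp e2
    exact le_antisymm e1 e3

theorem comap_valuation_eq_one_iff (B : ValuationSubring M) (f : K →+* M) {z : K} (hz : z ≠ 0) :
    (B.comap f).valuation z = 1 ↔ B.valuation (f z) = 1 := by
  rw [valuation_eq_one_iff_mem _ hz, valuation_eq_one_iff_mem _ ((map_ne_zero f).mpr hz),
    ValuationSubring.mem_comap, ValuationSubring.mem_comap, map_inv₀]

theorem mem_comap_nonunits_iff (B : ValuationSubring M) (f : K →+* M) (z : K) :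
    z ∈ (B.comap f).nonunits ↔ f z ∈ B.nonunits := by
  rw [ValuationSubring.mem_nonunits_iff_or, ValuationSubring.mem_nonunits_iff_or,
    ValuationSubring.mem_comap, map_inv₀, map_eq_zero]

end General

variable (A : ValuationSubring Qbar) (L : IntermediateField ℚ Qbar)
  [FiniteDimensional ℚ L] [Normal ℚ L]

/-- The image of the inertia group of `A` in `Gal(L/ℚ)`. -/
def inertiaRes : Subgroup (L ≃ₐ[ℚ] L) :=
  (A.inertiaSubgroupIn ℚ).map (AlgEquiv.restrictNormalHom L)

instance : Fintype ↥(inertiaRes A L) := Fintype.ofFinite _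

/-- The valuation ring `A ∩ L` of `L`. -/
abbrev valL : ValuationSubring L := A.comap (algebraMap L Qbar)

theorem mem_valL_iff (x : L) : x ∈ valL A L ↔ (x : Qbar) ∈ A := Iff.rfl

theorem mem_valL_nonunits_iff (x : L) : x ∈ (valL A L).nonunits ↔ (x : Qbar) ∈ A.nonunits :=
  mem_comap_nonunits_iff A (algebraMap L Qbar) x

/-- Every element of the restricted inertia group lifts to the inertia group. -/
theorem exists_lift (γ : inertiaRes A L) :
    ∃ σ ∈ A.inertiaSubgroupIn ℚ,
      ∀ x : L, σ (x : Qbar) = (((γ : L ≃ₐ[ℚ] L) x : L) : Qbar) := by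
  obtain ⟨σ, hσ, hγ⟩ := γ.2
  refine ⟨σ, hσ, fun x => ?_⟩
  rw [← hγ]
  exact (AlgEquiv.restrictNormal_commutes σ L x).symm

/-- A chosen lift of `γ ∈ Γ` to the inertia group. -/
def liftI (γ : inertiaRes A L) : Qbar ≃ₐ[ℚ] Qbar := (exists_lift A L γ).choose

theorem liftI_mem (γ : inertiaRes A L) : liftI A L γ ∈ A.inertiaSubgroupIn ℚ :=
  (exists_lift A L γ).choose_spec.1

theorem liftI_apply (γ : inertiaRes A L) (x : L) :
    liftI A L γ (x : Qbar) = (((γ : L ≃ₐ[ℚ] L) x : L) : Qbar) :=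
  (exists_lift A L γ).choose_spec.2 x

/-- The restriction of an element of the inertia group. -/
def resI (σ : Qbar ≃ₐ[ℚ] Qbar) (hσ : σ ∈ A.inertiaSubgroupIn ℚ) : inertiaRes A L :=
  ⟨AlgEquiv.restrictNormalHom L σ, ⟨σ, hσ, rfl⟩⟩

theorem resI_apply (σ : Qbar ≃ₐ[ℚ] Qbar) (hσ : σ ∈ A.inertiaSubgroupIn ℚ) (x : L) :
    ((((resI A L σ hσ : inertiaRes A L) : L ≃ₐ[ℚ] L) x : L) : Qbar) = σ (x : Qbar) :=
  AlgEquiv.restrictNormal_commutes σ L x

theorem smul_valL_mem (γ : inertiaRes A L) (a : L) (ha : a ∈ valL A L) :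
    γ • a ∈ valL A L := by
  rw [mem_valL_iff] at ha ⊢
  show ((((γ : L ≃ₐ[ℚ] L) a : L)) : Qbar) ∈ A
  rw [← liftI_apply]
  exact (Fermat.Agent.S05.H95.mem_iff_of_mem_inertia A (liftI_mem A L γ)).mpr ha

theorem smul_sub_mem_nonunits (γ : inertiaRes A L) (a : L) (ha : a ∈ valL A L) :
    γ • a - a ∈ (valL A L).nonunits := by
  rw [mem_valL_nonunits_iff]
  rw [mem_valL_iff] at ha
  show (((((γ : L ≃ₐ[ℚ] L) a : L)) : Qbar) - (a : Qbar)) ∈ A.nonunits
  rw [← liftI_apply]
  exact Fermat.Agent.S05.H95.sub_mem_nonunits_of_mem_inertia A (liftI_mem A L γ) ha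

/-- A `Γ`-fixed element of `L` is fixed by the inertia group. -/
theorem fixed_of_fixed (x : L) (hx : ∀ γ : inertiaRes A L, γ • x = x)
    (σ : Qbar ≃ₐ[ℚ] Qbar) (hσ : σ ∈ A.inertiaSubgroupIn ℚ) : σ (x : Qbar) = x := by
  rw [← resI_apply A L σ hσ x]
  exact congrArg (fun y : L => (y : Qbar)) (hx (resI A L σ hσ))

/-- Perfectness of the residue field, inside the fixed ring. -/
theorem exists_pth_root {p : ℕ} (hp : p.Prime) (hA : A.LiesOverPrime p) (x : L)
    (hx : x ∈ valL A L) (hfix : ∀ γ : inertiaRes A L, γ • x = x) :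
    ∃ y ∈ valL A L, (∀ γ : inertiaRes A L, γ • y = y) ∧ x - y ^ p ∈ (valL A L).nonunits := by
  rw [mem_valL_iff] at hx
  by_cases h0 : IsLocalRing.residue ↥A ⟨(x : Qbar), hx⟩ = 0
  · refine ⟨0, zero_mem _, fun γ => smul_zero γ, ?_⟩
    rw [zero_pow hp.ne_zero, sub_zero, mem_valL_nonunits_iff]
    rw [IsLocalRing.residue_eq_zero_iff, ← ValuationSubring.coe_mem_nonunits_iff] at h0
    exact h0
  · obtain ⟨m, hm0, hmp, hm⟩ := Fermat.Agent.FL.H38.exists_pow_eq_one_residue A hp hA _ h0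
    -- `p j = 1 + m t`
    obtain ⟨j, t, hjt⟩ : ∃ j t : ℕ, p * j = 1 + m * t := by
      rcases Nat.lt_or_ge 1 m with h1 | h1
      · obtain ⟨j, -, hj⟩ := Nat.exists_mul_mod_eq_one_of_coprime hmp.symm h1
        refine ⟨j, p * j / m, ?_⟩
        have := Nat.div_add_mod (p * j) m
        rw [hj] at this
        omega
      · have : m = 1 := by omega
        subst this
        exact ⟨1, p - 1, by have := hp.pos; omega⟩
    refine ⟨x ^ j, ?_, fun γ => ?_, ?_⟩
    · rw [mem_valL_iff]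
      push_cast
      exact pow_mem hx j
    · rw [smul_pow', hfix]
    · rw [mem_valL_nonunits_iff]
      have e1 : IsLocalRing.residue ↥A (⟨(x : Qbar), hx⟩ - (⟨(x : Qbar), hx⟩ ^ j) ^ p) = 0 := by
        rw [map_sub, map_pow, map_pow, ← pow_mul, mul_comm j p, hjt, pow_add, pow_one, pow_mul,
          hm, one_pow, mul_one, sub_self]
      rw [IsLocalRing.residue_eq_zero_iff, ← ValuationSubring.coe_mem_nonunits_iff] at e1
      have e2 : (((⟨(x : Qbar), hx⟩ - (⟨(x : Qbar), hx⟩ ^ j) ^ p : ↥A)) : Qbar)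
          = ((x - (x ^ j) ^ p : L) : Qbar) := by
        push_cast
        rfl
      rw [e2] at e1
      exact e1

/-- The fixed field is discretely valued with uniformiser `p`. -/
theorem exists_zpow_valL {p : ℕ} (hp : p.Prime) (hA : A.LiesOverPrime p) (x : L) (hx0 : x ≠ 0)
    (hfix : ∀ γ : inertiaRes A L, γ • x = x) :
    ∃ k : ℤ, (valL A L).valuation x = (valL A L).valuation (p : L) ^ k := by
  have hxQ : (x : Qbar) ≠ 0 := fun h => hx0 (Subtype.ext h)
  obtain ⟨k, hk⟩ := Fermat.Agent.R.H6.stmt_UnrFix p hp A hA (x : Qbar) hxQ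
    (fun σ hσ => fixed_of_fixed A L x hfix σ hσ)
  refine ⟨k, ?_⟩
  have hp0 : (p : L) ≠ 0 := by exact_mod_cast hp.ne_zero
  have hpQ : (p : Qbar) ≠ 0 := by exact_mod_cast hp.ne_zero
  have hz0 : x / (p : L) ^ k ≠ 0 := div_ne_zero hx0 (zpow_ne_zero _ hp0)
  have h1 : (valL A L).valuation (x / (p : L) ^ k) = 1 := by
    rw [comap_valuation_eq_one_iff A (algebraMap L Qbar) hz0]
    have e : algebraMap L Qbar (x / (p : L) ^ k) = (x : Qbar) / (p : Qbar) ^ k := by
      rw [map_div₀, map_zpow₀, map_natCast]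
      rfl
    rw [e, map_div₀, map_zpow₀, hk]
    exact div_self (zpow_ne_zero _ ((Valuation.ne_zero_iff _).mpr hpQ))
  rw [map_div₀, map_zpow₀] at h1
  have h2 : (valL A L).valuation (p : L) ^ k ≠ 0 :=
    zpow_ne_zero _ ((Valuation.ne_zero_iff _).mpr hp0)
  exact (div_eq_one_iff_eq h2).mp h1

/-- **The field-level section.**  There is `d ∈ L` such that for all `a ∈ L ∩ A` the element
`∑_γ γ (d a)` is in `A` and congruent to `a` modulo the maximal ideal. -/
theorem exists_section_field {p : ℕ} (hp : p.Prime) (hA : A.LiesOverPrime p) :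
    ∃ d : L, ∀ a : L, (a : Qbar) ∈ A →
      (((∑ γ : inertiaRes A L, γ • (d * a) : L) : Qbar) ∈ A) ∧
      (((∑ γ : inertiaRes A L, γ • (d * a) : L) : Qbar) - (a : Qbar)) ∈ A.nonunits := by
  haveI : Fact p.Prime := ⟨hp⟩
  have hp0 : (p : L) ≠ 0 := by exact_mod_cast hp.ne_zero
  have hpO : (p : L) ∈ (valL A L).nonunits := by
    rw [mem_valL_nonunits_iff]
    have : (((p : L) : L) : Qbar) = (p : Qbar) := by push_cast; rfl
    rw [this]
    exact hA
  have hpfix : ∀ γ : inertiaRes A L, γ • (p : L) = (p : L) := fun γ =>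
    map_natCast (γ : L ≃ₐ[ℚ] L) p
  obtain ⟨d, hd⟩ := exists_trace_section (Γ := inertiaRes A L) (valL A L) p hpO
    (smul_valL_mem A L) (smul_sub_mem_nonunits A L) (exists_pth_root A L hp hA)
    hp0 hpO hpfix (exists_zpow_valL A L hp hA)
  refine ⟨d, fun a ha => ?_⟩
  obtain ⟨h1, h2⟩ := hd a ha
  refine ⟨h1, ?_⟩
  rw [mem_valL_nonunits_iff] at h2
  exact h2

/-- The sum over `Γ` is `Γ`-invariant. -/
theorem smul_sum_inertiaRes (γ' : inertiaRes A L) (y : L) :
    γ' • (∑ γ : inertiaRes A L, γ • y) = ∑ γ : inertiaRes A L, γ • y := by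
  rw [Finset.smul_sum]
  simp_rw [← mul_smul]
  exact Fintype.sum_bijective (fun γ => γ' * γ) (Group.mulLeft_bijective γ') _ _ (fun _ => rfl)

end Fermat.Agent.BADP.H11
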