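import Fermat.Agent.BADP.H15_Span
import Fermat.Agent.BAD.H88_V2
import Fermat.Agent.BAD.Defs

/-!
# S44 BADP, leaf ARITH (function level), part 2 (helper15): **ORTHO, DESC-F, A1**

`F = F_N · ℚ̄`, `A` a valuation ring of `ℚ̄`, `V₁ = gaussV A N`.

* `exists_repr` **(SPAN)**: every `g ∈ F` is `∑ a i • bcF (y i)`, `y i ∈ F_N` rational;
* `exists_repr_ortho` **(ORTHO)**: one may take the `y i = e i` integral for `A ∩ ℚ` with
  linearly independent reductions;
* `Ortho`: the key properties of such a family `E i = bcF (e i)`: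
  `sum_mem`, `red_sum`, `mem_iff`, `linearIndependent`, `exists_unit`;
* `fixF N H`: the subfield of `F` of the functions fixed by `galF N σ`, `σ ∈ H`;
* `coeff_fixed` **(DESC-F, coefficients)**: if `∑ a i • E i` is fixed by `σ` then `σ (a i) = a i`;
* `exists_unit_of_fixed` **(A1)**: `g ∈ F^H`, `g ≠ 0` ⇒ `∃ c ∈ (ℚ̄^H)^×`, `c g` is a unit of `V₁`.
-/

set_option autoImplicit false
set_option linter.style.haveILetI false
set_option linter.unusedSectionVars false
set_option synthInstance.maxHeartbeats 400000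
set_option maxHeartbeats 1000000

open ModularCurve AlgebraicCurve Fermat.Agent.S28 Fermat.Agent.S28.H73 Fermat.Agent.RED.H73

noncomputable section

namespace Fermat.Agent.BADP.H15

open Fermat.Agent.RED Fermat.Agent.S24 Fermat.Agent.FL.H22 Fermat.Agent.BAD
  Fermat.Agent.GTor.H56

section Ortho

variable {C : Type} [Field C] (O : ValuationSubring C)
  {F₀ : IntermediateField C (LaurentSeries C)}

/-- Orthonormal bases of the span of a finite family, in terms of series. -/
theorem exists_ortho_repr (hFS : H42.FracScalable O F₀) (h₀ : HasScale O F₀) {n : ℕ}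
    (y : Fin n → ↥F₀) :
    ∃ (m : ℕ) (e : Fin m → ↥(gaussValSub O F₀ h₀)),
      LinearIndependent (kV O) (fun i => gaussResF' O h₀ (e i)) ∧
      ∀ i, ∃ r : Fin m → C, ((y i : ↥F₀) : LaurentSeries C)
        = ∑ j, HahnSeries.C (r j) * (((e j : ↥(gaussValSub O F₀ h₀)) : ↥F₀) : LaurentSeries C) := by
  set W : Submodule C ↥F₀ := Submodule.span C (Set.range y) with hWdef
  haveI : FiniteDimensional C W := FiniteDimensional.span_of_finite C (Set.finite_range y)
  obtain ⟨e, he⟩ := H42.exists_isOrthonormalF O hFS h₀ W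
  -- every element of `W` is a combination of `e`
  have hW : ∀ x ∈ W, ∃ r : Fin (Module.finrank C W) → C,
      x = ∑ j, r j • ((e j : ↥(gaussValSub O F₀ h₀)) : ↥F₀) := by
    intro x hx
    by_cases hx0 : x = 0
    · refine ⟨fun _ => 0, ?_⟩
      rw [hx0]
      simp
    obtain ⟨c, u, hc, hxu⟩ := exists_unit_scale O h₀ x hx0
    have huW : (((u : ↥(gaussValSub O F₀ h₀)) : ↥F₀)) ∈ W := by
      have : (((u : ↥(gaussValSub O F₀ h₀)) : ↥F₀)) = c⁻¹ • x := by
        rw [hxu, Algebra.smul_def, ← mul_assoc, ← map_mul, inv_mul_cancel₀ hc, map_one,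
          one_mul]
      rw [this]
      exact W.smul_mem _ hx
    obtain ⟨d, hd, -⟩ := he.repr u huW
    refine ⟨fun j => c * ((d j : ↥O) : C), ?_⟩
    rw [hxu, hd, ← Algebra.smul_def, Finset.smul_sum]
    refine Finset.sum_congr rfl fun j _ => ?_
    rw [smul_smul]
  refine ⟨_, e, he.indep, fun i => ?_⟩
  obtain ⟨r, hr⟩ := hW (y i) (Submodule.subset_span ⟨i, rfl⟩)
  refine ⟨r, ?_⟩
  rw [← coe_sum_smul_C, ← hr]

end Ortho

section Repr

variable (N : ℕ) [NeZero N]

/-- **(SPAN)**: every function of `F_N · ℚ̄` is a `ℚ̄`-linear combination of rational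
functions. -/
theorem exists_repr (g : FN N) :
    ∃ (n : ℕ) (a : Fin n → Kbar) (y : Fin n → ↥(modularFunctionFieldFull N)),
      g = ∑ i, a i • bcF N (y i) := by
  haveI : Algebra.IsAlgebraic ℚ Kbar := AlgebraicClosure.isAlgebraic ℚ
  have h1 : (g : LaurentSeries Kbar)
      ∈ Submodule.span Kbar (genSet (modularFunctionFieldFull N) Kbar) :=
    mem_span_of_mem_laurentBaseChange (L := Kbar) (modularFunctionFieldFull N) g.2
  obtain ⟨n, a, x, hsum⟩ := Submodule.mem_span_set'.mp h1
  choose y hy hyx using fun i => (x i).2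
  refine ⟨n, a, fun i => ⟨y i, hy i⟩, Subtype.ext ?_⟩
  rw [H42.coe_sum_smul, ← hsum]
  refine Finset.sum_congr rfl fun i _ => ?_
  rw [coe_bcF, ← hyx i]

/-- **(ORTHO)**: every function of `F_N · ℚ̄` is a `ℚ̄`-linear combination of rational functions
which are integral for `A ∩ ℚ` and have linearly independent reductions. -/
theorem exists_repr_ortho (A : ValuationSubring Kbar) (g : FN N) :
    ∃ (n : ℕ) (a : Fin n → Kbar)
      (e : Fin n → ↥(gaussValSub (subV ℚ A) (modularFunctionFieldFull N) (hasScale_full _ N))),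
      LinearIndependent (kV (subV ℚ A))
        (fun i => gaussResF' (subV ℚ A) (hasScale_full _ N) (e i)) ∧
      g = ∑ i, a i • bcF N (e i) := by
  obtain ⟨n, a, y, rfl⟩ := exists_repr N g
  obtain ⟨m, e, he, hye⟩ := exists_ortho_repr (subV ℚ A) (fracScalable_full _ N)
    (hasScale_full _ N) y
  choose r hr using hye
  refine ⟨m, fun j => ∑ i, a i * algebraMap ℚ Kbar (r i j), e, he, ?_⟩
  have h1 : ∀ i, bcF N (y i) = ∑ j, algebraMap ℚ Kbar (r i j) • bcF N (e j) := by
    intro i
    apply Subtype.ext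
    rw [coe_bcF, coe_sum_smul_FN, hr i, coeffEmb_sum_C_mul]
    rfl
  rw [Finset.sum_congr rfl fun i _ => by rw [h1 i, Finset.smul_sum]]
  rw [Finset.sum_comm]
  refine Finset.sum_congr rfl fun j _ => ?_
  rw [Finset.sum_smul]
  refine Finset.sum_congr rfl fun i _ => ?_
  rw [smul_smul]

end Repr

/-! ## Families with linearly independent reductions -/

section Key

open Fermat.Agent.RED.H17

variable {C : Type} [Field C] (O : ValuationSubring C)
  {F : IntermediateField C (LaurentSeries C)} (h : HasScale O F)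
  {n : ℕ} (E : Fin n → ↥(gaussValSub O F h))

/-- An integral combination of integral functions is integral. -/
theorem sum_mem (a : Fin n → C) (ha : ∀ i, a i ∈ O) :
    ∑ i, a i • ((E i : ↥(gaussValSub O F h)) : ↥F) ∈ gaussValSub O F h := by
  refine Subring.sum_mem _ fun i _ => ?_
  rw [Algebra.smul_def]
  exact Subring.mul_mem _ ((algebraMap_mem_gaussValSub_iff O h (a i)).2 (ha i)) (E i).2

/-- The reduction of an integral combination. -/
theorem red_sum (a : Fin n → C) (ha : ∀ i, a i ∈ O)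
    (hm : ∑ i, a i • ((E i : ↥(gaussValSub O F h)) : ↥F) ∈ gaussValSub O F h) :
    gaussResF' O h ⟨_, hm⟩ = ∑ i, resV O ⟨a i, ha i⟩ • gaussResF' O h (E i) := by
  have hc : ∀ i, algebraMap C ↥F (a i) ∈ gaussValSub O F h :=
    fun i => (algebraMap_mem_gaussValSub_iff O h (a i)).2 (ha i)
  have h1 : (⟨_, hm⟩ : ↥(gaussValSub O F h))
      = ∑ i, (⟨algebraMap C ↥F (a i), hc i⟩ : ↥(gaussValSub O F h)) * E i := by
    apply Subtype.ext
    have h2 : ((∑ i, (⟨algebraMap C ↥F (a i), hc i⟩ : ↥(gaussValSub O F h)) * E i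
        : ↥(gaussValSub O F h)) : ↥F)
        = ∑ i, algebraMap C ↥F (a i) * ((E i : ↥(gaussValSub O F h)) : ↥F) :=
      map_sum (gaussValSub O F h).subtype _ _
    rw [h2]
    show ∑ i, a i • ((E i : ↥(gaussValSub O F h)) : ↥F) = _
    exact Finset.sum_congr rfl fun i _ =>
      Algebra.smul_def (a i) ((E i : ↥(gaussValSub O F h)) : ↥F)
  rw [h1, map_sum]
  refine Finset.sum_congr rfl fun i _ => ?_
  rw [map_mul, gaussResF'_algebraMap O h ⟨a i, ha i⟩ (hc i), Algebra.smul_def]

variable {O h E}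

/-- **Scaling**: a nonzero combination of a family with linearly independent reductions becomes a
unit after division by a coefficient of maximal valuation. -/
theorem exists_unit_coeff
    (hE : LinearIndependent (kV O) (fun i => gaussResF' O h (E i)))
    (a : Fin n → C) (ha : a ≠ 0) :
    ∃ m, a m ≠ 0 ∧ (∀ i, a i * (a m)⁻¹ ∈ O) ∧
      ∃ hm : algebraMap C ↥F (a m)⁻¹ * ∑ i, a i • ((E i : ↥(gaussValSub O F h)) : ↥F)
          ∈ gaussValSub O F h,
        gaussResF' O h ⟨_, hm⟩ ≠ 0 := by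
  obtain ⟨m, hm0, hm⟩ := H42.exists_max_coeff O a ha
  have e1 : algebraMap C ↥F (a m)⁻¹ * ∑ i, a i • ((E i : ↥(gaussValSub O F h)) : ↥F)
      = ∑ i, (a i * (a m)⁻¹) • ((E i : ↥(gaussValSub O F h)) : ↥F) := by
    rw [← Algebra.smul_def, Finset.smul_sum]
    refine Finset.sum_congr rfl fun i _ => ?_
    rw [smul_smul, mul_comm]
  have hmem := sum_mem O h E (fun i => a i * (a m)⁻¹) hm
  refine ⟨m, hm0, hm, e1 ▸ hmem, ?_⟩
  have e2 : (⟨_, e1 ▸ hmem⟩ : ↥(gaussValSub O F h)) = ⟨_, hmem⟩ := Subtype.ext e1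
  rw [e2, red_sum O h E _ hm hmem]
  intro h0
  have h3 := Fintype.linearIndependent_iff.mp hE _ h0 m
  have h5 : (⟨a m * (a m)⁻¹, hm m⟩ : ↥O) = 1 := Subtype.ext (mul_inv_cancel₀ hm0)
  rw [h5, map_one] at h3
  exact one_ne_zero h3

/-- A family with linearly independent reductions is linearly independent. -/
theorem eq_zero_of_sum_eq_zero
    (hE : LinearIndependent (kV O) (fun i => gaussResF' O h (E i)))
    (a : Fin n → C) (ha : ∑ i, a i • ((E i : ↥(gaussValSub O F h)) : ↥F) = 0) : a = 0 := by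
  by_contra hne
  obtain ⟨m, -, -, hm, hr⟩ := exists_unit_coeff hE a hne
  apply hr
  have : (⟨_, hm⟩ : ↥(gaussValSub O F h)) = 0 := by
    apply Subtype.ext
    show algebraMap C ↥F (a m)⁻¹ * ∑ i, a i • ((E i : ↥(gaussValSub O F h)) : ↥F) = 0
    rw [ha, mul_zero]
  rw [this, map_zero]

theorem linearIndependent_of_red
    (hE : LinearIndependent (kV O) (fun i => gaussResF' O h (E i))) :
    LinearIndependent C (fun i => ((E i : ↥(gaussValSub O F h)) : ↥F)) := by
  rw [Fintype.linearIndependent_iff]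
  intro a ha i
  rw [eq_zero_of_sum_eq_zero hE a ha]
  rfl

/-- **Integrality is read off the coefficients.** -/
theorem coeff_mem_of_sum_mem
    (hE : LinearIndependent (kV O) (fun i => gaussResF' O h (E i)))
    (a : Fin n → C)
    (hg : ∑ i, a i • ((E i : ↥(gaussValSub O F h)) : ↥F) ∈ gaussValSub O F h) :
    ∀ i, a i ∈ O := by
  by_cases hne : a = 0
  · intro i
    rw [hne]
    exact O.zero_mem
  obtain ⟨m, hm0, hmO, hm, hr⟩ := exists_unit_coeff hE a hne
  have ham : a m ∈ O := by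
    by_contra hnot
    have hinv : (a m)⁻¹ ∈ O := (O.mem_or_inv_mem (a m)).resolve_left hnot
    have hc : algebraMap C ↥F (a m)⁻¹ ∈ gaussValSub O F h :=
      (algebraMap_mem_gaussValSub_iff O h _).2 hinv
    apply hr
    have e : (⟨_, hm⟩ : ↥(gaussValSub O F h))
        = (⟨algebraMap C ↥F (a m)⁻¹, hc⟩ : ↥(gaussValSub O F h)) * ⟨_, hg⟩ := Subtype.ext rfl
    rw [e, map_mul, gaussResF'_algebraMap O h ⟨(a m)⁻¹, hinv⟩ hc]
    have hz : resV O ⟨(a m)⁻¹, hinv⟩ = 0 := by
      rw [IsLocalRing.residue_eq_zero_iff, IsLocalRing.mem_maximalIdeal, mem_nonunits_iff]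
      intro hu
      apply hnot
      have h1 := (ValuationSubring.valuation_eq_one_iff O ⟨(a m)⁻¹, hinv⟩).mp hu
      rw [← ValuationSubring.valuation_le_one_iff]
      have h2 : O.valuation (a m) = 1 := by
        have h3 : O.valuation ((a m)⁻¹) = 1 := h1
        rw [map_inv₀, inv_eq_one] at h3
        exact h3
      exact h2.le
    rw [hz, map_zero, zero_mul]
  intro i
  have : a i = a i * (a m)⁻¹ * a m := by
    rw [mul_assoc, inv_mul_cancel₀ hm0, mul_one]
  rw [this]
  exact O.mul_mem _ _ (hmO i) ham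

end Key

/-! ## The Galois action -/

section Fix

variable (N : ℕ) [NeZero N]

theorem galF_bcF (σ : GalQ) (y : ↥(modularFunctionFieldFull N)) :
    galF N σ • bcF N y = bcF N y := by
  apply Subtype.ext
  show coeffMap ((σ : Kbar ≃ₐ[ℚ] Kbar) : Kbar →+* Kbar) (coeffEmb Kbar (y : LaurentSeries ℚ))
    = coeffEmb Kbar (y : LaurentSeries ℚ)
  exact coeffMap_coeffEmb σ _

theorem galF_const (σ : GalQ) (c : Kbar) :
    galF N σ • algebraMap Kbar (FN N) c = algebraMap Kbar (FN N) (σ c) :=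
  arithmeticRingAut_algebraMap (modularFunctionFieldFull N) σ c

theorem galF_smul_smul (σ : GalQ) (c : Kbar) (f : FN N) :
    galF N σ • (c • f) = σ c • (galF N σ • f) := by
  rw [Algebra.smul_def, smul_mul', galF_const, ← Algebra.smul_def]

theorem galF_sum_smul (σ : GalQ) {n : ℕ} (a : Fin n → Kbar) (f : Fin n → FN N) :
    galF N σ • (∑ i, a i • f i) = ∑ i, σ (a i) • (galF N σ • f i) := by
  rw [Finset.smul_sum]
  exact Finset.sum_congr rfl fun i _ => galF_smul_smul N σ (a i) (f i)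

/-- The subfield `F^H` of the functions fixed by the coefficientwise action of the elements of
`H ⊆ G_ℚ`. -/
def fixF (H : Set GalQ) : Subfield (FN N) where
  carrier := {g | ∀ σ ∈ H, galF N σ • g = g}
  mul_mem' := fun {x y} hx hy σ hσ => by rw [smul_mul', hx σ hσ, hy σ hσ]
  one_mem' := fun σ _ => smul_one _
  add_mem' := fun {x y} hx hy σ hσ => by rw [smul_add, hx σ hσ, hy σ hσ]
  zero_mem' := fun σ _ => smul_zero _
  neg_mem' := fun {x} hx σ hσ => by rw [smul_neg, hx σ hσ]
  inv_mem' := fun x hx σ hσ => by rw [smul_inv'', hx σ hσ]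

variable {N}

theorem mem_fixF {H : Set GalQ} {g : FN N} :
    g ∈ fixF N H ↔ ∀ σ ∈ H, galF N σ • g = g := Iff.rfl

variable (N)

theorem bcF_mem_fixF (H : Set GalQ) (y : ↥(modularFunctionFieldFull N)) :
    bcF N y ∈ fixF N H := fun σ _ => galF_bcF N σ y

theorem const_mem_fixF {H : Set GalQ} {c : Kbar} (hc : ∀ σ ∈ H, σ c = c) :
    algebraMap Kbar (FN N) c ∈ fixF N H := fun σ hσ => by
  rw [galF_const, hc σ hσ]

theorem const_mem_fixF_iff {H : Set GalQ} {c : Kbar} :
    algebraMap Kbar (FN N) c ∈ fixF N H ↔ ∀ σ ∈ H, σ c = c := by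
  refine ⟨fun h σ hσ => ?_, const_mem_fixF N⟩
  have := h σ hσ
  rw [galF_const] at this
  exact (algebraMap Kbar (FN N)).injective this

variable (A : ValuationSubring Kbar)

/-- The orthonormal family of `F_N · ℚ̄` attached to an orthonormal family of `F_N`. -/
def bcE {n : ℕ}
    (e : Fin n → ↥(gaussValSub (subV ℚ A) (modularFunctionFieldFull N) (hasScale_full _ N)))
    (i : Fin n) : ↥(gaussV A N) :=
  ⟨bcF N (e i), bcF_mem_gaussValSub N A (e i)⟩

@[simp] theorem coe_bcE {n : ℕ}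
    (e : Fin n → ↥(gaussValSub (subV ℚ A) (modularFunctionFieldFull N) (hasScale_full _ N)))
    (i : Fin n) : ((bcE N A e i : ↥(gaussV A N)) : FN N) = bcF N (e i) := rfl

theorem linearIndependent_red_bcE {n : ℕ}
    (e : Fin n → ↥(gaussValSub (subV ℚ A) (modularFunctionFieldFull N) (hasScale_full _ N)))
    (he : LinearIndependent (kV (subV ℚ A))
      (fun i => gaussResF' (subV ℚ A) (hasScale_full _ N) (e i))) :
    LinearIndependent (kV A) (fun i => gaussRes A N (bcE N A e i)) :=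
  linearIndependent_red_bcF N A e he

/-- **(DESC-F), coefficient form**: if a combination of an orthonormal rational family is fixed
by `σ`, then so are its coefficients. -/
theorem coeff_fixed {n : ℕ}
    (e : Fin n → ↥(gaussValSub (subV ℚ A) (modularFunctionFieldFull N) (hasScale_full _ N)))
    (he : LinearIndependent (kV (subV ℚ A))
      (fun i => gaussResF' (subV ℚ A) (hasScale_full _ N) (e i)))
    (a : Fin n → Kbar) (σ : GalQ)
    (hσ : galF N σ • (∑ i, a i • bcF N (e i)) = ∑ i, a i • bcF N (e i)) :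
    ∀ i, σ (a i) = a i := by
  have h1 : ∑ i, (σ (a i) - a i) • (((bcE N A e i : ↥(gaussV A N)) : FN N)) = 0 := by
    have h2 : ∑ i, (σ (a i) - a i) • (((bcE N A e i : ↥(gaussV A N)) : FN N))
        = galF N σ • (∑ i, a i • bcF N (e i)) - ∑ i, a i • bcF N (e i) := by
      rw [galF_sum_smul, ← Finset.sum_sub_distrib]
      refine Finset.sum_congr rfl fun i _ => ?_
      rw [galF_bcF, coe_bcE, sub_smul]
    rw [h2, hσ, sub_self]
  have h3 := eq_zero_of_sum_eq_zero (linearIndependent_red_bcE N A e he) _ h1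
  intro i
  have := congrFun h3 i
  exact sub_eq_zero.mp this

/-- **(A1)**: a nonzero function fixed by `H` becomes a unit of the Gauss valuation ring after
multiplication by a nonzero constant fixed by `H`. -/
theorem exists_unit_of_fixed (H : Set GalQ) {g : FN N} (hg : g ∈ fixF N H) (hg0 : g ≠ 0) :
    ∃ c : Kbar, c ≠ 0 ∧ (∀ σ ∈ H, σ c = c) ∧
      ∃ hm : algebraMap Kbar (FN N) c * g ∈ gaussV A N, gaussRes A N ⟨_, hm⟩ ≠ 0 := by
  obtain ⟨n, a, e, he, rfl⟩ := exists_repr_ortho N A g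
  have ha : a ≠ 0 := by
    rintro rfl
    apply hg0
    simp
  obtain ⟨m, hm0, -, hm, hr⟩ := exists_unit_coeff (linearIndependent_red_bcE N A e he) a ha
  refine ⟨(a m)⁻¹, inv_ne_zero hm0, fun σ hσ => ?_, hm, hr⟩
  rw [map_inv₀, coeff_fixed N A e he a σ (hg σ hσ) m]

end Fix

/-! ## The two Gauss valuations at level `N = M q` -/

section Two

open Fermat.Agent.BAD.H88

variable (A : ValuationSubring Kbar)
variable (q M : ℕ) (a b : ℤ) (hab : a * q + b * M = 1) (hq : q.Prime) [NeZero (M * q)]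

/-- **(A1)** for `V₁`. -/
theorem exists_unit1_of_fixed (H : Set GalQ) {g : FN (M * q)} (hg : g ∈ fixF (M * q) H)
    (hg0 : g ≠ 0) :
    ∃ c : Kbar, c ≠ 0 ∧ (∀ σ ∈ H, σ c = c) ∧
      ∃ hm : algebraMap Kbar (FN (M * q)) c * g ∈ V1 A q M, red1 A q M ⟨_, hm⟩ ≠ 0 :=
  exists_unit_of_fixed (M * q) A H hg hg0

include hab hq in
/-- `w_q` preserves the fixed functions. -/
theorem wq_mem_fixF (H : Set GalQ) {g : FN (M * q)} (hg : g ∈ fixF (M * q) H) :
    wq q M a b hab hq g ∈ fixF (M * q) H := by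
  intro σ hσ
  have h1 := wq_arith q M a b hab hq σ g
  have h2 : arithmeticRingAut (modularFunctionFieldFull (M * q)) σ g = g := hg σ hσ
  rw [h2] at h1
  exact h1.symm

include hab hq in
/-- **(A1)** for `V₂ = V₁ ∘ w_q`. -/
theorem exists_unit2_of_fixed (H : Set GalQ) {g : FN (M * q)} (hg : g ∈ fixF (M * q) H)
    (hg0 : g ≠ 0) :
    ∃ c : Kbar, c ≠ 0 ∧ (∀ σ ∈ H, σ c = c) ∧
      ∃ hm : algebraMap Kbar (FN (M * q)) c * g ∈ V2 A q M a b hab hq,
        red2 A q M a b hab hq ⟨_, hm⟩ ≠ 0 := by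
  have hw0 : wq q M a b hab hq g ≠ 0 := fun h0 =>
    hg0 ((map_eq_zero_iff _ (wq q M a b hab hq).injective).mp h0)
  obtain ⟨c, hc0, hc, hm, hr⟩ :=
    exists_unit1_of_fixed A q M H (wq_mem_fixF q M a b hab hq H hg) hw0
  have e : wq q M a b hab hq (algebraMap Kbar (FN (M * q)) c * g)
      = algebraMap Kbar (FN (M * q)) c * wq q M a b hab hq g := by
    rw [map_mul, AlgEquiv.commutes]
  have hm2 : algebraMap Kbar (FN (M * q)) c * g ∈ V2 A q M a b hab hq := by
    rw [mem_V2_iff, e]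
    exact hm
  refine ⟨c, hc0, hc, hm2, ?_⟩
  rw [red2_mk]
  have e2 : (⟨wq q M a b hab hq (algebraMap Kbar (FN (M * q)) c * g), hm2⟩ : ↥(V1 A q M))
      = ⟨_, hm⟩ := Subtype.ext e
  rw [e2]
  exact hr

end Two

end Fermat.Agent.BADP.H15
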