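import Fermat.Agent.BADP.H21_CoordAbs
import Fermat.Agent.BAD.H91_ModSSD
import Fermat.Agent.BAD.H21_UnitW
import Fermat.Agent.BADP.H15_Desc
import Fermat.Agent.R.H6_UnrFix

/-!
# S44 / S43 / S15, package COORD (helper21): annulus coordinates at the nodes, modular form

Level `N = M q`, `q ∤ M` tame, `A` a place of `ℚ̄` over `q`, `I` the inertia group of `A`,
`T = H91.modT` the modular total conservation datum (helper91), `S = T.toSSD`.
`F0 = H15.fixF N I` the field of the inertia-fixed functions (helper15).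

* `disc_fix` : **DISC** for `F0`: `f ∈ F0 ∩ 𝔪_{V₂}` implies `f / q ∈ V₂`
  (helper15's (A1) and helper6's `stmt_UnrFix`);
* `unit_gu₂`, `unit_zeroFree`, `unit_ord_pos` : **UNIT** for the modular unit `U = Δ / Δ_q`
  (`wq_unitF`, helper69's CUSP as a hypothesis);
* `coord_body` : **COORD**: from CUSP and ARITH-0 (hypotheses), at every node `s` of `S` there are
  an inertia-fixed function `t` and `e ≥ 1`, `e ∣ 12`, with `S.IsAnnCoord s t (q ^ e)`.
-/

set_option autoImplicit false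
set_option linter.style.haveILetI false
set_option linter.unusedSectionVars false
set_option synthInstance.maxHeartbeats 400000
set_option maxHeartbeats 1000000

noncomputable section

open HahnSeries IntermediateField AlgebraicCurve ModularCurve
open Fermat.Agent.S28.H73 Fermat.Agent.RED.H73 Fermat.Agent.RED Fermat.Agent.S24
open Fermat.Agent.BAD.H88

namespace Fermat.Agent.BADP.H21

open Fermat.Agent.BAD Fermat.Agent.BAD.H91 Fermat.Agent.S15.Desc.H67

attribute [local instance 5000] SubalgebraClass.toAlgebra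
attribute [local instance 10000] SubalgebraClass.toAlgebra
attribute [local instance 10000] HahnSeries.powerSeriesAlgebra

section Disc

variable (A : ValuationSubring Kbar) (q M : ℕ) (a b : ℤ) (hab : a * q + b * M = 1)
  (hq : q.Prime) [NeZero (M * q)]

/-- The inertia group of `A` as a set. -/
abbrev inertiaI : Set GalQ := ((A.inertiaSubgroupIn ℚ : Subgroup GalQ) : Set GalQ)

theorem val_q_lt (hA : A.LiesOverPrime q) : A.valuation (q : Kbar) < 1 :=
  A.mem_nonunits_iff.1 hA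

theorem natCast_mem_A (n : ℕ) : (n : Kbar) ∈ A := natCast_mem A n

include hab hq in
/-- **DISC** for the inertia-fixed functions: the second valuation is discrete on `F^I` with
uniformizer `q`. -/
theorem disc_fix (hA : A.LiesOverPrime q) {f : FN (M * q)}
    (hf : f ∈ H15.fixF (M * q) (inertiaI A)) (h : f ∈ V2 A q M a b hab hq)
    (h0 : red2 A q M a b hab hq ⟨f, h⟩ = 0) :
    f / algebraMap Kbar (FN (M * q)) (q : Kbar) ∈ V2 A q M a b hab hq := by
  rcases eq_or_ne f 0 with rfl | hf0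
  · rw [zero_div]
    exact (V2 A q M a b hab hq).zero_mem
  obtain ⟨c, hc0, hc, hm, hr⟩ := H15.exists_unit2_of_fixed A q M a b hab hq (inertiaI A) hf hf0
  obtain ⟨n, hn⟩ := Fermat.Agent.R.H6.stmt_UnrFix q hq A hA c hc0 (fun σ hσ => hc σ hσ)
  have hq0 : (q : Kbar) ≠ 0 := Nat.cast_ne_zero.2 hq.ne_zero
  have hvq0 : A.valuation (q : Kbar) ≠ 0 := by
    rw [Ne, map_eq_zero]
    exact hq0
  have hvq := val_q_lt A q hA
  -- `n ≤ -1`
  have hn1 : n + 1 ≤ 0 := by
    by_contra hcon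
    have hn0 : 0 ≤ n := by omega
    have hcA : c ∈ A := by
      rw [← A.valuation_le_one_iff, hn]
      obtain ⟨m, rfl⟩ := Int.eq_ofNat_of_zero_le hn0
      rw [zpow_natCast]
      exact pow_le_one₀ zero_le hvq.le
    have hc2 : algebraMap Kbar (FN (M * q)) c ∈ V2 A q M a b hab hq :=
      (const_mem2 A q M a b hab hq c).2 ((const_mem1 A q M c).2 hcA)
    apply hr
    have e : (⟨algebraMap Kbar (FN (M * q)) c * f, hm⟩ : ↥(V2 A q M a b hab hq))
        = ⟨_, hc2⟩ * ⟨f, h⟩ := rfl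
    rw [e, map_mul, h0, mul_zero]
  have hcq : (c * (q : Kbar))⁻¹ ∈ A := by
    rw [← A.valuation_le_one_iff, map_inv₀, map_mul, hn, ← zpow_add_one₀ hvq0]
    rw [← zpow_neg]
    obtain ⟨m, hm'⟩ := Int.eq_ofNat_of_zero_le (show 0 ≤ -(n + 1) by omega)
    rw [hm', zpow_natCast]
    exact pow_le_one₀ zero_le hvq.le
  have hcq2 : algebraMap Kbar (FN (M * q)) (c * (q : Kbar))⁻¹ ∈ V2 A q M a b hab hq :=
    (const_mem2 A q M a b hab hq _).2 ((const_mem1 A q M _).2 hcq)
  have e : f / algebraMap Kbar (FN (M * q)) (q : Kbar)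
      = algebraMap Kbar (FN (M * q)) (c * (q : Kbar))⁻¹
        * (algebraMap Kbar (FN (M * q)) c * f) := by
    have h1 : algebraMap Kbar (FN (M * q)) c ≠ 0 := by
      rw [Ne, map_eq_zero]; exact hc0
    have h2 : algebraMap Kbar (FN (M * q)) (q : Kbar) ≠ 0 := by
      rw [Ne, map_eq_zero]; exact hq0
    rw [map_inv₀, map_mul]
    field_simp
  rw [e]
  exact (V2 A q M a b hab hq).mul_mem _ _ hcq2 hm

end Disc

/-! ### The constant `q` and the modular unit -/

section Unit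

variable (A : ValuationSubring Kbar) (q M : ℕ) [NeZero (M * q)] [NeZero q]
  (a b : ℤ) (hab : a * q + b * M = 1) (hq : q.Prime) (hd : q ∣ M * q)

omit [NeZero q] in
theorem q_mem_V1 : algebraMap Kbar (FN (M * q)) (q : Kbar) ∈ V1 A q M :=
  (const_mem1 A q M _).2 (natCast_mem A q)

omit [NeZero q] in
/-- `q` is in the maximal ideal of the Gauss valuation. -/
theorem red1_q (hA : A.LiesOverPrime q)
    (h : algebraMap Kbar (FN (M * q)) (q : Kbar) ∈ V1 A q M) : red1 A q M ⟨_, h⟩ = 0 := by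
  have hqA : (q : Kbar) ∈ A := natCast_mem A q
  rw [red1_const A q M ⟨(q : Kbar), hqA⟩ h]
  have h0 : resV A ⟨(q : Kbar), hqA⟩ = 0 := by
    have e : (⟨(q : Kbar), hqA⟩ : ↥A) = ((q : ℕ) : ↥A) := Subtype.ext (by simp)
    rw [e, map_natCast, ← map_natCast (IsLocalRing.residue A),
      IsLocalRing.residue_eq_zero_iff, ← ValuationSubring.coe_mem_nonunits_iff]
    have h' : (((q : ℕ) : A) : Kbar) = ((q : ℕ) : Kbar) := by push_cast; rfl
    rw [h']
    exact hA
  rw [h0, map_zero]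

omit [NeZero q] in
theorem q_mem_fix : algebraMap Kbar (FN (M * q)) (q : Kbar)
    ∈ H15.fixF (M * q) (inertiaI A) :=
  H15.const_mem_fixF (M * q) (fun σ _ => map_natCast σ q)

/-- The modular unit is fixed by the Galois group. -/
theorem unit_fixed (σ : GalQ) :
    galF (M * q) σ • Fermat.Agent.BAD.H30.unitF (M * q) q hd
      = Fermat.Agent.BAD.H30.unitF (M * q) q hd := by
  apply Subtype.ext
  show coeffMap ((σ : Kbar ≃ₐ[ℚ] Kbar) : Kbar →+* Kbar)
      (coeffEmb Kbar (modularUnitSeries q))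
    = coeffEmb Kbar (modularUnitSeries q)
  exact coeffMap_coeffEmb σ _

/-- **UNIT-W**, used: `w_q (U / q ^ 12) = U⁻¹`. -/
theorem wq_unit_div :
    wq q M a b hab hq (Fermat.Agent.BAD.H30.unitF (M * q) q hd
        / algebraMap Kbar (FN (M * q)) (q : Kbar) ^ 12)
      = (Fermat.Agent.BAD.H30.unitF (M * q) q hd)⁻¹ := by
  have hq0 : algebraMap Kbar (FN (M * q)) (q : Kbar) ≠ 0 := by
    rw [Ne, map_eq_zero_iff _ (algebraMap Kbar (FN (M * q))).injective]
    exact_mod_cast hq.ne_zero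
  rw [map_div₀, map_pow, AlgEquiv.commutes, Fermat.Agent.BAD.H21.wq_unitF q M a b hab hq hd,
    map_pow]
  field_simp

/-- `U⁻¹` is Gauss integral with non-zero reduction. -/
theorem unit_inv_mem :
    ∃ h : (Fermat.Agent.BAD.H30.unitF (M * q) q hd)⁻¹ ∈ V1 A q M, red1 A q M ⟨_, h⟩ ≠ 0 := by
  obtain ⟨h, hr⟩ := H82.inv_mem_gaussV (M * q) A
    ⟨Fermat.Agent.BAD.H30.unitF (M * q) q hd,
      Fermat.Agent.BAD.H30.unitF_mem_gaussV A (M * q) q hd⟩
    (Fermat.Agent.BAD.H30.gaussRes_unitF_ne_zero A (M * q) q hd)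
  refine ⟨h, ?_⟩
  have h1 : red1 A q M ⟨_, h⟩ = (gaussRes A (M * q) ⟨Fermat.Agent.BAD.H30.unitF (M * q) q hd,
      Fermat.Agent.BAD.H30.unitF_mem_gaussV A (M * q) q hd⟩)⁻¹ := hr
  rw [h1]
  exact inv_ne_zero (Fermat.Agent.BAD.H30.gaussRes_unitF_ne_zero A (M * q) q hd)

/-- `U / q ^ 12` is a unit of the second valuation. -/
theorem unit_div_mem_V2 :
    ∃ h : Fermat.Agent.BAD.H30.unitF (M * q) q hd
        / algebraMap Kbar (FN (M * q)) (q : Kbar) ^ 12 ∈ V2 A q M a b hab hq,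
      red2 A q M a b hab hq ⟨_, h⟩ ≠ 0 := by
  obtain ⟨h, hr⟩ := unit_inv_mem A q M hd
  have e := wq_unit_div q M a b hab hq hd
  have hm : Fermat.Agent.BAD.H30.unitF (M * q) q hd
      / algebraMap Kbar (FN (M * q)) (q : Kbar) ^ 12 ∈ V2 A q M a b hab hq := by
    rw [mem_V2_iff, e]
    exact h
  refine ⟨hm, ?_⟩
  rw [red2_mk]
  have e2 : (⟨wq q M a b hab hq (Fermat.Agent.BAD.H30.unitF (M * q) q hd
      / algebraMap Kbar (FN (M * q)) (q : Kbar) ^ 12), hm⟩ : ↥(V1 A q M))
      = ⟨(Fermat.Agent.BAD.H30.unitF (M * q) q hd)⁻¹, h⟩ := Subtype.ext e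
  rw [e2]
  exact hr

end Unit

section Core

variable (A : ValuationSubring Kbar) (q M : ℕ) (a b : ℤ) (hab : a * q + b * M = 1)
  (hq : q.Prime) [NeZero M] [NeZero (M * q)] [NeZero q] (hA : A.LiesOverPrime q)
  (hqM : ¬ q ∣ M) (ht : TameAt M q)
  (htot : ∀ (u₁ : ↥(V1 A q M)) (u₂ : ↥(V2 A q M a b hab hq)), red1 A q M u₁ ≠ 0 →
    red2 A q M a b hab hq u₂ ≠ 0 →
    (∃ c : Kbar, (u₂ : FN (M * q)) = algebraMap Kbar (FN (M * q)) c * (u₁ : FN (M * q))) →
    ∀ D : Divisor Kbar (FN (M * q)), (∀ P, D P = P.ord (u₁ : FN (M * q))) →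
      ∀ z : Place (kV A) (F1 A q M),
        Finsupp.mapDomain (rhoF1 a b hab hq hA hqM ht) D z
          = z.ord (red1 A q M u₁)
            + (H73.betaF1 A q M hq hA M (H82.redField_eq_fullC q M a b hab hq A hA) z).ord
                (red2 A q M a b hab hq u₂))

/-- The modular total conservation datum of level `M q` at `A` (helper91's `modT` with
`β = betaF1`). -/
abbrev mT : H79.TotData Kbar (FN (M * q)) (kV A) (F1 A q M) (F1 A q M) :=
  modT a b hab hq hA hqM ht
    (H73.betaF1 A q M hq hA M (H82.redField_eq_fullC q M a b hab hq A hA)) htot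

omit [NeZero M] [NeZero q] in
theorem ffL : RED.H17.FFHyp Kbar (FN (M * q)) :=
  RED.H17.ffHyp_of_isFF _ _ (H95.stmt_HKA_isFF (M * q))

include hab hq hA hqM ht in
theorem ff1 : RED.H17.FFHyp (kV A) (F1 A q M) :=
  haveI : IsAlgClosed (kV A) := isAlgClosed_kV A
  RED.H17.ffHyp_of_isFF _ _ (isFF_F1 a b hab hq hA hqM ht)

/-- The nodes of NUM, the genus inequality. -/
theorem exists_nodes_num :
    ∃ (g g₁ : ℕ) (c c₁ : ℤ) (Z : Finset (Place (kV A) (F1 A q M))),
      RED.H17.IsGenus Kbar (FN (M * q)) g c ∧ RED.H17.IsGenus (kV A) (F1 A q M) g₁ c₁ ∧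
      Z.Nonempty ∧ (∀ z ∈ Z, (mT A q M a b hab hq hA hqM ht htot).IsNode z) ∧
      g + 1 ≤ g₁ + g₁ + Z.card := by
  haveI : IsAlgClosed (kV A) := isAlgClosed_kV A
  have hFFL : IsFF Kbar ↥(FNbar (M * q)) := H95.stmt_HKA_isFF (M * q)
  have hFF1 : IsFF (kV A) (F1 A q M) := isFF_F1 a b hab hq hA hqM ht
  obtain ⟨g, c, hg⟩ := RED.H17.exists_isGenus _ _ hFFL
  obtain ⟨g₁, c₁, hg₁⟩ := RED.H17.exists_isGenus _ _ hFF1
  have hg₁' : RED.H17.IsGenus (kV A) ↥(H91.redM A M) g₁ c₁ :=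
    isGenus_congr (H82.redField_eq_redField q M a b hab hq A hA) hg₁
  obtain ⟨Z, hZne, hZc, hZo, hnum⟩ :=
    Fermat.Agent.BAD.H30.num_final_tame M q hq ht hqM A hA (Dvd.intro_left M rfl)
  refine ⟨g, g₁, c, c₁, Z.map (kappa A q M a b hab hq hA).symm.toEmbedding, hg, hg₁,
    hZne.map, ?_, ?_⟩
  · intro z hz
    obtain ⟨z₀, hz₀, rfl⟩ := Finset.mem_map.mp hz
    exact isNode_modT a b hab hq hA hqM ht _ htot _ z₀ (hZc z₀ hz₀) (hZo z₀ hz₀)
  · rw [Finset.card_map]
    exact Fermat.Agent.BAD.H17.genus_ineq hq hqM ht hA hg hg₁' Z.card hnum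

theorem exists_node : ∃ z, (mT A q M a b hab hq hA hqM ht htot).IsNode z := by
  obtain ⟨-, -, -, -, Z, -, -, ⟨z, hz⟩, hZ, -⟩ := exists_nodes_num A q M a b hab hq hA hqM ht htot
  exact ⟨z, hZ z hz⟩

/-- **The modular semistable Deuring datum** of level `M q` at `A`. -/
def modS : SSD Kbar (FN (M * q)) (kV A) (F1 A q M) (F1 A q M) :=
  haveI : IsAlgClosed (kV A) := isAlgClosed_kV A
  (mT A q M a b hab hq hA hqM ht htot).toSSD (ffL q M).principal (ffL q M).deg_one
    (ff1 A q M a b hab hq hA hqM ht).principal (ff1 A q M a b hab hq hA hqM ht).deg_one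
    (ff1 A q M a b hab hq hA hqM ht).deg_one (exists_node A q M a b hab hq hA hqM ht htot)

/-- **CUSP** (hypothesis; helper69): the poles of `j~` are not nodes. -/
def CuspHyp : Prop :=
  ∀ z₀ : Place (kV A) ↥(H91.redM A M), z₀.ord (jRed A M) < 0 →
    ¬ (mT A q M a b hab hq hA hqM ht htot).IsNode ((kappa A q M a b hab hq hA).symm z₀)

/-- **ARITH-0** (hypothesis; helper11): the `K₀`-rational part of a function. -/
def Arith0Hyp : Prop :=
  ∀ g : FN (M * q), ∃ g0 : FN (M * q), g0 ∈ H15.fixF (M * q) (inertiaI A) ∧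
    (∀ h : g ∈ V1 A q M, ∃ h0 : g0 ∈ V1 A q M, red1 A q M ⟨g0, h0⟩ = red1 A q M ⟨g, h⟩) ∧
    (∀ h : g ∈ V2 A q M a b hab hq, ∃ h0 : g0 ∈ V2 A q M a b hab hq,
      red2 A q M a b hab hq ⟨g0, h0⟩ = red2 A q M a b hab hq ⟨g, h⟩) ∧
    ∀ P : Place Kbar (FN (M * q)), P.ord g0 < 0 →
      ∃ σ ∈ A.inertiaSubgroupIn ℚ, (galF (M * q) σ • P).ord g < 0

/-! ### Basic identifications -/

theorem modS_mem₁ (f : FN (M * q)) :
    f ∈ (modS A q M a b hab hq hA hqM ht htot).c₁.V ↔ f ∈ V1 A q M := Iff.rfl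

theorem modS_mem₂ (f : FN (M * q)) :
    f ∈ (modS A q M a b hab hq hA hqM ht htot).c₂.V ↔ f ∈ V2 A q M a b hab hq := Iff.rfl

theorem modS_rd₁ {f : FN (M * q)} (h : f ∈ V1 A q M) :
    (modS A q M a b hab hq hA hqM ht htot).c₁.rd f = red1 A q M ⟨f, h⟩ :=
  (modS A q M a b hab hq hA hqM ht htot).c₁.rd_of_mem h

theorem modS_rd₂ {f : FN (M * q)} (h : f ∈ V2 A q M a b hab hq) :
    (modS A q M a b hab hq hA hqM ht htot).c₂.rd f = red2 A q M a b hab hq ⟨f, h⟩ :=
  (modS A q M a b hab hq hA hqM ht htot).c₂.rd_of_mem h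

theorem modS_r₁ (P : Place Kbar (FN (M * q))) :
    (modS A q M a b hab hq hA hqM ht htot).c₁.r P
      = (mT A q M a b hab hq hA hqM ht htot).r₁ P := rfl

theorem modS_mem_nodes {s : Place (kV A) (F1 A q M) × Place (kV A) (F1 A q M)} :
    s ∈ (modS A q M a b hab hq hA hqM ht htot).nodes ↔
      (mT A q M a b hab hq hA hqM ht htot).IsNode s.1 ∧
        s.2 = (mT A q M a b hab hq hA hqM ht htot).β s.1 :=
  haveI : IsAlgClosed (kV A) := isAlgClosed_kV A
  H79.TotData.mem_nodes (ffL q M).principal (ff1 A q M a b hab hq hA hqM ht).principal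

/-- The inertia group acts inertially on the modular datum. -/
theorem modS_inertial {σ : GalQ} (hσ : σ ∈ A.inertiaSubgroupIn ℚ) :
    (modS A q M a b hab hq hA hqM ht htot).IsInertial (galF (M * q) σ) :=
  haveI : IsAlgClosed (kV A) := isAlgClosed_kV A
  (inert_totDataOf A q M a b hab hq hA _ _ htot (hunif_mod a b hab hq hA hqM ht) hσ
    (fun P => rhoF1_inertia a b hab hq hA hqM ht hσ P)).isInertial (ffL q M).principal
    (ffL q M).deg_one (ff1 A q M a b hab hq hA hqM ht).principal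
    (ff1 A q M a b hab hq hA hqM ht).deg_one (ff1 A q M a b hab hq hA hqM ht).deg_one
    (exists_node A q M a b hab hq hA hqM ht htot)

/-- The genus inequality for the modular datum. -/
theorem modS_genus :
    ∃ (g g₁ : ℕ) (c c₁ : ℤ), RED.H17.IsGenus Kbar (FN (M * q)) g c ∧
      RED.H17.IsGenus (kV A) (F1 A q M) g₁ c₁ ∧
      g + 1 ≤ g₁ + g₁ + (modS A q M a b hab hq hA hqM ht htot).nodes.card := by
  haveI : IsAlgClosed (kV A) := isAlgClosed_kV A
  obtain ⟨g, g₁, c, c₁, Z, hg, hg₁, -, hZ, hnum⟩ :=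
    exists_nodes_num A q M a b hab hq hA hqM ht htot
  refine ⟨g, g₁, c, c₁, hg, hg₁, ?_⟩
  have h1 := (mT A q M a b hab hq hA hqM ht htot).card_le_toSSD_nodes (ffL q M).principal
    (ffL q M).deg_one (ff1 A q M a b hab hq hA hqM ht).principal
    (ff1 A q M a b hab hq hA hqM ht).deg_one (ff1 A q M a b hab hq hA hqM ht).deg_one
    (exists_node A q M a b hab hq hA hqM ht htot) Z hZ
  have h2 : Z.card ≤ (modS A q M a b hab hq hA hqM ht htot).nodes.card := h1
  omega

/-! ### The cusps, the modular unit on the fibres -/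

omit [NeZero q] in
/-- The two versions of `j~` (levels `M q` and `M`) have the same `q`-expansion. -/
theorem coe_jRed_eq :
    ((jRed A (M * q) : F1 A q M) : LaurentSeries (kV A))
      = ((jRed A M : ↥(H91.redM A M)) : LaurentSeries (kV A)) :=
  (red_jF A (M * q)).trans (red_jF A M).symm

omit [NeZero q] in
theorem kappa_ord_jRed (z : Place (kV A) (F1 A q M)) :
    (kappa A q M a b hab hq hA z).ord (jRed A M) = z.ord (jRed A (M * q) : F1 A q M) :=
  kappa_ord A q M a b hab hq hA z _ _ (coe_jRed_eq A q M)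

/-- **CUSP**, in terms of the places of `F₁`: a pole of `j~` is not a node. -/
theorem cusp_not_node (hCusp : CuspHyp A q M a b hab hq hA hqM ht htot)
    {z : Place (kV A) (F1 A q M)} (hz : z.ord (jRed A (M * q) : F1 A q M) < 0) :
    ¬ (mT A q M a b hab hq hA hqM ht htot).IsNode z := by
  have h1 := hCusp (kappa A q M a b hab hq hA z)
    (by rw [kappa_ord_jRed]; exact hz)
  rwa [Equiv.symm_apply_apply] at h1

/-- `j~` is regular at the nodes. -/
theorem ord_jRed_nonneg_of_isNode (hCusp : CuspHyp A q M a b hab hq hA hqM ht htot)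
    {z : Place (kV A) (F1 A q M)} (hz : (mT A q M a b hab hq hA hqM ht htot).IsNode z) :
    0 ≤ z.ord (jRed A (M * q) : F1 A q M) := by
  by_contra h
  exact cusp_not_node A q M a b hab hq hA hqM ht htot hCusp (not_le.mp h) hz

omit htot in
/-- The modular unit has neither zero nor pole on the fibre of a place at which `j~` is
regular. -/
theorem ord_unitF_eq_zero_of_fibre (hd : q ∣ M * q) {z : Place (kV A) (F1 A q M)}
    (hz : 0 ≤ z.ord (jRed A (M * q) : F1 A q M))
    {P : Place Kbar (FN (M * q))} (hP : rhoF1 a b hab hq hA hqM ht P = z) :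
    P.ord (Fermat.Agent.BAD.H30.unitF (M * q) q hd) = 0 := by
  apply ord_unitF_eq_zero_of_rhoM hq hqM ht hA hd P
  rw [← kappa_rhoF1 a b hab hq hA hqM ht P, hP, kappa_ord_jRed]
  exact hz

theorem modS_fibre {z : Place (kV A) (F1 A q M)} {P : Place Kbar (FN (M * q))}
    (hP : (modS A q M a b hab hq hA hqM ht htot).c₁.r P = some z) :
    rhoF1 a b hab hq hA hqM ht P = z :=
  ((mT A q M a b hab hq hA hqM ht htot).r₁_eq_some_iff.mp hP).1

/-- The cusps are good places of the first component. -/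
theorem modS_cusp_good (hCusp : CuspHyp A q M a b hab hq hA hqM ht htot)
    {z : Place (kV A) (F1 A q M)} (hz : z.ord (jRed A (M * q) : F1 A q M) < 0) :
    z ∈ (modS A q M a b hab hq hA hqM ht htot).c₁.good := by
  rw [(modS A q M a b hab hq hA hqM ht htot).good₁]
  intro s hs hsz
  have h1 := ((modS_mem_nodes A q M a b hab hq hA hqM ht htot).mp hs).1
  rw [hsz] at h1
  exact cusp_not_node A q M a b hab hq hA hqM ht htot hCusp hz h1

/-! ### The hypotheses of the abstract COORD -/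

/-- **UNIT** at a node. -/
theorem modS_unit (hCusp : CuspHyp A q M a b hab hq hA hqM ht htot) (hd : q ∣ M * q)
    {s : Place (kV A) (F1 A q M) × Place (kV A) (F1 A q M)}
    (hs : s ∈ (modS A q M a b hab hq hA hqM ht htot).nodes) :
    (modS A q M a b hab hq hA hqM ht htot).c₁.IsGU (Fermat.Agent.BAD.H30.unitF (M * q) q hd) ∧
    ZeroFree (modS A q M a b hab hq hA hqM ht htot) s
      (Fermat.Agent.BAD.H30.unitF (M * q) q hd) ∧
    (modS A q M a b hab hq hA hqM ht htot).c₂.IsGU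
      (Fermat.Agent.BAD.H30.unitF (M * q) q hd / algebraMap Kbar (FN (M * q)) (q : Kbar) ^ 12) ∧
    0 < s.1.ord ((modS A q M a b hab hq hA hqM ht htot).c₁.rd
      (Fermat.Agent.BAD.H30.unitF (M * q) q hd)) := by
  have hnode := ((modS_mem_nodes A q M a b hab hq hA hqM ht htot).mp hs).1
  have hU1 : Fermat.Agent.BAD.H30.unitF (M * q) q hd ∈ V1 A q M :=
    Fermat.Agent.BAD.H30.unitF_mem_gaussV A (M * q) q hd
  have hU : (modS A q M a b hab hq hA hqM ht htot).c₁.IsGU
      (Fermat.Agent.BAD.H30.unitF (M * q) q hd) := by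
    refine ⟨hU1, ?_⟩
    rw [modS_rd₁ A q M a b hab hq hA hqM ht htot hU1]
    exact Fermat.Agent.BAD.H30.gaussRes_unitF_ne_zero A (M * q) q hd
  have hUzf : ZeroFree (modS A q M a b hab hq hA hqM ht htot) s
      (Fermat.Agent.BAD.H30.unitF (M * q) q hd) := fun P hP =>
    ord_unitF_eq_zero_of_fibre A q M a b hab hq hA hqM ht hd
      (ord_jRed_nonneg_of_isNode A q M a b hab hq hA hqM ht htot hCusp hnode)
      (modS_fibre A q M a b hab hq hA hqM ht htot hP)
  obtain ⟨hU2m, hU2r⟩ := unit_div_mem_V2 A q M a b hab hq hd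
  have hU₂ : (modS A q M a b hab hq hA hqM ht htot).c₂.IsGU
      (Fermat.Agent.BAD.H30.unitF (M * q) q hd
        / algebraMap Kbar (FN (M * q)) (q : Kbar) ^ 12) := by
    refine ⟨hU2m, ?_⟩
    rw [modS_rd₂ A q M a b hab hq hA hqM ht htot hU2m]
    exact hU2r
  refine ⟨hU, hUzf, hU₂, ?_⟩
  -- `U = (U / q ^ 12) q ^ 12` is in the maximal ideal of `V₂`
  have hqV : algebraMap Kbar (FN (M * q)) (q : Kbar)
      ∈ (modS A q M a b hab hq hA hqM ht htot).c₁.V := q_mem_V1 A q M
  have hq0 : (modS A q M a b hab hq hA hqM ht htot).c₁.rd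
      (algebraMap Kbar (FN (M * q)) (q : Kbar)) = 0 := by
    rw [modS_rd₁ A q M a b hab hq hA hqM ht htot (q_mem_V1 A q M)]
    exact red1_q A q M hA _
  obtain ⟨hq12, hq12r⟩ := rd₂_pow_unif hqV hq0 (d := 12) (by norm_num)
  have hqne : algebraMap Kbar (FN (M * q)) (q : Kbar) ^ 12 ≠ 0 := by
    apply pow_ne_zero
    rw [Ne, map_eq_zero_iff _ (algebraMap Kbar (FN (M * q))).injective]
    exact_mod_cast hq.ne_zero
  have e : Fermat.Agent.BAD.H30.unitF (M * q) q hd
      = Fermat.Agent.BAD.H30.unitF (M * q) q hd / algebraMap Kbar (FN (M * q)) (q : Kbar) ^ 12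
        * algebraMap Kbar (FN (M * q)) (q : Kbar) ^ 12 := by
    rw [div_mul_cancel₀ _ hqne]
  have hUV2 : Fermat.Agent.BAD.H30.unitF (M * q) q hd
      ∈ (modS A q M a b hab hq hA hqM ht htot).c₂.V := by
    rw [e]
    exact ((modS A q M a b hab hq hA hqM ht htot).c₂.V).mul_mem _ _ hU₂.1 hq12
  have hUr2 : (modS A q M a b hab hq hA hqM ht htot).c₂.rd
      (Fermat.Agent.BAD.H30.unitF (M * q) q hd) = 0 := by
    rw [e, (modS A q M a b hab hq hA hqM ht htot).c₂.rd_mul hU₂.1 hq12, hq12r, mul_zero]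
  have hvan := vanAt₁_of_rd₂_eq_zero hs hU.1 hUV2 hUr2 hUzf.poleFree
  rw [RED.H17.vanAt_iff_ord] at hvan
  rcases hvan with h0 | hpos
  · exact absurd h0 hU.2
  · exact hpos

/-- **(K0)** at the node `s`, the form consumed by the abstract COORD: every function integral
for both valuations without pole on the fibre of `s` has an inertia-fixed companion with the same
reductions and without pole on the fibre of `s`. -/
def K0At (s : Place (kV A) (F1 A q M) × Place (kV A) (F1 A q M)) : Prop :=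
  ∀ u : FN (M * q), u ∈ (modS A q M a b hab hq hA hqM ht htot).c₁.V →
    u ∈ (modS A q M a b hab hq hA hqM ht htot).c₂.V →
    PoleFree (modS A q M a b hab hq hA hqM ht htot) s u →
    ∃ u0 ∈ H15.fixF (M * q) (inertiaI A),
      u0 ∈ (modS A q M a b hab hq hA hqM ht htot).c₁.V ∧
      u0 ∈ (modS A q M a b hab hq hA hqM ht htot).c₂.V ∧
      (modS A q M a b hab hq hA hqM ht htot).c₁.rd u0
        = (modS A q M a b hab hq hA hqM ht htot).c₁.rd u ∧
      (modS A q M a b hab hq hA hqM ht htot).c₂.rd u0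
        = (modS A q M a b hab hq hA hqM ht htot).c₂.rd u ∧
      PoleFree (modS A q M a b hab hq hA hqM ht htot) s u0

/-- (K0) at every node from ARITH-0. -/
theorem k0At_of_arith0 (hK0 : Arith0Hyp A q M a b hab hq)
    (s : Place (kV A) (F1 A q M) × Place (kV A) (F1 A q M)) :
    K0At A q M a b hab hq hA hqM ht htot s := by
  intro u hu1 hu2 hpf
  obtain ⟨g0, hfix, h1, h2, hpole⟩ := hK0 u
  obtain ⟨h01, hr1⟩ := h1 hu1
  obtain ⟨h02, hr2⟩ := h2 hu2
  refine ⟨g0, hfix, h01, h02, ?_, ?_, ?_⟩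
  · rw [modS_rd₁ A q M a b hab hq hA hqM ht htot h01,
      modS_rd₁ A q M a b hab hq hA hqM ht htot hu1]
    exact hr1
  · rw [modS_rd₂ A q M a b hab hq hA hqM ht htot h02,
      modS_rd₂ A q M a b hab hq hA hqM ht htot hu2]
    exact hr2
  · intro P hP
    by_contra hneg
    obtain ⟨σ, hσ, hσP⟩ := hpole P (not_le.mp hneg)
    have h3 := hpf (galF (M * q) σ • P) (by
      rw [(modS_inertial A q M a b hab hq hA hqM ht htot hσ).r₁]
      exact hP)
    omega

/-- **COORD** at a node of the modular datum, from (K0) at the node: an inertia-fixed annulus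
coordinate of thickness `q ^ n`, `n ∣ 12`. -/
theorem coord_modS_core (hCusp : CuspHyp A q M a b hab hq hA hqM ht htot)
    {s : Place (kV A) (F1 A q M) × Place (kV A) (F1 A q M)}
    (hs : s ∈ (modS A q M a b hab hq hA hqM ht htot).nodes)
    (hK0' : K0At A q M a b hab hq hA hqM ht htot s) :
    ∃ t ∈ H15.fixF (M * q) (inertiaI A), ∃ n : ℕ, 0 < n ∧ n ∣ 12 ∧
      (modS A q M a b hab hq hA hqM ht htot).IsAnnCoord s t ((q : Kbar) ^ n) := by
  haveI : IsAlgClosed (kV A) := isAlgClosed_kV A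
  have hd : q ∣ M * q := Dvd.intro_left M rfl
  obtain ⟨g, g₁, c, c₁, hg, hg₁, hnum⟩ := modS_genus A q M a b hab hq hA hqM ht htot
  obtain ⟨hU, hUzf, hU₂, hpos⟩ := modS_unit A q M a b hab hq hA hqM ht htot hCusp hd hs
  obtain ⟨a', ha'⟩ : ∃ a' : ℕ, s.1.ord ((modS A q M a b hab hq hA hqM ht htot).c₁.rd
      (Fermat.Agent.BAD.H30.unitF (M * q) q hd)) = a' :=
    ⟨_, (Int.toNat_of_nonneg hpos.le).symm⟩
  have ha0 : 0 < a' := by
    rw [ha'] at hpos
    exact_mod_cast hpos
  have hq0 : (q : Kbar) ≠ 0 := Nat.cast_ne_zero.2 hq.ne_zero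
  have hqV : algebraMap Kbar (FN (M * q)) (q : Kbar)
      ∈ (modS A q M a b hab hq hA hqM ht htot).c₁.V := q_mem_V1 A q M
  have hqr : (modS A q M a b hab hq hA hqM ht htot).c₁.rd
      (algebraMap Kbar (FN (M * q)) (q : Kbar)) = 0 := by
    rw [modS_rd₁ A q M a b hab hq hA hqM ht htot (q_mem_V1 A q M)]
    exact red1_q A q M hA _
  have hdisc : ∀ f ∈ H15.fixF (M * q) (inertiaI A),
      f ∈ (modS A q M a b hab hq hA hqM ht htot).c₂.V →
      (modS A q M a b hab hq hA hqM ht htot).c₂.rd f = 0 →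
      f / algebraMap Kbar (FN (M * q)) (q : Kbar)
        ∈ (modS A q M a b hab hq hA hqM ht htot).c₂.V := by
    intro f hf h h0
    refine disc_fix A q M a b hab hq hA hf h ?_
    rw [← modS_rd₂ A q M a b hab hq hA hqM ht htot h]
    exact h0
  obtain ⟨t, htF, n, hn, hcoord, hna⟩ :=
    exists_isAnnCoord_of_goodLift (modS A q M a b hab hq hA hqM ht htot) (ffL q M)
      (ff1 A q M a b hab hq hA hqM ht) (ff1 A q M a b hab hq hA hqM ht) hg hg₁ hg₁ hnum hs
      hq0 hqV hqr (H15.fixF (M * q) (inertiaI A)) (q_mem_fix A q M) hK0' hdisc hU hUzf hU₂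
      ha0 ha'
  exact ⟨t, htF, n, hn, Dvd.intro _ hna, hcoord⟩

/-- **COORD** at a node of the modular datum, from ARITH-0: an inertia-fixed annulus coordinate
of thickness `q ^ n`, `n ∣ 12`. -/
theorem coord_modS (hCusp : CuspHyp A q M a b hab hq hA hqM ht htot)
    (hK0 : Arith0Hyp A q M a b hab hq)
    {s : Place (kV A) (F1 A q M) × Place (kV A) (F1 A q M)}
    (hs : s ∈ (modS A q M a b hab hq hA hqM ht htot).nodes) :
    ∃ t ∈ H15.fixF (M * q) (inertiaI A), ∃ n : ℕ, 0 < n ∧ n ∣ 12 ∧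
      (modS A q M a b hab hq hA hqM ht htot).IsAnnCoord s t ((q : Kbar) ^ n) :=
  coord_modS_core A q M a b hab hq hA hqM ht htot hCusp hs
    (k0At_of_arith0 A q M a b hab hq hA hqM ht htot hK0 s)

end Core

end Fermat.Agent.BADP.H21
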