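import Fermat.Agent.BADP.H11_Arith0Q
import Fermat.Agent.BADP.H21_Coord

/-!
# ARITH-0 (helper11): helper21's hypothesis `BADP.H21.Arith0Hyp`, unconditional, every prime `q`
-/

set_option autoImplicit false

namespace Fermat.Agent.BADP.H11

open Fermat.Agent.BADP

/-- **ARITH-0** in helper21's shape, for every prime `q` and every valuation ring over `q`. -/
theorem arith0Hyp (A : ValuationSubring (AlgebraicClosure ℚ)) (q M : ℕ) (a b : ℤ)
    (hab : a * q + b * M = 1) (hq : q.Prime) [NeZero (M * q)] (hA : A.LiesOverPrime q) :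
    H21.Arith0Hyp A q M a b hab hq :=
  fun g => arith0_V A q M a b hab hq hA g

end Fermat.Agent.BADP.H11
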