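import Fermat.Agent.BADP.H11_Arith0
import Fermat.Agent.BADP.ModP
import Fermat.Agent.BADP.AbsStmts
import Fermat.Agent.S15.Desc.H67_Coord

/-!
# S44 BADP, leaf ARITH-0 (helper11): the `K0`-rational parts, for the modular datum at `p`

`N = M p`, `A` a valuation subring of `ℚ̄` over `p`, `I` its inertia group, `S` a modular
semistable Deuring datum (`IsModDatum`: `V₁` the Gauss valuation ring, `V₂ = V₁ ∘ w_p`).

* `stmt_Arith0` : **ARITH-0** in the form of `NOTES/plan/L_S44.md` §12.2: every `g` has an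
  `I`-fixed part `g0` such that, for every constant `c` fixed by `I`, `c g ∈ V_i` implies
  `c g0 ∈ V_i` with the same reduction (`i = 1, 2`), and every pole of `g0` is conjugate under `I`
  to a pole of `g`.
* `exists_k0Part` : for a modular datum `S`: every `u ∈ V₁ ∩ V₂` has an `I`-fixed part with the
  same two reductions whose poles lie in the fibres of the poles of `u`.
* `isK0Lift_mod` : `IsK0Lift S 𝓘` for every set `𝓘` of automorphisms `galF N σ`, `σ ∈ I`.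
* `k0_coord` : the hypothesis (K0) of `H21.exists_isAnnCoord_of_goodLift`.
-/

set_option autoImplicit false
set_option linter.style.haveILetI false
set_option linter.unusedSectionVars false
set_option synthInstance.maxHeartbeats 400000
set_option maxHeartbeats 1000000

noncomputable section

namespace Fermat.Agent.BADP.H11

open AlgebraicCurve ModularCurve Fermat.Agent.BAD Fermat.Agent.S28 Fermat.Agent.S28.H73
  Fermat.Agent.RED.H73 Fermat.Agent.S43.BadQ Fermat.Agent.BADP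

open scoped Classical

local notation "Qbar" => AlgebraicClosure ℚ

section Mod

variable (A : ValuationSubring Qbar) (p M : ℕ) (a b : ℤ) (hab : a * p + b * M = 1)
  (hp : p.Prime) [NeZero (M * p)]

theorem wS_smul_eq (x : ↥(FNbar (M * p))) :
    wS p M a b hab hp • x = H88.wq p M a b hab hp x := rfl

theorem wq_traceOp {ι : Type} [Fintype ι] (σ : ι → GalQ) (d : Qbar) (g : ↥(FNbar (M * p))) :
    H88.wq p M a b hab hp (traceOp (M * p) σ d g)
      = traceOp (M * p) σ d (H88.wq p M a b hab hp g) :=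
  traceOp_comm (M * p) σ d (H88.wq p M a b hab hp)
    (fun i x => H88.wq_arith p M a b hab hp (σ i) x) g

/-- **ARITH-0** (helper93's form).  Every modular function `g` of level `M p` has an `I`-fixed
part `g0`: for every constant `c` fixed by `I`, if `c g` is in the Gauss valuation ring `V₁` then
so is `c g0`, with the same reduction; the same for `V₂ = V₁ ∘ w_p`; and every pole of `g0` is
conjugate under `I` to a pole of `g`. -/
theorem stmt_Arith0 (hA : A.LiesOverPrime p) (g : ↥(FNbar (M * p))) :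
    ∃ g0 : ↥(FNbar (M * p)),
      (∀ τ ∈ A.inertiaSubgroupIn ℚ, galF (M * p) τ • g0 = g0) ∧
      (∀ c : Qbar, (∀ τ ∈ A.inertiaSubgroupIn ℚ, τ c = c) →
        (∀ h : algebraMap Qbar ↥(FNbar (M * p)) c * g ∈ gaussV A (M * p),
          ∃ h0 : algebraMap Qbar ↥(FNbar (M * p)) c * g0 ∈ gaussV A (M * p),
            gaussRes A (M * p) ⟨_, h0⟩ = gaussRes A (M * p) ⟨_, h⟩) ∧
        (∀ h : wS p M a b hab hp • (algebraMap Qbar ↥(FNbar (M * p)) c * g) ∈ gaussV A (M * p),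
          ∃ h0 : wS p M a b hab hp • (algebraMap Qbar ↥(FNbar (M * p)) c * g0)
              ∈ gaussV A (M * p),
            gaussRes A (M * p) ⟨_, h0⟩ = gaussRes A (M * p) ⟨_, h⟩)) ∧
      ∀ P : Place Qbar ↥(FNbar (M * p)), P.ord g0 < 0 →
        ∃ τ ∈ A.inertiaSubgroupIn ℚ, (galF (M * p) τ • P).ord g < 0 := by
  obtain ⟨ι, hι, σ, d, hσ, hT⟩ :=
    exists_traceOp (M * p) A hp hA {g, H88.wq p M a b hab hp g}
  have hg := hT g (by simp)
  have hwg := hT (H88.wq p M a b hab hp g) (by simp)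
  refine ⟨traceOp (M * p) σ d g, hg.1, fun c hc => ⟨fun h => hg.2 c hc h, fun h => ?_⟩,
    fun P hP => ?_⟩
  · have e : ∀ x : ↥(FNbar (M * p)),
        wS p M a b hab hp • (algebraMap Qbar ↥(FNbar (M * p)) c * x)
          = algebraMap Qbar ↥(FNbar (M * p)) c * H88.wq p M a b hab hp x := by
      intro x
      rw [wS_smul_eq, map_mul, AlgEquiv.commutes]
    have h' : algebraMap Qbar ↥(FNbar (M * p)) c * H88.wq p M a b hab hp g
        ∈ gaussV A (M * p) := by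
      rw [← e]; exact h
    obtain ⟨h0, hr⟩ := hwg.2 c hc h'
    have e0 : wS p M a b hab hp • (algebraMap Qbar ↥(FNbar (M * p)) c * traceOp (M * p) σ d g)
        = algebraMap Qbar ↥(FNbar (M * p)) c
          * traceOp (M * p) σ d (H88.wq p M a b hab hp g) := by
      rw [e, wq_traceOp]
    have h0' : wS p M a b hab hp • (algebraMap Qbar ↥(FNbar (M * p)) c
        * traceOp (M * p) σ d g) ∈ gaussV A (M * p) := by
      rw [e0]; exact h0
    refine ⟨h0', ?_⟩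
    have g1 : (⟨_, h0'⟩ : ↥(gaussV A (M * p))) = ⟨_, h0⟩ := Subtype.ext e0
    have g2 : (⟨_, h⟩ : ↥(gaussV A (M * p))) = ⟨_, h'⟩ := Subtype.ext (e g)
    rw [g1, g2]
    exact hr
  · obtain ⟨i, hi⟩ := exists_pole_of_traceOp (M * p) σ d g P hP
    refine ⟨(σ i)⁻¹, inv_mem (hσ i), ?_⟩
    have e : galF (M * p) (σ i)⁻¹ = (galF (M * p) (σ i))⁻¹ :=
      map_inv (arithmeticGalois (modularFunctionFieldFull (M * p))) (σ i)
    rw [e]
    exact hi

variable {A p M a b hab hp}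

/-- For a modular datum: every function integral for both valuations has an `I`-fixed part with
the same reductions, whose poles lie in the fibres of the poles of the function. -/
theorem exists_k0Part (hA : A.LiesOverPrime p)
    {S : SSD Qbar ↥(FNbar (M * p)) (kV A) (RedF A (M * p)) (RedF A (M * p))}
    (hS : IsModDatum A p M a b hab hp S) (u : ↥(FNbar (M * p)))
    (hu₁ : u ∈ S.c₁.V) (hu₂ : u ∈ S.c₂.V) :
    ∃ u0 : ↥(FNbar (M * p)),
      (∀ τ ∈ A.inertiaSubgroupIn ℚ, galF (M * p) τ • u0 = u0) ∧ u0 ∈ S.c₁.V ∧ u0 ∈ S.c₂.V ∧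
      S.c₁.rd u0 = S.c₁.rd u ∧ S.c₂.rd u0 = S.c₂.rd u ∧
      ∀ P : Place Qbar ↥(FNbar (M * p)), P.ord u0 < 0 →
        ∃ P' : Place Qbar ↥(FNbar (M * p)),
          S.c₁.r P' = S.c₁.r P ∧ S.c₂.r P' = S.c₂.r P ∧ P'.ord u < 0 := by
  obtain ⟨u0, hfix, hc, hpole⟩ := stmt_Arith0 A p M a b hab hp hA u
  obtain ⟨h1, h2⟩ := hc 1 (fun τ _ => map_one τ)
  have e1 : ∀ x : ↥(FNbar (M * p)), algebraMap Qbar ↥(FNbar (M * p)) 1 * x = x := by
    intro x
    rw [map_one, one_mul]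
  -- first valuation
  have hg1 : algebraMap Qbar ↥(FNbar (M * p)) 1 * u ∈ gaussV A (M * p) := by
    rw [e1]; exact (hS.mem₁ u).mp hu₁
  obtain ⟨h01, hr1⟩ := h1 hg1
  have hu0g : u0 ∈ gaussV A (M * p) := by
    rw [e1] at h01; exact h01
  have hug : u ∈ gaussV A (M * p) := (hS.mem₁ u).mp hu₁
  have hu0₁ : u0 ∈ S.c₁.V := (hS.mem₁ u0).mpr hu0g
  have hr1' : gaussRes A (M * p) ⟨u0, hu0g⟩ = gaussRes A (M * p) ⟨u, hug⟩ := by
    have g1 : (⟨_, h01⟩ : ↥(gaussV A (M * p))) = ⟨u0, hu0g⟩ := Subtype.ext (e1 u0)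
    have g2 : (⟨_, hg1⟩ : ↥(gaussV A (M * p))) = ⟨u, hug⟩ := Subtype.ext (e1 u)
    rw [← g1, ← g2]
    exact hr1
  -- second valuation
  have hwug : wS p M a b hab hp • u ∈ gaussV A (M * p) := (hS.mem₂ u).mp hu₂
  have hg2 : wS p M a b hab hp • (algebraMap Qbar ↥(FNbar (M * p)) 1 * u)
      ∈ gaussV A (M * p) := by
    rw [e1]; exact hwug
  obtain ⟨h02, hr2⟩ := h2 hg2
  have hwu0g : wS p M a b hab hp • u0 ∈ gaussV A (M * p) := by
    rw [e1] at h02; exact h02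
  have hu0₂ : u0 ∈ S.c₂.V := (hS.mem₂ u0).mpr hwu0g
  have hr2' : gaussRes A (M * p) ⟨_, hwu0g⟩ = gaussRes A (M * p) ⟨_, hwug⟩ := by
    have g1 : (⟨_, h02⟩ : ↥(gaussV A (M * p))) = ⟨_, hwu0g⟩ :=
      Subtype.ext (congrArg (fun x => wS p M a b hab hp • x) (e1 u0))
    have g2 : (⟨_, hg2⟩ : ↥(gaussV A (M * p))) = ⟨_, hwug⟩ :=
      Subtype.ext (congrArg (fun x => wS p M a b hab hp • x) (e1 u))
    rw [← g1, ← g2]
    exact hr2
  refine ⟨u0, hfix, hu0₁, hu0₂, ?_, ?_, fun P hP => ?_⟩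
  · rw [PRed.rd_of_mem _ hu0₁, PRed.rd_of_mem _ hu₁,
      hS.red₁ ⟨u0, hu0g⟩ hu0₁, hS.red₁ ⟨u, hug⟩ hu₁]
    exact hr1'
  · rw [PRed.rd_of_mem _ hu0₂, PRed.rd_of_mem _ hu₂,
      hS.red₂ u0 hu0₂ hwu0g, hS.red₂ u hu₂ hwug]
    exact hr2'
  · obtain ⟨τ, hτ, hord⟩ := hpole P hP
    have hin := hS.inertial τ hτ
    exact ⟨galF (M * p) τ • P, hin.r₁ P, hin.r₂ P, hord⟩

/-- **(K0)** for the modular datum at `p`: `IsK0Lift S 𝓘` for every set `𝓘` of automorphisms
induced by the inertia group. -/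
theorem isK0Lift_mod (hA : A.LiesOverPrime p)
    {S : SSD Qbar ↥(FNbar (M * p)) (kV A) (RedF A (M * p)) (RedF A (M * p))}
    (hS : IsModDatum A p M a b hab hp S)
    (𝓘 : Set (SemilinearAut Qbar ↥(FNbar (M * p))))
    (h𝓘 : ∀ τ ∈ 𝓘, ∃ σ ∈ A.inertiaSubgroupIn ℚ, τ = galF (M * p) σ) :
    IsK0Lift S 𝓘 := by
  intro u hu₁ hu₂
  obtain ⟨u0, hfix, h1, h2, h3, h4, h5⟩ := exists_k0Part hA hS u hu₁ hu₂
  refine ⟨u0, fun τ hτ => ?_, h1, h2, h3, h4, h5⟩
  obtain ⟨σ, hσ, rfl⟩ := h𝓘 τ hτ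
  exact hfix σ hσ

/-- The hypothesis (K0) of helper21's `H21.exists_isAnnCoord_of_goodLift`, for the modular datum
at `p` and every subfield `F0` containing the functions fixed by the inertia group. -/
theorem k0_coord (hA : A.LiesOverPrime p)
    {S : SSD Qbar ↥(FNbar (M * p)) (kV A) (RedF A (M * p)) (RedF A (M * p))}
    (hS : IsModDatum A p M a b hab hp S)
    (F0 : Subfield ↥(FNbar (M * p)))
    (hF0 : ∀ x : ↥(FNbar (M * p)),
      (∀ τ ∈ A.inertiaSubgroupIn ℚ, galF (M * p) τ • x = x) → x ∈ F0)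
    (s : Place (kV A) (RedF A (M * p)) × Place (kV A) (RedF A (M * p)))
    (u : ↥(FNbar (M * p))) (hu₁ : u ∈ S.c₁.V) (hu₂ : u ∈ S.c₂.V)
    (hpf : Fermat.Agent.S15.Desc.H67.PoleFree S s u) :
    ∃ u0 ∈ F0, u0 ∈ S.c₁.V ∧ u0 ∈ S.c₂.V ∧ S.c₁.rd u0 = S.c₁.rd u ∧
      S.c₂.rd u0 = S.c₂.rd u ∧ Fermat.Agent.S15.Desc.H67.PoleFree S s u0 := by
  obtain ⟨u0, hfix, h1, h2, h3, h4, h5⟩ := exists_k0Part hA hS u hu₁ hu₂
  refine ⟨u0, hF0 u0 hfix, h1, h2, h3, h4, fun P hP => ?_⟩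
  by_contra hneg
  obtain ⟨P', hP'1, -, hP'⟩ := h5 P (not_le.mp hneg)
  have := hpf P' (by rw [hP'1]; exact hP)
  exact absurd hP' (not_lt.mpr this)

end Mod

end Fermat.Agent.BADP.H11
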