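import Fermat.Agent.BADP.H11_Arith0Mod
import Fermat.Agent.BADP.H15_Desc

/-!
# ARITH-0 (helper11) at every prime `q`, level `M q`, in the `V1 / V2 / red1 / red2` shape

`arith0_V` : for every prime `q` (no `5 ≤ q`, no tameness), `A` over `q`: every function `g` of
level `M q` has an inertia-fixed part `g0 ∈ H15.fixF (M q) I` with `g ∈ V_i → g0 ∈ V_i` and
`red_i g0 = red_i g` (`i = 1, 2`), whose poles are conjugate under `I` to poles of `g`.
This is the body of helper21's `BADP.H21.Arith0Hyp`.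
-/

set_option autoImplicit false
set_option linter.style.haveILetI false
set_option linter.unusedSectionVars false
set_option synthInstance.maxHeartbeats 400000
set_option maxHeartbeats 1000000

noncomputable section

namespace Fermat.Agent.BADP.H11

open AlgebraicCurve ModularCurve Fermat.Agent.BAD Fermat.Agent.S28 Fermat.Agent.S28.H73
  Fermat.Agent.RED.H73 Fermat.Agent.S43.BadQ Fermat.Agent.BADP Fermat.Agent.BAD.H88
  Fermat.Agent.S24

open scoped Classical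

local notation "Qbar" => AlgebraicClosure ℚ

variable (A : ValuationSubring Qbar) (q M : ℕ) (a b : ℤ) (hab : a * q + b * M = 1)
  (hq : q.Prime) [NeZero (M * q)]

/-- ARITH-0 with `c = 1`, in terms of the Gauss valuation ring and `w_q`. -/
theorem arith0_one (hA : A.LiesOverPrime q) (g : ↥(FNbar (M * q))) :
    ∃ g0 : ↥(FNbar (M * q)),
      (∀ τ ∈ A.inertiaSubgroupIn ℚ, galF (M * q) τ • g0 = g0) ∧
      (∀ h : g ∈ gaussV A (M * q), ∃ h0 : g0 ∈ gaussV A (M * q),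
        gaussRes A (M * q) ⟨g0, h0⟩ = gaussRes A (M * q) ⟨g, h⟩) ∧
      (∀ h : H88.wq q M a b hab hq g ∈ gaussV A (M * q),
        ∃ h0 : H88.wq q M a b hab hq g0 ∈ gaussV A (M * q),
          gaussRes A (M * q) ⟨_, h0⟩ = gaussRes A (M * q) ⟨_, h⟩) ∧
      ∀ P : Place Qbar ↥(FNbar (M * q)), P.ord g0 < 0 →
        ∃ τ ∈ A.inertiaSubgroupIn ℚ, (galF (M * q) τ • P).ord g < 0 := by
  obtain ⟨g0, hfix, hc, hpole⟩ := stmt_Arith0 A q M a b hab hq hA g
  obtain ⟨h1, h2⟩ := hc 1 (fun τ _ => map_one τ)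
  have e1 : ∀ x : ↥(FNbar (M * q)), algebraMap Qbar ↥(FNbar (M * q)) 1 * x = x := by
    intro x
    rw [map_one, one_mul]
  have e2 : ∀ x : ↥(FNbar (M * q)),
      wS q M a b hab hq • (algebraMap Qbar ↥(FNbar (M * q)) 1 * x)
        = H88.wq q M a b hab hq x := by
    intro x
    rw [e1]
    rfl
  refine ⟨g0, hfix, fun h => ?_, fun h => ?_, hpole⟩
  · have hg1 : algebraMap Qbar ↥(FNbar (M * q)) 1 * g ∈ gaussV A (M * q) := by
      rw [e1]; exact h
    obtain ⟨h01, hr1⟩ := h1 hg1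
    have h0 : g0 ∈ gaussV A (M * q) := by
      rw [e1] at h01; exact h01
    refine ⟨h0, ?_⟩
    have g1 : (⟨_, h01⟩ : ↥(gaussV A (M * q))) = ⟨g0, h0⟩ := Subtype.ext (e1 g0)
    have g2 : (⟨_, hg1⟩ : ↥(gaussV A (M * q))) = ⟨g, h⟩ := Subtype.ext (e1 g)
    rw [← g1, ← g2]
    exact hr1
  · have hg2 : wS q M a b hab hq • (algebraMap Qbar ↥(FNbar (M * q)) 1 * g)
        ∈ gaussV A (M * q) := by
      rw [e2]; exact h
    obtain ⟨h02, hr2⟩ := h2 hg2
    have h0 : H88.wq q M a b hab hq g0 ∈ gaussV A (M * q) := by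
      rw [e2] at h02; exact h02
    refine ⟨h0, ?_⟩
    have g1 : (⟨_, h02⟩ : ↥(gaussV A (M * q))) = ⟨_, h0⟩ := Subtype.ext (e2 g0)
    have g2 : (⟨_, hg2⟩ : ↥(gaussV A (M * q))) = ⟨_, h⟩ := Subtype.ext (e2 g)
    rw [← g1, ← g2]
    exact hr2

/-- **ARITH-0** at every prime `q`, in the shape of helper21's `BADP.H21.Arith0Hyp`. -/
theorem arith0_V (hA : A.LiesOverPrime q) (g : FN (M * q)) :
    ∃ g0 : FN (M * q),
      g0 ∈ H15.fixF (M * q) ((A.inertiaSubgroupIn ℚ : Subgroup GalQ) : Set GalQ) ∧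
      (∀ h : g ∈ V1 A q M, ∃ h0 : g0 ∈ V1 A q M, red1 A q M ⟨g0, h0⟩ = red1 A q M ⟨g, h⟩) ∧
      (∀ h : g ∈ V2 A q M a b hab hq, ∃ h0 : g0 ∈ V2 A q M a b hab hq,
        red2 A q M a b hab hq ⟨g0, h0⟩ = red2 A q M a b hab hq ⟨g, h⟩) ∧
      ∀ P : Place Kbar (FN (M * q)), P.ord g0 < 0 →
        ∃ σ ∈ A.inertiaSubgroupIn ℚ, (galF (M * q) σ • P).ord g < 0 := by
  obtain ⟨g0, hfix, h1, h2, hpole⟩ := arith0_one A q M a b hab hq hA g
  refine ⟨g0, fun σ hσ => hfix σ hσ, fun h => ?_, fun h => ?_, hpole⟩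
  · obtain ⟨h0, hr⟩ := h1 h
    exact ⟨h0, hr⟩
  · obtain ⟨h0, hr⟩ := h2 h
    exact ⟨h0, hr⟩

end Fermat.Agent.BADP.H11
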