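import Mathlib

/-!
# S44 BADP, leaf ARITH-0 (helper11), part 1: the residue field of the inertia field

Abstract setting: a field `L`, a finite group `Γ` acting on `L` by field automorphisms, a valuation
subring `O` of `L` stable under `Γ` on whose residue field `Γ` acts trivially ("`Γ` is inertial"),
residue characteristic `p`, and the fixed part of the residue field is perfect.  Then every
residue class of `O` contains a `Γ`-fixed element (`exists_fixed_residue`).
-/

set_option autoImplicit false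

namespace Fermat.Agent.BADP.H11

open Polynomial

section Residue

variable {L : Type*} [Field L] {Γ : Type*} [Group Γ] [Fintype Γ] [MulSemiringAction Γ L]
variable (O : ValuationSubring L)

/-- The residue characteristic. -/
theorem charP_residue_of_mem (p : ℕ) [hp : Fact p.Prime] (hpO : (p : L) ∈ O.nonunits) :
    CharP (IsLocalRing.ResidueField ↥O) p := by
  have h0 : ((p : ℕ) : IsLocalRing.ResidueField ↥O) = 0 := by
    rw [← map_natCast (IsLocalRing.residue ↥O), IsLocalRing.residue_eq_zero_iff,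
      ← ValuationSubring.coe_mem_nonunits_iff]
    have h : (((p : ℕ) : ↥O) : L) = ((p : ℕ) : L) := by push_cast; rfl
    rw [h]
    exact hpO
  have h1 : ringChar (IsLocalRing.ResidueField ↥O) ∣ p := ringChar.dvd h0
  rcases (Nat.dvd_prime hp.out).mp h1 with h | h
  · exact absurd h CharP.ringChar_ne_one
  · have h2 := ringChar.charP (IsLocalRing.ResidueField ↥O)
    rwa [h] at h2

theorem sub_mem_nonunits_iff_residue_eq (a b : ↥O) :
    ((a : L) - (b : L)) ∈ O.nonunits ↔ IsLocalRing.residue ↥O a = IsLocalRing.residue ↥O b := by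
  rw [← sub_eq_zero, ← map_sub, IsLocalRing.residue_eq_zero_iff,
    ← ValuationSubring.coe_mem_nonunits_iff]
  rfl

omit [Fintype Γ] in
/-- Iterated `p`-th roots modulo the maximal ideal, inside the fixed ring. -/
theorem exists_fixed_pow_root (p : ℕ)
    (hperf : ∀ x ∈ O, (∀ γ : Γ, γ • x = x) →
      ∃ y ∈ O, (∀ γ : Γ, γ • y = y) ∧ x - y ^ p ∈ O.nonunits) (s : ℕ) :
    ∀ x ∈ O, (∀ γ : Γ, γ • x = x) →
      ∃ y ∈ O, (∀ γ : Γ, γ • y = y) ∧ x - y ^ (p ^ s) ∈ O.nonunits := by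
  induction s with
  | zero =>
    intro x hx hfix
    refine ⟨x, hx, hfix, ?_⟩
    rw [pow_zero, pow_one, sub_self]
    exact O.mem_nonunits_iff.mpr (by simp)
  | succ s ih =>
    intro x hx hfix
    obtain ⟨y, hy, hyfix, hxy⟩ := hperf x hx hfix
    obtain ⟨z, hz, hzfix, hyz⟩ := ih y hy hyfix
    refine ⟨z, hz, hzfix, ?_⟩
    -- x ≡ y^p, y ≡ z^(p^s)  ⟹  x ≡ z^(p^(s+1))
    have e1 := (sub_mem_nonunits_iff_residue_eq O ⟨x, hx⟩ (⟨y, hy⟩ ^ p)).mp (by simpa using hxy)
    have e2 := (sub_mem_nonunits_iff_residue_eq O ⟨y, hy⟩ (⟨z, hz⟩ ^ (p ^ s))).mp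
      (by simpa using hyz)
    have e3 : IsLocalRing.residue ↥O ⟨x, hx⟩
        = IsLocalRing.residue ↥O ((⟨z, hz⟩ : ↥O) ^ (p ^ (s + 1))) := by
      rw [e1, map_pow, e2, map_pow, map_pow, ← pow_mul, pow_succ]
    have := (sub_mem_nonunits_iff_residue_eq O ⟨x, hx⟩ ((⟨z, hz⟩ : ↥O) ^ (p ^ (s + 1)))).mpr e3
    simpa using this

/-- **The residue field of the inertia field.**  If the finite group `Γ` acts inertially on the
valuation ring `O` (residue characteristic `p`) and the `Γ`-fixed elements of `O` have `p`-th roots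
modulo the maximal ideal, then every residue class of `O` contains a `Γ`-fixed element. -/
theorem exists_fixed_residue (p : ℕ) [hp : Fact p.Prime] (hpO : (p : L) ∈ O.nonunits)
    (hstab : ∀ (γ : Γ) (a : L), a ∈ O → γ • a ∈ O)
    (hinert : ∀ (γ : Γ) (a : L), a ∈ O → γ • a - a ∈ O.nonunits)
    (hperf : ∀ x ∈ O, (∀ γ : Γ, γ • x = x) →
      ∃ y ∈ O, (∀ γ : Γ, γ • y = y) ∧ x - y ^ p ∈ O.nonunits)
    (a : L) (ha : a ∈ O) :
    ∃ β ∈ O, (∀ γ : Γ, γ • β = β) ∧ a - β ∈ O.nonunits := by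
  classical
  have := charP_residue_of_mem O p hpO
  -- the characteristic polynomial, with coefficients in `O`
  let PO : (↥O)[X] := ∏ γ : Γ, (X - C (⟨γ • a, hstab γ a ha⟩ : ↥O))
  have hPO : PO.map O.subtype = MulSemiringAction.charpoly Γ a := by
    rw [MulSemiringAction.charpoly_eq, Polynomial.map_prod]
    refine Finset.prod_congr rfl fun γ _ => ?_
    rw [Polynomial.map_sub, map_X, map_C]
    rfl
  have hcoef_fix : ∀ (i : ℕ) (γ : Γ),
      γ • ((PO.coeff i : ↥O) : L) = ((PO.coeff i : ↥O) : L) := by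
    intro i γ
    have h1 : ((PO.coeff i : ↥O) : L) = (MulSemiringAction.charpoly Γ a).coeff i := by
      rw [← hPO, coeff_map]
      rfl
    rw [h1]
    exact MulSemiringAction.smul_coeff_charpoly a i γ
  -- its reduction
  have hred : PO.map (IsLocalRing.residue ↥O)
      = (X - C (IsLocalRing.residue ↥O ⟨a, ha⟩)) ^ Fintype.card Γ := by
    rw [Polynomial.map_prod]
    have h1 : ∀ γ ∈ (Finset.univ : Finset Γ),
        Polynomial.map (IsLocalRing.residue ↥O) (X - C (⟨γ • a, hstab γ a ha⟩ : ↥O))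
          = X - C (IsLocalRing.residue ↥O ⟨a, ha⟩) := by
      intro γ _
      rw [Polynomial.map_sub, map_X, map_C]
      congr 2
      exact (sub_mem_nonunits_iff_residue_eq O _ _).mp (hinert γ a ha)
    rw [Finset.prod_congr rfl h1, Finset.prod_const, Finset.card_univ]
  obtain ⟨s, n', hn', hcard⟩ :=
    Nat.exists_eq_pow_mul_and_not_dvd (Fintype.card_ne_zero (α := Γ)) p hp.out.ne_one
  have hn'0 : n' ≠ 0 := by
    rintro rfl
    exact hn' (dvd_zero p)
  set b := (IsLocalRing.residue ↥O ⟨a, ha⟩) ^ (p ^ s) with hb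
  have hpow : (X - C (IsLocalRing.residue ↥O ⟨a, ha⟩)) ^ Fintype.card Γ
      = expand (IsLocalRing.ResidueField ↥O) (p ^ s) ((X - C b) ^ n') := by
    rw [hcard, pow_mul, sub_pow_char_pow, map_pow, map_sub, expand_X, expand_C, hb, map_pow]
  have hcoeff : (PO.map (IsLocalRing.residue ↥O)).coeff ((n' - 1) * p ^ s) = -b * n' := by
    have h0 : (X - C b : (IsLocalRing.ResidueField ↥O)[X]) = X + C (-b) := by
      rw [map_neg, sub_eq_add_neg]
    rw [hred, hpow, coeff_expand_mul (pow_pos hp.out.pos s), h0, coeff_X_add_C_pow]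
    have h1 : n' - (n' - 1) = 1 := by omega
    have h2 : n'.choose (n' - 1) = n' := by
      obtain ⟨m, rfl⟩ := Nat.exists_eq_succ_of_ne_zero hn'0
      simp
    rw [h1, h2, pow_one]
  rw [coeff_map] at hcoeff
  set c : ↥O := PO.coeff ((n' - 1) * p ^ s) with hc
  -- `n'` is a unit of `O`
  have hn'res : ((n' : ℕ) : IsLocalRing.ResidueField ↥O) ≠ 0 := by
    rw [Ne, CharP.cast_eq_zero_iff (IsLocalRing.ResidueField ↥O) p]
    exact hn'
  have hn'unit : IsUnit ((n' : ℕ) : ↥O) := by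
    rw [← IsLocalRing.residue_ne_zero_iff_isUnit, map_natCast]
    exact hn'res
  obtain ⟨u, hu⟩ := hn'unit
  -- the fixed element `x = - c / n'` with residue `b`
  set x : ↥O := -c * ((u⁻¹ : (↥O)ˣ) : ↥O) with hx
  have hxres : IsLocalRing.residue ↥O x = b := by
    have h1 : IsLocalRing.residue ↥O ((u⁻¹ : (↥O)ˣ) : ↥O) * ((n' : ℕ) : _) = 1 := by
      rw [← map_natCast (IsLocalRing.residue ↥O), ← hu, ← map_mul, Units.inv_mul, map_one]
    rw [hx, map_mul, map_neg, hcoeff]
    calc - (-b * (n' : IsLocalRing.ResidueField ↥O)) * IsLocalRing.residue ↥O ((u⁻¹ : (↥O)ˣ) : ↥O)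
        = b * (IsLocalRing.residue ↥O ((u⁻¹ : (↥O)ˣ) : ↥O) * ((n' : ℕ) : _)) := by ring
      _ = b := by rw [h1, mul_one]
  have hucoe : (((u⁻¹ : (↥O)ˣ) : ↥O) : L) = ((n' : ℕ) : L)⁻¹ := by
    have h1 : (((u⁻¹ : (↥O)ˣ) : ↥O) : L) * ((n' : ℕ) : L) = 1 := by
      have h2 : ((((u⁻¹ : (↥O)ˣ) : ↥O) * (u : ↥O) : ↥O) : L) = 1 := by
        rw [Units.inv_mul]; rfl
      rw [hu] at h2
      simpa using h2
    exact eq_inv_of_mul_eq_one_left h1
  have hxfix : ∀ γ : Γ, γ • (x : L) = (x : L) := by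
    intro γ
    have h1 : (x : L) = -(c : L) * ((n' : ℕ) : L)⁻¹ := by
      rw [hx]
      push_cast
      rw [hucoe]
    have h2 : γ • ((n' : ℕ) : L) = ((n' : ℕ) : L) :=
      map_natCast (MulSemiringAction.toRingHom Γ L γ) n'
    rw [h1, smul_mul', smul_neg, hcoef_fix, smul_inv'', h2]
  obtain ⟨y, hy, hyfix, hxy⟩ := exists_fixed_pow_root O p hperf s (x : L) x.2 hxfix
  refine ⟨y, hy, hyfix, ?_⟩
  have e1 := (sub_mem_nonunits_iff_residue_eq O x (⟨y, hy⟩ ^ (p ^ s))).mp (by simpa using hxy)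
  rw [hxres, map_pow, hb] at e1
  have e2 : (IsLocalRing.residue ↥O ⟨a, ha⟩ - IsLocalRing.residue ↥O ⟨y, hy⟩) ^ (p ^ s) = 0 := by
    rw [sub_pow_char_pow, e1, sub_self]
  have e3 := sub_eq_zero.mp (pow_eq_zero_iff (pow_ne_zero s hp.out.ne_zero) |>.mp e2)
  exact (sub_mem_nonunits_iff_residue_eq O ⟨a, ha⟩ ⟨y, hy⟩).mpr e3

end Residue

end Fermat.Agent.BADP.H11
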