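import Fermat.Agent.BADP.H11_Arith0Field
import Fermat.Agent.RED.H73_GAVal

/-!
# S44 BADP, leaf ARITH-0 (helper11), part 4: the section on Laurent series and the Gauss ring

`L ⊂ ℚ̄` finite normal over `ℚ`, `Γ = inertiaRes A L`, acting coefficientwise on `L((t))`.
For `d ∈ L`:  `TL d y = ∑_γ γ (d y)`,  `NL b = ∏_γ γ b`.

* `TL_gauss` : if `d` is a section (`exists_section_field`) and `x = a / b` with `a, b ∈ (A ∩ L)((t))`,
  `b` primitive, then `TL d x` is in the Gauss ring of `A` and has the same reduction as `x`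
  (norm trick: `TL d x = TL d (a b♯) / NL b`).
-/

set_option autoImplicit false
set_option linter.style.haveILetI false
set_option linter.unusedSectionVars false

noncomputable section

namespace Fermat.Agent.BADP.H11

open ModularCurve Fermat.Agent.S28 Fermat.Agent.S28.H73 Fermat.Agent.RED.H73

open scoped Classical

local notation "Qbar" => AlgebraicClosure ℚ

variable (A : ValuationSubring Qbar) (L : IntermediateField ℚ Qbar)
  [FiniteDimensional ℚ L] [Normal ℚ L]

/-- `L((t)) → ℚ̄((t))`. -/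
def iotaL : LaurentSeries ↥L →+* LaurentSeries Qbar := coeffMap (algebraMap ↥L Qbar)

@[simp] theorem iotaL_coeff (y : LaurentSeries ↥L) (n : ℤ) :
    (iotaL L y).coeff n = ((y.coeff n : ↥L) : Qbar) := rfl

theorem iotaL_injective : Function.Injective (iotaL L) := by
  intro g h hgh
  ext n
  have := congrArg (fun x : LaurentSeries Qbar => x.coeff n) hgh
  simpa using this

theorem iotaL_C (c : ↥L) : iotaL L (HahnSeries.C c) = HahnSeries.C (c : Qbar) := by
  show coeffMap (algebraMap ↥L Qbar) (HahnSeries.single 0 c) = HahnSeries.single 0 (c : Qbar)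
  rw [coeffMap_single]
  rfl

/-- The coefficientwise action of `γ ∈ Γ` on `L((t))`. -/
def actL (γ : inertiaRes A L) : LaurentSeries ↥L →+* LaurentSeries ↥L :=
  coeffMap (((γ : ↥L ≃ₐ[ℚ] ↥L) : ↥L →+* ↥L))

@[simp] theorem actL_coeff (γ : inertiaRes A L) (y : LaurentSeries ↥L) (n : ℤ) :
    (actL A L γ y).coeff n = γ • (y.coeff n) := rfl

theorem actL_actL (γ γ' : inertiaRes A L) (y : LaurentSeries ↥L) :
    actL A L γ (actL A L γ' y) = actL A L (γ * γ') y := by
  ext n
  simp only [actL_coeff, mul_smul]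

theorem actL_one (y : LaurentSeries ↥L) : actL A L 1 y = y := by
  ext n
  simp only [actL_coeff, one_smul]

theorem actL_C (γ : inertiaRes A L) (c : ↥L) :
    actL A L γ (HahnSeries.C c) = HahnSeries.C (γ • c) := by
  show coeffMap _ (HahnSeries.single 0 c) = HahnSeries.single 0 (γ • c)
  rw [coeffMap_single]
  rfl

/-- The lifts act on `ι (L((t)))` through `Γ`. -/
theorem coeffMap_liftI_iotaL (γ : inertiaRes A L) (y : LaurentSeries ↥L) :
    coeffMap ((liftI A L γ : Qbar ≃ₐ[ℚ] Qbar) : Qbar →+* Qbar) (iotaL L y)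
      = iotaL L (actL A L γ y) := by
  ext n
  simp only [coeffMap_coeff, iotaL_coeff, actL_coeff]
  exact liftI_apply A L γ (y.coeff n)

/-- The inertia group acts on `ι (L((t)))` through `Γ`. -/
theorem coeffMap_iotaL (σ : Qbar ≃ₐ[ℚ] Qbar) (hσ : σ ∈ A.inertiaSubgroupIn ℚ)
    (y : LaurentSeries ↥L) :
    coeffMap ((σ : Qbar ≃ₐ[ℚ] Qbar) : Qbar →+* Qbar) (iotaL L y)
      = iotaL L (actL A L (resI A L σ hσ) y) := by
  ext n
  simp only [coeffMap_coeff, iotaL_coeff, actL_coeff]
  exact (resI_apply A L σ hσ (y.coeff n)).symm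

/-- The trace operator on `L((t))`. -/
def TL (d : ↥L) (y : LaurentSeries ↥L) : LaurentSeries ↥L :=
  ∑ γ : inertiaRes A L, actL A L γ (HahnSeries.C d * y)

/-- The norm operator on `L((t))`. -/
def NL (b : LaurentSeries ↥L) : LaurentSeries ↥L := ∏ γ : inertiaRes A L, actL A L γ b

/-- The cofactor of `b` in its norm. -/
def SL (b : LaurentSeries ↥L) : LaurentSeries ↥L :=
  ∏ γ ∈ (Finset.univ : Finset (inertiaRes A L)).erase 1, actL A L γ b

theorem mul_SL (b : LaurentSeries ↥L) : b * SL A L b = NL A L b := by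
  have h := Finset.mul_prod_erase (Finset.univ : Finset (inertiaRes A L))
    (fun γ => actL A L γ b) (Finset.mem_univ 1)
  have h1 : actL A L 1 b = b := actL_one A L b
  rw [NL, ← h, SL, h1]

theorem actL_NL (γ : inertiaRes A L) (b : LaurentSeries ↥L) :
    actL A L γ (NL A L b) = NL A L b := by
  rw [NL, map_prod]
  simp_rw [actL_actL]
  exact Fintype.prod_bijective (fun γ' => γ * γ') (Group.mulLeft_bijective γ) _ _ (fun _ => rfl)

theorem actL_TL (γ : inertiaRes A L) (d : ↥L) (y : LaurentSeries ↥L) :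
    actL A L γ (TL A L d y) = TL A L d y := by
  rw [TL, map_sum]
  simp_rw [actL_actL]
  exact Fintype.sum_bijective (fun γ' => γ * γ') (Group.mulLeft_bijective γ) _ _ (fun _ => rfl)

theorem TL_mul_fixed (d : ↥L) (y z : LaurentSeries ↥L)
    (hz : ∀ γ : inertiaRes A L, actL A L γ z = z) :
    TL A L d (y * z) = TL A L d y * z := by
  rw [TL, TL, Finset.sum_mul]
  refine Finset.sum_congr rfl fun γ _ => ?_
  rw [← mul_assoc, map_mul, hz]

theorem TL_coeff (d : ↥L) (y : LaurentSeries ↥L) (n : ℤ) :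
    (TL A L d y).coeff n = ∑ γ : inertiaRes A L, γ • (d * y.coeff n) := by
  rw [TL, HahnSeries.coeff_sum]
  refine Finset.sum_congr rfl fun γ _ => ?_
  rw [actL_coeff, HahnSeries.C_mul_eq_smul, HahnSeries.coeff_smul, smul_eq_mul]

theorem TL_add (d : ↥L) (y z : LaurentSeries ↥L) :
    TL A L d (y + z) = TL A L d y + TL A L d z := by
  rw [TL, TL, TL, ← Finset.sum_add_distrib]
  refine Finset.sum_congr rfl fun γ _ => ?_
  rw [mul_add, map_add]

/-- `TL` is linear over the `Γ`-fixed constants. -/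
theorem TL_C_mul (d c : ↥L) (hc : ∀ γ : inertiaRes A L, γ • c = c) (y : LaurentSeries ↥L) :
    TL A L d (HahnSeries.C c * y) = HahnSeries.C c * TL A L d y := by
  rw [mul_comm, TL_mul_fixed A L d y _ (fun γ => by rw [actL_C, hc]), mul_comm]

/-! ### Integral series: `(A ∩ L)((t))` -/

/-- The inclusion `A ∩ L → A`. -/
def inclA : ↥(valL A L) →+* ↥A where
  toFun x := ⟨((x : ↥L) : Qbar), x.2⟩
  map_one' := rfl
  map_mul' _ _ := rfl
  map_zero' := rfl
  map_add' _ _ := rfl

/-- `(A ∩ L)((t)) → A((t))`. -/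
def toA : LaurentSeries ↥(valL A L) →+* LaurentSeries ↥A := coeffMap (inclA A L)

/-- `(A ∩ L)((t)) → L((t))`. -/
def jO : LaurentSeries ↥(valL A L) →+* LaurentSeries ↥L := iotaV (valL A L)

theorem jO_injective : Function.Injective (jO A L) := iotaV_injective (valL A L)

theorem iotaV_toA (y : LaurentSeries ↥(valL A L)) :
    iotaV A (toA A L y) = iotaL L (jO A L y) := by
  ext n
  rfl

/-- The action of `γ ∈ Γ` on `A ∩ L`. -/
def gamO (γ : inertiaRes A L) : ↥(valL A L) →+* ↥(valL A L) where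
  toFun x := ⟨γ • (x : ↥L), smul_valL_mem A L γ x x.2⟩
  map_one' := Subtype.ext (smul_one γ)
  map_mul' x y := Subtype.ext (smul_mul' γ (x : ↥L) (y : ↥L))
  map_zero' := Subtype.ext (smul_zero γ)
  map_add' x y := Subtype.ext (smul_add γ (x : ↥L) (y : ↥L))

/-- The coefficientwise action of `γ ∈ Γ` on `(A ∩ L)((t))`. -/
def actO (γ : inertiaRes A L) : LaurentSeries ↥(valL A L) →+* LaurentSeries ↥(valL A L) :=
  coeffMap (gamO A L γ)

theorem jO_actO (γ : inertiaRes A L) (y : LaurentSeries ↥(valL A L)) :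
    jO A L (actO A L γ y) = actL A L γ (jO A L y) := by
  ext n
  rfl

theorem actO_one (y : LaurentSeries ↥(valL A L)) : actO A L 1 y = y := by
  apply jO_injective A L
  rw [jO_actO, actL_one]

/-- The inertia group acts trivially on the reduction. -/
theorem redV_toA_actO (γ : inertiaRes A L) (y : LaurentSeries ↥(valL A L)) :
    redV A (toA A L (actO A L γ y)) = redV A (toA A L y) := by
  ext n
  show resV A (inclA A L (gamO A L γ (y.coeff n))) = resV A (inclA A L (y.coeff n))
  rw [← sub_eq_zero, ← map_sub, IsLocalRing.residue_eq_zero_iff,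
    ← ValuationSubring.coe_mem_nonunits_iff]
  have h := smul_sub_mem_nonunits A L γ (y.coeff n : ↥L) (y.coeff n).2
  rw [mem_valL_nonunits_iff] at h
  exact h

/-- The norm of an integral series. -/
def NO (b : LaurentSeries ↥(valL A L)) : LaurentSeries ↥(valL A L) :=
  ∏ γ : inertiaRes A L, actO A L γ b

/-- The cofactor of an integral series in its norm. -/
def SO (b : LaurentSeries ↥(valL A L)) : LaurentSeries ↥(valL A L) :=
  ∏ γ ∈ (Finset.univ : Finset (inertiaRes A L)).erase 1, actO A L γ b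

theorem mul_SO (b : LaurentSeries ↥(valL A L)) : b * SO A L b = NO A L b := by
  have h := Finset.mul_prod_erase (Finset.univ : Finset (inertiaRes A L))
    (fun γ => actO A L γ b) (Finset.mem_univ 1)
  have h1 : actO A L 1 b = b := actO_one A L b
  rw [NO, ← h, SO, h1]

theorem jO_NO (b : LaurentSeries ↥(valL A L)) : jO A L (NO A L b) = NL A L (jO A L b) := by
  rw [NO, NL, map_prod]
  refine Finset.prod_congr rfl fun γ _ => ?_
  rw [jO_actO]

theorem redV_toA_NO (b : LaurentSeries ↥(valL A L)) :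
    redV A (toA A L (NO A L b)) = redV A (toA A L b) ^ Fintype.card (inertiaRes A L) := by
  rw [NO, map_prod, map_prod]
  rw [Finset.prod_congr rfl (fun γ _ => redV_toA_actO A L γ b), Finset.prod_const,
    Finset.card_univ]

/-- The section property of `d ∈ L` (conclusion of `exists_section_field`). -/
def IsSection (d : ↥L) : Prop :=
  ∀ a : ↥L, (a : Qbar) ∈ A →
    (((∑ γ : inertiaRes A L, γ • (d * a) : ↥L) : Qbar) ∈ A) ∧
    (((∑ γ : inertiaRes A L, γ • (d * a) : ↥L) : Qbar) - (a : Qbar)) ∈ A.nonunits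

theorem exists_isSection {p : ℕ} (hp : p.Prime) (hA : A.LiesOverPrime p) :
    ∃ d : ↥L, IsSection A L d :=
  exists_section_field A L hp hA

variable {A L}

/-- The section applied to an integral series is integral with the same reduction. -/
theorem IsSection.exists_TO {d : ↥L} (hd : IsSection A L d) (y : LaurentSeries ↥(valL A L)) :
    ∃ t : LaurentSeries ↥(valL A L), jO A L t = TL A L d (jO A L y) ∧
      redV A (toA A L t) = redV A (toA A L y) := by
  have hco : CoeffsIn (valL A L).toSubring (TL A L d (jO A L y)) := by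
    intro n
    rw [TL_coeff]
    exact (hd _ (y.coeff n).2).1
  obtain ⟨t, ht⟩ := exists_iotaV_eq (valL A L) hco
  refine ⟨t, ht, ?_⟩
  ext n
  show resV A (inclA A L (t.coeff n)) = resV A (inclA A L (y.coeff n))
  rw [← sub_eq_zero, ← map_sub, IsLocalRing.residue_eq_zero_iff,
    ← ValuationSubring.coe_mem_nonunits_iff]
  have h1 : ((t.coeff n : ↥(valL A L)) : ↥L) = (TL A L d (jO A L y)).coeff n := by
    rw [← ht]
    rfl
  have h2 := (hd _ (y.coeff n).2).2
  rw [TL_coeff] at h1
  show (((t.coeff n : ↥(valL A L)) : ↥L) : Qbar) - (((y.coeff n : ↥(valL A L)) : ↥L) : Qbar)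
    ∈ A.nonunits
  rw [h1]
  exact h2

/-- **The section preserves the Gauss ring and the reduction** (norm trick). -/
theorem IsSection.gauss {d : ↥L} (hd : IsSection A L d) (a b : LaurentSeries ↥(valL A L))
    (hb : redV A (toA A L b) ≠ 0) (x : LaurentSeries ↥L) (hx : jO A L b * x = jO A L a) :
    ∃ (h1 : iotaL L (TL A L d x) ∈ gaussRingV A) (h2 : iotaL L x ∈ gaussRingV A),
      gaussRedV A ⟨_, h1⟩ = gaussRedV A ⟨_, h2⟩ := by
  have hN : redV A (toA A L (NO A L b)) ≠ 0 := by
    rw [redV_toA_NO]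
    exact pow_ne_zero _ hb
  set y : LaurentSeries ↥(valL A L) := a * SO A L b with hy
  have e1 : jO A L (NO A L b) * x = jO A L y := by
    rw [← mul_SO, map_mul, hy, map_mul, ← hx]
    ring
  obtain ⟨t, ht, htred⟩ := hd.exists_TO y
  have hfix : ∀ γ : inertiaRes A L, actL A L γ (jO A L (NO A L b)) = jO A L (NO A L b) := by
    intro γ
    rw [jO_NO, actL_NL]
  have e2 : jO A L (NO A L b) * TL A L d x = jO A L t := by
    rw [ht, ← e1, mul_comm (jO A L (NO A L b)) x, TL_mul_fixed A L d x _ hfix, mul_comm]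
  have e3 : iotaV A (toA A L (NO A L b)) * iotaL L (TL A L d x) = iotaV A (toA A L t) := by
    rw [iotaV_toA, iotaV_toA, ← map_mul, e2]
  have e4 : iotaV A (toA A L (NO A L b)) * iotaL L x = iotaV A (toA A L y) := by
    rw [iotaV_toA, iotaV_toA, ← map_mul, e1]
  have h1 : iotaL L (TL A L d x) ∈ gaussRingV A := ⟨_, _, hN, e3⟩
  have h2 : iotaL L x ∈ gaussRingV A := ⟨_, _, hN, e4⟩
  refine ⟨h1, h2, ?_⟩
  rw [gaussRedV_eq A ⟨_, h1⟩ hN e3, gaussRedV_eq A ⟨_, h2⟩ hN e4, htred]

end Fermat.Agent.BADP.H11
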