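import Fermat.Agent.BADP.H11_Arith0Mod
import Fermat.Agent.BADP.ModStmts

/-!
# S44 BADP, leaf ARITH-0 (helper11): the consumer form `Stmt_K0LiftP`

`stmt_K0LiftP : Stmt_K0LiftP` : every modular datum at `p` has `K0`-rational parts
(`IsK0Lift S (inertiaAuts A (M p))`).  Unconditional.
-/

set_option autoImplicit false

namespace Fermat.Agent.BADP.H11

open Fermat.Agent.BADP

/-- **(ARITH-0), consumer form**, unconditional. -/
theorem stmt_K0LiftP : Stmt_K0LiftP := by
  intro p _ M a b hab hp _ A hA S hS
  exact isK0Lift_mod hA hS _ (fun τ hτ => hτ)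

end Fermat.Agent.BADP.H11
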