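import Fermat.Agent.BADP.H97_KArithQ
import Fermat.Agent.S15.Desc.H63_BddCompact

/-!
# BAD_p (S44, row 38), package ARITH (A3) (helper97): the fixed field of `I₂`

`A` a place of `ℚ̄` over `p`, `I = A.inertiaSubgroupIn ℚ`, `K₀ = ℚ̄^I`.

* `mem_adjoin_of_fixed` : for any set `T ⊂ ℚ̄`, an element fixed by all `σ ∈ I` fixing `T`
  pointwise lies in `K₀(T)` (the inertia group is closed: `S15.Desc.H63.isClosed_inertia`,
  then the Galois correspondence of Mathlib);
* `KData`-consequences for the elements `c` of `ℚ̄` fixed by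
  `I₂ = {σ ∈ I | σ ζ = ζ, σ ω = ω}` (**A3**):
  `val_of_fixed` (`v c = v θ ^ m`), `val_sigma_sub_of_fixed` (`v (σ c - c) ≤ v θ ^ 2` for `c`
  integral), `val_sigma_div_of_fixed` (`v (σ c / c - (1 - m θ)) ≤ v θ ^ 2`), and the forms
  `stmt_A3`, `stmt_A3_int` with membership in `A`.
-/

set_option autoImplicit false
set_option linter.style.haveILetI false

namespace Fermat.Agent.BADP.H97

attribute [local instance] qbIsAlg

theorem qbIsAlgClosure : IsAlgClosure ℚ (AlgebraicClosure ℚ) :=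
  ⟨inferInstance, inferInstance⟩

attribute [local instance] qbIsAlgClosure

theorem qbIsGalois : IsGalois ℚ (AlgebraicClosure ℚ) := inferInstance

attribute [local instance] qbIsGalois

variable {A : ValuationSubring (AlgebraicClosure ℚ)} {p : ℕ}

/-- The inertia group is the group of all automorphisms fixing the inertia field. -/
theorem mem_inertia_of_fixes_K0 (hp : p.Prime) (hA : A.LiesOverPrime p)
    {σ : AlgebraicClosure ℚ ≃ₐ[ℚ] AlgebraicClosure ℚ} (hσ : ∀ x ∈ K0 A, σ x = x) :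
    σ ∈ A.inertiaSubgroupIn ℚ := by
  have hcl : IsClosed ((A.inertiaSubgroupIn ℚ : Subgroup _) : Set (AlgebraicClosure ℚ ≃ₐ[ℚ]
      AlgebraicClosure ℚ)) := Fermat.Agent.S15.Desc.H63.isClosed_inertia A hp hA
  have h1 := InfiniteGalois.fixingSubgroup_fixedField
    (⟨A.inertiaSubgroupIn ℚ, hcl⟩ : ClosedSubgroup (AlgebraicClosure ℚ ≃ₐ[ℚ] AlgebraicClosure ℚ))
  have h2 : σ ∈ (IntermediateField.fixedField (A.inertiaSubgroupIn ℚ)).fixingSubgroup := by
    rw [IntermediateField.mem_fixingSubgroup_iff]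
    intro x hx
    exact hσ x hx
  rw [h1] at h2
  exact h2

/-- **Galois correspondence for the inertia group.**  An element of `ℚ̄` fixed by all elements of
the inertia group which fix the set `T` pointwise lies in `K₀(T)`. -/
theorem mem_adjoin_of_fixed (hp : p.Prime) (hA : A.LiesOverPrime p)
    (T : Set (AlgebraicClosure ℚ)) {x : AlgebraicClosure ℚ}
    (hx : ∀ σ ∈ A.inertiaSubgroupIn ℚ, (∀ t ∈ T, σ t = t) → σ x = x) :
    x ∈ IntermediateField.adjoin (K0 A) T := by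
  -- the target as an intermediate field over `ℚ`
  let T' : IntermediateField ℚ (AlgebraicClosure ℚ) :=
    (IntermediateField.adjoin (K0 A) T).toSubfield.toIntermediateField (fun r => by
      have h1 : algebraMap ℚ (AlgebraicClosure ℚ) r ∈ K0 A := by
        rw [eq_ratCast]
        exact SubfieldClass.ratCast_mem _ r
      exact (IntermediateField.adjoin (K0 A) T).algebraMap_mem ⟨_, h1⟩)
  have hmemT' : ∀ y : AlgebraicClosure ℚ, y ∈ T' ↔ y ∈ IntermediateField.adjoin (K0 A) T :=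
    fun y => Iff.rfl
  rw [← hmemT']
  have hK0 : ∀ y ∈ K0 A, y ∈ T' := fun y hy =>
    (IntermediateField.adjoin (K0 A) T).algebraMap_mem ⟨y, hy⟩
  have hT : ∀ t ∈ T, t ∈ T' := fun t ht => IntermediateField.subset_adjoin (K0 A) T ht
  rw [← InfiniteGalois.fixedField_fixingSubgroup T', IntermediateField.mem_fixedField_iff]
  intro σ hσ
  rw [IntermediateField.mem_fixingSubgroup_iff] at hσ
  exact hx σ (mem_inertia_of_fixes_K0 hp hA fun y hy => hσ y (hK0 y hy))
    fun t ht => hσ t (hT t ht)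

/-! ### A3: the arithmetic of the elements fixed by `I₂` -/

section A3

variable {ζ ω : AlgebraicClosure ℚ} {σ : AlgebraicClosure ℚ ≃ₐ[ℚ] AlgebraicClosure ℚ}

/-- The elements fixed by `I₂` lie in `K₀(ζ, ω)`. -/
theorem mem_adjoin_pair_of_fixed (hp : p.Prime) (hA : A.LiesOverPrime p)
    {c : AlgebraicClosure ℚ}
    (hc : ∀ τ ∈ A.inertiaSubgroupIn ℚ, τ ζ = ζ → τ ω = ω → τ c = c) :
    c ∈ IntermediateField.adjoin (K0 A) {ζ, ω} := by
  refine mem_adjoin_of_fixed hp hA {ζ, ω} fun τ hτ hT => hc τ hτ (hT ζ ?_) (hT ω ?_)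
  · simp
  · simp

theorem val_of_fixed (hA : A.LiesOverPrime p)
    (h : KData A.valuation (K0 A) p ζ ω (σ : AlgebraicClosure ℚ →+* AlgebraicClosure ℚ))
    {c : AlgebraicClosure ℚ} (hc0 : c ≠ 0)
    (hc : ∀ τ ∈ A.inertiaSubgroupIn ℚ, τ ζ = ζ → τ ω = ω → τ c = c) :
    ∃ m : ℤ, A.valuation c = A.valuation (theta ζ ω) ^ m :=
  h.val_adjoin (mem_adjoin_pair_of_fixed h.prime hA hc) hc0

theorem val_sigma_sub_of_fixed (hA : A.LiesOverPrime p)
    (h : KData A.valuation (K0 A) p ζ ω (σ : AlgebraicClosure ℚ →+* AlgebraicClosure ℚ))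
    {c : AlgebraicClosure ℚ} (hcA : c ∈ A)
    (hc : ∀ τ ∈ A.inertiaSubgroupIn ℚ, τ ζ = ζ → τ ω = ω → τ c = c) :
    A.valuation (σ c - c) ≤ A.valuation (theta ζ ω) ^ 2 :=
  h.val_sigma_sub_adjoin (mem_adjoin_pair_of_fixed h.prime hA hc)
    ((A.valuation_le_one_iff c).2 hcA)

theorem val_sigma_div_of_fixed (hA : A.LiesOverPrime p)
    (h : KData A.valuation (K0 A) p ζ ω (σ : AlgebraicClosure ℚ →+* AlgebraicClosure ℚ))
    {c : AlgebraicClosure ℚ} (hc0 : c ≠ 0)
    (hc : ∀ τ ∈ A.inertiaSubgroupIn ℚ, τ ζ = ζ → τ ω = ω → τ c = c) :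
    ∃ m : ℤ, A.valuation c = A.valuation (theta ζ ω) ^ m ∧
      A.valuation (σ c / c - (1 - (m : AlgebraicClosure ℚ) * theta ζ ω)) ≤
        A.valuation (theta ζ ω) ^ 2 :=
  h.val_sigma_div_adjoin (mem_adjoin_pair_of_fixed h.prime hA hc) hc0

/-- **A3**, in the form of `NOTES/plan/L_S44.md` §12.1: for `c ≠ 0` fixed by `I₂` there is
`m : ℤ` with `c / θ ^ m` a unit of `A` and `(σ c / c - (1 - m θ)) / θ ^ 2 ∈ A`. -/
theorem stmt_A3 (hA : A.LiesOverPrime p)
    (h : KData A.valuation (K0 A) p ζ ω (σ : AlgebraicClosure ℚ →+* AlgebraicClosure ℚ))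
    {c : AlgebraicClosure ℚ} (hc0 : c ≠ 0)
    (hc : ∀ τ ∈ A.inertiaSubgroupIn ℚ, τ ζ = ζ → τ ω = ω → τ c = c) :
    ∃ m : ℤ, A.valuation (c / theta ζ ω ^ m) = 1 ∧
      (σ c / c - (1 - (m : AlgebraicClosure ℚ) * theta ζ ω)) / theta ζ ω ^ 2 ∈ A := by
  obtain ⟨m, hm1, hm2⟩ := val_sigma_div_of_fixed hA h hc0 hc
  have hθ0 : A.valuation (theta ζ ω) ≠ 0 := by
    intro h0
    have h1 := h.val_theta_pow
    rw [h0, zero_pow (Nat.mul_ne_zero h.prime.ne_zero
      (Nat.sub_ne_zero_of_lt h.prime.one_lt))] at h1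
    exact h.vp_ne h1.symm
  refine ⟨m, ?_, ?_⟩
  · rw [map_div₀, map_zpow₀, hm1]
    exact div_self (zpow_ne_zero _ hθ0)
  · rw [← A.valuation_le_one_iff, map_div₀, map_pow]
    exact div_le_one_of_le₀ hm2 zero_le

/-- **A2 for constants**: for `c ∈ A` fixed by `I₂`, `(σ c - c) / θ ^ 2 ∈ A`. -/
theorem stmt_A3_int (hA : A.LiesOverPrime p)
    (h : KData A.valuation (K0 A) p ζ ω (σ : AlgebraicClosure ℚ →+* AlgebraicClosure ℚ))
    {c : AlgebraicClosure ℚ} (hcA : c ∈ A)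
    (hc : ∀ τ ∈ A.inertiaSubgroupIn ℚ, τ ζ = ζ → τ ω = ω → τ c = c) :
    (σ c - c) / theta ζ ω ^ 2 ∈ A := by
  rw [← A.valuation_le_one_iff, map_div₀, map_pow]
  exact div_le_one_of_le₀ (val_sigma_sub_of_fixed hA h hcA hc) zero_le

end A3

end Fermat.Agent.BADP.H97
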