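import Fermat.Agent.BADP.H15_Desc
import Fermat.Agent.BADP.H97_KGal
import Fermat.Agent.BAD.H28_PRed

/-!
# S44 BADP, leaf ARITH (function level), part 3 (helper15): the shapes of `H97_Bridge`

`A` a place of `ℚ̄` over `p`, `I = A.inertiaSubgroupIn ℚ`, `K₀ = ℚ̄^I`, `F = F_N · ℚ̄`,
`F0 = fixF N I = F^I`.

* `mem_adjoin_of_fixed_fn` **(DESC-F)**: a function fixed by all `σ ∈ I` which fix the set
  `T ⊆ ℚ̄` pointwise lies in `F^I (T)`; forms `mem_adjoin_pair_of_fixed`,
  `mem_adjoin_singleton_of_fixed` for `T = {ζ, ω}`, `T = {ω}`;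
* `const_mem_F0`, `galF_F0`: the hypotheses `hF0`, `hfix` of `H97.kdata_fn`;
* `stmt_A1`, `stmt_A1_two` **(A1, `H = I`)**: the hypothesis `hA1` of `H97.kdata_fn` for a
  component `T : PRed` whose valuation ring contains `V₁` (resp. `V₂`).
-/

set_option autoImplicit false
set_option linter.style.haveILetI false
set_option linter.unusedSectionVars false
set_option synthInstance.maxHeartbeats 400000
set_option maxHeartbeats 1000000

open ModularCurve AlgebraicCurve Fermat.Agent.S28 Fermat.Agent.S28.H73 Fermat.Agent.RED.H73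

noncomputable section

namespace Fermat.Agent.BADP.H15

open Fermat.Agent.RED Fermat.Agent.S24 Fermat.Agent.FL.H22 Fermat.Agent.BAD
  Fermat.Agent.BADP.H97

section Adjoin

variable (N : ℕ) [NeZero N] (A : ValuationSubring Kbar)

/-- The inertia group as a set. -/
abbrev inertiaSet : Set GalQ := ((A.inertiaSubgroupIn ℚ : Subgroup GalQ) : Set GalQ)

/-- The constants of `K₀` are in `F^I` (`hF0` of `H97.kdata_fn`). -/
theorem const_mem_F0 {c : Kbar} (hc : c ∈ K0 A) :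
    algebraMap Kbar (FN N) c ∈ fixF N (inertiaSet A) :=
  const_mem_fixF N fun σ hσ => mem_K0.mp hc σ hσ

/-- The inertia group fixes `F^I` (`hfix` of `H97.kdata_fn`). -/
theorem galF_F0 {σ : GalQ} (hσ : σ ∈ A.inertiaSubgroupIn ℚ) {g : FN N}
    (hg : g ∈ fixF N (inertiaSet A)) : galF N σ • g = g := hg σ hσ

/-- The constants of `K₀(T)` are in `F^I (T)`. -/
theorem const_mem_adjoin (T : Set Kbar) {c : Kbar}
    (hc : c ∈ IntermediateField.adjoin (K0 A) T) :
    algebraMap Kbar (FN N) c ∈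
      IntermediateField.adjoin (fixF N (inertiaSet A)) (⇑(algebraMap Kbar (FN N)) '' T) := by
  induction hc using IntermediateField.adjoin_induction with
  | mem x hx => exact IntermediateField.subset_adjoin _ _ ⟨x, hx, rfl⟩
  | algebraMap x =>
    exact (IntermediateField.adjoin (fixF N (inertiaSet A))
      (⇑(algebraMap Kbar (FN N)) '' T)).algebraMap_mem ⟨_, const_mem_F0 N A x.2⟩
  | add x y _ _ hx hy =>
    rw [map_add]
    exact add_mem hx hy
  | inv x _ hx =>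
    rw [map_inv₀]
    exact inv_mem hx
  | mul x y _ _ hx hy =>
    rw [map_mul]
    exact mul_mem hx hy

variable {p : ℕ}

/-- **(DESC-F)**: a function fixed by the elements of the inertia group which fix `T ⊆ ℚ̄`
pointwise lies in the field generated over `F^I` by the constants of `T`. -/
theorem mem_adjoin_of_fixed_fn (hp : p.Prime) (hA : A.LiesOverPrime p) (T : Set Kbar)
    {g : FN N}
    (hg : ∀ σ ∈ A.inertiaSubgroupIn ℚ, (∀ t ∈ T, σ t = t) → galF N σ • g = g) :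
    g ∈ IntermediateField.adjoin (fixF N (inertiaSet A)) (⇑(algebraMap Kbar (FN N)) '' T) := by
  obtain ⟨n, a, e, he, rfl⟩ := exists_repr_ortho N A g
  refine _root_.sum_mem fun i _ => ?_
  rw [Algebra.smul_def]
  refine mul_mem (const_mem_adjoin N A T ?_) ?_
  · exact mem_adjoin_of_fixed hp hA T fun σ hσ hT => coeff_fixed N A e he a σ (hg σ hσ hT) i
  · exact (IntermediateField.adjoin (fixF N (inertiaSet A))
      (⇑(algebraMap Kbar (FN N)) '' T)).algebraMap_mem ⟨_, bcF_mem_fixF N _ (e i)⟩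

/-- **(DESC-F)** for `I₂ = {σ ∈ I | σ ζ = ζ, σ ω = ω}` (hypothesis `hg` of `H97.stmt_A2`). -/
theorem mem_adjoin_pair_of_fixed (hp : p.Prime) (hA : A.LiesOverPrime p) (ζ ω : Kbar)
    {g : FN N}
    (hg : ∀ σ ∈ A.inertiaSubgroupIn ℚ, σ ζ = ζ → σ ω = ω → galF N σ • g = g) :
    g ∈ IntermediateField.adjoin (fixF N (inertiaSet A))
      ({algebraMap Kbar (FN N) ζ, algebraMap Kbar (FN N) ω} : Set (FN N)) := by
  have := mem_adjoin_of_fixed_fn N A hp hA {ζ, ω} (g := g) fun σ hσ hT =>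
    hg σ hσ (hT ζ (Set.mem_insert _ _)) (hT ω (Set.mem_insert_of_mem _ rfl))
  rwa [Set.image_pair] at this

/-- **(DESC-F)** for `I₃ = {σ ∈ I | σ ω = ω}` (hypothesis `hg` of `H97.stmt_A2_k3`). -/
theorem mem_adjoin_singleton_of_fixed (hp : p.Prime) (hA : A.LiesOverPrime p) (ω : Kbar)
    {g : FN N}
    (hg : ∀ σ ∈ A.inertiaSubgroupIn ℚ, σ ω = ω → galF N σ • g = g) :
    g ∈ IntermediateField.adjoin (fixF N (inertiaSet A))
      ({algebraMap Kbar (FN N) ω} : Set (FN N)) := by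
  have := mem_adjoin_of_fixed_fn N A hp hA {ω} (g := g) fun σ hσ hT =>
    hg σ hσ (hT ω rfl)
  rwa [Set.image_singleton] at this

end Adjoin

/-! ## (A1) for a component of a semistable datum -/

section A1

variable {k F' : Type*} [Field k] [Field F'] [Algebra k F']

/-- A unit of a valuation ring contained in the valuation ring of a component is a Gauss unit of
the component. -/
theorem isGU_of_unit {F : Type*} [Field F] [Algebra Kbar F] (T : PRed Kbar F k F')
    (V : ValuationSubring F) (hV : ∀ f, f ∈ V → f ∈ T.V) {f : F} (hf : f ∈ V) (hf0 : f ≠ 0)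
    (hinv : f⁻¹ ∈ V) : T.IsGU f := by
  refine ⟨hV f hf, ?_⟩
  rw [T.rd_of_mem (hV f hf)]
  intro h0
  have h1 : T.red ⟨f, hV f hf⟩ * T.red ⟨f⁻¹, hV _ hinv⟩ = 1 := by
    rw [← map_mul]
    have : (⟨f, hV f hf⟩ : ↥T.V) * ⟨f⁻¹, hV _ hinv⟩ = 1 := Subtype.ext (mul_inv_cancel₀ hf0)
    rw [this, map_one]
  rw [h0, zero_mul] at h1
  exact zero_ne_one h1

variable (N : ℕ) [NeZero N] (A : ValuationSubring Kbar)

/-- A function of the Gauss valuation ring with nonzero reduction is invertible there. -/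
theorem inv_mem_gaussV {f : FN N} (hf : f ∈ gaussV A N) (hr : gaussRes A N ⟨f, hf⟩ ≠ 0) :
    f ≠ 0 ∧ f⁻¹ ∈ gaussV A N := by
  have hu : IsUnit (⟨f, hf⟩ : ↥(gaussV A N)) :=
    (Fermat.Agent.RED.H17.gaussResF'_ne_zero_iff_isUnit A (hasScale_laurentBaseChange A N) _).mp hr
  obtain ⟨v, hv⟩ := hu.exists_right_inv
  have h1 : f * (v : FN N) = 1 := congrArg Subtype.val hv
  have hf0 : f ≠ 0 := by
    rintro rfl
    rw [zero_mul] at h1
    exact zero_ne_one h1
  refine ⟨hf0, ?_⟩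
  have h2 : f⁻¹ = (v : FN N) := (eq_inv_of_mul_eq_one_right h1).symm
  rw [h2]
  exact v.2

/-- **(A1)** for `H = I`, in the form of `hA1` of `H97.kdata_fn`: for a component `T` whose
valuation ring contains the Gauss valuation ring `V₁`. -/
theorem stmt_A1 (T : PRed Kbar (FN N) k F') (hV : ∀ f, f ∈ gaussV A N → f ∈ T.V) :
    ∀ g ∈ fixF N (inertiaSet A), g ≠ 0 → ∃ c ∈ K0 A, c ≠ 0 ∧
      T.IsGU (algebraMap Kbar (FN N) c * g) := by
  intro g hg hg0
  obtain ⟨c, hc0, hc, hm, hr⟩ := exists_unit_of_fixed N A (inertiaSet A) hg hg0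
  obtain ⟨h0, hinv⟩ := inv_mem_gaussV N A hm hr
  exact ⟨c, mem_K0.mpr hc, hc0, isGU_of_unit T (gaussV A N) hV hm h0 hinv⟩

/-- **(A1)**, general subgroup: for `g ∈ F^H`. -/
theorem stmt_A1_gen (T : PRed Kbar (FN N) k F') (hV : ∀ f, f ∈ gaussV A N → f ∈ T.V)
    (H : Set GalQ) :
    ∀ g ∈ fixF N H, g ≠ 0 → ∃ c : Kbar, (∀ σ ∈ H, σ c = c) ∧ c ≠ 0 ∧
      T.IsGU (algebraMap Kbar (FN N) c * g) := by
  intro g hg hg0
  obtain ⟨c, hc0, hc, hm, hr⟩ := exists_unit_of_fixed N A H hg hg0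
  obtain ⟨h0, hinv⟩ := inv_mem_gaussV N A hm hr
  exact ⟨c, hc, hc0, isGU_of_unit T (gaussV A N) hV hm h0 hinv⟩

end A1

section A1Two

open Fermat.Agent.BAD.H88

variable {k F' : Type*} [Field k] [Field F'] [Algebra k F']
variable (A : ValuationSubring Kbar)
variable (q M : ℕ) (a b : ℤ) (hab : a * q + b * M = 1) (hq : q.Prime) [NeZero (M * q)]

include hab hq in
/-- **(A1)** for the second component: `T.V ⊇ V₂ = V₁ ∘ w_q`. -/
theorem stmt_A1_two_gen (T : PRed Kbar (FN (M * q)) k F')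
    (hV : ∀ f, f ∈ V2 A q M a b hab hq → f ∈ T.V) (H : Set GalQ) :
    ∀ g ∈ fixF (M * q) H, g ≠ 0 → ∃ c : Kbar, (∀ σ ∈ H, σ c = c) ∧ c ≠ 0 ∧
      T.IsGU (algebraMap Kbar (FN (M * q)) c * g) := by
  intro g hg hg0
  have hw0 : wq q M a b hab hq g ≠ 0 := fun h0 =>
    hg0 ((map_eq_zero_iff _ (wq q M a b hab hq).injective).mp h0)
  obtain ⟨c, hc0, hc, hm, hr⟩ :=
    exists_unit_of_fixed (M * q) A H (wq_mem_fixF q M a b hab hq H hg) hw0
  obtain ⟨h0, hinv⟩ := inv_mem_gaussV (M * q) A hm hr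
  have e : wq q M a b hab hq (algebraMap Kbar (FN (M * q)) c * g)
      = algebraMap Kbar (FN (M * q)) c * wq q M a b hab hq g := by
    rw [map_mul, AlgEquiv.commutes]
  have hcg0 : algebraMap Kbar (FN (M * q)) c * g ≠ 0 :=
    mul_ne_zero (fun h => hc0 ((map_eq_zero_iff _ (algebraMap Kbar (FN (M * q))).injective).mp h))
      hg0
  refine ⟨c, hc, hc0, isGU_of_unit T (V2 A q M a b hab hq) hV ?_ hcg0 ?_⟩
  · rw [mem_V2_iff, e]
    exact hm
  · rw [mem_V2_iff, map_inv₀, e]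
    exact hinv

include hab hq in
/-- **(A1)** for `H = I` and the second component, in the form of `hA1` of `H97.kdata_fn`. -/
theorem stmt_A1_two (T : PRed Kbar (FN (M * q)) k F')
    (hV : ∀ f, f ∈ V2 A q M a b hab hq → f ∈ T.V) :
    ∀ g ∈ fixF (M * q) (inertiaSet A), g ≠ 0 → ∃ c ∈ K0 A, c ≠ 0 ∧
      T.IsGU (algebraMap Kbar (FN (M * q)) c * g) := by
  intro g hg hg0
  obtain ⟨c, hc, hc0, hu⟩ := stmt_A1_two_gen A q M a b hab hq T hV (inertiaSet A) g hg hg0
  exact ⟨c, mem_K0.mpr hc, hc0, hu⟩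

end A1Two

end Fermat.Agent.BADP.H15
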