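import Fermat.Agent.BADP.H51_RayPrep

/-!
# S44 / S33, package RAY-ABS (helper51): the abstract assembly of (e) = RAY-K3

Setting: `S : SSD K F k F₁ F₂`, `char k = p` odd, `𝓘 ⊇ 𝓘₃` sets of inertial semilinear
automorphisms, every function integral for both valuations has an `𝓘`-invariant part
(`IsK0Part`, leaf ARITH-0).

* `rayCanon` : a Kummer function `f ≡ 1` for `V₁` of a class of the connected part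
  (`f = a f' h₀ ^ p`, `f' ≡ 1` for `V₂`) whose class is `𝓘₃`-invariant has an invariant
  canonical form: `f₁ = f h ^ p` is in canonical form (`IsCanon`) with respect to `𝓘`-invariant
  adapted coordinates and an `𝓘`-invariant place `P∞`, and `f₁`, the points `X_Q` and the values
  `a_Q` are fixed by `𝓘₃`.
* `rayAbs` **(RAY-ABS)** : under the arithmetic hypotheses (A0), (A2), (A3) of `BAD.H28.keyP`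
  (for the fixed field of `𝓘₃`, `σ ∈ 𝓘`), `f` is a `p`-th power.
* `rayAbsTame` **(RAY-ABS-TAME)** : if the invariant constants of the maximal ideal are in the
  linear regime (`a ^ p = p a ε`), `f` is a `p`-th power (via `BAD.H28.keyNodal_lin`).
-/

set_option autoImplicit false
set_option linter.style.haveILetI false
set_option linter.unusedSectionVars false
set_option maxHeartbeats 2000000

noncomputable section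

open AlgebraicCurve

attribute [local instance] Classical.propDecidable

namespace Fermat.Agent.BADP.H51

open Fermat.Agent.RED.H17 Fermat.Agent.RED Fermat.Agent.BAD

local notation "L" => riemannRochSpace

section Main

variable {K F k F₁ F₂ : Type} [Field K] [Field F] [Algebra K F] [Field k] [Field F₁]
  [Algebra k F₁] [Field F₂] [Algebra k F₂]

/-- **The invariant canonical form** of a Kummer function of a class of the connected part. -/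
theorem rayCanon [IsAlgClosed K] [Infinite k] (S : SSD K F k F₁ F₂) (H : FFHyp K F)
    (H₁ : FFHyp k F₁) (H₂ : FFHyp k F₂) {g g₁ g₂ : ℕ} {c c₁ c₂ : ℤ} (hR : IsGenus K F g c)
    (hR₁ : IsGenus k F₁ g₁ c₁) (hR₂ : IsGenus k F₂ g₂ c₂)
    (hnum : g + 1 ≤ g₁ + g₂ + S.nodes.card) (p : ℕ) [hp : Fact p.Prime] [CharP k p]
    {𝓘 𝓘₃ : Set (SemilinearAut K F)} (h₃ : 𝓘₃ ⊆ 𝓘) (h𝓘 : ∀ τ ∈ 𝓘, S.IsInertial τ)
    (hK0 : ∀ u : F, u ∈ S.c₁.V → u ∈ S.c₂.V → ∃ u₀ : F, IsK0Part S 𝓘 u u₀)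
    {f : F} (hf₁ : f ∈ S.c₁.V) (hrd₁ : S.c₁.rd f = 1)
    (hdiv : ∀ P : Place K F, (p : ℤ) ∣ P.ord f)
    {f' h₀ : F} {a : K} (hf' : f' ∈ S.c₂.V) (hrd' : S.c₂.rd f' = 1)
    (hff' : f = algebraMap K F a * f' * h₀ ^ p)
    (hcls : ∀ τ ∈ 𝓘₃, ∃ (e : K) (T : F), τ • f = algebraMap K F e * f * T ^ p) :
    ∃ (A₁ : Finset (Place k F₁)) (A₂ : Finset (Place k F₂)) (s₁ : Place k F₁ → F)
      (s₂ : Place k F₂ → F) (Pinf : Place K F) (Qinf : Place k F₁) (h : F)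
      (a₁ : Place k F₁ → K) (a₂ : Place k F₂ → K)
      (X₁ : Place k F₁ → Place K F) (X₂ : Place k F₂ → Place K F),
      Disjoint A₁ S.br₁ ∧ Disjoint A₂ S.br₂ ∧ S.IsNS A₁ A₂ ∧
      (∀ Q ∈ A₁, S.IsCoordA₁ A₁ A₂ (s₁ Q) Q) ∧ (∀ Q ∈ A₂, S.IsCoordA₂ A₁ A₂ (s₂ Q) Q) ∧
      (∀ Q ∈ A₁, ∀ τ ∈ 𝓘, τ • s₁ Q = s₁ Q) ∧ (∀ Q ∈ A₂, ∀ τ ∈ 𝓘, τ • s₂ Q = s₂ Q) ∧
      Qinf ∈ S.c₁.good ∧ Qinf ∉ A₁ ∧ S.c₁.r Pinf = some Qinf ∧ (∀ τ ∈ 𝓘, τ • Pinf = Pinf) ∧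
      h ≠ 0 ∧ IsCanon S A₁ A₂ s₁ s₂ p Pinf (f * h ^ p) a₁ a₂ X₁ X₂ ∧
      (∀ τ ∈ 𝓘₃, τ • (f * h ^ p) = f * h ^ p) ∧
      (∀ Q ∈ A₁, ∀ τ ∈ 𝓘₃, τ • X₁ Q = X₁ Q ∧ SemilinearAut.baseAut τ (a₁ Q) = a₁ Q) ∧
      (∀ Q ∈ A₂, ∀ τ ∈ 𝓘₃, τ • X₂ Q = X₂ Q ∧ SemilinearAut.baseAut τ (a₂ Q) = a₂ Q) := by
  have hp0 : p ≠ 0 := hp.out.ne_zero
  -- the place at infinity
  obtain ⟨Qinf, hQinf⟩ := H₁.exists_notMem S.br₁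
  have hQinfg : Qinf ∈ S.c₁.good := S.good₁_of_notMem hQinf
  obtain ⟨Pinf, hPinf, hPinfσ⟩ :=
    exists_fixed_place S H H₁ H₂ hR hR₁ hR₂ hnum h𝓘 hK0 hQinfg
  -- the invariant coordinates
  obtain ⟨A₁, A₂, s₁, s₂, hd₁, hd₂, hT₁, -, hNSA, hcard, hs₁, hs₂, hs₁σ, hs₂σ⟩ :=
    exists_inv_coords S H H₁ H₂ hR hR₁ hR₂ hnum hK0 {Qinf} ∅
  have hQinfA : Qinf ∉ A₁ := fun h =>
    Finset.disjoint_left.mp hT₁ h (Finset.mem_singleton_self Qinf)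
  -- TIss-position
  obtain ⟨hM, hM0, hm₁, hm₂, hmr₁, hmr₂, hmnode⟩ :=
    stmt_MoveP K F k F₁ F₂ S H H₁ H₂ g g₁ g₂ c c₁ c₂ hR hR₁ hR₂ hnum p hp.out inferInstance f
      hf₁ hrd₁ hdiv f' h₀ a hf' hrd' hff'
  have hf0 : f ≠ 0 := by
    intro h0
    rw [h0, S.c₁.rd_zero] at hrd₁
    exact zero_ne_one hrd₁
  have hdivM : ∀ P : Place K F, (p : ℤ) ∣ P.ord (f * hM ^ p) := by
    intro P
    rw [P.ord_mul hf0 (pow_ne_zero _ hM0), ord_pow]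
    exact dvd_add (hdiv P) (dvd_mul_right _ _)
  -- the canonical form
  obtain ⟨hC, a₁, a₂, X₁, X₂, hC₁, hC₂, hCr₁, hCr₂, hcan⟩ :=
    canon_p S H H₁ H₂ hR hd₁ hd₂ hNSA (by omega) hs₁ hs₂ p hm₁ hm₂ hmr₁ hmr₂ hdivM hmnode
      hQinfg hQinfA hPinf
  have hC0 : hC ≠ 0 := by
    intro h0
    rw [h0, S.c₁.rd_zero] at hCr₁
    exact zero_ne_one hCr₁
  have hH0 : hM * hC ≠ 0 := mul_ne_zero hM0 hC0
  have e : f * (hM * hC) ^ p = f * hM ^ p * hC ^ p := by rw [mul_pow, mul_assoc]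
  rw [← e] at hcan
  -- invariance
  have hfix : ∀ τ ∈ 𝓘₃, τ • (f * (hM * hC) ^ p) = f * (hM * hC) ^ p ∧
      (∀ Q ∈ A₁, τ • X₁ Q = X₁ Q ∧ SemilinearAut.baseAut τ (a₁ Q) = a₁ Q) ∧
      ∀ Q ∈ A₂, τ • X₂ Q = X₂ Q ∧ SemilinearAut.baseAut τ (a₂ Q) = a₂ Q := by
    intro τ hτ
    obtain ⟨e₀, T, hT⟩ := hcls τ hτ
    refine canon_fixed S H H₁ H₂ hd₁ hd₂ hNSA hp0 hcan (h𝓘 τ (h₃ hτ))
      (fun Q hQ => hs₁σ Q hQ τ (h₃ hτ)) (fun Q hQ => hs₂σ Q hQ τ (h₃ hτ))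
      (hPinfσ τ (h₃ hτ)) e₀ (T * (τ • (hM * hC)) / (hM * hC)) ?_
    rw [smul_mul', smul_pow', hT, div_pow, mul_pow]
    field_simp
    ring
  exact ⟨A₁, A₂, s₁, s₂, Pinf, Qinf, hM * hC, a₁, a₂, X₁, X₂, hd₁, hd₂, hNSA, hs₁, hs₂, hs₁σ,
    hs₂σ, hQinfg, hQinfA, hPinf, hPinfσ, hH0, hcan, fun τ hτ => (hfix τ hτ).1,
    fun Q hQ τ hτ => (hfix τ hτ).2.1 Q hQ, fun Q hQ τ hτ => (hfix τ hτ).2.2 Q hQ⟩

/-- **RAY-ABS.**  Under the arithmetic hypotheses (A0), (A2), (A3) of the key lemma for the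
exponent `p` (helper28's `keyP`), a Kummer function of a class of the connected part whose class
is `𝓘₃`-invariant is a `p`-th power. -/
theorem rayAbs [IsAlgClosed K] [Infinite k] (S : SSD K F k F₁ F₂) (H : FFHyp K F)
    (H₁ : FFHyp k F₁) (H₂ : FFHyp k F₂) {g g₁ g₂ : ℕ} {c c₁ c₂ : ℤ} (hR : IsGenus K F g c)
    (hR₁ : IsGenus k F₁ g₁ c₁) (hR₂ : IsGenus k F₂ g₂ c₂)
    (hnum : g + 1 ≤ g₁ + g₂ + S.nodes.card) (p : ℕ) (hp : p.Prime) (hp2 : p ≠ 2)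
    (hchar : CharP k p) (hpK : (p : K) ≠ 0)
    {𝓘 𝓘₃ : Set (SemilinearAut K F)} (h₃ : 𝓘₃ ⊆ 𝓘) (h𝓘 : ∀ τ ∈ 𝓘, S.IsInertial τ)
    (hK0 : ∀ u : F, u ∈ S.c₁.V → u ∈ S.c₂.V → ∃ u₀ : F, IsK0Part S 𝓘 u u₀)
    -- the arithmetic hypotheses
    (π ϖ θ : K) (hπ : S.IsCM π) (hπne : π ≠ 0) (hθ : algebraMap K F θ ∈ S.c₁.V) (hθne : θ ≠ 0)
    (hπp : S.c₁.rd (algebraMap K F (π ^ (p - 1) / p)) = -1)
    (hϖ : S.IsCM ϖ) (hϖp : S.IsCU (ϖ ^ p / p))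
    (σ : SemilinearAut K F) (hσ : σ ∈ 𝓘)
    (hA2₁ : ∀ x : F, (∀ τ ∈ 𝓘₃, τ • x = x) → x ∈ S.c₁.V →
      (σ • x - x) / algebraMap K F (π * θ) ∈ S.c₁.V)
    (hA2₂ : ∀ x : F, (∀ τ ∈ 𝓘₃, τ • x = x) → x ∈ S.c₂.V →
      (σ • x - x) / algebraMap K F (π * θ) ∈ S.c₂.V)
    (hA3 : ∀ b : K, (∀ τ ∈ 𝓘₃, SemilinearAut.baseAut τ b = b) → S.IsCM b →
      algebraMap K F (b / ϖ) ∈ S.c₁.V ∧
      S.c₁.rd (algebraMap K F ((SemilinearAut.baseAut σ b - b) / (π * θ))) =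
        S.c₁.rd (algebraMap K F (b / ϖ)) ∧
      (S.c₁.rd (algebraMap K F (b / ϖ)) = 0 → algebraMap K F (b / ϖ ^ 2) ∈ S.c₁.V))
    -- the Kummer data
    {f : F} (hf₁ : f ∈ S.c₁.V) (hrd₁ : S.c₁.rd f = 1)
    (hdiv : ∀ P : Place K F, (p : ℤ) ∣ P.ord f)
    {f' h₀ : F} {a : K} (hf' : f' ∈ S.c₂.V) (hrd' : S.c₂.rd f' = 1)
    (hff' : f = algebraMap K F a * f' * h₀ ^ p)
    (hcls : ∀ τ ∈ 𝓘₃, ∃ (e : K) (T : F), τ • f = algebraMap K F e * f * T ^ p) :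
    ∃ h : F, f = h ^ p := by
  haveI : Fact p.Prime := ⟨hp⟩
  haveI : CharP k p := hchar
  obtain ⟨A₁, A₂, s₁, s₂, Pinf, Qinf, h, a₁, a₂, X₁, X₂, hd₁, hd₂, hNSA, hs₁, hs₂, hs₁σ, hs₂σ,
    hQinfg, hQinfA, hPinf, -, hh0, hcan, hffix, hfix₁, hfix₂⟩ :=
    rayCanon S H H₁ H₂ hR hR₁ hR₂ hnum p h₃ h𝓘 hK0 hf₁ hrd₁ hdiv hf' hrd' hff' hcls
  have hpk : (p : k) = 0 := CharP.cast_eq_zero k p
  have hCM₂ : ∀ Q ∈ A₂, S.IsCM (a₂ Q) := fun Q hQ =>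
    S.rd₁_const_zero (hcan.ha₂ Q hQ).1 (hcan.ha₂ Q hQ).2
  have hone : f * h ^ p = 1 :=
    BAD.H28.keyP S H A₁ A₂ hd₁ hd₂ hNSA s₁ s₂ hs₁ hs₂ p hp hp2 hpk hpK (f * h ^ p) hcan.mem₁
      hcan.mem₂ hcan.rd₁ hcan.rd₂ Pinf Qinf hQinfg hQinfA hPinf hcan.inf a₁ a₂ hcan.ha₁ hcan.ha₂
      hcan.off hcan.on₁ hcan.on₂ π ϖ θ hπ hπne hθ hθne hπp hϖ hϖp σ (h𝓘 σ hσ)
      (fun Q hQ => hs₁σ Q hQ σ hσ) (fun Q hQ => hs₂σ Q hQ σ hσ) (fixedSub 𝓘₃) hffix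
      (fun Q hQ τ hτ => hs₁σ Q hQ τ (h₃ hτ)) (fun Q hQ τ hτ => hs₂σ Q hQ τ (h₃ hτ))
      (fun Q hQ => algebraMap_mem_fixedSub fun τ hτ => (hfix₁ Q hQ τ hτ).2)
      (fun Q hQ => algebraMap_mem_fixedSub fun τ hτ => (hfix₂ Q hQ τ hτ).2)
      (fun x hx hx₁ => hA2₁ x hx hx₁) (fun x hx hx₂ => hA2₂ x hx hx₂)
      (fun Q hQ => hA3 (a₁ Q) (fun τ hτ => (hfix₁ Q hQ τ hτ).2) (hcan.ha₁ Q hQ))
      (fun Q hQ => hA3 (a₂ Q) (fun τ hτ => (hfix₂ Q hQ τ hτ).2) (hCM₂ Q hQ))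
  refine ⟨h⁻¹, ?_⟩
  rw [inv_pow]
  exact eq_inv_of_mul_eq_one_left hone

/-- **RAY-ABS-TAME.**  If the `𝓘₃`-invariant constants of the maximal ideal are in the linear
regime (`b ^ p = p b ε` with `ε` in the maximal ideal), a Kummer function of a class of the
connected part whose class is `𝓘₃`-invariant is a `p`-th power. -/
theorem rayAbsTame [IsAlgClosed K] [Infinite k] (S : SSD K F k F₁ F₂) (H : FFHyp K F)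
    (H₁ : FFHyp k F₁) (H₂ : FFHyp k F₂) {g g₁ g₂ : ℕ} {c c₁ c₂ : ℤ} (hR : IsGenus K F g c)
    (hR₁ : IsGenus k F₁ g₁ c₁) (hR₂ : IsGenus k F₂ g₂ c₂)
    (hnum : g + 1 ≤ g₁ + g₂ + S.nodes.card) (p : ℕ) (hp : p.Prime) (hchar : CharP k p)
    {𝓘 𝓘₃ : Set (SemilinearAut K F)} (h₃ : 𝓘₃ ⊆ 𝓘) (h𝓘 : ∀ τ ∈ 𝓘, S.IsInertial τ)
    (hK0 : ∀ u : F, u ∈ S.c₁.V → u ∈ S.c₂.V → ∃ u₀ : F, IsK0Part S 𝓘 u u₀)
    (hlin : ∀ b : K, (∀ τ ∈ 𝓘₃, SemilinearAut.baseAut τ b = b) → S.IsCM b →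
      ∃ ε : K, S.IsCM ε ∧ b ^ p = p * b * ε)
    {f : F} (hf₁ : f ∈ S.c₁.V) (hrd₁ : S.c₁.rd f = 1)
    (hdiv : ∀ P : Place K F, (p : ℤ) ∣ P.ord f)
    {f' h₀ : F} {a : K} (hf' : f' ∈ S.c₂.V) (hrd' : S.c₂.rd f' = 1)
    (hff' : f = algebraMap K F a * f' * h₀ ^ p)
    (hcls : ∀ τ ∈ 𝓘₃, ∃ (e : K) (T : F), τ • f = algebraMap K F e * f * T ^ p) :
    ∃ h : F, f = h ^ p := by
  haveI : Fact p.Prime := ⟨hp⟩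
  haveI : CharP k p := hchar
  obtain ⟨A₁, A₂, s₁, s₂, Pinf, Qinf, h, a₁, a₂, X₁, X₂, hd₁, hd₂, hNSA, hs₁, hs₂, -, -,
    hQinfg, hQinfA, hPinf, -, hh0, hcan, -, hfix₁, hfix₂⟩ :=
    rayCanon S H H₁ H₂ hR hR₁ hR₂ hnum p h₃ h𝓘 hK0 hf₁ hrd₁ hdiv hf' hrd' hff' hcls
  have hCM₂ : ∀ Q ∈ A₂, S.IsCM (a₂ Q) := fun Q hQ =>
    S.rd₁_const_zero (hcan.ha₂ Q hQ).1 (hcan.ha₂ Q hQ).2
  have hone : f * h ^ p = 1 :=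
    BAD.H28.keyNodal_lin S H A₁ A₂ hd₁ hd₂ hNSA s₁ s₂ hs₁ hs₂ p hp (f * h ^ p) hcan.mem₁
      hcan.mem₂ hcan.rd₁ hcan.rd₂ Pinf Qinf hQinfg hQinfA hPinf hcan.inf a₁ a₂ hcan.ha₁ hcan.ha₂
      (fun Q hQ => hlin (a₁ Q) (fun τ hτ => (hfix₁ Q hQ τ hτ).2) (hcan.ha₁ Q hQ))
      (fun Q hQ => hlin (a₂ Q) (fun τ hτ => (hfix₂ Q hQ τ hτ).2) (hCM₂ Q hQ))
      (fun P h₁ h₂ => le_of_eq (hcan.off P h₁ h₂).symm) hcan.on₁ hcan.on₂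
  refine ⟨h⁻¹, ?_⟩
  rw [inv_pow]
  exact eq_inv_of_mul_eq_one_left hone

end Main

end Fermat.Agent.BADP.H51
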