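import Fermat.Agent.BADP.AbsStmts
import Fermat.Agent.BADP.H51_RayAbs

/-!
# S44, package RAY-ABS (helper51): `Stmt_RayAbs` and `Stmt_RayAbsTame` are PROVED

`stmt_RayAbs : BADP.Stmt_RayAbs`, `stmt_RayAbsTame : BADP.Stmt_RayAbsTame`
(statements of helper93, `BADP/AbsStmts.lean`), from `H51.rayAbs` (with `θ = 1`) and
`H51.rayAbsTame`.
-/

set_option autoImplicit false
set_option linter.style.haveILetI false
set_option maxHeartbeats 1000000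

noncomputable section

open AlgebraicCurve

namespace Fermat.Agent.BADP.H51

open Fermat.Agent.RED.H17 Fermat.Agent.RED Fermat.Agent.BAD

section Bridge

variable {K F k F₁ F₂ : Type} [Field K] [Field F] [Algebra K F] [Field k] [Field F₁]
  [Algebra k F₁] [Field F₂] [Algebra k F₂]

/-- `IsK0Lift` in the form used by `rayAbs`. -/
theorem isK0Part_of_isK0Lift {S : SSD K F k F₁ F₂} {𝓘 : Set (SemilinearAut K F)}
    (h : IsK0Lift S 𝓘) (u : F) (hu₁ : u ∈ S.c₁.V) (hu₂ : u ∈ S.c₂.V) :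
    ∃ u₀ : F, IsK0Part S 𝓘 u u₀ := by
  obtain ⟨u₀, h1, h2, h3, h4, h5, h6⟩ := h u hu₁ hu₂
  exact ⟨u₀, h1, h2, h3, h4, h5, h6⟩

end Bridge

/-- **RAY-ABS.** -/
theorem stmt_RayAbs : Stmt_RayAbs := by
  intro K F k F₁ F₂ _ _ _ _ _ _ _ _ _ _ S H H₁ H₂ g g₁ g₂ c c₁ c₂ hR hR₁ hR₂ hnum p hp hp2 hchar
    hpK 𝓘 𝓘3 h𝓘 h3 hK0 π ϖ hπ hπne hπp hϖ hϖp σ hσ hA2₁ hA2₂ hA3 f hf₁ hrd₁ hdiv f' h₀ a hf'
    hrd' hff' hcls
  obtain ⟨h, hh⟩ := rayAbs S H H₁ H₂ hR hR₁ hR₂ hnum p hp hp2 hchar hpK h3 h𝓘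
    (isK0Part_of_isK0Lift hK0) π ϖ 1 hπ hπne
    (by rw [map_one]; exact S.c₁.V.one_mem) one_ne_zero hπp hϖ hϖp σ hσ
    (fun x hx hx₁ => by rw [mul_one]; exact hA2₁ x hx hx₁)
    (fun x hx hx₂ => by rw [mul_one]; exact hA2₂ x hx hx₂)
    (fun b hb hbm => by rw [mul_one]; exact hA3 b hb hbm)
    hf₁ hrd₁ hdiv hf' hrd' hff' hcls
  exact ⟨1, h, by rw [map_one, one_mul]; exact hh⟩

/-- **RAY-ABS-TAME.** -/
theorem stmt_RayAbsTame : Stmt_RayAbsTame := by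
  intro K F k F₁ F₂ _ _ _ _ _ _ _ _ _ _ S H H₁ H₂ g g₁ g₂ c c₁ c₂ hR hR₁ hR₂ hnum p hp _ hchar
    _ 𝓘 h𝓘 hK0 hlin f hf₁ hrd₁ hdiv f' h₀ a hf' hrd' hff' hcls
  obtain ⟨h, hh⟩ := rayAbsTame S H H₁ H₂ hR hR₁ hR₂ hnum p hp hchar (subset_refl 𝓘) h𝓘
    (isK0Part_of_isK0Lift hK0) hlin hf₁ hrd₁ hdiv hf' hrd' hff' hcls
  exact ⟨1, h, by rw [map_one, one_mul]; exact hh⟩

end Fermat.Agent.BADP.H51
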