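import Fermat.Agent.BAD.H28_DCore

/-!
# Row 38 (S44, BADP), helper28: D-CORE', the first-order analysis with a general correction factor

`S : SSD K F k F₁ F₂`, `θ ∈ K`, `θ ≠ 0`, `|θ| < 1`.

* `PRed.IsFC θ c l` : `(c - 1) / θ` is integral with reduction `l` ("`c ≡ 1 + l θ`").
  Rules: `isFC_one`, `IsFC.mul`, `IsFC.inv`, `IsFC.div`, `IsFO.isFC` (`σ u / u`),
  `IsFO.isFC_inv` (`u / σ u`), `isFC_of_sq` (`(c - 1) / θ² ∈ V` gives `l = 0`).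
* `SSD.dcore_gen` (**D-CORE'**) : let `Ψ = (h - 1) / θ` be integral for both valuations.  Suppose
  that for every node `s` there is `c_s` with `c_s ≡ 1 + l_i(s) θ` for `V_i` (`l_i(s) ∈ k`) such
  that `h c_s` has no pole on the fibre of `s`, and the same at the good places of both
  components.  Then `rd₁ Ψ = a₁` and `rd₂ Ψ = a₂` are constants and
  `l₂(s) - l₁(s) = a₁ - a₂` at every node `s`.
  (`SSD.dcore` is the case `c = G / σ G`, where `l(c) = - l(G)`.)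

Plan: `NOTES/plan/L_S44.md` §12 (d4) (helper93).
-/

set_option autoImplicit false
set_option linter.style.haveILetI false

noncomputable section

open AlgebraicCurve

attribute [local instance] Classical.propDecidable

namespace Fermat.Agent.BAD

open Fermat.Agent.RED.H17 Fermat.Agent.RED

namespace PRed

variable {K F k F' : Type*} [Field K] [Field F] [Algebra K F] [Field k] [Field F']
  [Algebra k F'] (S : PRed K F k F')

/-- First-order congruence: `c = 1 + θ L` with `L` integral of reduction `l`. -/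
def IsFC (θ : K) (c : F) (l : F') : Prop :=
  ∃ Λ : F, Λ ∈ S.V ∧ S.rd Λ = l ∧ c = 1 + algebraMap K F θ * Λ

variable {S} {θ : K}

theorem isFC_iff (hθne : θ ≠ 0) {c : F} {l : F'} :
    S.IsFC θ c l ↔ (c - 1) / algebraMap K F θ ∈ S.V ∧ S.rd ((c - 1) / algebraMap K F θ) = l := by
  have hθF : algebraMap K F θ ≠ 0 := (map_ne_zero_iff _ (algebraMap K F).injective).mpr hθne
  constructor
  · rintro ⟨Λ, hΛ, hΛr, rfl⟩
    have : (1 + algebraMap K F θ * Λ - 1) / algebraMap K F θ = Λ := by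
      field_simp
      ring
    rw [this]
    exact ⟨hΛ, hΛr⟩
  · rintro ⟨h1, h2⟩
    refine ⟨_, h1, h2, ?_⟩
    field_simp
    ring

theorem isFC_one : S.IsFC θ (1 : F) 0 :=
  ⟨0, S.V.zero_mem, S.rd_zero, by rw [mul_zero, add_zero]⟩

theorem IsFC.isGU (hθ : algebraMap K F θ ∈ S.V) (hθ0 : S.rd (algebraMap K F θ) = 0) {c : F}
    {l : F'} (hc : S.IsFC θ c l) : S.IsGU c ∧ S.rd c = 1 := by
  obtain ⟨Λ, hΛ, -, rfl⟩ := hc
  exact isGU_one_add hθ hθ0 hΛ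

theorem IsFC.mul (hθ : algebraMap K F θ ∈ S.V) (hθ0 : S.rd (algebraMap K F θ) = 0) {c d : F}
    {l l' : F'} (hc : S.IsFC θ c l) (hd : S.IsFC θ d l') : S.IsFC θ (c * d) (l + l') := by
  obtain ⟨Λ, hΛ, hΛr, rfl⟩ := hc
  obtain ⟨Λ', hΛ', hΛ'r, rfl⟩ := hd
  have hm : algebraMap K F θ * (Λ * Λ') ∈ S.V := S.V.mul_mem _ _ hθ (S.V.mul_mem _ _ hΛ hΛ')
  refine ⟨Λ + Λ' + algebraMap K F θ * (Λ * Λ'),
    S.V.add_mem _ _ (S.V.add_mem _ _ hΛ hΛ') hm, ?_, ?_⟩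
  · rw [S.rd_add (S.V.add_mem _ _ hΛ hΛ') hm, S.rd_add hΛ hΛ', hΛr, hΛ'r,
      S.rd_mul hθ (S.V.mul_mem _ _ hΛ hΛ'), hθ0, zero_mul, add_zero]
  · ring

theorem IsFC.inv (hθ : algebraMap K F θ ∈ S.V) (hθ0 : S.rd (algebraMap K F θ) = 0) {c : F}
    {l : F'} (hc : S.IsFC θ c l) : S.IsFC θ c⁻¹ (-l) := by
  obtain ⟨Λ, hΛ, hΛr, rfl⟩ := hc
  obtain ⟨hG, hGr⟩ := isGU_one_add hθ hθ0 hΛ
  have hne : 1 + algebraMap K F θ * Λ ≠ 0 := hG.ne_zero
  have hm : Λ * (1 + algebraMap K F θ * Λ)⁻¹ ∈ S.V := S.V.mul_mem _ _ hΛ hG.inv_mem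
  refine ⟨-(Λ * (1 + algebraMap K F θ * Λ)⁻¹), S.V.neg_mem _ hm, ?_, ?_⟩
  · rw [S.rd_neg hm, S.rd_mul hΛ hG.inv_mem, hG.rd_inv, hGr, inv_one, mul_one, hΛr]
  · field_simp
    ring

theorem IsFC.div (hθ : algebraMap K F θ ∈ S.V) (hθ0 : S.rd (algebraMap K F θ) = 0) {c d : F}
    {l l' : F'} (hc : S.IsFC θ c l) (hd : S.IsFC θ d l') : S.IsFC θ (c / d) (l - l') := by
  rw [div_eq_mul_inv, sub_eq_add_neg]
  exact hc.mul hθ hθ0 (hd.inv hθ hθ0)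

theorem IsFC.prod (hθ : algebraMap K F θ ∈ S.V) (hθ0 : S.rd (algebraMap K F θ) = 0)
    {ι : Type*} (A : Finset ι) (c : ι → F) (l : ι → F')
    (h : ∀ i ∈ A, S.IsFC θ (c i) (l i)) : S.IsFC θ (∏ i ∈ A, c i) (∑ i ∈ A, l i) := by
  induction A using Finset.induction_on with
  | empty => simpa using isFC_one
  | insert i s hi ih =>
    rw [Finset.prod_insert hi, Finset.sum_insert hi]
    exact (h i (Finset.mem_insert_self i s)).mul hθ hθ0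
      (ih fun j hj => h j (Finset.mem_insert_of_mem hj))

/-- `c ≡ 1 mod θ²` gives `c ≡ 1 + 0 θ`. -/
theorem isFC_of_sq (hθ : algebraMap K F θ ∈ S.V) (hθ0 : S.rd (algebraMap K F θ) = 0)
    (hθne : θ ≠ 0) {c : F} (h : (c - 1) / algebraMap K F θ ^ 2 ∈ S.V) : S.IsFC θ c 0 := by
  have hθF : algebraMap K F θ ≠ 0 := (map_ne_zero_iff _ (algebraMap K F).injective).mpr hθne
  refine ⟨algebraMap K F θ * ((c - 1) / algebraMap K F θ ^ 2), S.V.mul_mem _ _ hθ h, ?_, ?_⟩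
  · rw [S.rd_mul hθ h, hθ0, zero_mul]
  · field_simp
    ring

/-- `σ u / u ≡ 1 + l θ`. -/
theorem IsFO.isFC {σ : SemilinearAut K F} {u : F} {l : F'} (hu : S.IsFO σ θ u l) :
    S.IsFC θ ((σ • u) / u) l := by
  obtain ⟨hu0, Λ, hΛ, hΛr, hΛe⟩ := hu
  refine ⟨Λ, hΛ, hΛr, ?_⟩
  rw [hΛe]
  field_simp

/-- `u / σ u ≡ 1 - l θ`. -/
theorem IsFO.isFC_inv (hθ : algebraMap K F θ ∈ S.V) (hθ0 : S.rd (algebraMap K F θ) = 0)
    {σ : SemilinearAut K F} {u : F} {l : F'} (hu : S.IsFO σ θ u l) :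
    S.IsFC θ (u / (σ • u)) (-l) := by
  have := hu.isFC.inv hθ hθ0
  rwa [inv_div] at this

/-- The function `h c`, to first order. -/
theorem IsFC.twist (hθ : algebraMap K F θ ∈ S.V) (hθ0 : S.rd (algebraMap K F θ) = 0)
    (hθne : θ ≠ 0) {c : F} {l : F'} (hc : S.IsFC θ c l) {h : F}
    (hΨ : (h - 1) / algebraMap K F θ ∈ S.V) :
    (h * c - 1) / algebraMap K F θ ∈ S.V ∧
      S.rd ((h * c - 1) / algebraMap K F θ) = S.rd ((h - 1) / algebraMap K F θ) + l := by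
  obtain ⟨hU, hUr⟩ := hc.isGU hθ hθ0
  obtain ⟨Λ, hΛ, hΛr, rfl⟩ := hc
  have hθF : algebraMap K F θ ≠ 0 := (map_ne_zero_iff _ (algebraMap K F).injective).mpr hθne
  have heq : (h * (1 + algebraMap K F θ * Λ) - 1) / algebraMap K F θ =
      (h - 1) / algebraMap K F θ * (1 + algebraMap K F θ * Λ) + Λ := by
    field_simp
    ring
  have hm : (h - 1) / algebraMap K F θ * (1 + algebraMap K F θ * Λ) ∈ S.V :=
    S.V.mul_mem _ _ hΨ hU.1
  rw [heq]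
  refine ⟨S.V.add_mem _ _ hm hΛ, ?_⟩
  rw [S.rd_add hm hΛ, S.rd_mul hΨ hU.1, hUr, mul_one, hΛr]

end PRed

namespace SSD

variable {K F k F₁ F₂ : Type*} [Field K] [Field F] [Algebra K F] [Field k] [Field F₁]
  [Algebra k F₁] [Field F₂] [Algebra k F₂] (S : SSD K F k F₁ F₂)

/-- **D-CORE'** (general correction factors). -/
theorem dcore_gen (hP : HasPrincipalDivisors K F) (H₁ : FFHyp k F₁) (H₂ : FFHyp k F₂)
    {θ : K} (hθne : θ ≠ 0) (hθ : S.IsCM θ) {h : F}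
    (hΨ₁ : (h - 1) / algebraMap K F θ ∈ S.c₁.V) (hΨ₂ : (h - 1) / algebraMap K F θ ∈ S.c₂.V)
    (l₁ l₂ : Place k F₁ × Place k F₂ → k)
    (hN : ∀ s ∈ S.nodes, ∃ c : F, S.c₁.IsFC θ c (algebraMap k F₁ (l₁ s)) ∧
      S.c₂.IsFC θ c (algebraMap k F₂ (l₂ s)) ∧
      ∀ P, S.c₁.r P = some s.1 → 0 ≤ P.ord (h * c))
    (hR₁ : ∀ Q ∈ S.c₁.good, ∃ (c : F) (l : k), S.c₁.IsFC θ c (algebraMap k F₁ l) ∧
      ∀ P, S.c₁.r P = some Q → 0 ≤ P.ord (h * c))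
    (hR₂ : ∀ Q ∈ S.c₂.good, ∃ (c : F) (l : k), S.c₂.IsFC θ c (algebraMap k F₂ l) ∧
      ∀ P, S.c₂.r P = some Q → 0 ≤ P.ord (h * c)) :
    ∃ a₁ a₂ : k, S.c₁.rd ((h - 1) / algebraMap K F θ) = algebraMap k F₁ a₁ ∧
      S.c₂.rd ((h - 1) / algebraMap K F θ) = algebraMap k F₂ a₂ ∧
      ∀ s ∈ S.nodes, l₂ s - l₁ s = a₁ - a₂ := by
  -- the local statement at the nodes
  have hnode : ∀ s ∈ S.nodes, ∃ a : k,
      VanAt s.1 (S.c₁.rd ((h - 1) / algebraMap K F θ) - algebraMap k F₁ (a - l₁ s)) ∧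
      VanAt s.2 (S.c₂.rd ((h - 1) / algebraMap K F θ) - algebraMap k F₂ (a - l₂ s)) := by
    intro s hs
    obtain ⟨c, hc₁, hc₂, hreg⟩ := hN s hs
    obtain ⟨hm₁, hr₁⟩ := hc₁.twist hθ.mem₁ hθ.rd₁ hθne hΨ₁
    obtain ⟨hm₂, hr₂⟩ := hc₂.twist hθ.mem₂ hθ.rd₂ hθne hΨ₂
    obtain ⟨a, ha₁, ha₂⟩ := S.glue s hs _ hm₁ hm₂
      (fun P hPs => ord_twist_nonneg (hreg P hPs))
    rw [← S.c₁.rd_of_mem hm₁, hr₁] at ha₁
    rw [← S.c₂.rd_of_mem hm₂, hr₂] at ha₂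
    refine ⟨a, ?_, ?_⟩
    · have e : S.c₁.rd ((h - 1) / algebraMap K F θ) - algebraMap k F₁ (a - l₁ s) =
          S.c₁.rd ((h - 1) / algebraMap K F θ) + algebraMap k F₁ (l₁ s) - algebraMap k F₁ a := by
        rw [map_sub]; ring
      rw [e]
      exact ha₁
    · have e : S.c₂.rd ((h - 1) / algebraMap K F θ) - algebraMap k F₂ (a - l₂ s) =
          S.c₂.rd ((h - 1) / algebraMap K F θ) + algebraMap k F₂ (l₂ s) - algebraMap k F₂ a := by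
        rw [map_sub]; ring
      rw [e]
      exact ha₂
  -- regularity of the reductions
  have hreg₁ : ∀ Q : Place k F₁, 0 ≤ Q.ord (S.c₁.rd ((h - 1) / algebraMap K F θ)) := by
    intro Q
    by_cases hQ : Q ∈ S.c₁.good
    · obtain ⟨c, l, hc, hreg⟩ := hR₁ Q hQ
      obtain ⟨hm, hr⟩ := hc.twist hθ.mem₁ hθ.rd₁ hθne hΨ₁
      have h1 := S.c₁.regAt_rd hP hm hQ (fun P hPQ => ord_twist_nonneg (hreg P hPQ))
      rw [hr] at h1
      have h2 := h1.sub (regAt_algebraMap Q l)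
      rw [add_sub_cancel_right] at h2
      exact h2.ord_nonneg
    · rw [S.good₁] at hQ
      push Not at hQ
      obtain ⟨s, hs, rfl⟩ := hQ
      obtain ⟨a, ha, -⟩ := hnode s hs
      exact (RegAt.of_vanAt_sub ha).ord_nonneg
  have hreg₂ : ∀ Q : Place k F₂, 0 ≤ Q.ord (S.c₂.rd ((h - 1) / algebraMap K F θ)) := by
    intro Q
    by_cases hQ : Q ∈ S.c₂.good
    · obtain ⟨c, l, hc, hreg⟩ := hR₂ Q hQ
      obtain ⟨hm, hr⟩ := hc.twist hθ.mem₂ hθ.rd₂ hθne hΨ₂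
      have h1 := S.c₂.regAt_rd hP hm hQ (fun P hPQ => ord_twist_nonneg (hreg P hPQ))
      rw [hr] at h1
      have h2 := h1.sub (regAt_algebraMap Q l)
      rw [add_sub_cancel_right] at h2
      exact h2.ord_nonneg
    · rw [S.good₂] at hQ
      push Not at hQ
      obtain ⟨s, hs, rfl⟩ := hQ
      obtain ⟨a, -, ha⟩ := hnode s hs
      exact (RegAt.of_vanAt_sub ha).ord_nonneg
  obtain ⟨a₁, ha₁⟩ := H₁.const_of_regular hreg₁
  obtain ⟨a₂, ha₂⟩ := H₂.const_of_regular hreg₂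
  refine ⟨a₁, a₂, ha₁, ha₂, fun s hs => ?_⟩
  obtain ⟨a, h1, h2⟩ := hnode s hs
  rw [ha₁, ← map_sub] at h1
  rw [ha₂, ← map_sub] at h2
  have e1 := const_eq_zero_of_vanAt h1
  have e2 := const_eq_zero_of_vanAt h2
  linear_combination e2 - e1

end SSD

end Fermat.Agent.BAD
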