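import Fermat.Agent.BAD.H28_NodeRad4
import Fermat.Agent.BADP.H28_DCore2

/-!
# BAD_p (S44, row 38), leaf (d3) LOCAL (helper97): local equations of invariant divisors

`S : SSD K F k F₁ F₂`, `𝓘` a set of semilinear automorphisms (the group `I₂`), `D` an
`𝓘`-invariant divisor.

* `local_node` : at a node `s` with an `𝓘`-invariant annulus coordinate `t`, the function
  `G = ∏_{P → s} (t - t(P)) ^ D(P)` and the constant `C = ∏_{P → s} t(P) ^ D(P)` are fixed by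
  `𝓘`, `ord_P G = D P` on the fibre of `s`, `G` is a `V₁`-unit and `G / C` is a `V₂`-unit.
* `local_good` : at a good place `Q` of a component with an `𝓘`-invariant coordinate `t`,
  `G = ∏_{P → Q} (t - t(P)) ^ D(P)` is fixed by `𝓘`, `ord_P G = D P` on the fibre, and `G` is a
  unit of the component.
* `isFC_of_sq_sub`, `isFC_mul_const` : the first-order behaviour of `G / σ G` from the
  arithmetic statements (A2), (A3) (as hypotheses): input of helper28's `SSD.dcore_gen`.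

Plan: `NOTES/plan/L_S44.md` §12.2 (d3), (d4).
-/

set_option autoImplicit false
set_option linter.style.haveILetI false

noncomputable section

open AlgebraicCurve

attribute [local instance] Classical.propDecidable

namespace Fermat.Agent.BADP.H97

open Fermat.Agent.RED.H17 Fermat.Agent.RED Fermat.Agent.BAD

section Smul

variable {K F : Type*} [Field K] [Field F] [Algebra K F]

theorem smul_prod_zpow {ι : Type*} (σ : SemilinearAut K F) (s : Finset ι) (f : ι → F)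
    (n : ι → ℤ) : σ • ∏ i ∈ s, f i ^ n i = ∏ i ∈ s, (σ • f i) ^ n i := by
  simp only [SemilinearAut.smul_def, map_prod, map_zpow₀]

theorem baseAut_prod_zpow {ι : Type*} (σ : SemilinearAut K F) (s : Finset ι) (f : ι → K)
    (n : ι → ℤ) :
    SemilinearAut.baseAut σ (∏ i ∈ s, f i ^ n i) =
      ∏ i ∈ s, (SemilinearAut.baseAut σ (f i)) ^ n i := by
  simp only [map_prod, map_zpow₀]

theorem ord_prod_zpow {ι : Type*} (v : Place K F) (s : Finset ι) (f : ι → F) (n : ι → ℤ)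
    (hf : ∀ i ∈ s, f i ≠ 0) : v.ord (∏ i ∈ s, f i ^ n i) = ∑ i ∈ s, n i * v.ord (f i) := by
  rw [ord_prod v s _ fun i hi => zpow_ne_zero _ (hf i hi)]
  exact Finset.sum_congr rfl fun i _ => v.ord_zpow _ _

theorem prod_smul_eq {M : Type*} [CommMonoid M] (Z : Finset (Place K F))
    (σ : SemilinearAut K F) (h1 : ∀ P ∈ Z, σ • P ∈ Z) (h2 : ∀ P ∈ Z, σ⁻¹ • P ∈ Z)
    (φ : Place K F → M) : ∏ P ∈ Z, φ (σ • P) = ∏ P ∈ Z, φ P := by
  refine Finset.prod_bij (fun P _ => σ • P) h1 ?_ ?_ ?_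
  · intro P _ P' _ hPP
    exact smul_left_cancel σ hPP
  · intro P' hP'Z
    exact ⟨σ⁻¹ • P', h2 P' hP'Z, smul_inv_smul σ P'⟩
  · intro P _
    rfl

end Smul

variable {K F k F₁ F₂ : Type*} [Field K] [Field F] [Algebra K F] [Field k] [Field F₁]
  [Algebra k F₁] [Field F₂] [Algebra k F₂] (S : SSD K F k F₁ F₂)

/-- **LOCAL at a node.** -/
theorem local_node (hP : HasPrincipalDivisors K F) (hdeg : ∀ v : Place K F, v.deg = 1)
    {s : Place k F₁ × Place k F₂} (hs : s ∈ S.nodes) {t : F} {ϖ : K}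
    (ht : S.IsAnnCoord s t ϖ) (𝓘 : Set (SemilinearAut K F))
    (h𝓘 : ∀ τ ∈ 𝓘, (∀ P : Place K F, S.c₁.r (τ • P) = S.c₁.r P) ∧ τ • t = t)
    (D : Place K F →₀ ℤ)
    (hD : ∀ τ ∈ 𝓘, ∀ P, S.c₁.r P = some s.1 → D (τ • P) = D P) :
    ∃ (G : F) (C : K), C ≠ 0 ∧ (∀ τ ∈ 𝓘, τ • G = G) ∧
      (∀ τ ∈ 𝓘, SemilinearAut.baseAut τ C = C) ∧
      (∀ P, S.c₁.r P = some s.1 → P.ord G = D P) ∧
      S.c₁.IsGU G ∧ S.c₂.IsGU (algebraMap K F C⁻¹ * G) ∧
      ∀ (f : F) (c₁ c₂ : K) (n : ℕ), S.c₁.IsGU (algebraMap K F c₁ * f) →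
        S.c₂.IsGU (algebraMap K F c₂ * f) →
        (∀ P, S.c₁.r P = some s.1 → P.ord f = n * D P) →
        S.IsCU (c₁ / (c₂ * ϖ ^ s.1.ord (S.c₁.rd (algebraMap K F c₁ * f)) *
          (C / ϖ ^ (∑ P ∈ D.support.filter (fun P => S.c₁.r P = some s.1), D P)) ^ n)) := by
  obtain ⟨τ, hτ⟩ := ht.exists_values hdeg
  set Z : Finset (Place K F) := D.support.filter fun P => S.c₁.r P = some s.1 with hZdef
  have hZ : ∀ P, P ∈ Z ↔ S.c₁.r P = some s.1 ∧ D P ≠ 0 := by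
    intro P
    rw [hZdef, Finset.mem_filter, Finsupp.mem_support_iff]
    exact and_comm
  have hZs : ∀ P ∈ Z, S.c₁.r P = some s.1 := fun P hPZ => ((hZ P).mp hPZ).1
  have hτ0 : ∀ P ∈ Z, τ P ≠ 0 := fun P hPZ => ht.value_ne_zero (hZs P hPZ) (hτ P (hZs P hPZ))
  have hfac₁ : ∀ P ∈ Z, S.c₁.IsGU (t - algebraMap K F (τ P)) := fun P hPZ =>
    (ht.isGU₁_sub hP hs (hZs P hPZ) (hτ P (hZs P hPZ))).1
  have hfac₂ : ∀ P ∈ Z, S.c₂.IsGU (algebraMap K F (τ P)⁻¹ * (t - algebraMap K F (τ P))) :=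
    fun P hPZ => (ht.isGU₂_sub hP hs (hZs P hPZ) (hτ P (hZs P hPZ))).1
  have hval : ∀ σ ∈ 𝓘, ∀ P, S.c₁.r P = some s.1 →
      τ (σ • P) = SemilinearAut.baseAut σ (τ P) := by
    intro σ hσ P hPs
    obtain ⟨hr, hσt⟩ := h𝓘 σ hσ
    have h1 := H28.vanAt_smul_of σ (hτ P hPs)
    rw [smul_sub, hσt, SemilinearAut.smul_algebraMap] at h1
    exact value_unique (σ • P) (hτ (σ • P) ((hr P).trans hPs)) h1
  have hmap : ∀ σ ∈ 𝓘, (∀ P ∈ Z, σ • P ∈ Z) ∧ ∀ P ∈ Z, σ⁻¹ • P ∈ Z := by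
    intro σ hσ
    obtain ⟨hr, -⟩ := h𝓘 σ hσ
    constructor
    · intro P hPZ
      rw [hZ]
      exact ⟨(hr P).trans (hZs P hPZ), by rw [hD σ hσ P (hZs P hPZ)]; exact ((hZ P).mp hPZ).2⟩
    · intro P' hP'Z
      rw [hZ]
      have h1 := hr (σ⁻¹ • P')
      rw [smul_inv_smul] at h1
      have h2 : S.c₁.r (σ⁻¹ • P') = some s.1 := h1.symm.trans (hZs P' hP'Z)
      have h3 := hD σ hσ (σ⁻¹ • P') h2
      rw [smul_inv_smul] at h3
      exact ⟨h2, by rw [← h3]; exact ((hZ P').mp hP'Z).2⟩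
  refine ⟨∏ P ∈ Z, (t - algebraMap K F (τ P)) ^ D P, ∏ P ∈ Z, (τ P) ^ D P, ?_, ?_, ?_, ?_, ?_, ?_,
    ?_⟩
  · exact Finset.prod_ne_zero_iff.mpr fun P hPZ => zpow_ne_zero _ (hτ0 P hPZ)
  · intro σ hσ
    obtain ⟨hr, hσt⟩ := h𝓘 σ hσ
    rw [smul_prod_zpow]
    have h1 : ∀ P ∈ Z, (σ • (t - algebraMap K F (τ P))) ^ D P =
        (t - algebraMap K F (τ (σ • P))) ^ D (σ • P) := by
      intro P hPZ
      rw [smul_sub, hσt, SemilinearAut.smul_algebraMap, hval σ hσ P (hZs P hPZ),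
        hD σ hσ P (hZs P hPZ)]
    rw [Finset.prod_congr rfl h1]
    exact prod_smul_eq Z σ (hmap σ hσ).1 (hmap σ hσ).2 (fun P => (t - algebraMap K F (τ P)) ^ D P)
  · intro σ hσ
    rw [baseAut_prod_zpow]
    have h1 : ∀ P ∈ Z, (SemilinearAut.baseAut σ (τ P)) ^ D P = (τ (σ • P)) ^ D (σ • P) := by
      intro P hPZ
      rw [hval σ hσ P (hZs P hPZ), hD σ hσ P (hZs P hPZ)]
    rw [Finset.prod_congr rfl h1]
    exact prod_smul_eq Z σ (hmap σ hσ).1 (hmap σ hσ).2 (fun P => (τ P) ^ D P)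
  · intro P hPs
    rw [ord_prod_zpow P Z _ _ fun P' hP' => (hfac₁ P' hP').ne_zero]
    have h1 : ∀ P' ∈ Z, D P' * P.ord (t - algebraMap K F (τ P')) = if P' = P then D P else 0 := by
      intro P' hP'
      rw [ht.ord_sub_value hP hs (hZs P' hP') (hτ P' (hZs P' hP')) hPs]
      by_cases hPP : P = P'
      · subst hPP
        simp
      · rw [if_neg hPP, if_neg (Ne.symm hPP), mul_zero]
    rw [Finset.sum_congr rfl h1, Finset.sum_ite_eq' Z P]
    split_ifs with hPZ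
    · rfl
    · by_contra hne
      exact hPZ ((hZ P).mpr ⟨hPs, fun h0 => hne (by rw [h0])⟩)
  · exact (PRed.IsGU.prod_zpow Z _ _ hfac₁).1
  · have e : algebraMap K F (∏ P ∈ Z, (τ P) ^ D P)⁻¹ *
        ∏ P ∈ Z, (t - algebraMap K F (τ P)) ^ D P =
        ∏ P ∈ Z, (algebraMap K F (τ P)⁻¹ * (t - algebraMap K F (τ P))) ^ D P := by
      rw [map_inv₀, map_prod]
      simp only [map_zpow₀, mul_zpow, Finset.prod_mul_distrib, map_inv₀, inv_zpow]
      rw [Finset.prod_inv_distrib]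
    rw [e]
    exact (PRed.IsGU.prod_zpow Z _ _ hfac₂).1
  · intro f c₁ c₂ n h₁ h₂ hf
    have hϖ := ht.ϖ_ne_zero
    -- the constant of `nodeRad` in terms of `C`
    have hC : ((∏ P ∈ Z, (τ P) ^ D P) / ϖ ^ ∑ P ∈ Z, D P) ^ n =
        ∏ P ∈ Z, (τ P / ϖ) ^ ((n : ℤ) * D P) := by
      rw [← H28.prod_zpow_sum Z ϖ hϖ D, ← Finset.prod_div_distrib, ← Finset.prod_pow]
      refine Finset.prod_congr rfl fun P _ => ?_
      rw [← div_zpow, mul_comm, zpow_mul, zpow_natCast]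
    rw [hC]
    rcases Nat.eq_zero_or_pos n with hn | hn
    · -- `n = 0`: no zero or pole on the fibre
      have h := S.nodeRad hP hs ht τ hτ h₁ h₂ ∅ (fun P => by
        constructor
        · intro h
          exact absurd h (Finset.notMem_empty P)
        · rintro ⟨hPs, hne⟩
          rw [hf P hPs, hn] at hne
          simp at hne)
      rw [Finset.prod_empty] at h
      have e : ∏ P ∈ Z, (τ P / ϖ) ^ ((n : ℤ) * D P) = 1 := by
        refine Finset.prod_eq_one fun P _ => ?_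
        rw [hn]
        simp
      rw [e]
      exact h
    · have hn0 : (n : ℤ) ≠ 0 := by exact_mod_cast hn.ne'
      have h := S.nodeRad hP hs ht τ hτ h₁ h₂ Z (fun P => by
        rw [hZ]
        constructor
        · rintro ⟨hPs, hne⟩
          exact ⟨hPs, by rw [hf P hPs]; exact mul_ne_zero hn0 hne⟩
        · rintro ⟨hPs, hne⟩
          refine ⟨hPs, fun h0 => hne ?_⟩
          rw [hf P hPs, h0, mul_zero])
      have e : ∏ P ∈ Z, (τ P / ϖ) ^ ((n : ℤ) * D P) = ∏ P ∈ Z, (τ P / ϖ) ^ P.ord f :=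
        Finset.prod_congr rfl fun P hPZ => by rw [hf P (hZs P hPZ)]
      rw [e]
      exact h

/-- **LOCAL at a good place** of a component. -/
theorem local_good {F' : Type*} [Field F'] [Algebra k F'] (T : PRed K F k F')
    (hP : HasPrincipalDivisors K F) (hdeg : ∀ v : Place K F, v.deg = 1)
    {Q : Place k F'} {t : F} (ht : T.IsCoord t Q) (𝓘 : Set (SemilinearAut K F))
    (h𝓘 : ∀ τ ∈ 𝓘, (∀ P : Place K F, T.r (τ • P) = T.r P) ∧ τ • t = t)
    (D : Place K F →₀ ℤ)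
    (hD : ∀ τ ∈ 𝓘, ∀ P, T.r P = some Q → D (τ • P) = D P) :
    ∃ G : F, (∀ τ ∈ 𝓘, τ • G = G) ∧ (∀ P, T.r P = some Q → P.ord G = D P) ∧ T.IsGU G := by
  have hex : ∀ P : Place K F, ∃ a : K, T.r P = some Q →
      (algebraMap K F a ∈ T.V ∧ T.rd (algebraMap K F a) = 0 ∧
        VanAt P (t - algebraMap K F a)) := by
    intro P
    by_cases hPQ : T.r P = some Q
    · obtain ⟨a, ha⟩ := ht.exists_value hP hdeg hPQ
      exact ⟨a, fun _ => ha⟩
    · exact ⟨0, fun h => absurd h hPQ⟩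
  choose τ hτ using hex
  set Z : Finset (Place K F) := D.support.filter fun P => T.r P = some Q with hZdef
  have hZ : ∀ P, P ∈ Z ↔ T.r P = some Q ∧ D P ≠ 0 := by
    intro P
    rw [hZdef, Finset.mem_filter, Finsupp.mem_support_iff]
    exact and_comm
  have hZs : ∀ P ∈ Z, T.r P = some Q := fun P hPZ => ((hZ P).mp hPZ).1
  have hfac : ∀ P ∈ Z, T.IsGU (t - algebraMap K F (τ P)) := fun P hPZ =>
    (ht.sub_const (hτ P (hZs P hPZ)).1 (hτ P (hZs P hPZ)).2.1).isGU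
  have hval : ∀ σ ∈ 𝓘, ∀ P, T.r P = some Q →
      τ (σ • P) = SemilinearAut.baseAut σ (τ P) := by
    intro σ hσ P hPs
    obtain ⟨hr, hσt⟩ := h𝓘 σ hσ
    have h1 := H28.vanAt_smul_of σ (hτ P hPs).2.2
    rw [smul_sub, hσt, SemilinearAut.smul_algebraMap] at h1
    exact value_unique (σ • P) (hτ (σ • P) ((hr P).trans hPs)).2.2 h1
  have hmap : ∀ σ ∈ 𝓘, (∀ P ∈ Z, σ • P ∈ Z) ∧ ∀ P ∈ Z, σ⁻¹ • P ∈ Z := by
    intro σ hσ
    obtain ⟨hr, -⟩ := h𝓘 σ hσ
    constructor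
    · intro P hPZ
      rw [hZ]
      exact ⟨(hr P).trans (hZs P hPZ), by rw [hD σ hσ P (hZs P hPZ)]; exact ((hZ P).mp hPZ).2⟩
    · intro P' hP'Z
      rw [hZ]
      have h1 := hr (σ⁻¹ • P')
      rw [smul_inv_smul] at h1
      have h2 : T.r (σ⁻¹ • P') = some Q := h1.symm.trans (hZs P' hP'Z)
      have h3 := hD σ hσ (σ⁻¹ • P') h2
      rw [smul_inv_smul] at h3
      exact ⟨h2, by rw [← h3]; exact ((hZ P').mp hP'Z).2⟩
  refine ⟨∏ P ∈ Z, (t - algebraMap K F (τ P)) ^ D P, ?_, ?_, ?_⟩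
  · intro σ hσ
    obtain ⟨hr, hσt⟩ := h𝓘 σ hσ
    rw [smul_prod_zpow]
    have h1 : ∀ P ∈ Z, (σ • (t - algebraMap K F (τ P))) ^ D P =
        (t - algebraMap K F (τ (σ • P))) ^ D (σ • P) := by
      intro P hPZ
      rw [smul_sub, hσt, SemilinearAut.smul_algebraMap, hval σ hσ P (hZs P hPZ),
        hD σ hσ P (hZs P hPZ)]
    rw [Finset.prod_congr rfl h1]
    exact prod_smul_eq Z σ (hmap σ hσ).1 (hmap σ hσ).2
      (fun P => (t - algebraMap K F (τ P)) ^ D P)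
  · intro P hPs
    rw [ord_prod_zpow P Z _ _ fun P' hP' => (hfac P' hP').ne_zero]
    have h1 : ∀ P' ∈ Z, D P' * P.ord (t - algebraMap K F (τ P')) = if P' = P then D P else 0 := by
      intro P' hP'
      have h2 := hτ P' (hZs P' hP')
      rw [ht.ord_sub_eq hP h2.1 h2.2.1 (hZs P' hP') h2.2.2 hPs]
      by_cases hPP : P = P'
      · subst hPP
        simp
      · rw [if_neg hPP, if_neg (Ne.symm hPP), mul_zero]
    rw [Finset.sum_congr rfl h1, Finset.sum_ite_eq' Z P]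
    split_ifs with hPZ
    · rfl
    · by_contra hne
      exact hPZ ((hZ P).mpr ⟨hPs, fun h0 => hne (by rw [h0])⟩)
  · exact (PRed.IsGU.prod_zpow Z _ _ hfac).1

/-! ### First-order behaviour -/

section FC

variable {F' : Type*} [Field F'] [Algebra k F'] {T : PRed K F k F'} {θ : K}
  {σ : SemilinearAut K F}

theorem rd_intCast (T : PRed K F k F') (m : ℤ) :
    algebraMap K F (m : K) ∈ T.V ∧ T.rd (algebraMap K F (m : K)) = (m : F') := by
  have h1 : algebraMap K F (m : K) = ((m : T.V) : F) := by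
    rw [map_intCast]
    push_cast
    rfl
  have hm : algebraMap K F (m : K) ∈ T.V := by
    rw [h1]
    exact Subtype.mem _
  refine ⟨hm, ?_⟩
  rw [T.rd_of_mem hm]
  have h2 : (⟨algebraMap K F (m : K), hm⟩ : T.V) = (m : T.V) := Subtype.ext h1
  rw [h2, map_intCast]

/-- (A2) `⇒` first order: if `G` is a unit and `(σ G - G) / θ² ∈ V` then
`G / σ G ≡ 1 + 0 θ`. -/
theorem isFC_div_smul_of_sq (hθ : algebraMap K F θ ∈ T.V) (hθ0 : T.rd (algebraMap K F θ) = 0)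
    (hθne : θ ≠ 0) {G : F} (hG : T.IsGU G)
    (h : (σ • G - G) / algebraMap K F θ ^ 2 ∈ T.V) : T.IsFC θ (G / (σ • G)) 0 := by
  have hθF : algebraMap K F θ ≠ 0 := (map_ne_zero_iff _ (algebraMap K F).injective).mpr hθne
  set x : F := (σ • G - G) / algebraMap K F θ ^ 2 with hx
  have e1 : σ • G = G + algebraMap K F θ ^ 2 * x := by
    rw [hx]
    field_simp
    ring
  have hθ2 : algebraMap K F θ ^ 2 * x ∈ T.V := T.V.mul_mem _ _ (T.V.pow_mem hθ 2) h
  have hθ2r : T.rd (algebraMap K F θ ^ 2 * x) = 0 := by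
    rw [T.rd_mul (T.V.pow_mem hθ 2) h, T.rd_pow hθ, hθ0]
    simp
  have hσG : T.IsGU (σ • G) := by
    rw [e1]
    refine ⟨T.V.add_mem _ _ hG.1 hθ2, ?_⟩
    rw [T.rd_add hG.1 hθ2, hθ2r, add_zero]
    exact hG.2
  refine PRed.isFC_of_sq hθ hθ0 hθne ?_
  have e2 : (G / (σ • G) - 1) / algebraMap K F θ ^ 2 = -(x * (σ • G)⁻¹) := by
    have h0 := hσG.ne_zero
    rw [hx]
    field_simp
    ring
  rw [e2]
  exact T.V.neg_mem _ (T.V.mul_mem _ _ h hσG.inv_mem)

/-- (A3) `⇒` first order for constants: if `(σ C / C - (1 - m θ)) / θ²` is integral then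
`C / σ C ≡ 1 + m θ`. -/
theorem isFC_const (hθ : algebraMap K F θ ∈ T.V) (hθ0 : T.rd (algebraMap K F θ) = 0)
    (hθne : θ ≠ 0) {C : K} (m : ℤ)
    (h : algebraMap K F ((SemilinearAut.baseAut σ C / C - (1 - (m : K) * θ)) / θ ^ 2) ∈ T.V) :
    T.IsFC θ (algebraMap K F C / (σ • algebraMap K F C)) (m : F') := by
  have hθF : algebraMap K F θ ≠ 0 := (map_ne_zero_iff _ (algebraMap K F).injective).mpr hθne
  set y : F := algebraMap K F ((SemilinearAut.baseAut σ C / C - (1 - (m : K) * θ)) / θ ^ 2)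
    with hy
  obtain ⟨hm, hmr⟩ := rd_intCast T m
  -- `σ C / C = 1 + θ (-m + θ y)`
  have e1 : (σ • algebraMap K F C) / algebraMap K F C =
      1 + algebraMap K F θ * (-algebraMap K F (m : K) + algebraMap K F θ * y) := by
    rw [SemilinearAut.smul_algebraMap, hy, ← map_div₀, ← map_mul, ← map_neg, ← map_add,
      ← map_mul, ← map_one (algebraMap K F), ← map_add]
    congr 1
    field_simp
    ring
  have hΛ : -algebraMap K F (m : K) + algebraMap K F θ * y ∈ T.V :=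
    T.V.add_mem _ _ (T.V.neg_mem _ hm) (T.V.mul_mem _ _ hθ h)
  have hΛr : T.rd (-algebraMap K F (m : K) + algebraMap K F θ * y) = -(m : F') := by
    rw [T.rd_add (T.V.neg_mem _ hm) (T.V.mul_mem _ _ hθ h), T.rd_neg hm, hmr,
      T.rd_mul hθ h, hθ0, zero_mul, add_zero]
  have h1 : T.IsFC θ ((σ • algebraMap K F C) / algebraMap K F C) (-(m : F')) :=
    ⟨_, hΛ, hΛr, e1⟩
  have h2 := h1.inv hθ hθ0
  rwa [inv_div, neg_neg] at h2

/-- First order for `G = C U`: `C` a constant as in (A3), `U` a unit as in (A2). -/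
theorem isFC_const_mul (hθ : algebraMap K F θ ∈ T.V) (hθ0 : T.rd (algebraMap K F θ) = 0)
    (hθne : θ ≠ 0) {C : K} (hC : C ≠ 0) (m : ℤ)
    (h : algebraMap K F ((SemilinearAut.baseAut σ C / C - (1 - (m : K) * θ)) / θ ^ 2) ∈ T.V)
    {G : F} (hU : T.IsGU (algebraMap K F C⁻¹ * G))
    (hU2 : (σ • (algebraMap K F C⁻¹ * G) - algebraMap K F C⁻¹ * G) / algebraMap K F θ ^ 2 ∈ T.V) :
    T.IsFC θ (G / (σ • G)) (m : F') := by
  have h1 := isFC_const (T := T) (σ := σ) hθ hθ0 hθne m h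
  have h2 := isFC_div_smul_of_sq (σ := σ) hθ hθ0 hθne hU hU2
  have h3 := h1.mul hθ hθ0 h2
  rw [add_zero] at h3
  have hCF : algebraMap K F C ≠ 0 := (map_ne_zero_iff _ (algebraMap K F).injective).mpr hC
  have hσC : σ • algebraMap K F C ≠ 0 := by
    rw [SemilinearAut.smul_algebraMap]
    exact (map_ne_zero_iff _ (algebraMap K F).injective).mpr
      ((map_ne_zero_iff _ (SemilinearAut.baseAut σ).injective).mpr hC)
  have e : algebraMap K F C / (σ • algebraMap K F C) *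
      (algebraMap K F C⁻¹ * G / (σ • (algebraMap K F C⁻¹ * G))) = G / (σ • G) := by
    rw [smul_mul', map_inv₀, smul_inv'']
    by_cases hG0 : G = 0
    · rw [hG0]
      simp
    have hσG : σ • G ≠ 0 := by
      rw [SemilinearAut.smul_def]
      exact (map_ne_zero_iff _ (SemilinearAut.toRingAut σ).injective).mpr hG0
    field_simp
  rwa [e] at h3

end FC

end Fermat.Agent.BADP.H97
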