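import Fermat.Agent.BADP.H97_K3Q
import Fermat.Agent.BADP.H97_Local

/-!
# BAD_p (S44, row 38), ARITH bridge (helper97): from `ℚ̄` to the Gauss valuations

`T : PRed ℚ̄ F k F'` a component (e.g. `V₁` or `V₂` of the modular datum) with
`T.V ∩ ℚ̄ = A` (hypothesis `hT : ∀ c, algebraMap c ∈ T.V ↔ c ∈ A`, e.g. `BAD.H88.const_mem1`).

* `val_const_le_iff` : the valuation of `T.V` on the constants is equivalent to `A.valuation`;
  `rd_const_eq_zero`, `rd_const_eq_of_sub`, `isGU_const`;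
* `kdata_fn` : **transfer of `KData`** to the function field: from
  `KData A.valuation (K0 A) p ζ ω σ`, a semilinear automorphism `σF` of `F` over `σ` which
  preserves `T.V`, a subfield `F0 ⊂ F` fixed by `σF` containing the constants of `K0 A`, such that
  every nonzero `g ∈ F0` has a scale in `K0 A` (**A1** for `H = I`), we get
  `KData T.V.valuation F0 p ζ ω σF`;
* `stmt_A2` (**A2**) : `g ∈ F0(ζ, ω)`, `g ∈ T.V` `⇒ (σF g - g) / θ² ∈ T.V`;
  `stmt_A2_k3` : `g ∈ F0(ω)`, `g ∈ T.V` `⇒ (σF g - g) / π ∈ T.V` (= `hR₁`, `hR₂` of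
  `BAD.H28.keyP`, `θ = 1`);
* `keyP_pi`, `keyP_varpi`, `keyP_A3` : the hypotheses `hπp`, `hϖp`, `hA3₁/₂` of `BAD.H28.keyP`
  (peu ramifié case `θ = 1`).
-/

set_option autoImplicit false
set_option linter.style.haveILetI false

noncomputable section

open AlgebraicCurve

namespace Fermat.Agent.BADP.H97

open Fermat.Agent.BAD

variable {F k F' : Type*} [Field F] [Algebra (AlgebraicClosure ℚ) F] [Field k] [Field F']
  [Algebra k F'] (T : PRed (AlgebraicClosure ℚ) F k F')
  {A : ValuationSubring (AlgebraicClosure ℚ)}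

section Const

variable {T}
variable (hT : ∀ c : AlgebraicClosure ℚ, algebraMap (AlgebraicClosure ℚ) F c ∈ T.V ↔ c ∈ A)

include hT

theorem val_const_le_iff (c d : AlgebraicClosure ℚ) :
    T.V.valuation (algebraMap (AlgebraicClosure ℚ) F c) ≤
      T.V.valuation (algebraMap (AlgebraicClosure ℚ) F d) ↔
    A.valuation c ≤ A.valuation d := by
  by_cases hd : d = 0
  · rw [hd, map_zero, map_zero, map_zero, le_zero_iff, le_zero_iff, map_eq_zero, map_eq_zero,
      map_eq_zero]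
  have hdF : algebraMap (AlgebraicClosure ℚ) F d ≠ 0 :=
    (map_ne_zero_iff _ (algebraMap (AlgebraicClosure ℚ) F).injective).mpr hd
  have h1 : T.V.valuation (algebraMap (AlgebraicClosure ℚ) F c) ≤
      T.V.valuation (algebraMap (AlgebraicClosure ℚ) F d) ↔
      T.V.valuation (algebraMap (AlgebraicClosure ℚ) F (c / d)) ≤ 1 := by
    rw [map_div₀, map_div₀, div_le_one₀ (zero_lt_iff.2 ((Valuation.ne_zero_iff _).2 hdF))]
  have h2 : A.valuation c ≤ A.valuation d ↔ A.valuation (c / d) ≤ 1 := by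
    rw [map_div₀, div_le_one₀ (zero_lt_iff.2 ((Valuation.ne_zero_iff _).2 hd))]
  rw [h1, h2, ValuationSubring.valuation_le_one_iff, ValuationSubring.valuation_le_one_iff]
  exact hT _

theorem val_const_lt_iff (c d : AlgebraicClosure ℚ) :
    T.V.valuation (algebraMap (AlgebraicClosure ℚ) F c) <
      T.V.valuation (algebraMap (AlgebraicClosure ℚ) F d) ↔
    A.valuation c < A.valuation d := by
  rw [← not_le, ← not_le, val_const_le_iff hT]

theorem val_const_eq_iff (c d : AlgebraicClosure ℚ) :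
    T.V.valuation (algebraMap (AlgebraicClosure ℚ) F c) =
      T.V.valuation (algebraMap (AlgebraicClosure ℚ) F d) ↔
    A.valuation c = A.valuation d := by
  rw [le_antisymm_iff, le_antisymm_iff, val_const_le_iff hT, val_const_le_iff hT]

theorem val_const_eq_one_iff (c : AlgebraicClosure ℚ) :
    T.V.valuation (algebraMap (AlgebraicClosure ℚ) F c) = 1 ↔ A.valuation c = 1 := by
  have := val_const_eq_iff hT c 1
  rwa [map_one, map_one, map_one] at this

theorem val_const_lt_one_iff (c : AlgebraicClosure ℚ) :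
    T.V.valuation (algebraMap (AlgebraicClosure ℚ) F c) < 1 ↔ A.valuation c < 1 := by
  have := val_const_lt_iff hT c 1
  rwa [map_one, map_one, map_one] at this

theorem val_const_zpow {c d : AlgebraicClosure ℚ} {n : ℤ}
    (h : A.valuation c = A.valuation d ^ n) :
    T.V.valuation (algebraMap (AlgebraicClosure ℚ) F c) =
      T.V.valuation (algebraMap (AlgebraicClosure ℚ) F d) ^ n := by
  have h1 : A.valuation c = A.valuation (d ^ n) := by rw [map_zpow₀]; exact h
  have h2 := (val_const_eq_iff hT c (d ^ n)).2 h1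
  rw [h2, map_zpow₀, map_zpow₀]

end Const

/-! ### Valuation and reduction -/

section Rd

variable {T}

theorem val_le_one_iff_mem (g : F) : T.V.valuation g ≤ 1 ↔ g ∈ T.V :=
  T.V.valuation_le_one_iff g

theorem rd_eq_zero_of_val_lt {g : F} (h : T.V.valuation g < 1) : T.rd g = 0 := by
  have hg : g ∈ T.V := (T.V.valuation_le_one_iff g).1 h.le
  rw [T.rd_of_mem hg, T.red_eq_zero_iff]
  exact (T.V.valuation_lt_one_iff ⟨g, hg⟩).2 h

theorem val_lt_of_rd_eq_zero {g : F} (hg : g ∈ T.V) (h : T.rd g = 0) : T.V.valuation g < 1 := by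
  rw [T.rd_of_mem hg, T.red_eq_zero_iff] at h
  exact (T.V.valuation_lt_one_iff ⟨g, hg⟩).1 h

theorem isGU_iff_val_eq_one {g : F} : T.IsGU g ↔ T.V.valuation g = 1 := by
  constructor
  · rintro ⟨hg, hr⟩
    refine le_antisymm ((T.V.valuation_le_one_iff g).2 hg) ?_
    by_contra hlt
    rw [not_le] at hlt
    exact hr (rd_eq_zero_of_val_lt hlt)
  · intro h
    have hg : g ∈ T.V := (T.V.valuation_le_one_iff g).1 h.le
    refine ⟨hg, fun h0 => ?_⟩
    have := val_lt_of_rd_eq_zero hg h0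
    rw [h] at this
    exact lt_irrefl _ this

theorem rd_eq_of_val_sub_lt {g g' : F} (hg : g ∈ T.V) (hg' : g' ∈ T.V)
    (h : T.V.valuation (g - g') < 1) : T.rd g = T.rd g' := by
  have := rd_eq_zero_of_val_lt h
  rw [T.rd_sub hg hg', sub_eq_zero] at this
  exact this

end Rd

/-! ### Transfer of `KData` -/

section Transfer

variable {T}
variable (hT : ∀ c : AlgebraicClosure ℚ, algebraMap (AlgebraicClosure ℚ) F c ∈ T.V ↔ c ∈ A)
  {p : ℕ} {ζ ω : AlgebraicClosure ℚ}
  {σ : AlgebraicClosure ℚ ≃ₐ[ℚ] AlgebraicClosure ℚ}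

include hT in
/-- A semilinear automorphism over an element of the inertia group which preserves `T.V`
preserves the valuation of `T.V`. -/
theorem val_smul_eq (hσ : σ ∈ A.inertiaSubgroupIn ℚ) (σF : SemilinearAut (AlgebraicClosure ℚ) F)
    (hbase : ∀ c : AlgebraicClosure ℚ, SemilinearAut.baseAut σF c = σ c)
    (hmem : ∀ f : F, f ∈ T.V → σF • f ∈ T.V) (g : F) :
    T.V.valuation (σF • g) = T.V.valuation g := by
  by_cases hg0 : g = 0
  · rw [hg0, smul_zero]
  obtain ⟨c, hc0, hcg, hcr⟩ := T.exists_scale g hg0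
  have hcF : algebraMap (AlgebraicClosure ℚ) F c ≠ 0 :=
    (map_ne_zero_iff _ (algebraMap (AlgebraicClosure ℚ) F).injective).mpr hc0
  have hu : T.IsGU (algebraMap (AlgebraicClosure ℚ) F c * g) := by
    refine ⟨hcg, ?_⟩
    rw [T.rd_of_mem hcg]
    exact hcr
  have hu1 := isGU_iff_val_eq_one.1 hu
  -- `σF • u` is a unit
  have hσu : T.V.valuation (σF • (algebraMap (AlgebraicClosure ℚ) F c * g)) = 1 := by
    refine le_antisymm ((T.V.valuation_le_one_iff _).2 (hmem _ hu.1)) ?_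
    have h1 := hmem _ hu.inv_mem
    rw [smul_inv''] at h1
    have h2 := (T.V.valuation_le_one_iff _).2 h1
    rw [map_inv₀] at h2
    have h3 : σF • (algebraMap (AlgebraicClosure ℚ) F c * g) ≠ 0 := by
      rw [SemilinearAut.smul_def]
      exact (map_ne_zero_iff _ (SemilinearAut.toRingAut σF).injective).mpr hu.ne_zero
    exact (inv_le_one₀ (zero_lt_iff.2 ((Valuation.ne_zero_iff _).2 h3))).1 h2
  rw [smul_mul', SemilinearAut.smul_algebraMap, hbase, map_mul] at hσu
  rw [map_mul] at hu1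
  have h4 : T.V.valuation (algebraMap (AlgebraicClosure ℚ) F (σ c)) =
      T.V.valuation (algebraMap (AlgebraicClosure ℚ) F c) :=
    (val_const_eq_iff hT _ _).2 (val_sigma hσ c)
  rw [h4] at hσu
  have h5 : T.V.valuation (algebraMap (AlgebraicClosure ℚ) F c) ≠ 0 :=
    (Valuation.ne_zero_iff _).2 hcF
  exact mul_left_cancel₀ h5 (hσu.trans hu1.symm)

include hT in
/-- **Transfer of `KData`** from `(ℚ̄, A)` to `(F, T.V)`. -/
theorem kdata_fn (hA : A.LiesOverPrime p)
    (h : KData A.valuation (K0 A) p ζ ω (σ : AlgebraicClosure ℚ →+* AlgebraicClosure ℚ))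
    (hσ : σ ∈ A.inertiaSubgroupIn ℚ) (σF : SemilinearAut (AlgebraicClosure ℚ) F)
    (hbase : ∀ c : AlgebraicClosure ℚ, SemilinearAut.baseAut σF c = σ c)
    (hmem : ∀ f : F, f ∈ T.V → σF • f ∈ T.V)
    (F0 : Subfield F) (hF0 : ∀ c ∈ K0 A, algebraMap (AlgebraicClosure ℚ) F c ∈ F0)
    (hfix : ∀ g ∈ F0, σF • g = g)
    (hA1 : ∀ g ∈ F0, g ≠ 0 → ∃ c ∈ K0 A, c ≠ 0 ∧
      T.IsGU (algebraMap (AlgebraicClosure ℚ) F c * g)) :
    KData T.V.valuation F0 p (algebraMap (AlgebraicClosure ℚ) F ζ)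
      (algebraMap (AlgebraicClosure ℚ) F ω)
      ((SemilinearAut.toRingAut σF : F ≃+* F) : F →+* F) where
  prime := h.prime
  vp_lt := by
    have := (val_const_lt_one_iff hT (p : AlgebraicClosure ℚ)).2 h.vp_lt
    rwa [map_natCast] at this
  vp_ne := by
    rw [Ne, map_eq_zero]
    have hp0 : (p : AlgebraicClosure ℚ) ≠ 0 := h.p_ne_zero
    intro h0
    apply hp0
    apply (algebraMap (AlgebraicClosure ℚ) F).injective
    rw [map_natCast, map_zero]
    exact h0
  val0 := by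
    intro g hg hg0
    obtain ⟨c, hcK, hc0, hu⟩ := hA1 g hg hg0
    obtain ⟨n, hn⟩ := val_K0 h.prime hA c hcK hc0
    have h1 := val_const_zpow hT hn
    rw [map_natCast] at h1
    have h2 := isGU_iff_val_eq_one.1 hu
    rw [map_mul, h1] at h2
    refine ⟨-n, ?_⟩
    rw [zpow_neg]
    exact eq_inv_of_mul_eq_one_right h2
  root := h.root.map_of_injective (algebraMap (AlgebraicClosure ℚ) F).injective
  pow := by
    obtain ⟨u1, hu1, hv, hω⟩ := h.pow
    refine ⟨algebraMap (AlgebraicClosure ℚ) F u1, hF0 u1 hu1,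
      (val_const_eq_one_iff hT u1).2 hv, ?_⟩
    rw [← map_pow, hω, map_add, map_one, map_mul, map_natCast]
  σv := fun g => val_smul_eq hT hσ σF hbase hmem g
  σ0 := fun g hg => hfix g hg
  σζ := by
    show σF • algebraMap (AlgebraicClosure ℚ) F ζ = _
    rw [SemilinearAut.smul_algebraMap, hbase]
    congr 1
    exact h.σζ
  σω := by
    show σF • algebraMap (AlgebraicClosure ℚ) F ω = _
    rw [SemilinearAut.smul_algebraMap, hbase, ← map_mul]
    congr 1
    exact h.σω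

theorem theta_map (ζ ω : AlgebraicClosure ℚ) :
    theta (algebraMap (AlgebraicClosure ℚ) F ζ) (algebraMap (AlgebraicClosure ℚ) F ω) =
      algebraMap (AlgebraicClosure ℚ) F (theta ζ ω) := by
  simp only [theta, map_div₀, map_mul, map_sub, map_one]

/-- **(A2)**: for `g ∈ F0(ζ, ω)` integral, `(σF g - g) / θ² ∈ T.V`. -/
theorem stmt_A2 {F0 : Subfield F} {σF : SemilinearAut (AlgebraicClosure ℚ) F}
    (hK : KData T.V.valuation F0 p (algebraMap (AlgebraicClosure ℚ) F ζ)
      (algebraMap (AlgebraicClosure ℚ) F ω)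
      ((SemilinearAut.toRingAut σF : F ≃+* F) : F →+* F))
    {g : F} (hg : g ∈ IntermediateField.adjoin F0
      ({algebraMap (AlgebraicClosure ℚ) F ζ, algebraMap (AlgebraicClosure ℚ) F ω} : Set F))
    (hgV : g ∈ T.V) :
    (σF • g - g) / algebraMap (AlgebraicClosure ℚ) F (theta ζ ω) ^ 2 ∈ T.V := by
  rw [← T.V.valuation_le_one_iff, map_div₀, map_pow, ← theta_map]
  exact div_le_one_of_le₀ (hK.val_sigma_sub_adjoin hg ((T.V.valuation_le_one_iff g).2 hgV))
    zero_le

/-- **(A2), `K₃`-version** (`hR₁`, `hR₂` of Key-p with `θ = 1`): for `g ∈ F0(ω)` integral,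
`(σF g - g) / π ∈ T.V`. -/
theorem stmt_A2_k3 {F0 : Subfield F} {σF : SemilinearAut (AlgebraicClosure ℚ) F}
    (hK : KData T.V.valuation F0 p (algebraMap (AlgebraicClosure ℚ) F ζ)
      (algebraMap (AlgebraicClosure ℚ) F ω)
      ((SemilinearAut.toRingAut σF : F ≃+* F) : F →+* F))
    {g : F} (hg : g ∈ IntermediateField.adjoin F0
      ({algebraMap (AlgebraicClosure ℚ) F ω} : Set F))
    (hgV : g ∈ T.V) :
    (σF • g - g) / algebraMap (AlgebraicClosure ℚ) F (ζ - 1) ∈ T.V := by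
  rw [← T.V.valuation_le_one_iff, map_div₀, (algebraMap (AlgebraicClosure ℚ) F).map_sub,
    (algebraMap (AlgebraicClosure ℚ) F).map_one]
  exact div_le_one_of_le₀ (hK.val_sigma_sub_k3 hg ((T.V.valuation_le_one_iff g).2 hgV)) zero_le

end Transfer

/-! ### The constants of Key-p (peu ramifié case, `θ = 1`) -/

section KeyP

variable {T}
variable (hT : ∀ c : AlgebraicClosure ℚ, algebraMap (AlgebraicClosure ℚ) F c ∈ T.V ↔ c ∈ A)
  {p : ℕ} {ζ ω : AlgebraicClosure ℚ}
  {σ : AlgebraicClosure ℚ ≃ₐ[ℚ] AlgebraicClosure ℚ}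

include hT

theorem rd_const_eq_zero {c : AlgebraicClosure ℚ} (hc : A.valuation c < 1) :
    algebraMap (AlgebraicClosure ℚ) F c ∈ T.V ∧ T.rd (algebraMap (AlgebraicClosure ℚ) F c) = 0 :=
  ⟨(hT c).2 ((A.valuation_le_one_iff c).1 hc.le),
    rd_eq_zero_of_val_lt ((val_const_lt_one_iff hT c).2 hc)⟩

theorem isGU_const {c : AlgebraicClosure ℚ} (hc : A.valuation c = 1) :
    T.IsGU (algebraMap (AlgebraicClosure ℚ) F c) :=
  isGU_iff_val_eq_one.2 ((val_const_eq_one_iff hT c).2 hc)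

theorem rd_const_eq_of_sub {c d : AlgebraicClosure ℚ} (hc : c ∈ A) (hd : d ∈ A)
    (h : A.valuation (c - d) < 1) :
    T.rd (algebraMap (AlgebraicClosure ℚ) F c) = T.rd (algebraMap (AlgebraicClosure ℚ) F d) := by
  refine rd_eq_of_val_sub_lt ((hT c).2 hc) ((hT d).2 hd) ?_
  rw [← map_sub]
  exact (val_const_lt_one_iff hT _).2 h

/-- `hπ` of Key-p. -/
theorem keyP_pi_isCM
    (h : KData A.valuation (K0 A) p ζ ω (σ : AlgebraicClosure ℚ →+* AlgebraicClosure ℚ))
    (hp2 : p ≠ 2) :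
    algebraMap (AlgebraicClosure ℚ) F (ζ - 1) ∈ T.V ∧
      T.rd (algebraMap (AlgebraicClosure ℚ) F (ζ - 1)) = 0 :=
  rd_const_eq_zero hT (val_p_lt_val_pi A.valuation h.prime hp2 h.root h.vp_lt h.vp_ne).1

/-- `hϖ` of Key-p. -/
theorem keyP_varpi_isCM
    (h : KData A.valuation (K0 A) p ζ ω (σ : AlgebraicClosure ℚ →+* AlgebraicClosure ℚ)) :
    algebraMap (AlgebraicClosure ℚ) F (ω - 1) ∈ T.V ∧
      T.rd (algebraMap (AlgebraicClosure ℚ) F (ω - 1)) = 0 :=
  rd_const_eq_zero hT h.val_varpi_lt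

/-- `hπp` of Key-p: `rd (π ^ (p - 1) / p) = -1`. -/
theorem keyP_pi
    (h : KData A.valuation (K0 A) p ζ ω (σ : AlgebraicClosure ℚ →+* AlgebraicClosure ℚ))
    (hp2 : p ≠ 2) :
    T.rd (algebraMap (AlgebraicClosure ℚ) F ((ζ - 1) ^ (p - 1) / (p : AlgebraicClosure ℚ))) =
      -1 := by
  have h1 := val_pi_pow_div A.valuation h.prime hp2 h.root h.vp_lt h.vp_ne
  have h2 : A.valuation ((ζ - 1) ^ (p - 1) / (p : AlgebraicClosure ℚ)) ≤ 1 := by
    rw [map_div₀, map_pow, h.val_pi, div_self h.vp_ne]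
  have h3 : T.rd (algebraMap (AlgebraicClosure ℚ) F
      ((ζ - 1) ^ (p - 1) / (p : AlgebraicClosure ℚ))) =
      T.rd (algebraMap (AlgebraicClosure ℚ) F (-1)) := by
    refine rd_const_eq_of_sub hT ((A.valuation_le_one_iff _).1 h2) (A.neg_mem _ A.one_mem) ?_
    rwa [sub_neg_eq_add]
  rw [h3, map_neg, map_one, T.rd_neg T.V.one_mem, T.rd_one]

/-- `hϖp` of Key-p: `ϖ ^ p / p` is a unit. -/
theorem keyP_varpi
    (h : KData A.valuation (K0 A) p ζ ω (σ : AlgebraicClosure ℚ →+* AlgebraicClosure ℚ)) :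
    T.IsGU (algebraMap (AlgebraicClosure ℚ) F ((ω - 1) ^ p / (p : AlgebraicClosure ℚ))) := by
  refine isGU_const hT ?_
  rw [map_div₀, map_pow, h.val_varpi, div_self h.vp_ne]

/-- `hA3₁`, `hA3₂` of Key-p (with `θ = 1`), for a constant `a` of the maximal ideal fixed by
`I₃ = {τ ∈ I | τ ω = ω}`. -/
theorem keyP_A3 (hA : A.LiesOverPrime p)
    (h : KData A.valuation (K0 A) p ζ ω (σ : AlgebraicClosure ℚ →+* AlgebraicClosure ℚ))
    {a : AlgebraicClosure ℚ} (haA : a ∈ A.nonunits)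
    (ha : ∀ τ ∈ A.inertiaSubgroupIn ℚ, τ ω = ω → τ a = a) :
    algebraMap (AlgebraicClosure ℚ) F (a / (ω - 1)) ∈ T.V ∧
      T.rd (algebraMap (AlgebraicClosure ℚ) F ((σ a - a) / ((ζ - 1) * 1))) =
        T.rd (algebraMap (AlgebraicClosure ℚ) F (a / (ω - 1))) ∧
      (T.rd (algebraMap (AlgebraicClosure ℚ) F (a / (ω - 1))) = 0 →
        algebraMap (AlgebraicClosure ℚ) F (a / (ω - 1) ^ 2) ∈ T.V) := by
  have h1 := val_small_of_fixed3 hA h haA ha
  have h2 := val_sigma_sub_div_of_fixed3 hA h haA ha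
  have h3 : (σ a - a) / (ζ - 1) ∈ A :=
    val_sigma_sub_of_fixed3 hA h (A.nonunits_subset haA) ha
  refine ⟨(hT _).2 h1, ?_, fun h0 => ?_⟩
  · rw [mul_one]
    exact rd_const_eq_of_sub hT h3 h1 (A.mem_nonunits_iff.1 h2)
  · refine (hT _).2 (val_small_sq_of_fixed3 hA h ?_ ha)
    rw [A.mem_nonunits_iff]
    exact (val_const_lt_one_iff hT _).1 (val_lt_of_rd_eq_zero ((hT _).2 h1) h0)

end KeyP

end Fermat.Agent.BADP.H97
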