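/-
helper33, row 38 (S44), package BAD_p, leaf MOD-P: the modular semistable Deuring datum at `p`,
with its fields exposed (`BADP.Stmt_ModP`).

Proof: the construction of `BAD.H91.modSSD_body` (law of total conservation `BAD.H23.tot_mod`),
keeping `S := T.toSSD …` explicit; the four identifications are definitional.

* `modBeta`, `modTot` : the bijection `β` and the modular total conservation datum at `p`;
* `modS` : **the** modular semistable Deuring datum (a `def`, so that other leaves can speak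
  about this fixed datum);
* `isModDatum_modS : IsModDatum A p M a b hab hp (modS …)`;
* `stmt_ModP : Stmt_ModP`;
* `modS_*` : the fields of `modS` (all `rfl`).
-/
import Fermat.Agent.BADP.ModP
import Fermat.Agent.BAD.H91_ModSSD
import Fermat.Agent.BAD.H23_TotMod

set_option autoImplicit false
set_option linter.style.haveILetI false
set_option synthInstance.maxHeartbeats 400000
set_option maxHeartbeats 1000000

noncomputable section

open HahnSeries IntermediateField AlgebraicCurve ModularCurve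
open Fermat.Agent.S28.H73 Fermat.Agent.RED.H73 Fermat.Agent.RED Fermat.Agent.S24
open Fermat.Agent.BAD.H88

namespace Fermat.Agent.BADP.H33

open Fermat.Agent.BAD Fermat.Agent.BAD.H91 Fermat.Agent.S43.BadQ

/-- The law of total conservation for the modular datum (helper23's `tot_mod`). -/
theorem totMod : Fermat.Agent.BAD.H91.Stmt_TotMod :=
  fun A q M a b hab hq _ _ hA hqM ht =>
    Fermat.Agent.BAD.H23.tot_mod A q M a b hab hq hA hqM ht
      (Fermat.Agent.BAD.H82.redField_eq_fullC q M a b hab hq A hA)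

/-- `p ∤ M` from a Bezout relation. -/
theorem not_dvd_of_bezout {p M : ℕ} {a b : ℤ} (hab : a * p + b * M = 1) (hp : p.Prime) :
    ¬ p ∣ M := by
  intro h
  have h1 : (p : ℤ) ∣ a * p + b * M :=
    dvd_add (Dvd.intro_left a rfl) (Dvd.dvd.mul_left (Int.natCast_dvd_natCast.2 h) b)
  rw [hab] at h1
  have h2 : (p : ℤ) ≤ 1 := Int.le_of_dvd one_pos h1
  have := hp.two_le
  omega

theorem neZero_left (M p : ℕ) [NeZero (M * p)] : NeZero M :=
  ⟨fun h0 => NeZero.ne (M * p) (by rw [h0, zero_mul])⟩

section Datum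

variable (A : ValuationSubring (AlgebraicClosure ℚ)) (p M : ℕ) (a b : ℤ)
  (hab : a * p + b * M = 1) (hp : p.Prime) [NeZero (M * p)] (h5 : 5 ≤ p)
  (hA : A.LiesOverPrime p)

/-- The bijection `β` between the places of the two components (helper73's `betaF1`). -/
def modBeta : Place (kV A) (F1 A p M) ≃ Place (kV A) (F1 A p M) :=
  H73.betaF1 A p M hp hA M (H82.redField_eq_fullC p M a b hab hp A hA)

include h5 in
/-- The modular total conservation datum at `p ≥ 5`, `p ∤ M`. -/
def modTot : H79.TotData Kbar (FN (M * p)) (kV A) (F1 A p M) (F1 A p M) :=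
  haveI : NeZero M := neZero_left M p
  haveI : NeZero p := ⟨hp.ne_zero⟩
  modT a b hab hp hA (not_dvd_of_bezout hab hp) (Or.inl h5) (modBeta A p M a b hab hp hA)
    (totMod A p M a b hab hp hA (not_dvd_of_bezout hab hp) (Or.inl h5))

/-- `F_N ℚ̄` is a function field: the basic hypotheses. -/
theorem ffHyp : RED.H17.FFHyp Kbar ↥(FNbar (M * p)) :=
  RED.H17.ffHyp_of_isFF _ _ (H95.stmt_HKA_isFF (M * p))

include hab hp hA h5 in
/-- The reduced field is a function field. -/
theorem isFF_red : IsFF (kV A) (F1 A p M) :=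
  haveI : NeZero M := neZero_left M p
  isFF_F1 a b hab hp hA (not_dvd_of_bezout hab hp) (Or.inl h5)

include hab hp hA h5 in
/-- The reduced field is a function field: the basic hypotheses. -/
theorem ffHyp₁ : RED.H17.FFHyp (kV A) (F1 A p M) :=
  haveI : IsAlgClosed (kV A) := isAlgClosed_kV A
  RED.H17.ffHyp_of_isFF _ _ (isFF_red A p M a b hab hp h5 hA)

/-- The genera, the nodes coming from NUM and the numerical inequality. -/
theorem exists_nodes_genus :
    ∃ (Z : Finset (Place (kV A) (F1 A p M))) (g g₁ : ℕ) (c c₁ : ℤ), Z.Nonempty ∧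
      (∀ z ∈ Z, (modTot A p M a b hab hp h5 hA).IsNode z) ∧
      RED.H17.IsGenus Kbar ↥(FNbar (M * p)) g c ∧
      RED.H17.IsGenus (kV A) (F1 A p M) g₁ c₁ ∧ g + 1 ≤ g₁ + g₁ + Z.card := by
  have hqM : ¬ p ∣ M := not_dvd_of_bezout hab hp
  haveI : NeZero M := neZero_left M p
  haveI : NeZero p := ⟨hp.ne_zero⟩
  have ht : TameAt M p := Or.inl h5
  haveI : IsAlgClosed (kV A) := isAlgClosed_kV A
  have hFFL : IsFF Kbar ↥(FNbar (M * p)) := H95.stmt_HKA_isFF (M * p)
  have hFF1 : IsFF (kV A) (F1 A p M) := isFF_F1 a b hab hp hA hqM ht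
  obtain ⟨g, c, hg⟩ := RED.H17.exists_isGenus _ _ hFFL
  obtain ⟨g₁, c₁, hg₁⟩ := RED.H17.exists_isGenus _ _ hFF1
  have hg₁' : RED.H17.IsGenus (kV A) ↥(Fermat.Agent.BAD.H91.redM A M) g₁ c₁ :=
    isGenus_congr (H82.redField_eq_redField p M a b hab hp A hA) hg₁
  obtain ⟨Z, hZne, hZc, hZo, hnum⟩ :=
    Fermat.Agent.BAD.H30.num_final_tame M p hp ht hqM A hA (Dvd.intro_left M rfl)
  refine ⟨Z.map (kappa A p M a b hab hp hA).symm.toEmbedding, g, g₁, c, c₁, hZne.map, ?_,
    hg, hg₁, ?_⟩
  · intro z hz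
    obtain ⟨z₀, hz₀, rfl⟩ := Finset.mem_map.mp hz
    exact isNode_modT a b hab hp hA hqM ht _ _ _ z₀ (hZc z₀ hz₀) (hZo z₀ hz₀)
  · rw [Finset.card_map]
    exact Fermat.Agent.BAD.H17.genus_ineq hp hqM ht hA hg hg₁' Z.card hnum

/-- The modular datum has a node. -/
theorem exists_node : ∃ z, (modTot A p M a b hab hp h5 hA).IsNode z := by
  obtain ⟨Z, -, -, -, -, ⟨z, hz⟩, hZ, -⟩ := exists_nodes_genus A p M a b hab hp h5 hA
  exact ⟨z, hZ z hz⟩

/-- **The modular semistable Deuring datum at `p ≥ 5`, `p ∤ M`.** -/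
def modS : SSD (AlgebraicClosure ℚ) ↥(FNbar (M * p)) (kV A) (RedF A (M * p)) (RedF A (M * p)) :=
  haveI : IsAlgClosed (kV A) := isAlgClosed_kV A
  (modTot A p M a b hab hp h5 hA).toSSD (ffHyp p M).principal (ffHyp p M).deg_one
    (ffHyp₁ A p M a b hab hp h5 hA).principal (ffHyp₁ A p M a b hab hp h5 hA).deg_one
    (ffHyp₁ A p M a b hab hp h5 hA).deg_one (exists_node A p M a b hab hp h5 hA)

/-! ### The fields of `modS` -/

theorem modS_c₁_V : (modS A p M a b hab hp h5 hA).c₁.V = gaussV A (M * p) := rfl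

theorem modS_c₂_V : (modS A p M a b hab hp h5 hA).c₂.V = V2 A p M a b hab hp := rfl

theorem modS_c₁_red : (modS A p M a b hab hp h5 hA).c₁.red = red1 A p M := rfl

theorem modS_c₂_red : (modS A p M a b hab hp h5 hA).c₂.red = red2 A p M a b hab hp := rfl

theorem modS_c₁_r : (modS A p M a b hab hp h5 hA).c₁.r = (modTot A p M a b hab hp h5 hA).r₁ :=
  rfl

theorem modS_c₂_r : (modS A p M a b hab hp h5 hA).c₂.r = (modTot A p M a b hab hp h5 hA).r₂ :=
  rfl

theorem modS_nodes : (modS A p M a b hab hp h5 hA).nodes =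
    haveI : IsAlgClosed (kV A) := isAlgClosed_kV A
    (modTot A p M a b hab hp h5 hA).nodes (ffHyp p M).principal
      (ffHyp₁ A p M a b hab hp h5 hA).principal := rfl

theorem modTot_ρ : (modTot A p M a b hab hp h5 hA).ρ =
    haveI : NeZero M := neZero_left M p
    rhoF1 a b hab hp hA (not_dvd_of_bezout hab hp) (Or.inl h5) := rfl

theorem modTot_β : (modTot A p M a b hab hp h5 hA).β = modBeta A p M a b hab hp hA := rfl

/-- **The modular datum is a modular datum.** -/
theorem isModDatum_modS : IsModDatum A p M a b hab hp (modS A p M a b hab hp h5 hA) := by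
  have hqM : ¬ p ∣ M := not_dvd_of_bezout hab hp
  haveI : NeZero M := neZero_left M p
  haveI : NeZero p := ⟨hp.ne_zero⟩
  have ht : TameAt M p := Or.inl h5
  haveI : IsAlgClosed (kV A) := isAlgClosed_kV A
  obtain ⟨Z, g, g₁, c, c₁, -, hZ, hg, hg₁, hnum⟩ := exists_nodes_genus A p M a b hab hp h5 hA
  have hcard := (modTot A p M a b hab hp h5 hA).card_le_toSSD_nodes (ffHyp p M).principal
    (ffHyp p M).deg_one (ffHyp₁ A p M a b hab hp h5 hA).principal
    (ffHyp₁ A p M a b hab hp h5 hA).deg_one (ffHyp₁ A p M a b hab hp h5 hA).deg_one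
    (exists_node A p M a b hab hp h5 hA) Z hZ
  refine
    { mem₁ := fun f => Iff.rfl
      red₁ := fun f hf => rfl
      mem₂ := fun f => Iff.rfl
      red₂ := fun f hf hf' => rfl
      ff := ffHyp p M
      ff₁ := ffHyp₁ A p M a b hab hp h5 hA
      genus := ⟨g, g₁, c, c₁, hg, hg₁, ?_⟩
      inertial := ?_ }
  · have h : Z.card ≤ (modS A p M a b hab hp h5 hA).nodes.card := hcard
    omega
  · intro s hs
    exact (inert_totDataOf A p M a b hab hp hA (modBeta A p M a b hab hp hA)
      (rhoF1 a b hab hp hA hqM ht) (totMod A p M a b hab hp hA hqM ht)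
      (hunif_mod a b hab hp hA hqM ht) hs
      (fun P => rhoF1_inertia a b hab hp hA hqM ht hs P)).isInertial
        (ffHyp p M).principal (ffHyp p M).deg_one (ffHyp₁ A p M a b hab hp h5 hA).principal
        (ffHyp₁ A p M a b hab hp h5 hA).deg_one (ffHyp₁ A p M a b hab hp h5 hA).deg_one
        (exists_node A p M a b hab hp h5 hA)

end Datum

/-- **(MOD-P)**: the modular semistable Deuring datum at `p ≥ 5`, `p ∤ M`, exists. -/
theorem stmt_ModP : Stmt_ModP := fun p h5 M a b hab hp _ A hA =>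
  ⟨modS A p M a b hab hp h5 hA, isModDatum_modS A p M a b hab hp h5 hA⟩

end Fermat.Agent.BADP.H33
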