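import Fermat.Agent.NEB.H29_Inv

/-!
# S44, package BAD_p, leaf KUM, abstract part (helper57)

`F / K` a function field of one variable over an algebraically closed field.

* `kum_cmp_abs` : two Kummer pairs `(D, f)`, `(D', f')` (`n D = div f`, `n D' = div f'`) of the
  same class differ by a constant times an `n`-th power: `f = e f' T ^ n`.
* `kum_smul_abs` : the transport of a Kummer pair by a semilinear automorphism.
* `kum_fix_abs` : a Kummer function of a class fixed by a semilinear automorphism `g` satisfies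
  `g f = e f T ^ n`.
-/

set_option autoImplicit false
set_option linter.style.haveILetI false
set_option linter.unusedSectionVars false

noncomputable section

open AlgebraicCurve

namespace Fermat.Agent.BADP.H57

open Fermat.Agent.RED Fermat.Agent.NEB.H29

variable {K F : Type} [Field K] [Field F] [Algebra K F]

/-- Equal classes differ by a principal divisor. -/
theorem exists_fn_of_mk_eq (D D' : Divisor.degZero (K := K) (F := F))
    (h : Pic0.mk D = Pic0.mk D') :
    ∃ T : F, T ≠ 0 ∧ ∀ P : Place K F,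
      (D : Divisor K F) P - (D' : Divisor K F) P = P.ord T := by
  have h1 : -D + D' ∈ (Divisor.principal (K := K) (F := F)).addSubgroupOf
      (Divisor.degZero (K := K) (F := F)) := QuotientAddGroup.eq.mp h
  rw [AddSubgroup.mem_addSubgroupOf, Divisor.mem_principal] at h1
  obtain ⟨T₀, hT₀, hT⟩ := h1
  refine ⟨T₀⁻¹, inv_ne_zero hT₀, fun P => ?_⟩
  have h2 := hT P
  have h3 : ((-D + D' : Divisor.degZero (K := K) (F := F)) : Divisor K F) P
      = -(D : Divisor K F) P + (D' : Divisor K F) P := by
    show (-(D : Divisor K F) + (D' : Divisor K F)) P = _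
    rw [Finsupp.add_apply, Finsupp.neg_apply]
  rw [h3] at h2
  rw [Place.ord_inv, ← h2]
  ring

/-- **KUM-CMP, abstract form.** -/
theorem kum_cmp_abs [IsAlgClosed K] (hF : IsFF K F) (n : ℕ)
    (D D' : Divisor.degZero (K := K) (F := F)) (f f' : F) (hf : f ≠ 0) (hf' : f' ≠ 0)
    (hD : ∀ P : Place K F, (n : ℤ) * (D : Divisor K F) P = P.ord f)
    (hD' : ∀ P : Place K F, (n : ℤ) * (D' : Divisor K F) P = P.ord f')
    (h : Pic0.mk D = Pic0.mk D') :
    ∃ (e : K) (T : F), f = algebraMap K F e * f' * T ^ n := by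
  obtain ⟨T, hT0, hT⟩ := exists_fn_of_mk_eq D D' h
  have hTn : T ^ n ≠ 0 := pow_ne_zero n hT0
  have hden : f' * T ^ n ≠ 0 := mul_ne_zero hf' hTn
  have hu0 : f / (f' * T ^ n) ≠ 0 := div_ne_zero hf hden
  have hord : ∀ P : Place K F, P.ord (f / (f' * T ^ n)) = 0 := by
    intro P
    rw [div_eq_mul_inv, Place.ord_mul _ hf (inv_ne_zero hden), Place.ord_inv,
      Place.ord_mul _ hf' hTn, ← zpow_natCast, Place.ord_zpow, ← hD P, ← hD' P, ← hT P]
    ring
  obtain ⟨e, he⟩ := constHyp_of_isFF hF _ hu0 hord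
  refine ⟨e, T, ?_⟩
  rw [he, mul_assoc, div_mul_cancel₀ _ hden]

/-- The transport of a Kummer pair by a semilinear automorphism. -/
theorem kum_smul_abs (n : ℕ) (g : SemilinearAut K F)
    (D : Divisor.degZero (K := K) (F := F)) (f : F)
    (hD : ∀ P : Place K F, (n : ℤ) * (D : Divisor K F) P = P.ord f) (P : Place K F) :
    (n : ℤ) * ((SemilinearAut.degZeroSMulHom g D : Divisor.degZero (K := K) (F := F)) :
      Divisor K F) P = P.ord (g • f) := by
  rw [SemilinearAut.coe_degZeroSMulHom, SemilinearAut.divisor_smul_apply, hD]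
  have h := SemilinearAut.ord_smul g (g⁻¹ • P) f
  rw [smul_inv_smul] at h
  exact h.symm

theorem smul_ne_zero_h57 (g : SemilinearAut K F) {f : F} (hf : f ≠ 0) : g • f ≠ 0 := by
  intro h0
  apply hf
  have h1 := congrArg (fun z => g⁻¹ • z) h0
  simp only [inv_smul_smul, smul_zero] at h1
  exact h1

/-- **KUM-FIX, abstract form.** -/
theorem kum_fix_abs [IsAlgClosed K] (hF : IsFF K F) (n : ℕ) (g : SemilinearAut K F)
    (D : Divisor.degZero (K := K) (F := F)) (f : F) (hf : f ≠ 0)
    (hD : ∀ P : Place K F, (n : ℤ) * (D : Divisor K F) P = P.ord f)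
    (hfix : g • (Pic0.mk D : Pic0 K F) = Pic0.mk D) :
    ∃ (e : K) (T : F), g • f = algebraMap K F e * f * T ^ n :=
  kum_cmp_abs hF n (SemilinearAut.degZeroSMulHom g D) D (g • f) f (smul_ne_zero_h57 g hf) hf
    (kum_smul_abs n g D f hD) hD ((SemilinearAut.pic0_smul_mk g D).symm.trans hfix)

end Fermat.Agent.BADP.H57
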