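import Fermat.Agent.BADP.ModStmts
import Fermat.Agent.BADP.H57_KumAbs

/-!
# S44, package BAD_p, leaf KUM (helper57): `Stmt_KumCmp`, `Stmt_KumFix`, `Stmt_KumW`

* KUM-CMP: `[D] = [D']` gives `D - D' = div T`, so `f / (f' T ^ n)` has no zeros and poles and is
  constant.
* KUM-FIX: `(σ D, σ f)` and `(D, f)` are Kummer pairs of the same class.
* KUM-W: if `(D₂, g)` is a Kummer pair of `w x` with `g ≡ 1`, then `(w⁻¹ D₂, w⁻¹ g)` is a Kummer
  pair of `x`; compare with the Kummer pair `(D, f)`, `f ≡ 1`, of `x`.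
-/

set_option autoImplicit false
set_option linter.style.haveILetI false
set_option linter.unusedSectionVars false
set_option synthInstance.maxHeartbeats 400000
set_option maxHeartbeats 1000000

noncomputable section

open AlgebraicCurve ModularCurve

namespace Fermat.Agent.BADP.H57

open Fermat.Agent.BAD Fermat.Agent.S44 Fermat.Agent.S43.BadQ Fermat.Agent.S28.H73
  Fermat.Agent.RED.H73 Fermat.Agent.BADP

theorem isFF_level (N : ℕ) [NeZero N] :
    Fermat.Agent.RED.IsFF (AlgebraicClosure ℚ) ↥(FNbar N) :=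
  Fermat.Agent.RED.H95.stmt_HKA_isFF N

/-- **KUM-CMP.** -/
theorem stmt_KumCmp : Stmt_KumCmp := by
  intro N _ n D D' f f' hf hf' hD hD' h
  exact kum_cmp_abs (isFF_level N) n D D' f f' hf hf' hD hD' h

/-- **KUM-FIX.** -/
theorem stmt_KumFix : Stmt_KumFix := by
  intro N _ n x D f hf hx hD σ hσ
  subst hx
  exact kum_fix_abs (isFF_level N) n (galF N σ) D f hf hD hσ

/-- **KUM-W.** -/
theorem stmt_KumW : Stmt_KumW := by
  intro p M a b hab hp _ n A x h1 h2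
  obtain ⟨D, f, hx, hres, hD⟩ := h1
  obtain ⟨D₂, g, hx₂, hres₂, hD₂⟩ := h2
  have hf0 : ((f : ↥(gaussV A (M * p))) : ↥(FNbar (M * p))) ≠ 0 :=
    ne_zero_of_gaussRes_eq_one hres
  have hg0 : ((g : ↥(gaussV A (M * p))) : ↥(FNbar (M * p))) ≠ 0 :=
    ne_zero_of_gaussRes_eq_one hres₂
  have hwf' : wS p M a b hab hp • ((wS p M a b hab hp)⁻¹ •
      ((g : ↥(gaussV A (M * p))) : ↥(FNbar (M * p))))
      = ((g : ↥(gaussV A (M * p))) : ↥(FNbar (M * p))) := smul_inv_smul _ _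
  have hf'0 : (wS p M a b hab hp)⁻¹ • ((g : ↥(gaussV A (M * p))) : ↥(FNbar (M * p))) ≠ 0 :=
    smul_ne_zero_h57 _ hg0
  have hD' := kum_smul_abs n (wS p M a b hab hp)⁻¹ D₂
    ((g : ↥(gaussV A (M * p))) : ↥(FNbar (M * p))) hD₂
  have hmk : (Pic0.mk D : JZero (M * p))
      = Pic0.mk (SemilinearAut.degZeroSMulHom (wS p M a b hab hp)⁻¹ D₂) := by
    rw [← SemilinearAut.pic0_smul_mk, ← hx₂, ← hx, inv_smul_smul]
  obtain ⟨c, h₀, hc⟩ := kum_cmp_abs (isFF_level (M * p)) n D _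
    ((f : ↥(gaussV A (M * p))) : ↥(FNbar (M * p))) _ hf0 hf'0 hD hD' hmk
  have hmem : wS p M a b hab hp • ((wS p M a b hab hp)⁻¹ •
      ((g : ↥(gaussV A (M * p))) : ↥(FNbar (M * p)))) ∈ gaussV A (M * p) := by
    rw [hwf']
    exact g.2
  refine ⟨D, ((f : ↥(gaussV A (M * p))) : ↥(FNbar (M * p))),
    (wS p M a b hab hp)⁻¹ • ((g : ↥(gaussV A (M * p))) : ↥(FNbar (M * p))), h₀, c, f.2, hmem,
    hx, hD, hres, ?_, hc⟩
  have e : (⟨_, hmem⟩ : ↥(gaussV A (M * p))) = g := Subtype.ext hwf'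
  rw [e]
  exact hres₂

end Fermat.Agent.BADP.H57
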