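import Fermat.Agent.BADP.H15_RayMod
import Fermat.Agent.BADP.H33_ModP
import Fermat.Agent.BADP.H11_K0LiftP
import Fermat.Agent.BADP.H57_Kum
import Fermat.Agent.S44.H66_GoodRoot

/-!
# S44 BADP, clause (e) RAY, unconditional (helper15)

`stmt_RayK3x : S44.Stmt_RayK3x` and `stmt_RayP : S44.Stmt_RayP`, from
`H15.stmt_RayMod`, `H33.stmt_ModP`, `H11.stmt_K0LiftP`, `H57.stmt_KumFix`, `H57.stmt_KumW`,
`S44.H66.stmt_GoodRoot`.
-/

set_option autoImplicit false

namespace Fermat.Agent.BADP.H15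

/-- **(RAY-K3), corrected form, unconditional.** -/
theorem stmt_RayK3x : Fermat.Agent.S44.Stmt_RayK3x :=
  stmt_RayMod Fermat.Agent.BADP.H33.stmt_ModP Fermat.Agent.BADP.H11.stmt_K0LiftP
    Fermat.Agent.BADP.H57.stmt_KumFix Fermat.Agent.BADP.H57.stmt_KumW

/-- **Clause (e) of BAD_p, unconditional.** -/
theorem stmt_RayP : Fermat.Agent.S44.Stmt_RayP :=
  Fermat.Agent.S44.stmt_RayP_of_rayK3x stmt_RayK3x Fermat.Agent.S44.H66.stmt_GoodRoot

end Fermat.Agent.BADP.H15
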