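import Fermat.Agent.FL.H22_Frame
import Fermat.Agent.GTor.H56_DescBase

/-!
# S44 BADP, leaf ARITH (function level), part 1 (helper15): **SPAN**

`L` an algebraic extension of `ℚ`, `F₀ ⊆ ℚ((q))` a subfield, `F_L = laurentBaseChange L F₀`.

* `inv_mem_span_genSet`: the `L`-span of the series with rational coefficients of `F₀` is closed
  under inverses (it is a domain, integral over the field `F₀`);
* `mem_span_of_mem_laurentBaseChange` **(SPAN)**: `F_L` *is* this span;
* `exists_repr_li`: every element of `F_L` is `∑ a i • coeffEmb (y i)` with `y i ∈ F₀` linearly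
  independent over `ℚ`.
-/

set_option autoImplicit false
set_option linter.style.haveILetI false
set_option linter.unusedSectionVars false
set_option synthInstance.maxHeartbeats 400000
set_option maxHeartbeats 1000000

open ModularCurve

noncomputable section

namespace Fermat.Agent.BADP.H15

open Fermat.Agent.GTor.H56

section Span

variable {L : Type} [Field L] [Algebra ℚ L]
variable (F₀ : IntermediateField ℚ (LaurentSeries ℚ))

/-- The `L`-span of the rational functions is closed under inverses, if `L` is algebraic over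
`ℚ`. -/
theorem inv_mem_span_genSet [Algebra.IsAlgebraic ℚ L] {Q : LaurentSeries L}
    (hQ : Q ∈ Submodule.span L (genSet F₀ L)) : Q⁻¹ ∈ Submodule.span L (genSet F₀ L) := by
  letI alg : Algebra ↥F₀ (LaurentSeries L) :=
    ((coeffEmb L).comp (algebraMap ↥F₀ (LaurentSeries ℚ))).toAlgebra
  have halg : ∀ z : ↥F₀, algebraMap ↥F₀ (LaurentSeries L) z
      = coeffEmb L (z : LaurentSeries ℚ) := fun z => rfl
  set T : Subalgebra ↥F₀ (LaurentSeries L) :=
    Algebra.adjoin ↥F₀ (Set.range (algebraMap L (LaurentSeries L))) with hT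
  -- the constants are integral over `F₀`
  have hgen : ∀ c : L, IsIntegral ↥F₀ (algebraMap L (LaurentSeries L) c) := by
    intro c
    obtain ⟨P, hP, hPc⟩ := (Algebra.IsAlgebraic.isIntegral (K := ℚ) (A := L)).isIntegral c
    refine ⟨P.map (algebraMap ℚ ↥F₀), hP.map _, ?_⟩
    rw [Polynomial.eval₂_map]
    have e : (algebraMap ↥F₀ (LaurentSeries L)).comp (algebraMap ℚ ↥F₀)
        = (algebraMap L (LaurentSeries L)).comp (algebraMap ℚ L) := RingHom.ext_rat _ _
    rw [e, ← Polynomial.hom_eval₂, hPc, map_zero]
  have hT_int : ∀ x ∈ T, IsIntegral ↥F₀ x := by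
    intro x hx
    have h1 : T ≤ integralClosure ↥F₀ (LaurentSeries L) := by
      apply Algebra.adjoin_le
      rintro _ ⟨c, rfl⟩
      exact hgen c
    exact h1 hx
  have hQT : ∀ x ∈ Submodule.span L (genSet F₀ L), x ∈ T := by
    intro x hx
    induction hx using Submodule.span_induction with
    | mem y hy =>
      obtain ⟨z, hz, rfl⟩ := hy
      exact T.algebraMap_mem ⟨z, hz⟩
    | zero => exact zero_mem _
    | add x y _ _ hx hy => exact add_mem hx hy
    | smul c x _ hx =>
      rw [smul_eq_algebraMap_mul]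
      exact mul_mem (Algebra.subset_adjoin ⟨c, rfl⟩) hx
  have hTQ : ∀ x ∈ T, x ∈ Submodule.span L (genSet F₀ L) := by
    intro x hx
    induction hx using Algebra.adjoin_induction with
    | mem y hy =>
      obtain ⟨c, rfl⟩ := hy
      have : algebraMap L (LaurentSeries L) c = c • (1 : LaurentSeries L) := by
        rw [smul_eq_algebraMap_mul, mul_one]
      rw [this]
      exact Submodule.smul_mem _ c (Submodule.subset_span (one_mem_genSet F₀ L))
    | algebraMap z =>
      rw [halg]
      exact Submodule.subset_span ⟨_, z.2, rfl⟩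
    | add x y _ _ hx hy => exact add_mem hx hy
    | mul x y _ _ hx hy => exact mul_mem_span_genSet F₀ L hx hy
  have hinv : Q⁻¹ ∈ T :=
    Subalgebra.inv_mem_of_algebraic T (x := ⟨Q, hQT Q hQ⟩) (hT_int Q (hQT Q hQ)).isAlgebraic
  exact hTQ _ hinv

/-- **(SPAN)**: if `L` is algebraic over `ℚ`, then `F₀ · L` is the `L`-span of (the extensions
of coefficients of) the elements of `F₀`. -/
theorem mem_span_of_mem_laurentBaseChange [Algebra.IsAlgebraic ℚ L] {x : LaurentSeries L}
    (hx : x ∈ laurentBaseChange L F₀) : x ∈ Submodule.span L (genSet F₀ L) := by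
  obtain ⟨P, hP, Q, hQ, rfl⟩ := exists_div_of_mem F₀ L hx
  rw [div_eq_mul_inv]
  exact mul_mem_span_genSet F₀ L hP (inv_mem_span_genSet F₀ hQ)

theorem mem_laurentBaseChange_iff_span [Algebra.IsAlgebraic ℚ L] {x : LaurentSeries L} :
    x ∈ laurentBaseChange L F₀ ↔ x ∈ Submodule.span L (genSet F₀ L) :=
  ⟨mem_span_of_mem_laurentBaseChange F₀, span_genSet_le F₀ L⟩

end Span

end Fermat.Agent.BADP.H15
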