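/-
helper18, row 38 (S44), package BAD_p: the modular wiring EIS-MOD.
Plan: `NOTES/plan/L_S44.md` §12.2; statement `BADP.Stmt_EisMod` (BADP/EisMod.lean).
-/
import Fermat.Agent.BADP.EisMod
import Fermat.Agent.BADP.H97_Bridge
import Fermat.Agent.BADP.H15_DescAdj
import Fermat.Agent.S36.H61_B0
import Fermat.Agent.BADP.H97_KArithQ

set_option autoImplicit false
set_option linter.style.haveILetI false
set_option linter.unusedSectionVars false
set_option synthInstance.maxHeartbeats 400000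
set_option maxHeartbeats 1000000

noncomputable section

open AlgebraicCurve ModularCurve

namespace Fermat.Agent.BADP.H18E

open Fermat.Agent.BAD Fermat.Agent.S44 Fermat.Agent.S43.BadQ Fermat.Agent.S28.H73
  Fermat.Agent.RED.H73 Fermat.Agent.BADP

/-! ## Kummer pairs -/

section Kummer

variable (N : ℕ) [NeZero N]

/-- The transport of a Kummer pair by `σ`. -/
theorem ord_galF (n : ℕ)
    (D : Divisor.degZero (K := AlgebraicClosure ℚ) (F := ↥(FNbar N))) (f : ↥(FNbar N))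
    (hD : ∀ P : Place (AlgebraicClosure ℚ) ↥(FNbar N),
      (n : ℤ) * (D : Divisor (AlgebraicClosure ℚ) ↥(FNbar N)) P = P.ord f)
    (σ : GalQ) (P : Place (AlgebraicClosure ℚ) ↥(FNbar N)) :
    (n : ℤ) * ((SemilinearAut.degZeroSMulHom (galF N σ) D :
      Divisor.degZero (K := AlgebraicClosure ℚ) (F := ↥(FNbar N))) :
        Divisor (AlgebraicClosure ℚ) ↥(FNbar N)) P = P.ord (galF N σ • f) := by
  rw [SemilinearAut.coe_degZeroSMulHom, SemilinearAut.divisor_smul_apply, hD]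
  have h := SemilinearAut.ord_smul (galF N σ) ((galF N σ)⁻¹ • P) f
  rw [smul_inv_smul] at h
  exact h.symm

/-- **(KUM-FIX)** from (KUM-CMP). -/
theorem kum_fix (hCmp : Stmt_KumCmp) (n : ℕ)
    (D : Divisor.degZero (K := AlgebraicClosure ℚ) (F := ↥(FNbar N))) (f : ↥(FNbar N))
    (hf0 : f ≠ 0)
    (hD : ∀ P : Place (AlgebraicClosure ℚ) ↥(FNbar N),
      (n : ℤ) * (D : Divisor (AlgebraicClosure ℚ) ↥(FNbar N)) P = P.ord f)
    (σ : GalQ) (hσ : σ • (Pic0.mk D : JZero N) = Pic0.mk D) :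
    ∃ (e : AlgebraicClosure ℚ) (T : ↥(FNbar N)),
      galF N σ • f = algebraMap (AlgebraicClosure ℚ) ↥(FNbar N) e * f * T ^ n := by
  refine hCmp N n (SemilinearAut.degZeroSMulHom (galF N σ) D) D (galF N σ • f) f ?_ hf0
    (ord_galF N n D f hD σ) hD ?_
  · rw [Ne, smul_eq_zero_iff_eq]
    exact hf0
  · rw [← SemilinearAut.pic0_smul_mk]
    exact hσ

/-- The Kummer functions of `σ x` and of `x + y`. -/
theorem kum_sigma (hCmp : Stmt_KumCmp) (n : ℕ)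
    (D D₀ : Divisor.degZero (K := AlgebraicClosure ℚ) (F := ↥(FNbar N))) (f f₀ : ↥(FNbar N))
    (hf0 : f ≠ 0) (hf₀0 : f₀ ≠ 0)
    (hD : ∀ P : Place (AlgebraicClosure ℚ) ↥(FNbar N),
      (n : ℤ) * (D : Divisor (AlgebraicClosure ℚ) ↥(FNbar N)) P = P.ord f)
    (hD₀ : ∀ P : Place (AlgebraicClosure ℚ) ↥(FNbar N),
      (n : ℤ) * (D₀ : Divisor (AlgebraicClosure ℚ) ↥(FNbar N)) P = P.ord f₀)
    (σ : GalQ) (hσ : σ • (Pic0.mk D : JZero N) - Pic0.mk D = Pic0.mk D₀) :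
    ∃ (e : AlgebraicClosure ℚ) (T : ↥(FNbar N)),
      galF N σ • f = algebraMap (AlgebraicClosure ℚ) ↥(FNbar N) e * (f * f₀) * T ^ n := by
  refine hCmp N n (SemilinearAut.degZeroSMulHom (galF N σ) D) (D + D₀) (galF N σ • f) (f * f₀)
    ?_ (mul_ne_zero hf0 hf₀0) (ord_galF N n D f hD σ) ?_ ?_
  · rw [Ne, smul_eq_zero_iff_eq]
    exact hf0
  · intro P
    rw [Place.ord_mul _ hf0 hf₀0, ← hD, ← hD₀]
    show (n : ℤ) * ((D : Divisor (AlgebraicClosure ℚ) ↥(FNbar N)) +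
      (D₀ : Divisor (AlgebraicClosure ℚ) ↥(FNbar N))) P = _
    rw [Finsupp.add_apply, mul_add]
  · rw [← SemilinearAut.pic0_smul_mk, Pic0.mk_add, ← hσ]
    show σ • (Pic0.mk D : JZero N) = _
    abel

end Kummer


/-! ## Stabilisers in the inertia group -/

section Stab

variable (A : ValuationSubring (AlgebraicClosure ℚ))

/-- The pointwise stabiliser of `T ⊆ ℚ̄` in the inertia group at `A`. -/
def stabSub (T : Set (AlgebraicClosure ℚ)) : Subgroup GalQ where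
  carrier := {σ | σ ∈ A.inertiaSubgroupIn ℚ ∧ ∀ t ∈ T, σ t = t}
  mul_mem' := by
    rintro σ τ ⟨hσ, hσT⟩ ⟨hτ, hτT⟩
    refine ⟨Subgroup.mul_mem _ hσ hτ, fun t ht => ?_⟩
    rw [AlgEquiv.mul_apply, hτT t ht, hσT t ht]
  one_mem' := ⟨Subgroup.one_mem _, fun _ _ => rfl⟩
  inv_mem' := by
    rintro σ ⟨hσ, hσT⟩
    refine ⟨Subgroup.inv_mem _ hσ, fun t ht => ?_⟩
    have h1 : σ⁻¹ (σ t) = t := by
      rw [← AlgEquiv.mul_apply, inv_mul_cancel]
      rfl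
    rw [hσT t ht] at h1
    exact h1

theorem mem_stabSub {T : Set (AlgebraicClosure ℚ)} {σ : GalQ} :
    σ ∈ stabSub A T ↔ σ ∈ A.inertiaSubgroupIn ℚ ∧ ∀ t ∈ T, σ t = t := Iff.rfl

theorem mem_stabAuts_iff (N : ℕ) {T : Set (AlgebraicClosure ℚ)}
    {τ : SemilinearAut (AlgebraicClosure ℚ) ↥(FNbar N)} :
    τ ∈ stabAuts A N T ↔ ∃ σ ∈ stabSub A T, τ = galF N σ := by
  constructor
  · rintro ⟨σ, hσ, hT, rfl⟩
    exact ⟨σ, ⟨hσ, hT⟩, rfl⟩
  · rintro ⟨σ, ⟨hσ, hT⟩, rfl⟩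
    exact ⟨σ, hσ, hT, rfl⟩

theorem stabAuts_subset_inertiaAuts (N : ℕ) (T : Set (AlgebraicClosure ℚ)) :
    stabAuts A N T ⊆ inertiaAuts A N := by
  rintro τ ⟨σ, hσ, -, rfl⟩
  exact ⟨σ, hσ, rfl⟩

theorem stabAuts_mono (N : ℕ) {T T' : Set (AlgebraicClosure ℚ)} (h : T ⊆ T') :
    stabAuts A N T' ⊆ stabAuts A N T := by
  rintro τ ⟨σ, hσ, hT, rfl⟩
  exact ⟨σ, hσ, fun t ht => hT t (h ht), rfl⟩

/-- An automorphism fixing a primitive `p`-th root of unity fixes all `p`-th roots of unity. -/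
theorem fix_roots {p : ℕ} (hp : 0 < p) {ζ : AlgebraicClosure ℚ} (hζ : IsPrimitiveRoot ζ p)
    {σ : GalQ} (hσ : σ ζ = ζ) (ζ' : AlgebraicClosure ℚ) (hζ' : ζ' ^ p = 1) : σ ζ' = ζ' := by
  haveI : NeZero p := ⟨hp.ne'⟩
  obtain ⟨i, -, rfl⟩ := hζ.eq_pow_of_pow_eq_one hζ'
  rw [map_pow, hσ]

/-- An automorphism fixing a primitive `p`-th root of unity and a `p`-th root of `c ≠ 0` fixes
all `p`-th roots of `c`. -/
theorem fix_pth_roots {p : ℕ} (hp : 0 < p) {ζ : AlgebraicClosure ℚ} (hζ : IsPrimitiveRoot ζ p)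
    {σ : GalQ} (hσ : σ ζ = ζ) {c w : AlgebraicClosure ℚ} (hc : c ≠ 0) (hw : w ^ p = c)
    (hσw : σ w = w) (z : AlgebraicClosure ℚ) (hz : z ^ p = c) : σ z = z := by
  have hw0 : w ≠ 0 := by
    rintro rfl
    rw [zero_pow hp.ne'] at hw
    exact hc hw.symm
  have hq : (z / w) ^ p = 1 := by
    rw [div_pow, hz, hw, div_self hc]
  have h3 := fix_roots hp hζ hσ (z / w) hq
  have hz' : z = (z / w) * w := by field_simp
  rw [hz', map_mul, h3, hσw]

end Stab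


/-! ## A Kummer pair fixed by a subgroup -/

section Pair

variable (N : ℕ) [NeZero N] (A : ValuationSubring (AlgebraicClosure ℚ))

/-- A class of `J₀(N)[n]` fixed by a subgroup `H` has a Kummer pair `(D, f)` with `f` a unit of
the Gauss valuation ring fixed by `H`. -/
theorem exists_pair_of_fixed (H : Subgroup GalQ) (n : ℕ) (x : JZero N) (hn : n • x = 0)
    (hfix : ∀ σ ∈ H, σ • x = x) :
    ∃ (D : Divisor.degZero (K := AlgebraicClosure ℚ) (F := ↥(FNbar N))) (f : ↥(FNbar N))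
      (hf : f ∈ gaussV A N), f ≠ 0 ∧ x = Pic0.mk D ∧ gaussRes A N ⟨f, hf⟩ ≠ 0 ∧
      (∀ P : Place (AlgebraicClosure ℚ) ↥(FNbar N),
        (n : ℤ) * (D : Divisor (AlgebraicClosure ℚ) ↥(FNbar N)) P = P.ord f) ∧
      ∀ σ ∈ H, galF N σ • f = f := by
  obtain ⟨D, h, hh0, hx, hord, -, hhfix, -, -⟩ :=
    Fermat.Agent.S36.H61.stmt_NUB0 (N := N) H n x hn hfix
  have hmem : h ∈ H15.fixF N (H : Set GalQ) := fun σ hσ => hhfix σ hσ
  obtain ⟨c, hc0, hc, hm, hr⟩ := H15.exists_unit_of_fixed N A (H : Set GalQ) hmem hh0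
  have hcF : algebraMap (AlgebraicClosure ℚ) ↥(FNbar N) c ≠ 0 :=
    (map_ne_zero_iff _ (algebraMap (AlgebraicClosure ℚ) ↥(FNbar N)).injective).mpr hc0
  refine ⟨D, algebraMap (AlgebraicClosure ℚ) ↥(FNbar N) c * h, hm, mul_ne_zero hcF hh0, hx, hr,
    fun P => ?_, fun σ hσ => ?_⟩
  · rw [Fermat.Agent.RED.H17.ord_algebraMap_mul P hc0, hord]
  · rw [smul_mul', H15.galF_const, hc σ hσ, hhfix σ hσ]

end Pair

/-! ## From the nodes to the Eisenstein pair -/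

section Final

variable (A : ValuationSubring (AlgebraicClosure ℚ)) (p M : ℕ) (a b : ℤ)
  (hab : a * p + b * M = 1) (hp : p.Prime) [NeZero (M * p)] [NeZero p]

/-- The sum over a fibre of a divisor which vanishes on the fibre. -/
theorem mapDomain_eq_zero {α β : Type*} (r : α → β) (D : α →₀ ℤ) (y : β)
    (h : ∀ P, r P = y → D P = 0) : Finsupp.mapDomain r D y = 0 := by
  classical
  rw [Finsupp.mapDomain, Finsupp.sum_apply]
  refine Finset.sum_eq_zero fun P _ => ?_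
  show Finsupp.single (r P) (D P) y = 0
  rw [Finsupp.single_apply]
  split_ifs with h1
  · exact h P h1
  · rfl

include hab hp in
/-- The Eisenstein pair from the congruences at the nodes. -/
theorem eisPair_of_nodes
    (S : SSD (AlgebraicClosure ℚ) ↥(FNbar (M * p)) (kV A) (RedF A (M * p)) (RedF A (M * p)))
    (hS : IsModDatumU A p M a b hab hp S) (x : JZero (M * p))
    (D : Divisor.degZero (K := AlgebraicClosure ℚ) (F := ↥(FNbar (M * p))))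
    (f : ↥(FNbar (M * p))) (hfV : f ∈ gaussV A (M * p))
    (hfr : gaussRes A (M * p) ⟨f, hfV⟩ ≠ 0) (hx : x = Pic0.mk D)
    (hD : ∀ P : Place (AlgebraicClosure ℚ) ↥(FNbar (M * p)),
      (p : ℤ) * (D : Divisor (AlgebraicClosure ℚ) ↥(FNbar (M * p))) P = P.ord f)
    (m : ℤ)
    (hm : ∀ s ∈ S.nodes, (p : ℤ) ∣ s.1.ord (S.c₁.rd f) -
      m * s.1.ord (S.c₁.rd (Fermat.Agent.BAD.H30.unitF (M * p) p (Dvd.intro_left M rfl)))) :
    IsEisPair A (M * p) p (Dvd.intro_left M rfl) x D ⟨f, hfV⟩ m := by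
  set U := Fermat.Agent.BAD.H30.unitF (M * p) p (Dvd.intro_left M rfl) with hUdef
  have hUV : U ∈ gaussV A (M * p) :=
    Fermat.Agent.BAD.H30.unitF_mem_gaussV A (M * p) p (Dvd.intro_left M rfl)
  have hUr : gaussRes A (M * p) ⟨U, hUV⟩ ≠ 0 :=
    Fermat.Agent.BAD.H30.gaussRes_unitF_ne_zero A (M * p) p (Dvd.intro_left M rfl)
  have hfS : f ∈ S.c₁.V := (hS.datum.mem₁ f).2 hfV
  have hUS : U ∈ S.c₁.V := (hS.datum.mem₁ U).2 hUV
  have hrdf : S.c₁.rd f = gaussRes A (M * p) ⟨f, hfV⟩ := by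
    rw [S.c₁.rd_of_mem hfS]
    exact hS.datum.red₁ ⟨f, hfV⟩ hfS
  have hrdU : S.c₁.rd U = gaussRes A (M * p) ⟨U, hUV⟩ := by
    rw [S.c₁.rd_of_mem hUS]
    exact hS.datum.red₁ ⟨U, hUV⟩ hUS
  have hU0 : U ≠ 0 := by
    rintro h0
    apply hUr
    have : (⟨U, hUV⟩ : ↥(gaussV A (M * p))) = 0 := Subtype.ext h0
    rw [this, map_zero]
  -- the good places
  have hgood : ∀ Q ∈ S.c₁.good, (p : ℤ) ∣ Q.ord (gaussRes A (M * p) ⟨f, hfV⟩) := by
    intro Q hQ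
    have h1 := S.c₁.DI ⟨f, hfS⟩ (by rw [← S.c₁.rd_of_mem hfS, hrdf]; exact hfr)
      ((p : ℤ) • (D : Divisor (AlgebraicClosure ℚ) ↥(FNbar (M * p))))
      (fun P => by rw [Finsupp.smul_apply, smul_eq_mul]; exact hD P) Q hQ
    rw [← S.c₁.rd_of_mem hfS, hrdf, Finsupp.mapDomain_smul, Finsupp.smul_apply,
      smul_eq_mul] at h1
    exact ⟨_, h1.symm⟩
  have hgoodU : ∀ Q ∈ S.c₁.good, 0 ≤ Q.ord (Fermat.Agent.BAD.H91.jRed A (M * p)) →
      Q.ord (gaussRes A (M * p) ⟨U, hUV⟩) = 0 := by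
    intro Q hQ hj
    obtain ⟨DU, hDU, -⟩ := hS.datum.ff.principal.exists_divisor U hU0
    have h1 := S.c₁.DI ⟨U, hUS⟩ (by rw [← S.c₁.rd_of_mem hUS, hrdU]; exact hUr) DU hDU Q hQ
    rw [← S.c₁.rd_of_mem hUS, hrdU] at h1
    rw [← h1]
    refine mapDomain_eq_zero _ _ _ fun P hP => ?_
    rw [hDU]
    exact hS.unit_ord P Q hP hj
  refine ⟨hx, hfr, hD, fun Q => ?_⟩
  by_cases hQ : Q ∈ S.c₁.good
  · refine ⟨fun hj => ?_, fun _ => hgood Q hQ⟩
    have h2 : Q.ord (unitRed A (M * p) p (Dvd.intro_left M rfl)) = 0 := hgoodU Q hQ hj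
    rw [h2, mul_zero, sub_zero]
    exact hgood Q hQ
  · have hnode : ∃ s ∈ S.nodes, s.1 = Q := by
      by_contra hcon
      push Not at hcon
      exact hQ ((S.good₁ Q).2 hcon)
    obtain ⟨s, hs, rfl⟩ := hnode
    refine ⟨fun _ => ?_, fun hj => absurd (hS.cusp_good _ hj) hQ⟩
    have h3 := hm s hs
    rw [hrdf, hrdU] at h3
    exact h3

end Final


/-! ## The common data of the two cases -/

section Common

variable (A : ValuationSubring (AlgebraicClosure ℚ)) (p M : ℕ) (a b : ℤ)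
  (hab : a * p + b * M = 1) (hp : p.Prime) [NeZero (M * p)] [NeZero p]

/-- The fixed field of the inertia group, in the form used by the abstract statements. -/
theorem mem_F0_iff (y : ↥(FNbar (M * p))) :
    y ∈ H15.fixF (M * p) (H15.inertiaSet A) ↔ ∀ τ ∈ inertiaAuts A (M * p), τ • y = y := by
  constructor
  · rintro hy τ ⟨σ, hσ, rfl⟩
    exact hy σ hσ
  · intro hy σ hσ
    exact hy _ ⟨σ, hσ, rfl⟩

include hab hp in
theorem const_mem_c1
    (S : SSD (AlgebraicClosure ℚ) ↥(FNbar (M * p)) (kV A) (RedF A (M * p)) (RedF A (M * p)))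
    (hS : IsModDatum A p M a b hab hp S) (c : AlgebraicClosure ℚ) :
    algebraMap (AlgebraicClosure ℚ) ↥(FNbar (M * p)) c ∈ S.c₁.V ↔ c ∈ A :=
  (hS.mem₁ _).trans (Fermat.Agent.BAD.H88.const_mem1 A p M c)

include hab hp in
theorem const_mem_c2
    (S : SSD (AlgebraicClosure ℚ) ↥(FNbar (M * p)) (kV A) (RedF A (M * p)) (RedF A (M * p)))
    (hS : IsModDatum A p M a b hab hp S) (c : AlgebraicClosure ℚ) :
    algebraMap (AlgebraicClosure ℚ) ↥(FNbar (M * p)) c ∈ S.c₂.V ↔ c ∈ A := by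
  rw [← S.const_mem]
  exact const_mem_c1 A p M a b hab hp S hS c

include hab hp in
/-- The values of `F^I` are powers of the value of `p`. -/
theorem val_F0 (hA : A.LiesOverPrime p) {k' F' : Type} [Field k'] [Field F'] [Algebra k' F']
    (T : PRed (AlgebraicClosure ℚ) ↥(FNbar (M * p)) k' F')
    (hT : ∀ c : AlgebraicClosure ℚ,
      algebraMap (AlgebraicClosure ℚ) ↥(FNbar (M * p)) c ∈ T.V ↔ c ∈ A)
    (hA1 : ∀ g ∈ H15.fixF (M * p) (H15.inertiaSet A), g ≠ 0 → ∃ c ∈ H97.K0 A, c ≠ 0 ∧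
      T.IsGU (algebraMap (AlgebraicClosure ℚ) ↥(FNbar (M * p)) c * g)) :
    ∀ y ∈ H15.fixF (M * p) (H15.inertiaSet A), y ≠ 0 →
      ∃ n : ℤ, T.V.valuation y = T.V.valuation (p : ↥(FNbar (M * p))) ^ n := by
  intro g hg hg0
  obtain ⟨c, hcK, hc0, hu⟩ := hA1 g hg hg0
  obtain ⟨n, hn⟩ := H97.val_K0 hp hA c hcK hc0
  have h1 := H97.val_const_zpow hT hn
  rw [map_natCast] at h1
  have h2 := H97.isGU_iff_val_eq_one.1 hu
  rw [map_mul, h1] at h2
  refine ⟨-n, ?_⟩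
  rw [zpow_neg]
  exact eq_inv_of_mul_eq_one_right h2

end Common


/-! ## The main theorem -/

section Main

/-- **EIS-MOD.** -/
theorem stmt_EisMod : Stmt_EisMod := by
  intro hMod hK0 hCmp hW hAbs hTame p _ hp hp5 N _ hd hp2N A hA x Y u hY hsub hu hfix
  -- the level
  obtain ⟨M, hM⟩ := id hd
  have hN : N = M * p := by rw [hM, mul_comm]
  subst hN
  have hp2 : p ≠ 2 := by omega
  have hpM : ¬ p ∣ M := by
    rintro ⟨k, rfl⟩
    exact hp2N ⟨k, by ring⟩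
  obtain ⟨a, b, hab⟩ : ∃ a b : ℤ, a * p + b * M = 1 := by
    have hcop : Nat.Coprime p M := (Nat.Prime.coprime_iff_not_dvd hp).2 hpM
    obtain ⟨a, b, h⟩ := Nat.isCoprime_iff_coprime.2 hcop
    exact ⟨a, b, h⟩
  haveI : IsAlgClosed (kV A) := isAlgClosed_kV A
  haveI hchar : CharP (kV A) p := Fermat.Agent.BAD.H82.charP_kV A hp hA
  have hp0 : (p : AlgebraicClosure ℚ) ≠ 0 := by exact_mod_cast hp.ne_zero
  -- the datum
  obtain ⟨S, hS⟩ := hMod p hp5 M a b hab hp A hA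
  have hK := hK0 p hp5 M a b hab hp A hA S hS.datum
  obtain ⟨g, g₁, c, c₁, hg, hg₁, hnum⟩ := hS.datum.genus
  have hT₁ := const_mem_c1 A p M a b hab hp S hS.datum
  have hT₂ := const_mem_c2 A p M a b hab hp S hS.datum
  have hV₁ : ∀ f, f ∈ gaussV A (M * p) → f ∈ S.c₁.V := fun f hf => (hS.datum.mem₁ f).2 hf
  have hV₂ : ∀ f, f ∈ Fermat.Agent.BAD.H88.V2 A p M a b hab hp → f ∈ S.c₂.V :=
    fun f hf => (hS.datum.mem₂ f).2 hf
  have hA1₁ := H15.stmt_A1 (M * p) A S.c₁ hV₁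
  have hA1₂ := H15.stmt_A1_two A p M a b hab hp S.c₂ hV₂
  have hinert : ∀ τ ∈ inertiaAuts A (M * p), S.IsInertial τ := by
    rintro τ ⟨σ, hσ, rfl⟩
    exact hS.datum.inertial σ hσ
  -- the unit
  set U := Fermat.Agent.BAD.H30.unitF (M * p) p (Dvd.intro_left M rfl) with hUdef
  have hUV : U ∈ gaussV A (M * p) :=
    Fermat.Agent.BAD.H30.unitF_mem_gaussV A (M * p) p (Dvd.intro_left M rfl)
  have hUr : gaussRes A (M * p) ⟨U, hUV⟩ ≠ 0 :=
    Fermat.Agent.BAD.H30.gaussRes_unitF_ne_zero A (M * p) p (Dvd.intro_left M rfl)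
  have hUGU : S.c₁.IsGU U := by
    refine ⟨hV₁ U hUV, ?_⟩
    rw [S.c₁.rd_of_mem (hV₁ U hUV), hS.datum.red₁ ⟨U, hUV⟩ (hV₁ U hUV)]
    exact hUr
  have hUfix : ∀ τ ∈ inertiaAuts A (M * p), τ • U = U := by
    rintro τ ⟨σ, hσ, rfl⟩
    exact hS.unit_fixed σ hσ
  have hUnode : ∀ P : Place (AlgebraicClosure ℚ) ↥(FNbar (M * p)), S.IsNodeP P →
      P.ord U = 0 := by
    rintro P ⟨s, hs, hr⟩
    refine hS.unit_ord P s.1 hr ?_
    by_contra hcon
    rw [not_le] at hcon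
    exact (S.good₁ s.1).1 (hS.cusp_good s.1 hcon) s hs rfl
  have hp12 : ¬ p ∣ 12 := by
    intro h
    have h4 : p ∣ 4 * 3 := h
    rcases (Nat.Prime.dvd_mul hp).1 h4 with h2 | h2
    · have h22 : p ∣ 2 * 2 := h2
      rcases (Nat.Prime.dvd_mul hp).1 h22 with h3 | h3
      · have := Nat.le_of_dvd (by norm_num) h3
        omega
      · have := Nat.le_of_dvd (by norm_num) h3
        omega
    · have := Nat.le_of_dvd (by norm_num) h2
      omega
  -- the torsion point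
  have htors : p • jzModule.pt (M * p) p x = 0 := by
    have h := jzModule.pt_torsion (M * p) p x
    rwa [natCast_zsmul] at h
  have hu0 : (u : AlgebraicClosure ℚ) ≠ 0 := by
    intro h
    apply hu
    have h1 : u = 0 := by exact_mod_cast h
    rw [h1]
    exact dvd_zero _
  -- a primitive root of unity
  obtain ⟨ζ, hζ⟩ : ∃ ζ : AlgebraicClosure ℚ, IsPrimitiveRoot ζ p := by
    haveI : NeZero (p : AlgebraicClosure ℚ) := ⟨hp0⟩
    exact HasEnoughRootsOfUnity.exists_primitiveRoot (AlgebraicClosure ℚ) p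
  -- the descent for `I₁`
  have hdesc1 : ∀ y : ↥(FNbar (M * p)), (∀ τ ∈ stabAuts A (M * p) {ζ}, τ • y = y) →
      y ∈ IntermediateField.adjoin (H15.fixF (M * p) (H15.inertiaSet A))
        ({algebraMap (AlgebraicClosure ℚ) ↥(FNbar (M * p)) ζ} : Set ↥(FNbar (M * p))) := by
    intro y hy
    refine H15.mem_adjoin_singleton_of_fixed (M * p) A hp hA ζ fun σ hσ hσζ => ?_
    exact hy _ ⟨σ, hσ, fun t ht => by rw [Set.mem_singleton_iff.1 ht]; exact hσζ, rfl⟩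
  have hbase1 : ∀ τ ∈ stabAuts A (M * p) {ζ}, SemilinearAut.baseAut τ ζ = ζ := by
    rintro τ ⟨σ, -, hT, rfl⟩
    exact hT ζ rfl
  -- the final step
  have hfinal : ∀ (D : Divisor.degZero (K := AlgebraicClosure ℚ) (F := ↥(FNbar (M * p))))
      (f : ↥(FNbar (M * p))) (hfV : f ∈ gaussV A (M * p)),
      gaussRes A (M * p) ⟨f, hfV⟩ ≠ 0 → jzModule.pt (M * p) p x = Pic0.mk D →
      (∀ P : Place (AlgebraicClosure ℚ) ↥(FNbar (M * p)),
        (p : ℤ) * (D : Divisor (AlgebraicClosure ℚ) ↥(FNbar (M * p))) P = P.ord f) →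
      (∃ m : ℤ, ∀ s ∈ S.nodes, (p : ℤ) ∣ s.1.ord (S.c₁.rd f) - m * s.1.ord (S.c₁.rd U)) →
      ∃ (D : Divisor.degZero (K := AlgebraicClosure ℚ) (F := ↥(FNbar (M * p))))
        (f : ↥(gaussV A (M * p))) (c : ℤ),
        IsEisPair A (M * p) p hd (jzModule.pt (M * p) p x) D f c := by
    rintro D f hfV hfr hxD hDf ⟨m, hm⟩
    exact ⟨D, ⟨f, hfV⟩, m, eisPair_of_nodes A p M a b hab hp S hS _ D f hfV hfr hxD hDf m hm⟩
  have hGU_of : ∀ (f : ↥(FNbar (M * p))) (hfV : f ∈ gaussV A (M * p)),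
      gaussRes A (M * p) ⟨f, hfV⟩ ≠ 0 → S.c₁.IsGU f := by
    intro f hfV hfr
    refine ⟨hV₁ f hfV, ?_⟩
    rw [S.c₁.rd_of_mem (hV₁ f hfV), hS.datum.red₁ ⟨f, hfV⟩ (hV₁ f hfV)]
    exact hfr
  -- the dichotomy
  rcases H97.karith_dichotomy hp hp2 hA u hu hζ with ⟨z, hzK, hz⟩ | ⟨t, ω, σ, htK, -, htω, hσ, hKD⟩
  · -- the tame case
    have hx1 : ∀ τ ∈ stabSub A {ζ}, τ • jzModule.pt (M * p) p x = jzModule.pt (M * p) p x := by
      rintro τ ⟨hτ, hτT⟩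
      have hτζ : τ ζ = ζ := hτT ζ rfl
      have hτz : τ z = z := H97.mem_K0.1 hzK τ hτ
      have h1 := hfix τ hτ (fix_roots hp.pos hζ hτζ)
        (fix_pth_roots hp.pos hζ hτζ hu0 hz hτz)
      rw [← jzModule.pt_gal, h1]
    obtain ⟨D, f, hfV, hf0, hxD, hfr, hDf, hffix⟩ :=
      exists_pair_of_fixed (M * p) A (stabSub A {ζ}) p _ htors hx1
    refine hfinal D f hfV hfr hxD hDf ?_
    refine hTame (AlgebraicClosure ℚ) ↥(FNbar (M * p)) (kV A) (RedF A (M * p)) (RedF A (M * p)) S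
      hS.datum.ff hS.datum.ff₁ hS.datum.ff₁ g g₁ g₁ c c₁ c₁ hg hg₁ hg₁ hnum p hp hp2 hchar hp0
      (inertiaAuts A (M * p)) (stabAuts A (M * p) {ζ}) hinert
      (stabAuts_subset_inertiaAuts A (M * p) {ζ}) hK
      (H15.fixF (M * p) (H15.inertiaSet A)) (mem_F0_iff A p M) ζ hζ
      (val_F0 A p M a b hab hp hA S.c₁ hT₁ hA1₁) (val_F0 A p M a b hab hp hA S.c₂ hT₂ hA1₂)
      hdesc1 hbase1 U 12 hUGU hUfix hUnode hS.unit_two hp12 f (hGU_of f hfV hfr)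
      (fun P => ⟨_, (hDf P).symm⟩) ?_
    rintro τ ⟨σ, hσ, hT, rfl⟩
    exact hffix σ ⟨hσ, hT⟩
  · -- the wild case
    have hσζ : σ ζ = ζ := hKD.σζ
    have hσω : σ ω = ζ * ω := hKD.σω
    have hx2 : ∀ τ ∈ stabSub A {ζ, ω},
        τ • jzModule.pt (M * p) p x = jzModule.pt (M * p) p x := by
      rintro τ ⟨hτ, hτT⟩
      have hτζ : τ ζ = ζ := hτT ζ (Set.mem_insert _ _)
      have hτω : τ ω = ω := hτT ω (Set.mem_insert_of_mem _ rfl)
      have hτt : τ t = t := H97.mem_K0.1 htK τ hτ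
      have h1 := hfix τ hτ (fix_roots hp.pos hζ hτζ)
        (fix_pth_roots hp.pos hζ hτζ hu0 htω (by rw [map_mul, hτt, hτω]))
      rw [← jzModule.pt_gal, h1]
    obtain ⟨D, f, hfV, hf0, hxD, hfr, hDf, hffix⟩ :=
      exists_pair_of_fixed (M * p) A (stabSub A {ζ, ω}) p _ htors hx2
    refine hfinal D f hfV hfr hxD hDf ?_
    -- the class `y₀ = σ x - x`
    have hy₀Y : (jzModule (M * p) p).gal σ x - x ∈ Y := hsub σ hσ
    have hY0 := isCycOn_le p M a b hab hp A hp2 hA Y hY hy₀Y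
    obtain ⟨hK1, hK1w⟩ := (mem_toric_iff p M a b hab hp p A _).1 hY0
    obtain ⟨D₀, f₀, f₀', h₀, c₀, hf₀V, hf₀'V, hy₀D, hD₀, hr₀, hr₀', hfact⟩ :=
      hW p M a b hab hp p A _ hK1 hK1w
    have hf₀0 : f₀ ≠ 0 := by
      rintro rfl
      have : (⟨0, hf₀V⟩ : ↥(gaussV A (M * p))) = 0 := rfl
      rw [this, map_zero] at hr₀
      exact zero_ne_one hr₀
    -- the class of `y₀` is fixed by `I₁`
    have hcyc : ∀ τ ∈ A.inertiaSubgroupIn ℚ, τ ζ = ζ →
        τ • (Pic0.mk D₀ : JZero (M * p)) = Pic0.mk D₀ := by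
      intro τ hτ hτζ
      have h1 := hY τ hτ 1 (fun ζ' hζ' => by rw [pow_one]; exact fix_roots hp.pos hζ hτζ ζ' hζ')
        _ hy₀Y
      rw [Nat.cast_one, one_smul] at h1
      have h2 := congrArg (jzModule.pt (M * p) p) h1
      rw [jzModule.pt_gal] at h2
      rw [← hy₀D]
      exact h2
    have hσD : σ • (Pic0.mk D : JZero (M * p)) - Pic0.mk D = Pic0.mk D₀ := by
      rw [← hy₀D, ← hxD]
      rfl
    obtain ⟨e, T, hσf⟩ := kum_sigma (M * p) hCmp p D D₀ f f₀ hf0 hf₀0 hDf hD₀ σ hσD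
    -- the data of K-ARITH
    have hσ1 : galF (M * p) σ ∈ stabAuts A (M * p) {ζ} :=
      ⟨σ, hσ, fun t ht => by rw [Set.mem_singleton_iff.1 ht]; exact hσζ, rfl⟩
    have hkd₁ := H97.kdata_fn hT₁ hA hKD hσ (galF (M * p) σ) (fun _ => rfl)
      (hS.datum.inertial σ hσ).mem₁ (H15.fixF (M * p) (H15.inertiaSet A))
      (fun c hc => H15.const_mem_F0 (M * p) A hc) (fun g hg => H15.galF_F0 (M * p) A hσ hg) hA1₁
    have hkd₂ := H97.kdata_fn hT₂ hA hKD hσ (galF (M * p) σ) (fun _ => rfl)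
      (hS.datum.inertial σ hσ).mem₂ (H15.fixF (M * p) (H15.inertiaSet A))
      (fun c hc => H15.const_mem_F0 (M * p) A hc) (fun g hg => H15.galF_F0 (M * p) A hσ hg) hA1₂
    have hdesc2 : ∀ y : ↥(FNbar (M * p)), (∀ τ ∈ stabAuts A (M * p) {ζ, ω}, τ • y = y) →
        y ∈ IntermediateField.adjoin (H15.fixF (M * p) (H15.inertiaSet A))
          ({algebraMap (AlgebraicClosure ℚ) ↥(FNbar (M * p)) ζ,
            algebraMap (AlgebraicClosure ℚ) ↥(FNbar (M * p)) ω} : Set ↥(FNbar (M * p))) := by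
      intro y hy
      refine H15.mem_adjoin_pair_of_fixed (M * p) A hp hA ζ ω fun τ hτ hτζ hτω => ?_
      refine hy _ ⟨τ, hτ, fun t ht => ?_, rfl⟩
      rcases ht with rfl | ht
      · exact hτζ
      · rw [Set.mem_singleton_iff.1 ht]
        exact hτω
    have hbase2 : ∀ τ ∈ stabAuts A (M * p) {ζ, ω},
        SemilinearAut.baseAut τ ζ = ζ ∧ SemilinearAut.baseAut τ ω = ω := by
      rintro τ ⟨τ', -, hT, rfl⟩
      exact ⟨hT ζ (Set.mem_insert _ _), hT ω (Set.mem_insert_of_mem _ rfl)⟩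
    have hσinv : ∀ z : AlgebraicClosure ℚ, σ⁻¹ (σ z) = z := by
      intro z
      rw [← AlgEquiv.mul_apply, inv_mul_cancel]
      rfl
    have hnorm : ∀ y : ↥(FNbar (M * p)), (∀ τ ∈ stabAuts A (M * p) {ζ, ω}, τ • y = y) →
        ∀ τ ∈ stabAuts A (M * p) {ζ, ω}, τ • (galF (M * p) σ • y) = galF (M * p) σ • y := by
      rintro y hy τ ⟨τ', hτ', hT, rfl⟩
      have hτζ : τ' ζ = ζ := hT ζ (Set.mem_insert _ _)
      have hτω : τ' ω = ω := hT ω (Set.mem_insert_of_mem _ rfl)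
      have hmem : galF (M * p) (σ⁻¹ * τ' * σ) ∈ stabAuts A (M * p) {ζ, ω} := by
        refine ⟨σ⁻¹ * τ' * σ,
          Subgroup.mul_mem _ (Subgroup.mul_mem _ (Subgroup.inv_mem _ hσ) hτ') hσ,
          fun t ht => ?_, rfl⟩
        rcases ht with rfl | ht
        · rw [AlgEquiv.mul_apply, AlgEquiv.mul_apply, hσζ, hτζ]
          have := hσinv t
          rwa [hσζ] at this
        · rw [Set.mem_singleton_iff.1 ht, AlgEquiv.mul_apply, AlgEquiv.mul_apply, hσω, map_mul,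
            hτζ, hτω, ← hσω]
          exact hσinv ω
      have h1 := hy _ hmem
      have h2 : galF (M * p) τ' * galF (M * p) σ =
          galF (M * p) σ * galF (M * p) (σ⁻¹ * τ' * σ) := by
        rw [← map_mul, ← map_mul]
        congr 1
        group
      rw [← mul_smul, h2, mul_smul, h1]
    -- the abstract statement
    refine hAbs (AlgebraicClosure ℚ) ↥(FNbar (M * p)) (kV A) (RedF A (M * p)) (RedF A (M * p)) S
      hS.datum.ff hS.datum.ff₁ hS.datum.ff₁ g g₁ g₁ c c₁ c₁ hg hg₁ hg₁ hnum p hp hp2 hchar hp0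
      (inertiaAuts A (M * p)) (stabAuts A (M * p) {ζ}) (stabAuts A (M * p) {ζ, ω}) hinert
      (stabAuts_subset_inertiaAuts A (M * p) {ζ})
      (stabAuts_mono A (M * p) (by
        intro t ht
        rw [Set.mem_singleton_iff.1 ht]
        exact Set.mem_insert _ _)) hK
      (H15.fixF (M * p) (H15.inertiaSet A)) (mem_F0_iff A p M) ζ ω (galF (M * p) σ) hσ1
      hkd₁ hkd₂ hdesc2 hdesc1 hbase2 hbase1 hnorm U 12 hUGU hUfix hUnode hS.unit_two hp12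
      f (hGU_of f hfV hfr) (fun P => ⟨_, (hDf P).symm⟩) ?_
      f₀ f₀' h₀ T c₀ e (hV₁ f₀ hf₀V) ?_ (fun P => ⟨_, (hD₀ P).symm⟩)
      ((hS.datum.mem₂ f₀').2 hf₀'V) ?_ hfact ?_ ?_
    · rintro τ ⟨τ', hτ', hT, rfl⟩
      exact hffix τ' ⟨hτ', hT⟩
    · rw [S.c₁.rd_of_mem (hV₁ f₀ hf₀V), hS.datum.red₁ ⟨f₀, hf₀V⟩ (hV₁ f₀ hf₀V)]
      exact hr₀
    · rw [S.c₂.rd_of_mem ((hS.datum.mem₂ f₀').2 hf₀'V),
        hS.datum.red₂ f₀' ((hS.datum.mem₂ f₀').2 hf₀'V) hf₀'V]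
      exact hr₀'
    · rintro τ ⟨τ', hτ', hT, rfl⟩
      exact kum_fix (M * p) hCmp p D₀ f₀ hf₀0 hD₀ τ' (hcyc τ' hτ' (hT ζ rfl))
    · rw [hσf, mul_assoc (algebraMap (AlgebraicClosure ℚ) ↥(FNbar (M * p)) e) f f₀]

end Main

end Fermat.Agent.BADP.H18E
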