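import Fermat.Agent.BADP.H28_KeyPSetup

/-!
# S33 NEW, package G4' (NS-STEP, one step) (helper18)

Plan: `NOTES/plan/R_S33_NEW.md` (G4) in helper86's one-step form (leaf (C) of helper86's note).

Setting: `S : SSD K F k F₁ F₂`, `char k = p`, `k` perfect, `(A₁, A₂)` non-special (`S.IsNS`),
coordinates `s Q` on the discs (`S.KeyHyp`).

* `leading_pth` : **the leading-term lemma.**  If `φ ∈ V₁ ∩ V₂` is regular outside the discs of
  `A₁ ∪ A₂`, has poles of order at most `p` on the discs (`s ^ p φ` regular), vanishes at a place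
  `P∞` over a good point `Q∞ ∉ A₁` and its two reductions are `p`-th powers, then both reductions
  vanish.
* `nsStep_gen` : `f ≡ 1` for both valuations in the position of the nodal key lemma with
  exponent `p`.  If for every scaling `(f - 1) / c₀` of depth smaller than the depth of `ϖ` the
  two reductions are `p`-th powers, then `(f - 1) / ϖ ∈ V₁ ∩ V₂`.
* `nsStep` : **NS-STEP** in the form of helper86's (C): with `ϖ = p π`, `π ^ (p - 1) / p` a unit,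
  and the hypotheses (PW₁), (PW₂) stated with the depth condition
  `v(p) ^ p < v(c₀) ^ (p - 1)`, i.e. `S.IsCM (p ^ p / c₀ ^ (p - 1))`.
-/

set_option autoImplicit false
set_option linter.style.haveILetI false
set_option maxHeartbeats 1000000

noncomputable section

open AlgebraicCurve

attribute [local instance] Classical.propDecidable

namespace Fermat.Agent.BADP.H18

open Fermat.Agent.BAD Fermat.Agent.RED.H17 Fermat.Agent.RED

local notation "L" => riemannRochSpace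

section PthRoot

variable {k F' : Type*} [Field k] [Field F'] [Algebra k F']

theorem regAt_of_pow {v : Place k F'} {x : F'} {n : ℕ} (hn : n ≠ 0) (h : RegAt v (x ^ n)) :
    RegAt v x := by
  unfold RegAt at h ⊢
  rw [map_pow] at h
  exact (pow_le_one_iff_of_nonneg zero_le hn).1 h

theorem vanAt_of_pow {v : Place k F'} {x : F'} {n : ℕ} (h : VanAt v (x ^ n)) :
    VanAt v x := by
  unfold VanAt at h ⊢
  rw [map_pow] at h
  by_contra hx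
  push Not at hx
  exact absurd h (not_lt.2 (one_le_pow₀ hx))

/-- `-n ≤ ord (x ^ n)` implies `-1 ≤ ord x`. -/
theorem ord_ge_neg_one_of_pow {v : Place k F'} {x : F'} {n : ℕ} (hn : 0 < n)
    (h : -(n : ℤ) ≤ v.ord (x ^ n)) : -1 ≤ v.ord x := by
  rw [Fermat.Agent.RED.H17.ord_pow] at h
  by_contra hlt
  push Not at hlt
  have h1 : v.ord x ≤ -2 := by omega
  have h3 : (0 : ℤ) < n := by exact_mod_cast hn
  nlinarith

end PthRoot

section Main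

variable {K F k F₁ F₂ : Type} [Field K] [Field F] [Algebra K F] [Field k] [Field F₁]
  [Algebra k F₁] [Field F₂] [Algebra k F₂]

/-- **The leading-term lemma.** -/
theorem leading_pth (S : SSD K F k F₁ F₂) (H : FFHyp K F)
    (p : ℕ) (hp : p.Prime) [CharP k p] (hk : ∀ e : k, ∃ e' : k, e' ^ p = e)
    (A₁ : Finset (Place k F₁)) (A₂ : Finset (Place k F₂)) (hNS : S.IsNS A₁ A₂)
    (s₁ : Place k F₁ → F) (s₂ : Place k F₂ → F) (hK : S.KeyHyp A₁ A₂ s₁ s₂)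
    (φ : F) (hφ₁ : φ ∈ S.c₁.V) (hφ₂ : φ ∈ S.c₂.V)
    (ψ₁ : F₁) (ψ₂ : F₂) (hψ₁ : S.c₁.rd φ = ψ₁ ^ p) (hψ₂ : S.c₂.rd φ = ψ₂ ^ p)
    (Pinf : Place K F) (Qinf : Place k F₁) (hQinfg : Qinf ∈ S.c₁.good) (hQinfA : Qinf ∉ A₁)
    (hPinf : S.c₁.r Pinf = some Qinf) (hφinf : VanAt Pinf φ)
    (hreg : ∀ P, (∀ Q ∈ A₁, S.c₁.r P ≠ some Q) → (∀ Q ∈ A₂, S.c₂.r P ≠ some Q) →
      0 ≤ P.ord φ)
    (hpole₁ : ∀ Q ∈ A₁, ∀ P, S.c₁.r P = some Q → 0 ≤ P.ord (s₁ Q ^ p * φ))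
    (hpole₂ : ∀ Q ∈ A₂, ∀ P, S.c₂.r P = some Q → 0 ≤ P.ord (s₂ Q ^ p * φ)) :
    S.c₁.rd φ = 0 ∧ S.c₂.rd φ = 0 := by
  have hP := H.principal
  have hp0 : p ≠ 0 := hp.ne_zero
  haveI : Fact p.Prime := ⟨hp⟩
  haveI : CharP F₁ p := charP_of_injective_algebraMap (algebraMap k F₁).injective p
  haveI : CharP F₂ p := charP_of_injective_algebraMap (algebraMap k F₂).injective p
  -- gluing of `φ` at the nodes
  have hglue : ∀ t ∈ S.nodes, ∃ e : k, VanAt t.1 (S.c₁.rd φ - algebraMap k F₁ e) ∧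
      VanAt t.2 (S.c₂.rd φ - algebraMap k F₂ e) := by
    intro t ht
    have hreg' : ∀ P, S.c₁.r P = some t.1 → 0 ≤ P.ord φ := fun P hPt =>
      hreg P (hK.off_of_node ht hPt).1 (hK.off_of_node ht hPt).2
    obtain ⟨e, he1, he2⟩ := S.glue t ht φ hφ₁ hφ₂ hreg'
    rw [← S.c₁.rd_of_mem hφ₁] at he1
    rw [← S.c₂.rd_of_mem hφ₂] at he2
    exact ⟨e, he1, he2⟩
  -- gluing of `ψ` at the nodes
  have hglueψ : ∀ t ∈ S.nodes, ∃ e : k, VanAt t.1 (ψ₁ - algebraMap k F₁ e) ∧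
      VanAt t.2 (ψ₂ - algebraMap k F₂ e) := by
    intro t ht
    obtain ⟨e', he1, he2⟩ := hglue t ht
    obtain ⟨e, rfl⟩ := hk e'
    refine ⟨e, ?_, ?_⟩
    · apply vanAt_of_pow (n := p)
      rw [sub_pow_char, ← map_pow, ← hψ₁]
      exact he1
    · apply vanAt_of_pow (n := p)
      rw [sub_pow_char, ← map_pow, ← hψ₂]
      exact he2
  -- `ψ_i ∈ L(A_i)`
  have hψL₁ : ψ₁ ∈ L (ptsDiv A₁) := by
    rw [mem_L_iff_ord]
    intro v
    by_cases hψ0 : ψ₁ = 0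
    · exact Or.inl hψ0
    right
    by_cases hv : v ∈ A₁
    · rw [ptsDiv_apply, if_pos hv]
      have hsGU := (hK.hs₁ v hv).1.isGU
      have hmem : s₁ v ^ p * φ ∈ S.c₁.V := S.c₁.V.mul_mem _ _ (S.c₁.V.pow_mem hsGU.1 p) hφ₁
      have h1 : RegAt v (S.c₁.rd (s₁ v ^ p * φ)) :=
        S.c₁.regAt_rd hP hmem (hK.good₁ hv) (hpole₁ v hv)
      rw [S.c₁.rd_mul (S.c₁.V.pow_mem hsGU.1 p) hφ₁, S.c₁.rd_pow hsGU.1, hψ₁, ← mul_pow] at h1
      have h2 : RegAt v (S.c₁.rd (s₁ v) * ψ₁) := regAt_of_pow hp0 h1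
      have h3 := h2.ord_nonneg
      rw [Place.ord_mul v hsGU.2 hψ0, (hK.hs₁ v hv).1.ord_one] at h3
      omega
    · rw [ptsDiv_apply, if_neg hv, neg_zero]
      have hreg' : RegAt v (S.c₁.rd φ) := by
        by_cases hvg : v ∈ S.c₁.good
        · apply S.c₁.regAt_rd hP hφ₁ hvg
          intro P hPv
          exact hreg P (hK.off_of_good₁ hvg hv hPv).1 (hK.off_of_good₁ hvg hv hPv).2
        · have : v ∈ S.br₁ := by
            by_contra hvb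
            exact hvg (S.good₁_of_notMem hvb)
          obtain ⟨t, ht, rfl⟩ := Finset.mem_image.mp this
          obtain ⟨e, he, -⟩ := hglue t ht
          exact RegAt.of_vanAt_sub he
      rw [hψ₁] at hreg'
      exact (regAt_of_pow hp0 hreg').ord_nonneg
  have hψL₂ : ψ₂ ∈ L (ptsDiv A₂) := by
    rw [mem_L_iff_ord]
    intro v
    by_cases hψ0 : ψ₂ = 0
    · exact Or.inl hψ0
    right
    by_cases hv : v ∈ A₂
    · rw [ptsDiv_apply, if_pos hv]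
      have hsGU := (hK.hs₂ v hv).1.isGU
      have hmem : s₂ v ^ p * φ ∈ S.c₂.V := S.c₂.V.mul_mem _ _ (S.c₂.V.pow_mem hsGU.1 p) hφ₂
      have h1 : RegAt v (S.c₂.rd (s₂ v ^ p * φ)) :=
        S.c₂.regAt_rd hP hmem (hK.good₂ hv) (hpole₂ v hv)
      rw [S.c₂.rd_mul (S.c₂.V.pow_mem hsGU.1 p) hφ₂, S.c₂.rd_pow hsGU.1, hψ₂, ← mul_pow] at h1
      have h2 : RegAt v (S.c₂.rd (s₂ v) * ψ₂) := regAt_of_pow hp0 h1
      have h3 := h2.ord_nonneg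
      rw [Place.ord_mul v hsGU.2 hψ0, (hK.hs₂ v hv).1.ord_one] at h3
      omega
    · rw [ptsDiv_apply, if_neg hv, neg_zero]
      have hreg' : RegAt v (S.c₂.rd φ) := by
        by_cases hvg : v ∈ S.c₂.good
        · apply S.c₂.regAt_rd hP hφ₂ hvg
          intro P hPv
          exact hreg P (hK.off_of_good₂ hvg hv hPv).1 (hK.off_of_good₂ hvg hv hPv).2
        · have : v ∈ S.br₂ := by
            by_contra hvb
            exact hvg (S.good₂_of_notMem hvb)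
          obtain ⟨t, ht, rfl⟩ := Finset.mem_image.mp this
          obtain ⟨e, -, he⟩ := hglue t ht
          exact RegAt.of_vanAt_sub he
      rw [hψ₂] at hreg'
      exact (regAt_of_pow hp0 hreg').ord_nonneg
  -- `ψ` is a constant
  obtain ⟨a, ha₁, ha₂⟩ := hNS _ hψL₁ _ hψL₂ hglueψ
  have he₁ : S.c₁.rd φ = algebraMap k F₁ (a ^ p) := by rw [hψ₁, ha₁, map_pow]
  have he₂ : S.c₂.rd φ = algebraMap k F₂ (a ^ p) := by rw [hψ₂, ha₂, map_pow]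
  have h0 : a ^ p = 0 := hK.const_eq_zero hP hφ₁ hreg hQinfg hQinfA hPinf hφinf he₁
  rw [he₁, he₂, h0, map_zero, map_zero]
  exact ⟨rfl, rfl⟩

/-- **NS-STEP, general threshold.**  `f` in the position of the nodal key lemma with exponent
`p`.  If for every scaling `f = 1 + c₀ φ` of depth smaller than the depth of `ϖ` the two
reductions of `φ` are `p`-th powers, then `(f - 1) / ϖ ∈ V₁ ∩ V₂`. -/
theorem nsStep_gen (S : SSD K F k F₁ F₂) (H : FFHyp K F)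
    (p : ℕ) (hp : p.Prime) [CharP k p] (hk : ∀ e : k, ∃ e' : k, e' ^ p = e)
    (A₁ : Finset (Place k F₁)) (A₂ : Finset (Place k F₂)) (hNS : S.IsNS A₁ A₂)
    (s₁ : Place k F₁ → F) (s₂ : Place k F₂ → F) (hK : S.KeyHyp A₁ A₂ s₁ s₂)
    (f : F) (hf₁ : f ∈ S.c₁.V) (hf₂ : f ∈ S.c₂.V) (hrd₁ : S.c₁.rd f = 1) (hrd₂ : S.c₂.rd f = 1)
    (Pinf : Place K F) (Qinf : Place k F₁) (hQinfg : Qinf ∈ S.c₁.good) (hQinfA : Qinf ∉ A₁)
    (hPinf : S.c₁.r Pinf = some Qinf) (hfinf : VanAt Pinf (f - 1))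
    (a₁ : Place k F₁ → K) (a₂ : Place k F₂ → K)
    (hord0 : ∀ P, (∀ Q ∈ A₁, S.c₁.r P ≠ some Q) → (∀ Q ∈ A₂, S.c₂.r P ≠ some Q) →
      0 ≤ P.ord f)
    (hord₁ : ∀ Q ∈ A₁, ∀ P, S.c₁.r P = some Q →
      P.ord f = p * (P.ord (s₁ Q - algebraMap K F (a₁ Q)) - P.ord (s₁ Q)))
    (hord₂ : ∀ Q ∈ A₂, ∀ P, S.c₂.r P = some Q →
      P.ord f = p * (P.ord (s₂ Q - algebraMap K F (a₂ Q)) - P.ord (s₂ Q)))
    (ϖ : K)
    (hPW₁ : ∀ (c₀ : K) (φ : F), c₀ ≠ 0 → S.IsCM c₀ → S.IsCM (ϖ / c₀) → φ ∈ S.c₁.V →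
      φ ∈ S.c₂.V → f = 1 + algebraMap K F c₀ * φ → ∃ ψ : F₁, S.c₁.rd φ = ψ ^ p)
    (hPW₂ : ∀ (c₀ : K) (φ : F), c₀ ≠ 0 → S.IsCM c₀ → S.IsCM (ϖ / c₀) → φ ∈ S.c₁.V →
      φ ∈ S.c₂.V → f = 1 + algebraMap K F c₀ * φ → ∃ ψ : F₂, S.c₂.rd φ = ψ ^ p) :
    (f - 1) / algebraMap K F ϖ ∈ S.c₁.V ∧ (f - 1) / algebraMap K F ϖ ∈ S.c₂.V := by
  have hP := H.principal
  by_cases hf1 : f = 1
  · rw [hf1, sub_self, zero_div]
    exact ⟨S.c₁.V.zero_mem, S.c₂.V.zero_mem⟩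
  have hfne : f ≠ 0 := by
    rintro rfl
    rw [S.c₁.rd_zero] at hrd₁
    exact zero_ne_one hrd₁
  -- the scale
  have hImem : ∀ z ∈ ({f - 1} : Finset F),
      (z ∈ S.c₁.V ∧ S.c₁.rd z = 0) ∧ (z ∈ S.c₂.V ∧ S.c₂.rd z = 0) := by
    intro z hz
    rw [Finset.mem_singleton] at hz
    subst hz
    exact ⟨⟨S.c₁.V.sub_mem hf₁ S.c₁.V.one_mem, by
      rw [S.c₁.rd_sub hf₁ S.c₁.V.one_mem, hrd₁, S.c₁.rd_one, sub_self]⟩,
      ⟨S.c₂.V.sub_mem hf₂ S.c₂.V.one_mem, by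
      rw [S.c₂.rd_sub hf₂ S.c₂.V.one_mem, hrd₂, S.c₂.rd_one, sub_self]⟩⟩
  obtain ⟨c, hc, ⟨hdV₁, hdrd₁⟩, ⟨hdV₂, hdrd₂⟩, hcI, z₀, hz₀, hz₀GU⟩ :=
    S.exists_scale_max₂ {f - 1} hImem ⟨f - 1, Finset.mem_singleton_self _, sub_ne_zero.2 hf1⟩
  rw [Finset.mem_singleton] at hz₀
  subst hz₀
  set φ : F := algebraMap K F c * (f - 1) with hφ
  have hφ₁ : φ ∈ S.c₁.V := (hcI _ (Finset.mem_singleton_self _)).1
  have hφ₂ : φ ∈ S.c₂.V := (hcI _ (Finset.mem_singleton_self _)).2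
  have hcF : algebraMap K F c ≠ 0 := (map_ne_zero_iff _ (algebraMap K F).injective).mpr hc
  have hfφ : f = 1 + algebraMap K F c⁻¹ * φ := by
    rw [hφ, map_inv₀, ← mul_assoc, inv_mul_cancel₀ hcF, one_mul]
    ring
  by_cases hdep : S.IsCM (ϖ / c⁻¹)
  · exfalso
    obtain ⟨ψ₁, hψ₁⟩ := hPW₁ c⁻¹ φ (inv_ne_zero hc) ⟨hdV₁, hdrd₁⟩ hdep hφ₁ hφ₂ hfφ
    obtain ⟨ψ₂, hψ₂⟩ := hPW₂ c⁻¹ φ (inv_ne_zero hc) ⟨hdV₁, hdrd₁⟩ hdep hφ₁ hφ₂ hfφ
    have hreg : ∀ P, (∀ Q ∈ A₁, S.c₁.r P ≠ some Q) → (∀ Q ∈ A₂, S.c₂.r P ≠ some Q) →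
        0 ≤ P.ord φ := by
      intro P h1 h2
      have hf : RegAt P f := regAt_of_ord_nonneg (hord0 P h1 h2)
      exact ((regAt_algebraMap P c).mul (hf.sub (regAt_one P))).ord_nonneg
    have hpole₁ : ∀ Q ∈ A₁, ∀ P, S.c₁.r P = some Q → 0 ≤ P.ord (s₁ Q ^ p * φ) := by
      intro Q hQ P hPQ
      have hsGU := (hK.hs₁ Q hQ).1.isGU
      have hsreg : RegAt P (s₁ Q) := regAt_of_ord_nonneg ((hK.hs₁ Q hQ).1.reg P hPQ)
      have hsa : RegAt P (s₁ Q - algebraMap K F (a₁ Q)) := hsreg.sub (regAt_algebraMap P _)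
      have h1 : 0 ≤ P.ord (s₁ Q ^ p * f) := by
        rw [Place.ord_mul P (pow_ne_zero p hsGU.ne_zero) hfne, Fermat.Agent.RED.H17.ord_pow,
          hord₁ Q hQ P hPQ]
        have := hsa.ord_nonneg
        have h2 : (0 : ℤ) ≤ p := by positivity
        nlinarith
      have h3 : s₁ Q ^ p * φ = algebraMap K F c * (s₁ Q ^ p * f - s₁ Q ^ p) := by
        rw [hφ]; ring
      rw [h3]
      exact ((regAt_algebraMap P c).mul
        ((regAt_of_ord_nonneg h1).sub (hsreg.pow p))).ord_nonneg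
    have hpole₂ : ∀ Q ∈ A₂, ∀ P, S.c₂.r P = some Q → 0 ≤ P.ord (s₂ Q ^ p * φ) := by
      intro Q hQ P hPQ
      have hsGU := (hK.hs₂ Q hQ).1.isGU
      have hsreg : RegAt P (s₂ Q) := regAt_of_ord_nonneg ((hK.hs₂ Q hQ).1.reg P hPQ)
      have hsa : RegAt P (s₂ Q - algebraMap K F (a₂ Q)) := hsreg.sub (regAt_algebraMap P _)
      have h1 : 0 ≤ P.ord (s₂ Q ^ p * f) := by
        rw [Place.ord_mul P (pow_ne_zero p hsGU.ne_zero) hfne, Fermat.Agent.RED.H17.ord_pow,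
          hord₂ Q hQ P hPQ]
        have := hsa.ord_nonneg
        have h2 : (0 : ℤ) ≤ p := by positivity
        nlinarith
      have h3 : s₂ Q ^ p * φ = algebraMap K F c * (s₂ Q ^ p * f - s₂ Q ^ p) := by
        rw [hφ]; ring
      rw [h3]
      exact ((regAt_algebraMap P c).mul
        ((regAt_of_ord_nonneg h1).sub (hsreg.pow p))).ord_nonneg
    have hφinf : VanAt Pinf φ := (regAt_algebraMap Pinf c).mul_vanAt hfinf
    obtain ⟨h1, h2⟩ := leading_pth S H p hp hk A₁ A₂ hNS s₁ s₂ hK φ hφ₁ hφ₂ ψ₁ ψ₂ hψ₁ hψ₂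
      Pinf Qinf hQinfg hQinfA hPinf hφinf hreg hpole₁ hpole₂
    rcases hz₀GU with h | h
    · exact h.2 h1
    · exact h.2 h2
  · -- the depth of `f - 1` is at least the depth of `ϖ`
    have hinv : algebraMap K F (ϖ / c⁻¹)⁻¹ ∈ S.c₁.V := by
      rcases S.c₁.const_mem_or_inv_mem (ϖ / c⁻¹) with h | h
      · have hGU : S.c₁.IsGU (algebraMap K F (ϖ / c⁻¹)) := ⟨h, fun h0 => hdep ⟨h, h0⟩⟩
        have := hGU.inv_mem
        rwa [← map_inv₀] at this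
      · exact h
    have hinv₂ : algebraMap K F (ϖ / c⁻¹)⁻¹ ∈ S.c₂.V := (S.const_mem _).1 hinv
    by_cases hϖ : ϖ = 0
    · rw [hϖ, map_zero, div_zero]
      exact ⟨S.c₁.V.zero_mem, S.c₂.V.zero_mem⟩
    have hϖF : algebraMap K F ϖ ≠ 0 := (map_ne_zero_iff _ (algebraMap K F).injective).mpr hϖ
    have h3 : (f - 1) / algebraMap K F ϖ = algebraMap K F (ϖ / c⁻¹)⁻¹ * φ := by
      rw [hφ, map_inv₀, map_div₀, map_inv₀]
      field_simp
    rw [h3]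
    exact ⟨S.c₁.V.mul_mem _ _ hinv hφ₁, S.c₂.V.mul_mem _ _ hinv₂ hφ₂⟩

/-- **NS-STEP** (leaf (C) of the `p`-new case of S33).  `f` in the position of the nodal key
lemma with exponent `p = char k`: `f ≡ 1` for both valuations, `f (P∞) = 1`, `f` regular outside
the discs, `div f = p (X_Q - Y_Q)` on the disc of `Q`.  `π ∈ K` with `π ^ (p - 1) / p` a unit.
If for every scaling `f = 1 + c₀ φ` of depth `< p / (p - 1)` (i.e. `p ^ p / c₀ ^ (p - 1)` in the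
maximal ideal) the reductions of `φ` are `p`-th powers, then `(f - 1) / (p π) ∈ V₁ ∩ V₂`. -/
theorem nsStep (S : SSD K F k F₁ F₂) (H : FFHyp K F)
    (p : ℕ) (hp : p.Prime) [CharP k p] (hk : ∀ e : k, ∃ e' : k, e' ^ p = e)
    (A₁ : Finset (Place k F₁)) (A₂ : Finset (Place k F₂)) (hNS : S.IsNS A₁ A₂)
    (s₁ : Place k F₁ → F) (s₂ : Place k F₂ → F) (hK : S.KeyHyp A₁ A₂ s₁ s₂)
    (f : F) (hf₁ : f ∈ S.c₁.V) (hf₂ : f ∈ S.c₂.V) (hrd₁ : S.c₁.rd f = 1) (hrd₂ : S.c₂.rd f = 1)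
    (Pinf : Place K F) (Qinf : Place k F₁) (hQinfg : Qinf ∈ S.c₁.good) (hQinfA : Qinf ∉ A₁)
    (hPinf : S.c₁.r Pinf = some Qinf) (hfinf : VanAt Pinf (f - 1))
    (a₁ : Place k F₁ → K) (a₂ : Place k F₂ → K)
    (hord0 : ∀ P, (∀ Q ∈ A₁, S.c₁.r P ≠ some Q) → (∀ Q ∈ A₂, S.c₂.r P ≠ some Q) →
      0 ≤ P.ord f)
    (hord₁ : ∀ Q ∈ A₁, ∀ P, S.c₁.r P = some Q →
      P.ord f = p * (P.ord (s₁ Q - algebraMap K F (a₁ Q)) - P.ord (s₁ Q)))
    (hord₂ : ∀ Q ∈ A₂, ∀ P, S.c₂.r P = some Q →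
      P.ord f = p * (P.ord (s₂ Q - algebraMap K F (a₂ Q)) - P.ord (s₂ Q)))
    (π : K) (hπ : S.c₁.IsGU (algebraMap K F (π ^ (p - 1) / (p : K))))
    (hPW₁ : ∀ (c₀ : K) (φ : F), c₀ ≠ 0 → S.IsCM c₀ → S.IsCM ((p : K) ^ p / c₀ ^ (p - 1)) →
      φ ∈ S.c₁.V → φ ∈ S.c₂.V → f = 1 + algebraMap K F c₀ * φ → ∃ ψ : F₁, S.c₁.rd φ = ψ ^ p)
    (hPW₂ : ∀ (c₀ : K) (φ : F), c₀ ≠ 0 → S.IsCM c₀ → S.IsCM ((p : K) ^ p / c₀ ^ (p - 1)) →
      φ ∈ S.c₁.V → φ ∈ S.c₂.V → f = 1 + algebraMap K F c₀ * φ → ∃ ψ : F₂, S.c₂.rd φ = ψ ^ p) :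
    (f - 1) / algebraMap K F ((p : K) * π) ∈ S.c₁.V ∧
      (f - 1) / algebraMap K F ((p : K) * π) ∈ S.c₂.V := by
  have hp1 : p - 1 ≠ 0 := by have := hp.two_le; omega
  have hu0 : π ^ (p - 1) / (p : K) ≠ 0 := by
    intro h0
    have := hπ.ne_zero
    rw [h0, map_zero] at this
    exact this rfl
  have hpK : (p : K) ≠ 0 := fun h => hu0 (by rw [h, div_zero])
  have hπ0 : π ≠ 0 := fun h => hu0 (by rw [h, zero_pow hp1, zero_div])
  have hconv : ∀ c₀ : K, c₀ ≠ 0 → S.IsCM ((p : K) * π / c₀) →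
      S.IsCM ((p : K) ^ p / c₀ ^ (p - 1)) := by
    intro c₀ hc₀ hx
    have h1 : S.c₁.InM (algebraMap K F ((p : K) * π / c₀) ^ (p - 1)) :=
      PRed.InM.pow (S := S.c₁) hx hp1
    have h2 : (algebraMap K F (π ^ (p - 1) / (p : K)))⁻¹ ∈ S.c₁.V := hπ.inv_mem
    have h3 := PRed.InM.mul_right (S := S.c₁) h1 h2
    have h4 : algebraMap K F ((p : K) * π / c₀) ^ (p - 1) *
        (algebraMap K F (π ^ (p - 1) / (p : K)))⁻¹ =
        algebraMap K F ((p : K) ^ p / c₀ ^ (p - 1)) := by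
      rw [← map_pow, ← map_inv₀, ← map_mul]
      congr 1
      have hpp : (p : K) ^ p = (p : K) ^ (p - 1) * p := by
        rw [← pow_succ, Nat.sub_add_cancel hp.one_le]
      have hπp : π ^ (p - 1) ≠ 0 := pow_ne_zero _ hπ0
      have hcp : c₀ ^ (p - 1) ≠ 0 := pow_ne_zero _ hc₀
      rw [hpp, div_pow, mul_pow]
      field_simp
    rw [h4] at h3
    exact h3
  exact nsStep_gen S H p hp hk A₁ A₂ hNS s₁ s₂ hK f hf₁ hf₂ hrd₁ hrd₂ Pinf Qinf hQinfg hQinfA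
    hPinf hfinf a₁ a₂ hord0 hord₁ hord₂ ((p : K) * π)
    (fun c₀ φ h1 h2 h3 => hPW₁ c₀ φ h1 h2 (hconv c₀ h1 h3))
    (fun c₀ φ h1 h2 h3 => hPW₂ c₀ φ h1 h2 (hconv c₀ h1 h3))

end Main

end Fermat.Agent.BADP.H18
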