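import Fermat.Agent.BAD.H42_NormRed2
import Mathlib.RingTheory.Trace.Basic
import Mathlib.LinearAlgebra.Matrix.Charpoly.Coeff
import Mathlib.FieldTheory.PurelyInseparable.Basic

/-!
# S33 NEW, package TRACE-RED (helper18)

Plan: `NOTES/plan/R_S33_NEW.md` + helper86's one-step simplification.

Two-valuation setting of `BAD/H42_NormRed2.lean` (no discreteness): `E ⊆ L` finite, `V_E` a
valuation ring of `E` with residue map `red_E : V_E → Et`, `V₁ ≠ V₂` valuation rings of `L` over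
`V_E` with residue maps `red_i : V_i → L_i`, `[L : E] = [L₁ : Et] + [L₂ : Et]`.

* `exists_matrix_two` : there is an `E`-basis of `L` such that for every `φ ∈ V₁ ∩ V₂` the matrix
  of the multiplication by `φ` has entries in `V_E` and reduces to the (block diagonal) matrix of
  the multiplication by `(red₁ φ, red₂ φ)` on `L₁ × L₂`;
* `charpoly_red_two` : the characteristic polynomial of `φ` has coefficients in `V_E` and reduces
  to the product of the characteristic polynomials of `red₁ φ` and `red₂ φ`;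
* `traceRed_two` : **TRACE-RED**: for `c ∈ V_E` with `red_E c = 0`:
  `N_{L/E} (1 + c φ) = 1 + c θ`, `θ ∈ V_E`, `red_E θ = Tr (red₁ φ) + Tr (red₂ φ)`;
* `traceRed_insep` : the modular case: `[L₁ : Et] = 1`, `Tr_{L₂/Et} = 0`: `red_E θ = red₁ φ`;
* `trace_eq_zero_of_pow_mem` : `Tr_{L₂/Et} = 0` if `L₂ ≠ Et` and `L₂ ^ p ⊆ Et`.
-/

set_option autoImplicit false

noncomputable section

namespace Fermat.Agent.BADP.H18

open Fermat.Agent.BAD.H42

section Main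

variable {E L Et L₁ L₂ : Type} [Field E] [Field L] [Field Et] [Field L₁] [Field L₂]
  [Algebra E L] [Algebra Et L₁] [Algebra Et L₂]

/-- **The integral basis**: an `E`-basis of `L` in which the multiplication by any
`φ ∈ V₁ ∩ V₂` has a matrix with entries in `V_E`, whose reduction is the matrix of the
multiplication by `(red₁ φ, red₂ φ)` on `L₁ × L₂`. -/
theorem exists_matrix_two [Module.Finite E L] [Module.Finite Et L₁] [Module.Finite Et L₂]
    (VE : ValuationSubring E) (V₁ V₂ : ValuationSubring L)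
    (redE : ↥VE →+* Et) (red₁ : ↥V₁ →+* L₁) (red₂ : ↥V₂ →+* L₂)
    (hV₁ : ∀ a : E, a ∈ VE → algebraMap E L a ∈ V₁)
    (hV₂ : ∀ a : E, a ∈ VE → algebraMap E L a ∈ V₂)
    (hkerE : ∀ a : ↥VE, ¬ IsUnit a → redE a = 0)
    (hsurj₁ : Function.Surjective red₁) (hsurj₂ : Function.Surjective red₂)
    (hker₁ : ∀ a : ↥V₁, ¬ IsUnit a → red₁ a = 0) (hker₂ : ∀ a : ↥V₂, ¬ IsUnit a → red₂ a = 0)
    (hcompat₁ : ∀ (a : ↥VE) (ha : algebraMap E L (a : E) ∈ V₁),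
      red₁ ⟨algebraMap E L (a : E), ha⟩ = algebraMap Et L₁ (redE a))
    (hcompat₂ : ∀ (a : ↥VE) (ha : algebraMap E L (a : E) ∈ V₂),
      red₂ ⟨algebraMap E L (a : E), ha⟩ = algebraMap Et L₂ (redE a))
    (h₁₂ : ¬ V₁ ≤ V₂) (h₂₁ : ¬ V₂ ≤ V₁)
    (hdeg : Module.finrank E L = Module.finrank Et L₁ + Module.finrank Et L₂) :
    ∃ bE : Module.Basis (Fin (Module.finrank Et L₁) ⊕ Fin (Module.finrank Et L₂)) E L,
      ∀ (φ : L) (h₁ : φ ∈ V₁) (h₂ : φ ∈ V₂),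
        ∃ M₀ : Matrix (Fin (Module.finrank Et L₁) ⊕ Fin (Module.finrank Et L₂))
            (Fin (Module.finrank Et L₁) ⊕ Fin (Module.finrank Et L₂)) ↥VE,
          Algebra.leftMulMatrix bE φ = VE.subtype.mapMatrix M₀ ∧
          redE.mapMatrix M₀ =
            Algebra.leftMulMatrix ((Module.finBasis Et L₁).prod (Module.finBasis Et L₂))
              (red₁ ⟨φ, h₁⟩, red₂ ⟨φ, h₂⟩) := by
  classical
  let β₁ := Module.finBasis Et L₁
  let β₂ := Module.finBasis Et L₂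
  let R : Subring L := V₁.toSubring ⊓ V₂.toSubring
  have hRmk : ∀ g : L, g ∈ V₁ → g ∈ V₂ → g ∈ R := fun g h1 h2 => Subring.mem_inf.2 ⟨h1, h2⟩
  have hR1 : ∀ g : L, g ∈ R → g ∈ V₁ := fun g hg => (Subring.mem_inf.1 hg).1
  have hR2 : ∀ g : L, g ∈ R → g ∈ V₂ := fun g hg => (Subring.mem_inf.1 hg).2
  have hVR : ∀ a : E, a ∈ VE → algebraMap E L a ∈ R := fun a ha =>
    hRmk _ (hV₁ a ha) (hV₂ a ha)
  let ρ₁ : ↥R →+* L₁ := red₁.comp (Subring.inclusion (inf_le_left : R ≤ V₁.toSubring))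
  let ρ₂ : ↥R →+* L₂ := red₂.comp (Subring.inclusion (inf_le_right : R ≤ V₂.toSubring))
  let ρ : ↥R →+* L₁ × L₂ := ρ₁.prod ρ₂
  have hρ₁ : ∀ (g : L) (hg : g ∈ R), ρ₁ ⟨g, hg⟩ = red₁ ⟨g, hR1 g hg⟩ := fun g hg => rfl
  have hρ₂ : ∀ (g : L) (hg : g ∈ R), ρ₂ ⟨g, hg⟩ = red₂ ⟨g, hR2 g hg⟩ := fun g hg => rfl
  have hcompat : ∀ a : ↥VE, ρ (incR hVR a) = algebraMap Et (L₁ × L₂) (redE a) := by
    intro a
    refine Prod.ext ?_ ?_
    · exact hcompat₁ a _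
    · exact hcompat₂ a _
  -- the lifts of the two bases
  have hB₁ : ∀ α, ∃ b : ↥R, ρ₁ b = β₁ α ∧ ρ₂ b = 0 := by
    intro α
    obtain ⟨y, hy⟩ := hsurj₁ (β₁ α)
    obtain ⟨b, hb₂, hb₁⟩ := exists_lift_plain V₂ V₁ h₂₁ h₁₂ (y : L) y.2
    have hbV₁ : b ∈ V₁ := mem_of_val_sub_lt V₁ y.2 hb₁
    have hbV₂ : b ∈ V₂ := (ValuationSubring.valuation_le_one_iff V₂ _).1 hb₂.le
    refine ⟨⟨b, hRmk b hbV₁ hbV₂⟩, ?_, ?_⟩
    · rw [hρ₁, ← hy]
      exact red_eq_of_val_sub_lt hker₁ ⟨b, hbV₁⟩ y hb₁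
    · rw [hρ₂]
      exact red_eq_zero_of_val_lt hker₂ ⟨b, hbV₂⟩ hb₂
  have hB₂ : ∀ β, ∃ b : ↥R, ρ₂ b = β₂ β ∧ ρ₁ b = 0 := by
    intro β
    obtain ⟨y, hy⟩ := hsurj₂ (β₂ β)
    obtain ⟨b, hb₁, hb₂⟩ := exists_lift_plain V₁ V₂ h₁₂ h₂₁ (y : L) y.2
    have hbV₂ : b ∈ V₂ := mem_of_val_sub_lt V₂ y.2 hb₂
    have hbV₁ : b ∈ V₁ := (ValuationSubring.valuation_le_one_iff V₁ _).1 hb₁.le
    refine ⟨⟨b, hRmk b hbV₁ hbV₂⟩, ?_, ?_⟩
    · rw [hρ₂, ← hy]
      exact red_eq_of_val_sub_lt hker₂ ⟨b, hbV₂⟩ y hb₂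
    · rw [hρ₁]
      exact red_eq_zero_of_val_lt hker₁ ⟨b, hbV₁⟩ hb₁
  choose B₁ hB₁a hB₁b using hB₁
  choose B₂ hB₂a hB₂b using hB₂
  let B : Fin (Module.finrank Et L₁) ⊕ Fin (Module.finrank Et L₂) → ↥R := Sum.elim B₁ B₂
  have hρB : ∀ i, ρ (B i) = (β₁.prod β₂) i := by
    rintro (α | β)
    · refine Prod.ext ?_ ?_
      · simpa [B, ρ] using hB₁a α
      · simpa [B, ρ] using hB₁b α
    · refine Prod.ext ?_ ?_
      · simpa [B, ρ] using hB₂b β
      · simpa [B, ρ] using hB₂a β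
  have hli : LinearIndependent Et (fun i => ρ (B i)) := by
    have : (fun i => ρ (B i)) = (β₁.prod β₂) := funext hρB
    rw [this]
    exact (β₁.prod β₂).linearIndependent
  have hliE := lat_li hVR hcompat B hli
  have hcard : Fintype.card (Fin (Module.finrank Et L₁) ⊕ Fin (Module.finrank Et L₂)) =
      Module.finrank E L := by
    rw [Fintype.card_sum, Fintype.card_fin, Fintype.card_fin, hdeg]
  have hne : Nonempty (Fin (Module.finrank Et L₁) ⊕ Fin (Module.finrank Et L₂)) := by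
    rw [← Fintype.card_pos_iff, hcard]
    exact Module.finrank_pos
  let bE : Module.Basis (Fin (Module.finrank Et L₁) ⊕ Fin (Module.finrank Et L₂)) E L :=
    basisOfLinearIndependentOfCardEqFinrank hliE hcard
  have hbE : ∀ i, bE i = ((B i : ↥R) : L) := fun i => by simp [bE]
  have hcoord : ∀ g : L, g ∈ R → ∀ i, bE.repr g i ∈ VE := by
    intro g hg i
    refine lat_coord hVR hkerE hcompat B hli (fun i => bE.repr g i) g hg ?_ i
    have := bE.sum_repr g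
    simpa only [hbE] using this
  refine ⟨bE, fun φ h₁ h₂ => ?_⟩
  have hφR : φ ∈ R := hRmk φ h₁ h₂
  have hG : ∀ j, φ * ((B j : ↥R) : L) ∈ R := fun j => R.mul_mem hφR (B j).2
  let G : Fin (Module.finrank Et L₁) ⊕ Fin (Module.finrank Et L₂) → ↥R := fun j => ⟨_, hG j⟩
  have hρG : ∀ j, ρ (G j) = (red₁ ⟨φ, h₁⟩, red₂ ⟨φ, h₂⟩) * (β₁.prod β₂) j := by
    intro j
    have h0 : G j = (⟨φ, hφR⟩ : ↥R) * B j := rfl
    rw [h0, map_mul, hρB]
    rfl
  let M₀ : Matrix (Fin (Module.finrank Et L₁) ⊕ Fin (Module.finrank Et L₂))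
      (Fin (Module.finrank Et L₁) ⊕ Fin (Module.finrank Et L₂)) ↥VE :=
    Matrix.of fun i j => ⟨bE.repr ((G j : ↥R) : L) i, hcoord _ (G j).2 i⟩
  have hM : Algebra.leftMulMatrix bE φ = VE.subtype.mapMatrix M₀ := by
    refine Matrix.ext fun i j => ?_
    rw [Algebra.leftMulMatrix_eq_repr_mul, hbE]
    rfl
  have hGexp : ∀ j, G j = ∑ i, incR hVR (M₀ i j) * B i := by
    intro j
    apply Subtype.ext
    simp only [AddSubmonoidClass.coe_finsetSum, MulMemClass.coe_mul, coe_incR]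
    have := (bE.sum_repr ((G j : ↥R) : L)).symm
    simp only [hbE, Algebra.smul_def] at this
    exact this
  have hred : redE.mapMatrix M₀ =
      Algebra.leftMulMatrix (β₁.prod β₂) (red₁ ⟨φ, h₁⟩, red₂ ⟨φ, h₂⟩) := by
    refine Matrix.ext fun i j => ?_
    rw [Algebra.leftMulMatrix_eq_repr_mul, ← hρG, hGexp, rho_sum hVR hcompat]
    simp only [hρB]
    rw [Module.Basis.repr_sum_self]
    rfl
  exact ⟨M₀, hM, hred⟩

/-- The trace of the multiplication by `(x₁, x₂)` on a product algebra. -/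
theorem trace_leftMulMatrix_prod_basis {ι₁ ι₂ : Type} [Fintype ι₁] [Fintype ι₂] [DecidableEq ι₁]
    [DecidableEq ι₂] (β₁ : Module.Basis ι₁ Et L₁) (β₂ : Module.Basis ι₂ Et L₂) (x : L₁ × L₂) :
    (Algebra.leftMulMatrix (β₁.prod β₂) x).trace =
      Algebra.trace Et L₁ x.1 + Algebra.trace Et L₂ x.2 := by
  rw [leftMulMatrix_prod_basis, Algebra.trace_eq_matrix_trace β₁,
    Algebra.trace_eq_matrix_trace β₂]
  simp [Matrix.trace, Fintype.sum_sum_type]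

/-- **TRACE-RED.**  `V₁ ≠ V₂` two valuation rings of `L` over the valuation ring `V_E` of `E`,
with residue fields `L₁`, `L₂` over `Et`, `[L : E] = [L₁ : Et] + [L₂ : Et]`.  For
`φ ∈ V₁ ∩ V₂` and `c ∈ V_E` with `red_E c = 0`:  `N_{L/E} (1 + c φ) = 1 + c θ` with `θ ∈ V_E`
and `red_E θ = Tr_{L₁/Et} (red₁ φ) + Tr_{L₂/Et} (red₂ φ)`. -/
theorem traceRed_two [Module.Finite E L] [Module.Finite Et L₁] [Module.Finite Et L₂]
    (VE : ValuationSubring E) (V₁ V₂ : ValuationSubring L)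
    (redE : ↥VE →+* Et) (red₁ : ↥V₁ →+* L₁) (red₂ : ↥V₂ →+* L₂)
    (hV₁ : ∀ a : E, a ∈ VE → algebraMap E L a ∈ V₁)
    (hV₂ : ∀ a : E, a ∈ VE → algebraMap E L a ∈ V₂)
    (hkerE : ∀ a : ↥VE, ¬ IsUnit a → redE a = 0)
    (hsurj₁ : Function.Surjective red₁) (hsurj₂ : Function.Surjective red₂)
    (hker₁ : ∀ a : ↥V₁, ¬ IsUnit a → red₁ a = 0) (hker₂ : ∀ a : ↥V₂, ¬ IsUnit a → red₂ a = 0)
    (hcompat₁ : ∀ (a : ↥VE) (ha : algebraMap E L (a : E) ∈ V₁),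
      red₁ ⟨algebraMap E L (a : E), ha⟩ = algebraMap Et L₁ (redE a))
    (hcompat₂ : ∀ (a : ↥VE) (ha : algebraMap E L (a : E) ∈ V₂),
      red₂ ⟨algebraMap E L (a : E), ha⟩ = algebraMap Et L₂ (redE a))
    (h₁₂ : ¬ V₁ ≤ V₂) (h₂₁ : ¬ V₂ ≤ V₁)
    (hdeg : Module.finrank E L = Module.finrank Et L₁ + Module.finrank Et L₂)
    (φ : L) (h₁ : φ ∈ V₁) (h₂ : φ ∈ V₂) (c : ↥VE) (hc : redE c = 0) :
    ∃ θ : ↥VE, Algebra.norm E (1 + algebraMap E L (c : E) * φ) = 1 + (c : E) * (θ : E) ∧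
      redE θ = Algebra.trace Et L₁ (red₁ ⟨φ, h₁⟩) + Algebra.trace Et L₂ (red₂ ⟨φ, h₂⟩) := by
  classical
  obtain ⟨bE, hbE⟩ := exists_matrix_two VE V₁ V₂ redE red₁ red₂ hV₁ hV₂ hkerE hsurj₁ hsurj₂
    hker₁ hker₂ hcompat₁ hcompat₂ h₁₂ h₂₁ hdeg
  obtain ⟨M₀, hM, hred⟩ := hbE φ h₁ h₂
  have hdet := Matrix.det_one_add_smul c M₀
  set ε : ↥VE :=
    (Polynomial.eval c (Matrix.det (1 + (Polynomial.X : Polynomial ↥VE) •
      M₀.map Polynomial.C)).divX.divX) with hε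
  refine ⟨M₀.trace + ε * c, ?_, ?_⟩
  · have h1 : Algebra.leftMulMatrix bE (1 + algebraMap E L (c : E) * φ) =
        VE.subtype.mapMatrix (1 + c • M₀) := by
      have h0 : (1 : L) + algebraMap E L (c : E) * φ = 1 + (c : E) • φ := by
        rw [Algebra.smul_def]
      rw [h0, map_add, map_one, map_smul, hM]
      refine Matrix.ext fun i j => ?_
      simp [Matrix.one_apply, apply_ite]
    rw [Algebra.norm_eq_matrix_det bE, h1, ← RingHom.map_det, hdet]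
    simp only [ValuationSubring.subtype_apply]
    push_cast
    ring
  · rw [map_add, map_mul, hc, mul_zero, add_zero]
    have h2 : redE M₀.trace = (redE.mapMatrix M₀).trace := by
      rw [Matrix.trace, map_sum]
      rfl
    rw [h2, hred, trace_leftMulMatrix_prod_basis]

/-- **TRACE-RED, the modular case**: `[L₁ : Et] = 1` and `Tr_{L₂/Et} = 0` (`L₂ / Et` purely
inseparable): `red_E θ = red₁ φ`. -/
theorem traceRed_insep [Module.Finite E L] [Module.Finite Et L₁] [Module.Finite Et L₂]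
    (VE : ValuationSubring E) (V₁ V₂ : ValuationSubring L)
    (redE : ↥VE →+* Et) (red₁ : ↥V₁ →+* L₁) (red₂ : ↥V₂ →+* L₂)
    (hV₁ : ∀ a : E, a ∈ VE → algebraMap E L a ∈ V₁)
    (hV₂ : ∀ a : E, a ∈ VE → algebraMap E L a ∈ V₂)
    (hkerE : ∀ a : ↥VE, ¬ IsUnit a → redE a = 0)
    (hsurj₁ : Function.Surjective red₁) (hsurj₂ : Function.Surjective red₂)
    (hker₁ : ∀ a : ↥V₁, ¬ IsUnit a → red₁ a = 0) (hker₂ : ∀ a : ↥V₂, ¬ IsUnit a → red₂ a = 0)
    (hcompat₁ : ∀ (a : ↥VE) (ha : algebraMap E L (a : E) ∈ V₁),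
      red₁ ⟨algebraMap E L (a : E), ha⟩ = algebraMap Et L₁ (redE a))
    (hcompat₂ : ∀ (a : ↥VE) (ha : algebraMap E L (a : E) ∈ V₂),
      red₂ ⟨algebraMap E L (a : E), ha⟩ = algebraMap Et L₂ (redE a))
    (h₁₂ : ¬ V₁ ≤ V₂) (h₂₁ : ¬ V₂ ≤ V₁)
    (hdeg : Module.finrank E L = Module.finrank Et L₁ + Module.finrank Et L₂)
    (hf₁ : Module.finrank Et L₁ = 1) (htr : ∀ x : L₂, Algebra.trace Et L₂ x = 0)
    (φ : L) (h₁ : φ ∈ V₁) (h₂ : φ ∈ V₂) (c : ↥VE) (hc : redE c = 0) :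
    ∃ θ : ↥VE, Algebra.norm E (1 + algebraMap E L (c : E) * φ) = 1 + (c : E) * (θ : E) ∧
      algebraMap Et L₁ (redE θ) = red₁ ⟨φ, h₁⟩ := by
  obtain ⟨θ, hθ, hθ'⟩ := traceRed_two VE V₁ V₂ redE red₁ red₂ hV₁ hV₂ hkerE hsurj₁ hsurj₂
    hker₁ hker₂ hcompat₁ hcompat₂ h₁₂ h₂₁ hdeg φ h₁ h₂ c hc
  refine ⟨θ, hθ, ?_⟩
  rw [hθ', htr, add_zero]
  -- `L₁ = Et`
  have hsurj : Function.Surjective (algebraMap Et L₁) := by
    have h1 : (⊥ : Subalgebra Et L₁) = ⊤ := Subalgebra.bot_eq_top_of_finrank_eq_one hf₁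
    intro x
    have hx : x ∈ (⊥ : Subalgebra Et L₁) := h1 ▸ Algebra.mem_top
    exact Algebra.mem_bot.1 hx
  obtain ⟨a, ha⟩ := hsurj (red₁ ⟨φ, h₁⟩)
  rw [← ha, Algebra.trace_algebraMap, hf₁, one_smul]

end Main

section Insep

/-- The trace of a non-trivial finite extension `F / K` of characteristic `p` with `F ^ p ⊆ K`
vanishes. -/
theorem trace_eq_zero_of_pow_mem (K F : Type) [Field K] [Field F] [Algebra K F]
    [FiniteDimensional K F] (p : ℕ) [hp : Fact p.Prime] [CharP K p]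
    (hq : ∀ x : F, x ^ p ∈ (algebraMap K F).range) (hne : Module.finrank K F ≠ 1) (x : F) :
    Algebra.trace K F x = 0 := by
  have : ExpChar K p := ExpChar.prime hp.out
  have hpi : IsPurelyInseparable K F :=
    (isPurelyInseparable_iff_pow_mem K p).2 fun x => ⟨1, by rw [pow_one]; exact hq x⟩
  have hns : ¬ Algebra.IsSeparable K F := by
    intro hsep
    have hbij : Function.Bijective (algebraMap K F) :=
      IsPurelyInseparable.bijective_algebraMap_of_isSeparable K F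
    apply hne
    have h1 : (⊥ : Subalgebra K F) = ⊤ := by
      rw [eq_top_iff]
      intro y _
      obtain ⟨a, ha⟩ := hbij.2 y
      exact Algebra.mem_bot.2 ⟨a, ha⟩
    exact Subalgebra.bot_eq_top_iff_finrank_eq_one.1 h1
  rw [Algebra.trace_eq_zero_of_not_isSeparable hns, LinearMap.zero_apply]

end Insep

end Fermat.Agent.BADP.H18
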