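import Fermat.Agent.BADP.H51_CanonUniq

/-!
# S33 / S44, package CANON-p (helper51): existence of the canonical form, packaged

`stmt_CanonP : Stmt_CanonP`: abstract SSD, `char k = p`.  For `f` in TIss-position (`f ≡ 1` for
both valuations, `p ∣ div f`, no zero or pole on the fibres of the nodes) and `P∞` over a good
point `Q∞` of the first component there are a balanced non-special pair `(A₁, A₂)`
(`Q∞ ∉ A₁`), adapted coordinates `s_Q`, constants `a_Q` in the maximal ideal, points `X_Q` and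
`h ≡ 1` (for both valuations) such that `f h ^ p` satisfies all the hypotheses of the nodal key
lemma (`BAD.Stmt_KeyNodal`, `BAD.H28.keyNodal_lin`) except the one on the exponent / on the
linear regime.

`stmt_CanonAny : Stmt_CanonAny` : the same for every exponent `n ≠ 0`, with `h` a unit for both
valuations whose reductions are the same constant `ζ`, `ζ ^ n = 1`.

The pair `(A₁, A₂)` is the one of `BAD.H60.stmt_NodalNS`, the coordinates are those of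
`BAD.H28.stmt_Coords`.
-/

set_option autoImplicit false
set_option linter.style.haveILetI false
set_option maxHeartbeats 1000000

noncomputable section

open AlgebraicCurve

attribute [local instance] Classical.propDecidable

namespace Fermat.Agent.BADP.H51

open Fermat.Agent.RED.H17 Fermat.Agent.RED Fermat.Agent.BAD

local notation "L" => riemannRochSpace

/-- **CANON, packaged, every exponent.** -/
def Stmt_CanonAny : Prop :=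
  ∀ (K F k F₁ F₂ : Type) [Field K] [Field F] [Algebra K F] [Field k] [Field F₁]
    [Algebra k F₁] [Field F₂] [Algebra k F₂] [IsAlgClosed K] [Infinite k]
    (S : SSD K F k F₁ F₂), FFHyp K F → FFHyp k F₁ → FFHyp k F₂ →
    ∀ (g g₁ g₂ : ℕ) (c c₁ c₂ : ℤ), IsGenus K F g c → IsGenus k F₁ g₁ c₁ → IsGenus k F₂ g₂ c₂ →
    g + 1 ≤ g₁ + g₂ + S.nodes.card →
    ∀ (n : ℕ), n ≠ 0 →
    ∀ (f : F), f ∈ S.c₁.V → f ∈ S.c₂.V → S.c₁.rd f = 1 → S.c₂.rd f = 1 →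
      (∀ P : Place K F, (n : ℤ) ∣ P.ord f) → (∀ P : Place K F, S.IsNodeP P → P.ord f = 0) →
    ∀ (Pinf : Place K F) (Qinf : Place k F₁), Qinf ∈ S.c₁.good → S.c₁.r Pinf = some Qinf →
    ∃ (A₁ : Finset (Place k F₁)) (A₂ : Finset (Place k F₂)) (s₁ : Place k F₁ → F)
      (s₂ : Place k F₂ → F) (h : F) (ζ : k) (a₁ : Place k F₁ → K) (a₂ : Place k F₂ → K)
      (X₁ : Place k F₁ → Place K F) (X₂ : Place k F₂ → Place K F),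
      Disjoint A₁ S.br₁ ∧ Disjoint A₂ S.br₂ ∧ S.IsNS A₁ A₂ ∧ Qinf ∉ A₁ ∧
      A₁.card + A₂.card + 1 = g₁ + g₂ + S.nodes.card ∧
      (∀ Q ∈ A₁, S.IsCoordA₁ A₁ A₂ (s₁ Q) Q) ∧ (∀ Q ∈ A₂, S.IsCoordA₂ A₁ A₂ (s₂ Q) Q) ∧
      S.c₁.IsGU h ∧ S.c₂.IsGU h ∧ S.c₁.rd h = algebraMap k F₁ ζ ∧
      S.c₂.rd h = algebraMap k F₂ ζ ∧ ζ ^ n = 1 ∧
      IsCanon S A₁ A₂ s₁ s₂ n Pinf (f * h ^ n) a₁ a₂ X₁ X₂

/-- **CANON-p, packaged** (`n = p = char k`). -/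
def Stmt_CanonP : Prop :=
  ∀ (K F k F₁ F₂ : Type) [Field K] [Field F] [Algebra K F] [Field k] [Field F₁]
    [Algebra k F₁] [Field F₂] [Algebra k F₂] [IsAlgClosed K] [Infinite k]
    (S : SSD K F k F₁ F₂), FFHyp K F → FFHyp k F₁ → FFHyp k F₂ →
    ∀ (g g₁ g₂ : ℕ) (c c₁ c₂ : ℤ), IsGenus K F g c → IsGenus k F₁ g₁ c₁ → IsGenus k F₂ g₂ c₂ →
    g + 1 ≤ g₁ + g₂ + S.nodes.card →
    ∀ (p : ℕ), p.Prime → CharP k p →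
    ∀ (f : F), f ∈ S.c₁.V → f ∈ S.c₂.V → S.c₁.rd f = 1 → S.c₂.rd f = 1 →
      (∀ P : Place K F, (p : ℤ) ∣ P.ord f) → (∀ P : Place K F, S.IsNodeP P → P.ord f = 0) →
    ∀ (Pinf : Place K F) (Qinf : Place k F₁), Qinf ∈ S.c₁.good → S.c₁.r Pinf = some Qinf →
    ∃ (A₁ : Finset (Place k F₁)) (A₂ : Finset (Place k F₂)) (s₁ : Place k F₁ → F)
      (s₂ : Place k F₂ → F) (h : F) (a₁ : Place k F₁ → K) (a₂ : Place k F₂ → K)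
      (X₁ : Place k F₁ → Place K F) (X₂ : Place k F₂ → Place K F),
      Disjoint A₁ S.br₁ ∧ Disjoint A₂ S.br₂ ∧ S.IsNS A₁ A₂ ∧ Qinf ∉ A₁ ∧
      A₁.card + A₂.card + 1 = g₁ + g₂ + S.nodes.card ∧
      (∀ Q ∈ A₁, S.IsCoordA₁ A₁ A₂ (s₁ Q) Q) ∧ (∀ Q ∈ A₂, S.IsCoordA₂ A₁ A₂ (s₂ Q) Q) ∧
      h ∈ S.c₁.V ∧ h ∈ S.c₂.V ∧ S.c₁.rd h = 1 ∧ S.c₂.rd h = 1 ∧
      IsCanon S A₁ A₂ s₁ s₂ p Pinf (f * h ^ p) a₁ a₂ X₁ X₂

section Main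

variable {K F k F₁ F₂ : Type} [Field K] [Field F] [Algebra K F] [Field k] [Field F₁]
  [Algebra k F₁] [Field F₂] [Algebra k F₂]

/-- The non-special pair and the adapted coordinates (from `NodalNS` and `Coords`). -/
theorem exists_ns_coords [Infinite k] (S : SSD K F k F₁ F₂) (H : FFHyp K F) (H₁ : FFHyp k F₁)
    (H₂ : FFHyp k F₂) {g g₁ g₂ : ℕ} {c c₁ c₂ : ℤ} (hR : IsGenus K F g c)
    (hR₁ : IsGenus k F₁ g₁ c₁) (hR₂ : IsGenus k F₂ g₂ c₂)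
    (hnum : g + 1 ≤ g₁ + g₂ + S.nodes.card) (T₁ : Finset (Place k F₁))
    (T₂ : Finset (Place k F₂)) :
    ∃ (A₁ : Finset (Place k F₁)) (A₂ : Finset (Place k F₂)) (s₁ : Place k F₁ → F)
      (s₂ : Place k F₂ → F),
      Disjoint A₁ S.br₁ ∧ Disjoint A₂ S.br₂ ∧ Disjoint A₁ T₁ ∧ Disjoint A₂ T₂ ∧
      S.IsNS A₁ A₂ ∧ A₁.card + A₂.card + 1 = g₁ + g₂ + S.nodes.card ∧
      (∀ Q ∈ A₁, S.IsCoordA₁ A₁ A₂ (s₁ Q) Q) ∧ (∀ Q ∈ A₂, S.IsCoordA₂ A₁ A₂ (s₂ Q) Q) := by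
  obtain ⟨A₁, A₂, hcard, hdis₁, hdis₂, hNSA⟩ :=
    BAD.H60.stmt_NodalNS K F k F₁ F₂ S H₁ H₂ g₁ g₂ c₁ c₂ hR₁ hR₂ T₁ T₂
  have hd₁ : Disjoint A₁ S.br₁ := Finset.disjoint_of_subset_right Finset.subset_union_left hdis₁
  have hd₂ : Disjoint A₂ S.br₂ := Finset.disjoint_of_subset_right Finset.subset_union_left hdis₂
  have hT₁ : Disjoint A₁ T₁ := Finset.disjoint_of_subset_right Finset.subset_union_right hdis₁
  have hT₂ : Disjoint A₂ T₂ := Finset.disjoint_of_subset_right Finset.subset_union_right hdis₂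
  obtain ⟨hco₁, hco₂⟩ :=
    BAD.H28.stmt_Coords K F k F₁ F₂ S H H₁ H₂ g g₁ g₂ c c₁ c₂ hR hR₁ hR₂ hnum A₁ A₂ hd₁ hd₂
  have hs₁ex : ∀ Q, ∃ s : F, Q ∈ A₁ → S.IsCoordA₁ A₁ A₂ s Q := by
    intro Q
    by_cases hQ : Q ∈ A₁
    · obtain ⟨s, hs⟩ := hco₁ Q hQ
      exact ⟨s, fun _ => hs⟩
    · exact ⟨0, fun h => absurd h hQ⟩
  choose s₁ hs₁ using hs₁ex
  have hs₂ex : ∀ Q, ∃ s : F, Q ∈ A₂ → S.IsCoordA₂ A₁ A₂ s Q := by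
    intro Q
    by_cases hQ : Q ∈ A₂
    · obtain ⟨s, hs⟩ := hco₂ Q hQ
      exact ⟨s, fun _ => hs⟩
    · exact ⟨0, fun h => absurd h hQ⟩
  choose s₂ hs₂ using hs₂ex
  exact ⟨A₁, A₂, s₁, s₂, hd₁, hd₂, hT₁, hT₂, hNSA, hcard, hs₁, hs₂⟩

end Main

/-- **CANON, packaged, every exponent.** -/
theorem stmt_CanonAny : Stmt_CanonAny := by
  intro K F k F₁ F₂ _ _ _ _ _ _ _ _ _ _ S H H₁ H₂ g g₁ g₂ c c₁ c₂ hR hR₁ hR₂ hnum n hn0 f hf₁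
    hf₂ hrd₁ hrd₂ hdiv hnode Pinf Qinf hQinfg hPinf
  obtain ⟨A₁, A₂, s₁, s₂, hd₁, hd₂, hT₁, -, hNSA, hcard, hs₁, hs₂⟩ :=
    exists_ns_coords S H H₁ H₂ hR hR₁ hR₂ hnum {Qinf} ∅
  have hQinfA : Qinf ∉ A₁ := fun h =>
    Finset.disjoint_left.mp hT₁ h (Finset.mem_singleton_self Qinf)
  obtain ⟨h, ζ, a₁, a₂, X₁, X₂, hh₁, hh₂, hr₁, hr₂, hζ, hcan⟩ :=
    canon S H H₁ H₂ hR hd₁ hd₂ hNSA (by omega) hs₁ hs₂ hn0 hf₁ hf₂ hrd₁ hrd₂ hdiv hnode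
      hQinfg hQinfA hPinf
  exact ⟨A₁, A₂, s₁, s₂, h, ζ, a₁, a₂, X₁, X₂, hd₁, hd₂, hNSA, hQinfA, hcard, hs₁, hs₂, hh₁,
    hh₂, hr₁, hr₂, hζ, hcan⟩

/-- **CANON-p, packaged.** -/
theorem stmt_CanonP : Stmt_CanonP := by
  intro K F k F₁ F₂ _ _ _ _ _ _ _ _ _ _ S H H₁ H₂ g g₁ g₂ c c₁ c₂ hR hR₁ hR₂ hnum p hp hchar f
    hf₁ hf₂ hrd₁ hrd₂ hdiv hnode Pinf Qinf hQinfg hPinf
  haveI : Fact p.Prime := ⟨hp⟩
  haveI : CharP k p := hchar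
  obtain ⟨A₁, A₂, s₁, s₂, hd₁, hd₂, hT₁, -, hNSA, hcard, hs₁, hs₂⟩ :=
    exists_ns_coords S H H₁ H₂ hR hR₁ hR₂ hnum {Qinf} ∅
  have hQinfA : Qinf ∉ A₁ := fun h =>
    Finset.disjoint_left.mp hT₁ h (Finset.mem_singleton_self Qinf)
  obtain ⟨h, a₁, a₂, X₁, X₂, hh₁, hh₂, hr₁, hr₂, hcan⟩ :=
    canon_p S H H₁ H₂ hR hd₁ hd₂ hNSA (by omega) hs₁ hs₂ p hf₁ hf₂ hrd₁ hrd₂ hdiv hnode
      hQinfg hQinfA hPinf
  exact ⟨A₁, A₂, s₁, s₂, h, a₁, a₂, X₁, X₂, hd₁, hd₂, hNSA, hQinfA, hcard, hs₁, hs₂, hh₁,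
    hh₂, hr₁, hr₂, hcan⟩

end Fermat.Agent.BADP.H51
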