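import Fermat.Agent.BADP.H28_TIpRound
import Fermat.Agent.BADP.H51_CanonP

/-!
# S33 (T3), leaf (E) "TI-p" (helper28): torsion injectivity in depth `> p / (p - 1)`

`stmt_TIp : Stmt_TIp` : abstract semistable datum `S : SSD K F k F₁ F₂` with `char k = p`,
`π ∈ K` with `π ^ (p - 1) / p ≡ -1`.  If `(f - 1) / (p π)` lies in the maximal ideals of both
valuations, `p ∣ div f` and `f` has neither zero nor pole over the nodes, then `f` is a `p`-th
power.

Proof (plan `NOTES/plan/L_S44.md` §6, two-round form of helper19): CANON-p (helper51) gives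
`h ≡ 1` with `F₀ = f h ^ p` in canonical position with parameters `a_Q`.
Round 1 (`KeyHyp.round` with `δ = c⁻¹`, `d = c ^ (-p)`): `(h - 1) / π` and `a_Q / π` are integral.
Round 2 (`δ = π`, `d = p π`): `a_Q / π` lies in the maximal ideal.
Then `a_Q ^ p = p a_Q ε_Q` with `ε_Q` in the maximal ideal and `H28.keyNodal_lin` gives `F₀ = 1`.
-/

set_option autoImplicit false
set_option linter.style.haveILetI false
set_option maxHeartbeats 1000000

noncomputable section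

open AlgebraicCurve

attribute [local instance] Classical.propDecidable

namespace Fermat.Agent.BADP.H28

open Fermat.Agent.RED.H17 Fermat.Agent.RED Fermat.Agent.BAD

/-- **(E) TI-p.** -/
def Stmt_TIp : Prop :=
  ∀ (K F k F₁ F₂ : Type) [Field K] [Field F] [Algebra K F] [Field k] [Field F₁]
    [Algebra k F₁] [Field F₂] [Algebra k F₂] [IsAlgClosed K] [Infinite k]
    (S : SSD K F k F₁ F₂), FFHyp K F → FFHyp k F₁ → FFHyp k F₂ →
    ∀ (g g₁ g₂ : ℕ) (c c₁ c₂ : ℤ), IsGenus K F g c → IsGenus k F₁ g₁ c₁ → IsGenus k F₂ g₂ c₂ →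
    g + 1 ≤ g₁ + g₂ + S.nodes.card →
    ∀ (p : ℕ), p.Prime → CharP k p →
    ∀ (π : K), S.c₁.rd (algebraMap K F (π ^ (p - 1) / (p : K))) = -1 →
    ∀ (f : F), S.c₁.InM ((f - 1) / algebraMap K F ((p : K) * π)) →
      S.c₂.InM ((f - 1) / algebraMap K F ((p : K) * π)) →
      (∀ P : Place K F, (p : ℤ) ∣ P.ord f) → (∀ P : Place K F, S.IsNodeP P → P.ord f = 0) →
      ∃ h : F, f = h ^ p

section Main

variable {K F k F₁ F₂ : Type} [Field K] [Field F] [Algebra K F] [Field k] [Field F₁]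
  [Algebra k F₁] [Field F₂] [Algebra k F₂]

/-- The constants of TI-p. -/
theorem tip_consts (S : SSD K F k F₁ F₂) {p : ℕ} (hp : p.Prime) (hpk : (p : k) = 0) {π : K}
    (hπp : S.c₁.rd (algebraMap K F (π ^ (p - 1) / (p : K))) = -1) :
    (p : K) ≠ 0 ∧ π ≠ 0 ∧ S.IsCU (π ^ (p - 1) / (p : K)) ∧ S.IsCM (p : K) ∧ S.IsCM π := by
  have hν : S.IsCU (π ^ (p - 1) / (p : K)) := by
    have h0 : S.c₁.rd (algebraMap K F (π ^ (p - 1) / (p : K))) ≠ 0 := by
      rw [hπp]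
      exact neg_ne_zero.mpr one_ne_zero
    refine ⟨?_, h0⟩
    by_contra hmem
    exact h0 (S.c₁.rd_of_not_mem hmem)
  have hpK : (p : K) ≠ 0 := by
    intro h
    apply hν.ne_zero
    rw [h, div_zero]
  have hπ0 : π ≠ 0 := by
    intro h
    apply hν.ne_zero
    have : p - 1 ≠ 0 := by have := hp.two_le; omega
    rw [h, zero_pow this, zero_div]
  have hpM : S.IsCM (p : K) := by
    have := S.c₁.inM_natCast (F := F) hpk
    unfold SSD.IsCM
    rw [map_natCast]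
    exact this
  refine ⟨hpK, hπ0, hν, hpM, ?_⟩
  -- `π` is in the maximal ideal
  rcases S.isCU_or_isCM π with h | h | h
  · exfalso
    have h1 : S.IsCU (π ^ (p - 1)) := h.pow _
    have h2 : π ^ (p - 1) = (p : K) * (π ^ (p - 1) / (p : K)) := by field_simp
    have h3 : S.IsCM (π ^ (p - 1)) := by
      rw [h2]
      unfold SSD.IsCM
      rw [map_mul]
      exact PRed.InM.mul_right ⟨hpM.mem₁, hpM.rd₁⟩ hν.isGU₁.1
    exact h3.not_isCU h1
  · exact h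
  · exfalso
    have h1 : S.c₁.InM (algebraMap K F (π⁻¹ ^ (p - 1))) := by
      rw [map_pow]
      exact PRed.InM.pow ⟨h.mem₁, h.rd₁⟩ (by have := hp.two_le; omega)
    have h2 : (1 : F) = algebraMap K F (p : K) *
        (algebraMap K F (π ^ (p - 1) / (p : K)) * algebraMap K F (π⁻¹ ^ (p - 1))) := by
      rw [← map_mul, ← map_mul, ← map_one (algebraMap K F)]
      congr 1
      rw [inv_pow, ← mul_assoc, mul_div_cancel₀ _ hpK, mul_inv_cancel₀ (pow_ne_zero _ hπ0)]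
    have h3 : S.c₁.InM (1 : F) := by
      rw [h2]
      exact PRed.InM.mul_right ⟨hpM.mem₁, hpM.rd₁⟩ (S.c₁.V.mul_mem _ _ hν.isGU₁.1 h1.1)
    have := h3.2
    rw [S.c₁.rd_one] at this
    exact one_ne_zero this

/-- **(E) TI-p, core**: a function `f ∈ 1 + p π m` without zero or pole over the nodes, with
`f h ^ p` in canonical position, `h ≡ 1`: then `f h ^ p = 1`. -/
theorem tip_of_canon (S : SSD K F k F₁ F₂) (H : FFHyp K F)
    {A₁ : Finset (Place k F₁)} {A₂ : Finset (Place k F₂)}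
    (hA₁ : Disjoint A₁ S.br₁) (hA₂ : Disjoint A₂ S.br₂) (hNS : S.IsNS A₁ A₂)
    {s₁ : Place k F₁ → F} {s₂ : Place k F₂ → F}
    (hs₁ : ∀ Q ∈ A₁, S.IsCoordA₁ A₁ A₂ (s₁ Q) Q) (hs₂ : ∀ Q ∈ A₂, S.IsCoordA₂ A₁ A₂ (s₂ Q) Q)
    {p : ℕ} (hp : p.Prime) (hchar : CharP k p) {π : K}
    (hπp : S.c₁.rd (algebraMap K F (π ^ (p - 1) / (p : K))) = -1)
    {f h : F} (hf₁ : S.c₁.InM ((f - 1) / algebraMap K F ((p : K) * π)))
    (hf₂ : S.c₂.InM ((f - 1) / algebraMap K F ((p : K) * π)))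
    (hnode : ∀ P : Place K F, S.IsNodeP P → P.ord f = 0)
    (hh₁ : h ∈ S.c₁.V) (hhrd₁ : S.c₁.rd h = 1) (hh₂ : h ∈ S.c₂.V) (hhrd₂ : S.c₂.rd h = 1)
    {Pinf : Place K F} {Qinf : Place k F₁} (hQinfg : Qinf ∈ S.c₁.good) (hQinfA : Qinf ∉ A₁)
    (hPinf : S.c₁.r Pinf = some Qinf)
    {a₁ : Place k F₁ → K} {a₂ : Place k F₂ → K} {X₁ : Place k F₁ → Place K F}
    {X₂ : Place k F₂ → Place K F}
    (hcan : H51.IsCanon S A₁ A₂ s₁ s₂ p Pinf (f * h ^ p) a₁ a₂ X₁ X₂) :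
    f * h ^ p = 1 := by
  have hP := H.principal
  have hK : S.KeyHyp A₁ A₂ s₁ s₂ := ⟨hA₁, hA₂, hs₁, hs₂⟩
  haveI : CharP k p := hchar
  have hpk : (p : k) = 0 := CharP.cast_eq_zero k p
  obtain ⟨hpK, hπ0, hν, hpM, hπM⟩ := tip_consts S hp hpk hπp
  have hp1 : p - 1 ≠ 0 := by have := hp.two_le; omega
  have hpsucc : p - 1 + 1 = p := Nat.sub_add_cancel hp.one_le
  obtain ⟨-, -, -, -, hf₂ord₁, hf₂ord₂⟩ := hK.key_f₂ hP hcan.ha₁ hcan.ha₂ p hcan.mem₁ hcan.mem₂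
    hcan.rd₁ hcan.rd₂ hcan.on₁ hcan.on₂
  set A : Finset (Place k F₁ ⊕ Place k F₂) := SSD.keyA A₁ A₂ with hAdef
  set s : Place k F₁ ⊕ Place k F₂ → F := Sum.elim s₁ s₂ with hsdef
  set a : Place k F₁ ⊕ Place k F₂ → K := Sum.elim a₁ a₂ with hadef
  set Hp : F := ∏ i ∈ A, (s i - algebraMap K F (a i)) / s i with hHp
  have haCM : ∀ i ∈ A, S.IsCM (a i) := fun i hi => S.inM_keyA hcan.ha₁ hcan.ha₂ hi
  have hdπ0 : (p : K) * π ≠ 0 := mul_ne_zero hpK hπ0
  have hdπF : algebraMap K F ((p : K) * π) ≠ 0 :=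
    (map_ne_zero_iff _ (algebraMap K F).injective).mpr hdπ0
  have hdπ : S.IsCM ((p : K) * π) := by
    unfold SSD.IsCM
    rw [map_mul]
    exact PRed.InM.mul_left hpM.mem₁ ⟨hπM.mem₁, hπM.rd₁⟩
  -- `f` and `h` are units
  have hfGU : S.c₁.IsGU f := by
    have := (PRed.CongM.of_inM hdπF hf₁).isGU ⟨hdπ.mem₁, hdπ.rd₁⟩ S.c₁.V.zero_mem
    exact this.1
  have hf0 : f ≠ 0 := hfGU.ne_zero
  have hh0 : h ≠ 0 := by
    rintro rfl
    rw [S.c₁.rd_zero] at hhrd₁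
    exact zero_ne_one hhrd₁
  -- `h` has neither zero nor pole over the nodes
  have hhnode : ∀ t ∈ S.nodes, ∀ P, S.c₁.r P = some t.1 → 0 ≤ P.ord h := by
    intro t ht P hPt
    have e1 : P.ord (f * h ^ p) = 0 :=
      hcan.off P (hK.off_of_node ht hPt).1 (hK.off_of_node ht hPt).2
    have e2 : P.ord f = 0 := hnode P ⟨t, ht, hPt⟩
    rw [P.ord_mul hf0 (pow_ne_zero _ hh0), ord_pow, e2, zero_add] at e1
    rcases mul_eq_zero.mp e1 with h0 | h0
    · exact absurd (by exact_mod_cast h0) hp.ne_zero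
    · rw [h0]
  have hord0 : ∀ P, (∀ Q ∈ A₁, S.c₁.r P ≠ some Q) → (∀ Q ∈ A₂, S.c₂.r P ≠ some Q) →
      0 ≤ P.ord (f * h ^ p) := fun P h1 h2 => le_of_eq (hcan.off P h1 h2).symm
  have hf₂o₁ : ∀ Q ∈ A₁, ∀ P, S.c₁.r P = some Q → 0 ≤ P.ord (f * h ^ p / Hp ^ p) :=
    fun Q hQ P hPQ => le_of_eq (hf₂ord₁ Q hQ P hPQ).symm
  have hf₂o₂ : ∀ Q ∈ A₂, ∀ P, S.c₂.r P = some Q → 0 ≤ P.ord (f * h ^ p / Hp ^ p) :=
    fun Q hQ P hPQ => le_of_eq (hf₂ord₂ Q hQ P hPQ).symm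
  -- ROUND 1 : `(h - 1) / π` and `a_Q / π` are integral
  set I : Finset F := insert (h - 1) (A.image fun i => algebraMap K F (a i)) with hI
  have hImem : ∀ z ∈ I, (z ∈ S.c₁.V ∧ S.c₁.rd z = 0) ∧ (z ∈ S.c₂.V ∧ S.c₂.rd z = 0) := by
    intro z hz
    rcases Finset.mem_insert.mp hz with rfl | hz
    · exact ⟨⟨S.c₁.V.sub_mem hh₁ S.c₁.V.one_mem, by
        rw [S.c₁.rd_sub hh₁ S.c₁.V.one_mem, hhrd₁, S.c₁.rd_one, sub_self]⟩,
        ⟨S.c₂.V.sub_mem hh₂ S.c₂.V.one_mem, by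
        rw [S.c₂.rd_sub hh₂ S.c₂.V.one_mem, hhrd₂, S.c₂.rd_one, sub_self]⟩⟩
    · obtain ⟨i, hi, rfl⟩ := Finset.mem_image.mp hz
      exact ⟨⟨(haCM i hi).mem₁, (haCM i hi).rd₁⟩, ⟨(haCM i hi).mem₂, (haCM i hi).rd₂⟩⟩
  have hR1 : ∀ z ∈ I, z / algebraMap K F π ∈ S.c₁.V ∧ z / algebraMap K F π ∈ S.c₂.V := by
    by_cases hall : ∀ z ∈ I, z = 0
    · intro z hz
      rw [hall z hz, zero_div]
      exact ⟨S.c₁.V.zero_mem, S.c₂.V.zero_mem⟩
    push Not at hall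
    obtain ⟨c, hc, ⟨hdV₁, hdrd₁⟩, ⟨hdV₂, hdrd₂⟩, hcI, z₀, hz₀, hz₀GU⟩ :=
      S.exists_scale_max₂ I hImem hall
    have hcF : algebraMap K F c ≠ 0 := (map_ne_zero_iff _ (algebraMap K F).injective).mpr hc
    have hπF : algebraMap K F π ≠ 0 := (map_ne_zero_iff _ (algebraMap K F).injective).mpr hπ0
    have hcinv : ∀ z : F, z / algebraMap K F c⁻¹ = algebraMap K F c * z := by
      intro z
      rw [map_inv₀, div_inv_eq_mul, mul_comm]
    have hcπ : algebraMap K F (c * π)⁻¹ ∈ S.c₁.V := by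
      rcases S.isCU_or_isCM (c * π) with hu | hm | hm
      · exact hu.inv.isGU₁.1
      · exfalso
        -- the constants of round 1
        have hδ : S.IsCM c⁻¹ := ⟨hdV₁, hdrd₁⟩
        have hδ0 : c⁻¹ ≠ 0 := inv_ne_zero hc
        have hd : S.IsCM (c⁻¹ ^ p) := by
          unfold SSD.IsCM
          rw [map_pow]
          exact PRed.InM.pow ⟨hdV₁, hdrd₁⟩ hp.ne_zero
        have hd0 : c⁻¹ ^ p ≠ 0 := pow_ne_zero _ hδ0
        have hκeq : (p : K) * c ^ (p - 1) = (c * π) ^ (p - 1) * (π ^ (p - 1) / (p : K))⁻¹ := by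
          rw [mul_pow, inv_div]
          have := pow_ne_zero (p - 1) hπ0
          field_simp
        have hκM : S.IsCM ((p : K) * c ^ (p - 1)) := by
          rw [hκeq]
          unfold SSD.IsCM
          rw [map_mul, map_pow]
          exact PRed.InM.mul_right (PRed.InM.pow ⟨hm.mem₁, hm.rd₁⟩ hp1) hν.inv.isGU₁.1
        have hcp : c ^ p = c ^ (p - 1) * c := by rw [← pow_succ, hpsucc]
        have h1 : (p : K) * c⁻¹ = c⁻¹ ^ p * ((p : K) * c ^ (p - 1)) := by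
          rw [inv_pow, hcp]
          field_simp
        have h2 : c⁻¹ ^ p = c⁻¹ ^ p * 1 := (mul_one _).symm
        have hu : ∀ i ∈ SSD.keyA A₁ A₂, algebraMap K F (Sum.elim a₁ a₂ i / c⁻¹) ∈ S.c₁.V := by
          intro i hi
          rw [map_div₀, hcinv]
          exact (hcI _ (Finset.mem_insert_of_mem (Finset.mem_image_of_mem _ hi))).1
        have hgeq : (f - 1) / algebraMap K F (c⁻¹ ^ p) =
            algebraMap K F ((p : K) * c ^ (p - 1) * (c * π)) *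
              ((f - 1) / algebraMap K F ((p : K) * π)) := by
          have e : algebraMap K F ((p : K) * c ^ (p - 1) * (c * π)) =
              algebraMap K F (c ^ p) * algebraMap K F ((p : K) * π) := by
            rw [← map_mul]
            congr 1
            rw [hcp]
            ring
          rw [e, map_pow, map_inv₀, inv_pow, div_inv_eq_mul, ← map_pow]
          field_simp
        have hκc : algebraMap K F ((p : K) * c ^ (p - 1) * (c * π)) ∈ S.c₁.V := by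
          rw [map_mul]
          exact S.c₁.V.mul_mem _ _ hκM.mem₁ hm.mem₁
        have hg₁ : S.c₁.InM ((f - 1) / algebraMap K F (c⁻¹ ^ p)) := by
          rw [hgeq]
          exact PRed.InM.mul_left hκc hf₁
        have hg₂ : S.c₂.InM ((f - 1) / algebraMap K F (c⁻¹ ^ p)) := by
          rw [hgeq]
          exact PRed.InM.mul_left ((S.const_mem _).mp hκc) hf₂
        have hφ₁ : (h - 1) / algebraMap K F c⁻¹ ∈ S.c₁.V := by
          rw [hcinv]
          exact (hcI _ (Finset.mem_insert_self _ _)).1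
        have hφ₂ : (h - 1) / algebraMap K F c⁻¹ ∈ S.c₂.V := by
          rw [hcinv]
          exact (hcI _ (Finset.mem_insert_self _ _)).2
        obtain ⟨e, he₁, he₂, hb0, hΦV, hΦrd⟩ := hK.round hP hNS hp hchar hδ hδ0 hd hd0
          hκM.mem₁ (S.isCU_one) h1 h2 a₁ a₂ hu rfl hg₁ hg₂ hφ₁ hφ₂ hhnode hord0 hf₂o₁ hf₂o₂
        rw [hκM.rd₁, zero_mul, zero_add, map_one, S.c₁.rd_one, one_mul, ← map_pow] at hΦrd
        -- `e = 0`
        have hvan : VanAt Qinf (S.c₁.rd ((f * h ^ p - 1) / algebraMap K F (c⁻¹ ^ p))) := by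
          refine S.c₁.vanAt_rd hP hΦV hQinfg ?_ hPinf ?_
          · intro P hPQ
            rw [div_eq_mul_inv, ← map_inv₀]
            exact (((regAt_of_ord_nonneg (hord0 P (hK.off_of_good₁ hQinfg hQinfA hPQ).1
              (hK.off_of_good₁ hQinfg hQinfA hPQ).2)).sub (regAt_one P)).mul
              (regAt_algebraMap P _)).ord_nonneg
          · rw [div_eq_mul_inv, ← map_inv₀]
            exact hcan.inf.mul_regAt (regAt_algebraMap Pinf _)
        rw [hΦrd] at hvan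
        have hep : e ^ p = 0 := const_eq_zero_of_vanAt hvan
        have he0 : e = 0 := by
          by_contra hne
          exact pow_ne_zero p hne hep
        rw [he0, map_zero] at he₁ he₂
        rw [hcinv] at he₁ he₂
        -- contradiction with the unit `z₀`
        rcases Finset.mem_insert.mp hz₀ with rfl | hz
        · rcases hz₀GU with hGU | hGU
          · exact hGU.2 he₁
          · exact hGU.2 he₂
        · obtain ⟨i, hi, rfl⟩ := Finset.mem_image.mp hz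
          have hbi := hb0 i hi
          rw [map_div₀, hcinv] at hbi
          have hmem := (hcI _ (Finset.mem_insert_of_mem (Finset.mem_image_of_mem _ hi))).1
          rw [← map_mul] at hbi hmem
          rcases hz₀GU with hGU | hGU
          · apply hGU.2
            rw [← map_mul]
            exact hbi
          · apply hGU.2
            rw [← map_mul]
            exact (S.rd₂_const_zero hmem hbi).2
      · exact hm.mem₁
    intro z hz
    have e : z / algebraMap K F π = algebraMap K F (c * π)⁻¹ * (algebraMap K F c * z) := by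
      rw [map_inv₀, map_mul]
      field_simp
    rw [e]
    exact ⟨S.c₁.V.mul_mem _ _ hcπ (hcI z hz).1,
      S.c₂.V.mul_mem _ _ ((S.const_mem _).mp hcπ) (hcI z hz).2⟩
  -- ROUND 2 : `a_Q / π` lies in the maximal ideal
  have hu : ∀ i ∈ SSD.keyA A₁ A₂, algebraMap K F (Sum.elim a₁ a₂ i / π) ∈ S.c₁.V := by
    intro i hi
    rw [map_div₀]
    exact (hR1 _ (Finset.mem_insert_of_mem (Finset.mem_image_of_mem _ hi))).1
  have h2 : π ^ p = (p : K) * π * (π ^ (p - 1) / (p : K)) := by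
    have : π ^ p = π ^ (p - 1) * π := by rw [← pow_succ, hpsucc]
    rw [this]
    field_simp
  obtain ⟨e, -, -, hb0, -, -⟩ := hK.round hP hNS hp hchar hπM hπ0 hdπ hdπ0
    (κ := 1) (by rw [map_one]; exact S.c₁.V.one_mem) hν (mul_one _).symm h2 a₁ a₂ hu rfl
    hf₁ hf₂ (hR1 _ (Finset.mem_insert_self _ _)).1 (hR1 _ (Finset.mem_insert_self _ _)).2
    hhnode hord0 hf₂o₁ hf₂o₂
  -- the linear regime
  have hlin : ∀ i ∈ A, ∃ ε : K, S.IsCM ε ∧ a i ^ p = p * a i * ε := by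
    intro i hi
    refine ⟨(a i / π) ^ (p - 1) * (π ^ (p - 1) / (p : K)), ?_, ?_⟩
    · unfold SSD.IsCM
      rw [map_mul, map_pow]
      exact PRed.InM.mul_right (PRed.InM.pow ⟨hu i hi, hb0 i hi⟩ hp1) hν.isGU₁.1
    · have : a i ^ p = a i ^ (p - 1) * a i := by rw [← pow_succ, hpsucc]
      rw [this, div_pow]
      have := pow_ne_zero (p - 1) hπ0
      field_simp
  exact BAD.H28.keyNodal_lin S H A₁ A₂ hA₁ hA₂ hNS s₁ s₂ hs₁ hs₂ p hp (f * h ^ p) hcan.mem₁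
    hcan.mem₂ hcan.rd₁ hcan.rd₂ Pinf Qinf hQinfg hQinfA hPinf hcan.inf a₁ a₂ hcan.ha₁ hcan.ha₂
    (fun Q hQ => hlin _ (SSD.inl_mem_keyA hQ)) (fun Q hQ => hlin _ (SSD.inr_mem_keyA hQ))
    hord0 hcan.on₁ hcan.on₂

end Main

/-- **(E) TI-p.** -/
theorem stmt_TIp : Stmt_TIp := by
  intro K F k F₁ F₂ _ _ _ _ _ _ _ _ _ _ S H H₁ H₂ g g₁ g₂ c c₁ c₂ hR hR₁ hR₂ hnum p hp hchar π
    hπp f hf₁ hf₂ hdiv hnode
  haveI : CharP k p := hchar
  have hpk : (p : k) = 0 := CharP.cast_eq_zero k p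
  obtain ⟨hpK, hπ0, hν, hpM, hπM⟩ := tip_consts S hp hpk hπp
  have hdπF : algebraMap K F ((p : K) * π) ≠ 0 :=
    (map_ne_zero_iff _ (algebraMap K F).injective).mpr (mul_ne_zero hpK hπ0)
  have hdπ : S.IsCM ((p : K) * π) := by
    unfold SSD.IsCM
    rw [map_mul]
    exact PRed.InM.mul_left hpM.mem₁ ⟨hπM.mem₁, hπM.rd₁⟩
  obtain ⟨hfGU₁, hfrd₁⟩ :=
    (PRed.CongM.of_inM hdπF hf₁).isGU ⟨hdπ.mem₁, hdπ.rd₁⟩ S.c₁.V.zero_mem
  obtain ⟨hfGU₂, hfrd₂⟩ :=
    (PRed.CongM.of_inM hdπF hf₂).isGU ⟨hdπ.mem₂, hdπ.rd₂⟩ S.c₂.V.zero_mem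
  obtain ⟨Qinf, hQinf⟩ := H₁.exists_notMem S.br₁
  have hQinfg : Qinf ∈ S.c₁.good := S.good₁_of_notMem hQinf
  obtain ⟨Pinf, hPinf⟩ := S.c₁.r_surjective H.principal Qinf hQinfg
  obtain ⟨A₁, A₂, s₁, s₂, h, a₁, a₂, X₁, X₂, hd₁, hd₂, hNSA, hQinfA, -, hs₁, hs₂, hh₁, hh₂,
    hr₁, hr₂, hcan⟩ := H51.stmt_CanonP K F k F₁ F₂ S H H₁ H₂ g g₁ g₂ c c₁ c₂ hR hR₁ hR₂ hnum p
      hp hchar f hfGU₁.1 hfGU₂.1 hfrd₁ hfrd₂ hdiv hnode Pinf Qinf hQinfg hPinf
  have hone := tip_of_canon S H hd₁ hd₂ hNSA hs₁ hs₂ hp hchar hπp hf₁ hf₂ hnode hh₁ hr₁ hh₂ hr₂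
    hQinfg hQinfA hPinf hcan
  have hh0 : h ≠ 0 := by
    rintro rfl
    rw [S.c₁.rd_zero] at hr₁
    exact zero_ne_one hr₁
  refine ⟨h⁻¹, ?_⟩
  rw [inv_pow]
  exact eq_inv_of_mul_eq_one_left hone

end Fermat.Agent.BADP.H28
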