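import Fermat.Agent.BADP.H19_AbsPWire
import Fermat.Agent.BADP.H28_TIp

/-!
# S33, `p`-new case: the abstract form of (T3) is PROVED (helper19)

`stmt_ABSP : BADP.H86.Stmt_ABSP`, from MOVE-p + CANON-p (helper51), NS-STEP (helper18),
TORIC-CHI (helper97), TI-p (helper28) and the wiring `absP_of_tIpX`.
-/

set_option autoImplicit false

namespace Fermat.Agent.BADP.H19

/-- **(T3), abstract form.** -/
theorem stmt_ABSP : H86.Stmt_ABSP := absP_of_tIpX H28.stmt_TIp

end Fermat.Agent.BADP.H19
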