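import Fermat.Agent.BADP.H28_KeyPCore
import Fermat.Agent.BADP.H97_KArith

/-!
# S33 (row 32), leaf (D) TORIC-CHI (helper97)

Abstract semistable datum `S : SSD K F k F₁ F₂`, `ζ ∈ K` with `π = ζ - 1` in the maximal ideal,
`σ` an inertial semilinear automorphism with `σ ζ = ζ ^ a`.

* `PRed.toricChi` / `toricChi` : if `(F' - 1) / (p π)` is integral (for `V₁` and `V₂`), then
  `g = σ F' / F' ^ a` satisfies `(g - 1) / (p π) ∈ 𝔪₁ ∩ 𝔪₂`;
* `toricChi_dvd` : `p ∣ div F'` implies `p ∣ div g`;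
* `toricChi_ord` : if `F'` has neither zero nor pole over the node `s`, so has `g`.

Plan: helper86's note "S33 NEW geometry leaves (A)-(F)", leaf (D).
-/

set_option autoImplicit false
set_option linter.style.haveILetI false

noncomputable section

open AlgebraicCurve

attribute [local instance] Classical.propDecidable

namespace Fermat.Agent.BADP.H97

open Fermat.Agent.RED.H17 Fermat.Agent.RED Fermat.Agent.BAD

section Val

variable {K F k F' : Type*} [Field K] [Field F] [Algebra K F] [Field k] [Field F']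
  [Algebra k F'] {T : PRed K F k F'}

theorem inM_iff_val_lt {x : F} : T.InM x ↔ T.V.valuation x < 1 := by
  constructor
  · rintro ⟨hx, h0⟩
    rw [T.rd_of_mem hx, T.red_eq_zero_iff] at h0
    exact (T.V.valuation_lt_one_iff ⟨x, hx⟩).1 h0
  · intro h
    have hx : x ∈ T.V := (T.V.valuation_le_one_iff x).1 h.le
    refine ⟨hx, ?_⟩
    rw [T.rd_of_mem hx, T.red_eq_zero_iff]
    exact (T.V.valuation_lt_one_iff ⟨x, hx⟩).2 h

/-- **TORIC-CHI** for one component. -/
theorem toricChi_pred {p a : ℕ} {ζ : K} (σ : SemilinearAut K F)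
    (hmem : ∀ f : F, f ∈ T.V → σ • f ∈ T.V)
    (hred : ∀ f : F, f ∈ T.V → T.rd (σ • f) = T.rd f)
    (hσζ : SemilinearAut.baseAut σ ζ = ζ ^ a) (hπ : T.InM (algebraMap K F (ζ - 1)))
    (hd0 : (p : K) * (ζ - 1) ≠ 0) {G : F}
    (hG : (G - 1) / algebraMap K F ((p : K) * (ζ - 1)) ∈ T.V) :
    T.InM (((σ • G) / G ^ a - 1) / algebraMap K F ((p : K) * (ζ - 1))) := by
  set v := T.V.valuation with hv
  set d : F := algebraMap K F ((p : K) * (ζ - 1)) with hd
  set φ : F := (G - 1) / d with hφ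
  have hdne : d ≠ 0 := (map_ne_zero_iff _ (algebraMap K F).injective).mpr hd0
  have hπv : v (algebraMap K F (ζ - 1)) < 1 := inM_iff_val_lt.1 hπ
  have hpv : v (algebraMap K F (p : K)) ≤ 1 := by
    rw [map_natCast]
    exact val_natCast_le_one v p
  have hdv : v d < 1 := by
    rw [hd, map_mul, map_mul]
    calc v (algebraMap K F (p : K)) * v (algebraMap K F (ζ - 1))
        ≤ 1 * v (algebraMap K F (ζ - 1)) := mul_le_mul_left hpv _
      _ = v (algebraMap K F (ζ - 1)) := one_mul _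
      _ < 1 := hπv
  have hdpos : 0 < v d := zero_lt_iff.2 ((Valuation.ne_zero_iff v).2 hdne)
  have hφv : v φ ≤ 1 := (T.V.valuation_le_one_iff φ).2 hG
  have hGe : G = 1 + d * φ := by
    rw [hφ]
    field_simp
    ring
  have htv : v (d * φ) ≤ v d := by
    rw [map_mul]
    calc v d * v φ ≤ v d * 1 := mul_le_mul_right hφv _
      _ = v d := mul_one _
  have htv1 : v (d * φ) < 1 := lt_of_le_of_lt htv hdv
  -- `G` is a unit
  have hGv : v G = 1 := by
    rw [hGe]
    have : v (d * φ) < v (1 : F) := by rwa [map_one]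
    rw [Valuation.map_add_eq_of_lt_left v this, map_one]
  have hGav : v (G ^ a) = 1 := by rw [map_pow, hGv, one_pow]
  have hGa0 : G ^ a ≠ 0 := (Valuation.ne_zero_iff v).1 (by rw [hGav]; exact one_ne_zero)
  -- `σ d = d * S`, `S = ∑_{i < a} ζ ^ i`
  set Sa : F := algebraMap K F (∑ i ∈ Finset.range a, ζ ^ i) with hSa
  have hζv : v (algebraMap K F ζ) ≤ 1 := by
    have e : algebraMap K F ζ = algebraMap K F (ζ - 1) + 1 := by
      rw [map_sub, map_one]
      ring
    rw [e]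
    exact le_trans (v.map_add _ _) (max_le hπv.le (by rw [map_one]))
  have hσd : σ • d = d * Sa := by
    rw [hd, SemilinearAut.smul_algebraMap, hSa, ← map_mul]
    congr 1
    rw [map_mul, map_natCast, map_sub, map_one, hσζ, mul_assoc, mul_geom_sum]
  -- `S ≡ a`
  have hSav : v (Sa - (a : F)) < 1 := by
    have e : Sa - (a : F) = ∑ i ∈ Finset.range a, ((algebraMap K F ζ) ^ i - 1) := by
      rw [hSa, map_sum, Finset.sum_sub_distrib, Finset.sum_const, Finset.card_range,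
        nsmul_eq_mul, mul_one]
      simp only [map_pow]
    rw [e]
    refine v.map_sum_lt one_ne_zero fun i _ => ?_
    refine lt_of_le_of_lt (val_pow_sub_one_le v hζv i) ?_
    have e2 : algebraMap K F ζ - 1 = algebraMap K F (ζ - 1) := by rw [map_sub, map_one]
    rw [e2]
    exact hπv
  have hSa1 : v Sa ≤ 1 := by
    have e : Sa = (Sa - (a : F)) + (a : F) := by ring
    rw [e]
    exact le_trans (v.map_add _ _) (max_le hSav.le (val_natCast_le_one v a))
  -- `σ φ ≡ φ`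
  have hσφm : σ • φ ∈ T.V := hmem φ hG
  have hσφv : v (σ • φ) ≤ 1 := (T.V.valuation_le_one_iff _).2 hσφm
  have hσφ : v (σ • φ - φ) < 1 := by
    refine inM_iff_val_lt.1 ⟨T.V.sub_mem hσφm hG, ?_⟩
    rw [T.rd_sub hσφm hG, hred φ hG, sub_self]
  -- the numerator
  have hσG : σ • G = 1 + d * (Sa * (σ • φ)) := by
    rw [hGe, smul_add, smul_one, smul_mul', hσd]
    ring
  have hnum : v (Sa * (σ • φ) - (a : F) * φ) < 1 := by
    have e : Sa * (σ • φ) - (a : F) * φ = (Sa - (a : F)) * (σ • φ) + (a : F) * (σ • φ - φ) := by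
      ring
    rw [e]
    refine lt_of_le_of_lt (v.map_add _ _) (max_lt ?_ ?_)
    · rw [map_mul]
      calc v (Sa - (a : F)) * v (σ • φ) ≤ v (Sa - (a : F)) * 1 := mul_le_mul_right hσφv _
        _ = v (Sa - (a : F)) := mul_one _
        _ < 1 := hSav
    · rw [map_mul]
      calc v (a : F) * v (σ • φ - φ) ≤ 1 * v (σ • φ - φ) :=
            mul_le_mul_left (val_natCast_le_one v a) _
        _ = v (σ • φ - φ) := one_mul _
        _ < 1 := hσφ
  have hlin : v (G ^ a - 1 - (a : F) * (d * φ)) ≤ v (d * φ) ^ 2 := by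
    rw [hGe]
    exact val_one_add_pow_sub_lin v htv1.le a
  -- conclusion
  rw [inM_iff_val_lt]
  have e : ((σ • G) / G ^ a - 1) / d =
      ((Sa * (σ • φ) - (a : F) * φ) - (G ^ a - 1 - (a : F) * (d * φ)) / d) / G ^ a := by
    rw [hσG]
    field_simp
    ring
  rw [e, map_div₀, hGav, div_one]
  refine lt_of_le_of_lt (v.map_sub _ _) (max_lt hnum ?_)
  rw [map_div₀, div_lt_iff₀ hdpos, one_mul]
  refine lt_of_le_of_lt hlin ?_
  calc v (d * φ) ^ 2 ≤ v d ^ 2 := pow_le_pow_left₀ zero_le htv 2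
    _ = v d * v d := sq _
    _ < 1 * v d := mul_lt_mul_of_pos_right hdv hdpos
    _ = v d := one_mul _

end Val

variable {K F k F₁ F₂ : Type*} [Field K] [Field F] [Algebra K F] [Field k] [Field F₁]
  [Algebra k F₁] [Field F₂] [Algebra k F₂] (S : SSD K F k F₁ F₂)

/-- **(D) TORIC-CHI.** -/
theorem toricChi {p a : ℕ} {ζ : K} (σ : SemilinearAut K F) (hσ : S.IsInertial σ)
    (hσζ : SemilinearAut.baseAut σ ζ = ζ ^ a) (hπ : S.IsCM (ζ - 1))
    (hd0 : (p : K) * (ζ - 1) ≠ 0) {G : F}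
    (hG₁ : (G - 1) / algebraMap K F ((p : K) * (ζ - 1)) ∈ S.c₁.V)
    (hG₂ : (G - 1) / algebraMap K F ((p : K) * (ζ - 1)) ∈ S.c₂.V) :
    S.c₁.InM (((σ • G) / G ^ a - 1) / algebraMap K F ((p : K) * (ζ - 1))) ∧
      S.c₂.InM (((σ • G) / G ^ a - 1) / algebraMap K F ((p : K) * (ζ - 1))) := by
  refine ⟨toricChi_pred σ hσ.mem₁ (fun f hf => ?_) hσζ ⟨hπ.mem₁, hπ.rd₁⟩ hd0 hG₁,
    toricChi_pred σ hσ.mem₂ (fun f hf => ?_) hσζ ⟨hπ.mem₂, hπ.rd₂⟩ hd0 hG₂⟩
  · rw [S.c₁.rd_of_mem (hσ.mem₁ f hf), S.c₁.rd_of_mem hf]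
    exact hσ.red₁ f hf _
  · rw [S.c₂.rd_of_mem (hσ.mem₂ f hf), S.c₂.rd_of_mem hf]
    exact hσ.red₂ f hf _

section Ord

variable {K F : Type*} [Field K] [Field F] [Algebra K F]

theorem ord_smul_inv (σ : SemilinearAut K F) (P : Place K F) (x : F) :
    P.ord (σ • x) = (σ⁻¹ • P).ord x := by
  have := SemilinearAut.ord_smul σ (σ⁻¹ • P) x
  rwa [smul_inv_smul] at this

theorem ord_toric (σ : SemilinearAut K F) (P : Place K F) {G : F} (hG : G ≠ 0) (a : ℕ) :
    P.ord ((σ • G) / G ^ a) = (σ⁻¹ • P).ord G - a * P.ord G := by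
  have hσG : σ • G ≠ 0 := by
    rw [SemilinearAut.smul_def]
    exact (map_ne_zero_iff _ (SemilinearAut.toRingAut σ).injective).mpr hG
  rw [Fermat.Agent.RED.H17.ord_div P hσG (pow_ne_zero a hG), ord_smul_inv,
    Fermat.Agent.RED.H17.ord_pow]

/-- `p ∣ div F'` implies `p ∣ div (σ F' / F' ^ a)`. -/
theorem toricChi_dvd (σ : SemilinearAut K F) {G : F} (hG : G ≠ 0) (a : ℕ) (n : ℤ)
    (h : ∀ P : Place K F, n ∣ P.ord G) (P : Place K F) : n ∣ P.ord ((σ • G) / G ^ a) := by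
  rw [ord_toric σ P hG a]
  exact dvd_sub (h _) (Dvd.dvd.mul_left (h P) _)

end Ord

/-- If `F'` has neither zero nor pole over the node `s`, so has `σ F' / F' ^ a`. -/
theorem toricChi_ord (σ : SemilinearAut K F) (hσ : S.IsInertial σ) {G : F} (hG : G ≠ 0)
    (a : ℕ) (s : Place k F₁ × Place k F₂)
    (h : ∀ P : Place K F, S.c₁.r P = some s.1 → P.ord G = 0) (P : Place K F)
    (hP : S.c₁.r P = some s.1) : P.ord ((σ • G) / G ^ a) = 0 := by
  rw [ord_toric σ P hG a, h P hP, mul_zero, sub_zero]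
  refine h _ ?_
  have := hσ.r₁ (σ⁻¹ • P)
  rw [smul_inv_smul] at this
  exact this.symm.trans hP

end Fermat.Agent.BADP.H97
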