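import Fermat.Agent.BADP.H86_AbsP
import Fermat.Agent.BADP.H51_CanonP
import Fermat.Agent.BADP.H18_NSStep
import Fermat.Agent.BADP.H97_ToricChi

/-!
# S33, `p`-new case: ABSP-WIRE (helper19)

`absP_of` : the abstract form of (T3), `BADP.H86.Stmt_ABSP`, from the leaves

* MOVE-p (`BADP.H51.stmt_MoveP`), CANON-p (`BADP.H51.stmt_CanonP`), NS-STEP
  (`BADP.H18.nsStep`), TORIC-CHI (`BADP.H97.toricChi`), all landed;
* **(E)** TI-p in the form `Stmt_TIssPW` (the only hypothesis of `absP_of`).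

Also: the arithmetic of `π = ζ - 1` over the constants of a datum with `char k = p`
(`zeta_mem`, `rd_zeta`, `isCM_zeta_sub_one`, `rd_pi_pow_div`).
-/

set_option autoImplicit false
set_option linter.style.haveILetI false
set_option maxHeartbeats 1000000

noncomputable section

open AlgebraicCurve

attribute [local instance] Classical.propDecidable

namespace Fermat.Agent.BADP.H19

open Fermat.Agent.RED.H17 Fermat.Agent.RED Fermat.Agent.BAD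

section Zeta

variable {K F k F₁ F₂ : Type} [Field K] [Field F] [Algebra K F] [Field k] [Field F₁]
  [Algebra k F₁] [Field F₂] [Algebra k F₂] (S : SSD K F k F₁ F₂)

/-- A root of unity is integral. -/
theorem zeta_mem {p : ℕ} (hp : p.Prime) {ζ : K} (hζ : ζ ^ p = 1) :
    algebraMap K F ζ ∈ S.c₁.V := by
  rcases S.c₁.const_mem_or_inv_mem ζ with h | h
  · exact h
  · have e : ζ = ζ⁻¹ ^ (p - 1) := by
      have hζ0 : ζ ≠ 0 := by
        rintro rfl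
        rw [zero_pow hp.ne_zero] at hζ
        exact zero_ne_one hζ
      have h1 : ζ ^ (p - 1) * ζ = 1 := by
        rw [← pow_succ, Nat.sub_add_cancel hp.one_le, hζ]
      rw [inv_pow]
      exact eq_inv_of_mul_eq_one_right h1
    rw [e, map_pow]
    exact S.c₁.V.pow_mem h _

/-- A `p`-th root of unity reduces to `1` in characteristic `p`. -/
theorem rd_zeta {p : ℕ} (hp : p.Prime) [CharP k p] {ζ : K} (hζ : ζ ^ p = 1) :
    S.c₁.rd (algebraMap K F ζ) = 1 := by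
  haveI : Fact p.Prime := ⟨hp⟩
  haveI : CharP F₁ p := charP_of_injective_algebraMap (algebraMap k F₁).injective p
  have hm := zeta_mem S hp hζ
  have h1 : S.c₁.rd (algebraMap K F ζ) ^ p = 1 := by
    rw [← S.c₁.rd_pow hm, ← map_pow, hζ, map_one, S.c₁.rd_one]
  have h2 : (S.c₁.rd (algebraMap K F ζ) - 1) ^ p = 0 := by
    rw [sub_pow_char, h1, one_pow, sub_self]
  exact sub_eq_zero.mp (pow_eq_zero_iff hp.ne_zero |>.mp h2)

/-- `π = ζ - 1` lies in the maximal ideal of the constants. -/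
theorem isCM_zeta_sub_one {p : ℕ} (hp : p.Prime) [CharP k p] {ζ : K} (hζ : ζ ^ p = 1) :
    S.IsCM (ζ - 1) := by
  have hm := zeta_mem S hp hζ
  refine ⟨?_, ?_⟩
  · rw [map_sub, map_one]
    exact S.c₁.V.sub_mem hm S.c₁.V.one_mem
  · rw [map_sub, map_one, S.c₁.rd_sub hm S.c₁.V.one_mem, rd_zeta S hp hζ, S.c₁.rd_one,
      sub_self]

/-- `π ^ (p - 1) / p` is integral with reduction `-1`, `π = ζ - 1`. -/
theorem rd_pi_pow_div {p : ℕ} (hp : p.Prime) [CharP k p] (hpK : (p : K) ≠ 0) {ζ : K}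
    (hζ : ζ ^ p = 1) (hζ1 : ζ ≠ 1) :
    algebraMap K F ((ζ - 1) ^ (p - 1) / (p : K)) ∈ S.c₁.V ∧
      S.c₁.rd (algebraMap K F ((ζ - 1) ^ (p - 1) / (p : K))) = -1 := by
  have hCM := isCM_zeta_sub_one S hp hζ
  set x : F := algebraMap K F (ζ - 1) with hx
  have hxV : x ∈ S.c₁.V := hCM.1
  have hx0 : x ≠ 0 :=
    (map_ne_zero_iff _ (algebraMap K F).injective).mpr (sub_ne_zero.mpr hζ1)
  have hpF : (p : F) ≠ 0 := by
    have : (p : F) = algebraMap K F (p : K) := by simp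
    rw [this]
    exact (map_ne_zero_iff _ (algebraMap K F).injective).mpr hpK
  obtain ⟨r, hr, hexp⟩ := S.c₁.one_add_pow_prime_mem hp hxV
  have h1 : (1 + x) ^ p = 1 := by
    rw [hx, ← map_one (algebraMap K F), ← map_add, ← map_pow]
    rw [show (1 : K) + (ζ - 1) = ζ by ring, hζ]
  have hxp : x ^ p = x ^ (p - 1) * x := by
    rw [← pow_succ, Nat.sub_add_cancel hp.one_le]
  have h2 : x * ((p : F) + (p : F) * x * r + x ^ (p - 1)) = 0 := by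
    have := hexp
    rw [h1, hxp] at this
    linear_combination -this
  have h3 : (p : F) + (p : F) * x * r + x ^ (p - 1) = 0 := by
    rcases mul_eq_zero.mp h2 with h | h
    · exact absurd h hx0
    · exact h
  have h4 : algebraMap K F ((ζ - 1) ^ (p - 1) / (p : K)) = -(1 + x * r) := by
    rw [map_div₀, map_pow, map_natCast, ← hx]
    field_simp
    linear_combination h3
  have hxr : x * r ∈ S.c₁.V := S.c₁.V.mul_mem _ _ hxV hr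
  have h5 : 1 + x * r ∈ S.c₁.V := S.c₁.V.add_mem _ _ S.c₁.V.one_mem hxr
  refine ⟨by rw [h4]; exact S.c₁.V.neg_mem _ h5, ?_⟩
  rw [h4, S.c₁.rd_neg h5, S.c₁.rd_add S.c₁.V.one_mem hxr, S.c₁.rd_mul hxV hr, hCM.2, zero_mul,
    add_zero, S.c₁.rd_one]

end Zeta

/-- **(E) TI-p**, in the shape used by the wiring. -/
def Stmt_TIssPW : Prop :=
  ∀ (K F k F₁ F₂ : Type) [Field K] [Field F] [Algebra K F] [Field k] [Field F₁]
    [Algebra k F₁] [Field F₂] [Algebra k F₂] [IsAlgClosed K] [IsAlgClosed k]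
    (S : SSD K F k F₁ F₂), FFHyp K F → FFHyp k F₁ → FFHyp k F₂ →
    ∀ (g g₁ g₂ : ℕ) (c c₁ c₂ : ℤ), IsGenus K F g c → IsGenus k F₁ g₁ c₁ → IsGenus k F₂ g₂ c₂ →
    g + 1 ≤ g₁ + g₂ + S.nodes.card →
    ∀ (p : ℕ), p.Prime → p ≠ 2 → CharP k p → (p : K) ≠ 0 →
    ∀ (π : K), S.IsCM π → π ≠ 0 → S.c₁.rd (algebraMap K F (π ^ (p - 1) / (p : K))) = -1 →
    ∀ (f : F), S.c₁.InM ((f - 1) / algebraMap K F ((p : K) * π)) →
      S.c₂.InM ((f - 1) / algebraMap K F ((p : K) * π)) →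
      (∀ P : Place K F, (p : ℤ) ∣ P.ord f) → (∀ P : Place K F, S.IsNodeP P → P.ord f = 0) →
      ∃ t : F, t ^ p = f

/-- **ABSP-WIRE**: the abstract form of (T3) from TI-p. -/
theorem absP_of (hE : Stmt_TIssPW) : H86.Stmt_ABSP := by
  intro K F k F₁ F₂ _ _ _ _ _ _ _ _ _ _ S H H₁ H₂ g g₁ g₂ c c₁ c₂ hR hR₁ hR₂ hnum p hp hp2
    hchar hpK ζ hζ hζ1 σ hσ a hσζ f hf₁ hrd₁ hdiv hR2 hPW
  haveI : CharP k p := hchar
  haveI : Infinite k := IsAlgClosed.instInfinite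
  have hP := H.principal
  obtain ⟨f', h₀, a', hf', hrd', hfeq⟩ := hR2
  -- MOVE-p
  obtain ⟨h, hh0, hF₁, hF₂, hFrd₁, hFrd₂, hFnode⟩ :=
    H51.stmt_MoveP K F k F₁ F₂ S H H₁ H₂ g g₁ g₂ c c₁ c₂ hR hR₁ hR₂ hnum p hp hchar f hf₁ hrd₁
      hdiv f' h₀ a' hf' hrd' hfeq
  have hf0 : f ≠ 0 := by
    rintro rfl
    rw [S.c₁.rd_zero] at hrd₁
    exact zero_ne_one hrd₁
  have hFdiv : ∀ P : Place K F, (p : ℤ) ∣ P.ord (f * h ^ p) := by
    intro P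
    rw [P.ord_mul hf0 (pow_ne_zero _ hh0), ord_pow]
    exact dvd_add (hdiv P) (dvd_mul_right _ _)
  -- the place at infinity
  obtain ⟨Qinf, hQinf⟩ := H₁.exists_notMem S.br₁
  have hQinfg : Qinf ∈ S.c₁.good := S.good₁_of_notMem hQinf
  obtain ⟨Pinf, hPinf⟩ := S.c₁.r_surjective hP Qinf hQinfg
  -- CANON-p
  obtain ⟨A₁, A₂, s₁, s₂, h', a₁, a₂, X₁, X₂, hd₁, hd₂, hNS, hQinfA, -, hs₁, hs₂, hh'₁, hh'₂,
    hh'rd₁, hh'rd₂, hcan⟩ :=
    H51.stmt_CanonP K F k F₁ F₂ S H H₁ H₂ g g₁ g₂ c c₁ c₂ hR hR₁ hR₂ hnum p hp hchar (f * h ^ p)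
      hF₁ hF₂ hFrd₁ hFrd₂ hFdiv hFnode Pinf Qinf hQinfg hPinf
  have hK : S.KeyHyp A₁ A₂ s₁ s₂ := ⟨hd₁, hd₂, hs₁, hs₂⟩
  have hh'0 : h' ≠ 0 := by
    rintro rfl
    rw [S.c₁.rd_zero] at hh'rd₁
    exact zero_ne_one hh'rd₁
  set w : F := h * h' with hw
  have hw0 : w ≠ 0 := mul_ne_zero hh0 hh'0
  set G : F := f * h ^ p * h' ^ p with hG
  have hGw : G = f * w ^ p := by rw [hG, hw, mul_pow]; ring
  have hG0 : G ≠ 0 := by rw [hGw]; exact mul_ne_zero hf0 (pow_ne_zero _ hw0)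
  -- NS-STEP
  set π : K := ζ - 1 with hπ
  obtain ⟨hπV, hπrd⟩ := rd_pi_pow_div S hp hpK hζ hζ1
  have hπCM : S.IsCM π := isCM_zeta_sub_one S hp hζ
  have hπ0 : π ≠ 0 := sub_ne_zero.mpr hζ1
  have hπGU : S.c₁.IsGU (algebraMap K F (π ^ (p - 1) / (p : K))) :=
    ⟨hπV, by rw [hπrd]; exact neg_ne_zero.mpr one_ne_zero⟩
  have hk : ∀ e : k, ∃ e' : k, e' ^ p = e := fun e =>
    IsAlgClosed.exists_pow_nat_eq e hp.pos
  have hPWG : ∀ (c₀ : K) (φ : F), c₀ ≠ 0 → S.IsCM c₀ → S.IsCM ((p : K) ^ p / c₀ ^ (p - 1)) →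
      φ ∈ S.c₁.V → φ ∈ S.c₂.V → G = 1 + algebraMap K F c₀ * φ →
      (∃ ψ : F₁, S.c₁.rd φ = ψ ^ p) ∧ ∃ ψ : F₂, S.c₂.rd φ = ψ ^ p := by
    intro c₀ φ hc₀ hc₀M hdep hφ₁ hφ₂ hGφ
    refine hPW w φ 1 c₀ hw0 one_ne_zero hc₀ hc₀M hdep ?_ hφ₁ hφ₂
    rw [map_one, one_mul, ← hGw, hGφ]
  obtain ⟨hdep₁, hdep₂⟩ := H18.nsStep S H p hp hk A₁ A₂ hNS s₁ s₂ hK G hcan.mem₁ hcan.mem₂
    hcan.rd₁ hcan.rd₂ Pinf Qinf hQinfg hQinfA hPinf hcan.inf a₁ a₂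
    (fun P h1 h2 => le_of_eq (hcan.off P h1 h2).symm) hcan.on₁ hcan.on₂ π hπGU
    (fun c₀ φ h1 h2 h3 h4 h5 h6 => (hPWG c₀ φ h1 h2 h3 h4 h5 h6).1)
    (fun c₀ φ h1 h2 h3 h4 h5 h6 => (hPWG c₀ φ h1 h2 h3 h4 h5 h6).2)
  -- TORIC-CHI
  have hGdiv : ∀ P : Place K F, (p : ℤ) ∣ P.ord G := by
    intro P
    rw [hGw, P.ord_mul hf0 (pow_ne_zero _ hw0), ord_pow]
    exact dvd_add (hdiv P) (dvd_mul_right _ _)
  have hGnode : ∀ P : Place K F, S.IsNodeP P → P.ord G = 0 := by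
    rintro P ⟨t, ht, hPt⟩
    exact hcan.off P (hK.off_of_node ht hPt).1 (hK.off_of_node ht hPt).2
  obtain ⟨hg₁, hg₂⟩ := H97.toricChi S σ hσ hσζ hπCM (mul_ne_zero hpK hπ0) hdep₁ hdep₂
  have hgdiv : ∀ P : Place K F, (p : ℤ) ∣ P.ord ((σ • G) / G ^ a) :=
    H97.toricChi_dvd σ hG0 a (p : ℤ) hGdiv
  have hgnode : ∀ P : Place K F, S.IsNodeP P → P.ord ((σ • G) / G ^ a) = 0 := by
    rintro P ⟨s, hs, hPs⟩
    exact H97.toricChi_ord S σ hσ hG0 a s (fun P' hP' => hGnode P' ⟨s, hs, hP'⟩) P hPs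
  -- TI-p
  obtain ⟨t, ht⟩ := hE K F k F₁ F₂ S H H₁ H₂ g g₁ g₂ c c₁ c₂ hR hR₁ hR₂ hnum p hp hp2 hchar
    hpK π hπCM hπ0 hπrd ((σ • G) / G ^ a) hg₁ hg₂ hgdiv hgnode
  -- conclusion
  have hσw0 : σ • w ≠ 0 := by
    intro h0
    apply hw0
    have := congrArg (fun y => σ⁻¹ • y) h0
    simpa using this
  have hσG : σ • G = (σ • f) * (σ • w) ^ p := by
    rw [hGw, smul_mul', smul_pow']
  refine ⟨t * w ^ a / (σ • w), ?_⟩
  rw [div_pow, mul_pow, ht, hσG, hGw]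
  have hfa : f ^ a ≠ 0 := pow_ne_zero _ hf0
  field_simp
  ring

/-- **(E) TI-p**, in the shape announced by helper28 (`BADP.H28.Stmt_TIp`, same text). -/
def Stmt_TIpX : Prop :=
  ∀ (K F k F₁ F₂ : Type) [Field K] [Field F] [Algebra K F] [Field k] [Field F₁]
    [Algebra k F₁] [Field F₂] [Algebra k F₂] [IsAlgClosed K] [Infinite k]
    (S : SSD K F k F₁ F₂), FFHyp K F → FFHyp k F₁ → FFHyp k F₂ →
    ∀ (g g₁ g₂ : ℕ) (c c₁ c₂ : ℤ), IsGenus K F g c → IsGenus k F₁ g₁ c₁ → IsGenus k F₂ g₂ c₂ →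
    g + 1 ≤ g₁ + g₂ + S.nodes.card →
    ∀ (p : ℕ), p.Prime → CharP k p →
    ∀ (π : K), S.c₁.rd (algebraMap K F (π ^ (p - 1) / (p : K))) = -1 →
    ∀ (f : F), S.c₁.InM ((f - 1) / algebraMap K F ((p : K) * π)) →
      S.c₂.InM ((f - 1) / algebraMap K F ((p : K) * π)) →
      (∀ P : Place K F, (p : ℤ) ∣ P.ord f) → (∀ P : Place K F, S.IsNodeP P → P.ord f = 0) →
      ∃ h : F, f = h ^ p

/-- Adaptor between the two shapes of TI-p. -/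
theorem tIssPW_of_tIpX (h : Stmt_TIpX) : Stmt_TIssPW := by
  intro K F k F₁ F₂ _ _ _ _ _ _ _ _ _ _ S H H₁ H₂ g g₁ g₂ c c₁ c₂ hR hR₁ hR₂ hnum p hp _ hchar _
    π _ _ hπrd f hf₁ hf₂ hdiv hnode
  haveI : Infinite k := IsAlgClosed.instInfinite
  obtain ⟨t, ht⟩ := h K F k F₁ F₂ S H H₁ H₂ g g₁ g₂ c c₁ c₂ hR hR₁ hR₂ hnum p hp hchar π hπrd f
    hf₁ hf₂ hdiv hnode
  exact ⟨t, ht.symm⟩

/-- **ABSP-WIRE**, from TI-p in helper28's shape. -/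
theorem absP_of_tIpX (h : Stmt_TIpX) : H86.Stmt_ABSP := absP_of (tIssPW_of_tIpX h)

end Fermat.Agent.BADP.H19
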