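import Fermat.Agent.S15.Desc.H67_Coord
import Fermat.Agent.BAD.H28_ABS
import Fermat.Agent.BAD.H60_Coords

/-!
# S44 / S43 / S15, package COORD (helper21): annulus coordinates at the nodes, abstract form

`S` a semistable Deuring datum (`BAD.SSD`) satisfying Riemann's theorem and the numerical
inequality `g + 1 ≤ g₁ + g₂ + δ` (so that helper28/helper60's good lifts `H28.stmt_GoodLift` are
available), `s` a node, `F0` a subfield of `F` (modular: the functions fixed by the inertia group)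
and `c₀` a constant of `F0` of the maximal ideal (modular: `c₀ = q`).

* `exists_lift` : **LIFT**, every function on the second component which is regular at `s.2` is
  the second reduction of a function integral for both valuations without pole on the fibre of `s`
  (quotient of two good lifts);
* `exists_start` : **START**, a function integral for both valuations, without pole on the fibre
  of `s`, whose first reduction has a simple zero at `s.1` and whose second reduction is `0`;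
* `exists_isAnnCoord_of_goodLift` : **COORD**, from
  (K0) every function integral for both valuations without pole on the fibre of `s` has a
       companion in `F0` with the same two reductions and without pole on the fibre of `s`
       (modular: helper93's ARITH-0, the `K₀`-rational part),
  (DISC) `F0 ∩ 𝔪_{V₂} = c₀ (F0 ∩ V₂)`,
  (UNIT) a unit `U` for `V₁` without zero or pole on the fibre, `a = ord_{s.1} (red₁ U) > 0`,
       `U / c₀ ^ w` a unit for `V₂`,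
  there are `t ∈ F0` and `n ≥ 1` with `S.IsAnnCoord s t (c₀ ^ n)` and `n a = w`
  (helper67's `exists_isAnnCoord`).
-/

set_option autoImplicit false
set_option linter.style.haveILetI false
set_option linter.unusedSectionVars false

noncomputable section

open AlgebraicCurve

attribute [local instance] Classical.propDecidable

namespace Fermat.Agent.BADP.H21

open Fermat.Agent.RED.H17 Fermat.Agent.RED Fermat.Agent.BAD Fermat.Agent.S15.Desc.H67

variable {K F k F₁ F₂ : Type} [Field K] [Field F] [Algebra K F] [Field k] [Field F₁]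
  [Algebra k F₁] [Field F₂] [Algebra k F₂] [Infinite k]
  (S : SSD K F k F₁ F₂) (H : FFHyp K F) (H₁ : FFHyp k F₁) (H₂ : FFHyp k F₂)
  {g g₁ g₂ : ℕ} {c c₁ c₂ : ℤ} (hR : IsGenus K F g c) (hR₁ : IsGenus k F₁ g₁ c₁)
  (hR₂ : IsGenus k F₂ g₂ c₂) (hnum : g + 1 ≤ g₁ + g₂ + S.nodes.card)

/-- Interpolation on the first component: a function with prescribed values at the first
branches of the nodes. -/
theorem exists_values₁ (a : Place k F₁ × Place k F₂ → k) :
    ∃ y : F₁, ∀ s ∈ S.nodes, VanAt s.1 (y - algebraMap k F₁ (a s)) := by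
  obtain ⟨y, hy⟩ := H51.exists_approx (S.nodes.image Prod.fst)
    (fun v => if h : ∃ s ∈ S.nodes, s.1 = v then algebraMap k F₁ (a h.choose) else 0) 1
  refine ⟨y, fun s hs => ?_⟩
  have hmem : s.1 ∈ S.nodes.image Prod.fst := Finset.mem_image_of_mem _ hs
  have h1 := hy s.1 hmem
  have hex : ∃ s' ∈ S.nodes, s'.1 = s.1 := ⟨s, hs, rfl⟩
  rw [dif_pos hex] at h1
  have h2 : hex.choose = s := S.inj₁ _ hex.choose_spec.1 s hs hex.choose_spec.2
  rw [h2] at h1
  rw [vanAt_iff_ord]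
  rcases h1 with h1 | h1
  · exact Or.inl h1
  · exact Or.inr (by omega)

include H H₁ H₂ hR hR₁ hR₂ hnum in
/-- **LIFT**: a function on the second component, regular at `s.2`, is the second reduction of a
function integral for both valuations without pole on the fibre of `s`. -/
theorem exists_lift {s : Place k F₁ × Place k F₂} (hs : s ∈ S.nodes) (ψ : F₂)
    (hψ : 0 ≤ s.2.ord ψ) :
    ∃ u : F, u ∈ S.c₁.V ∧ u ∈ S.c₂.V ∧ S.c₂.rd u = ψ ∧ PoleFree S s u := by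
  rcases eq_or_ne ψ 0 with rfl | hψ0
  · refine ⟨0, S.c₁.V.zero_mem, S.c₂.V.zero_mem, S.c₂.rd_zero, fun P _ => ?_⟩
    rw [Place.ord_zero]
  -- the denominator on the second component
  obtain ⟨d₂, hd₂0, hd₂⟩ := H51.exists_ord_eq_family (S.nodes.image Prod.snd)
    (fun v => max 0 (-(v.ord ψ)))
  have hd₂s : ∀ s' ∈ S.nodes, s'.2.ord d₂ = max 0 (-(s'.2.ord ψ)) := fun s' hs' =>
    hd₂ s'.2 (Finset.mem_image_of_mem _ hs')
  have hd₂s0 : s.2.ord d₂ = 0 := by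
    rw [hd₂s s hs]
    exact max_eq_left (by omega)
  set y₂ : F₂ := ψ * d₂ with hy₂
  have hy₂reg : ∀ s' ∈ S.nodes, 0 ≤ s'.2.ord y₂ := by
    intro s' hs'
    rw [hy₂, s'.2.ord_mul hψ0 hd₂0, hd₂s s' hs']
    have := le_max_right 0 (-(s'.2.ord ψ))
    omega
  have hd₂reg : ∀ s' ∈ S.nodes, 0 ≤ s'.2.ord d₂ := by
    intro s' hs'
    rw [hd₂s s' hs']
    exact le_max_left _ _
  -- the values at the second branches
  have hvy : ∀ s' : Place k F₁ × Place k F₂, ∃ a : k, s' ∈ S.nodes →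
      VanAt s'.2 (y₂ - algebraMap k F₂ a) := by
    intro s'
    by_cases hs' : s' ∈ S.nodes
    · obtain ⟨a, ha⟩ := exists_value s'.2 (H₂.deg_one s'.2)
        (regAt_of_ord_nonneg (hy₂reg s' hs'))
      exact ⟨a, fun _ => ha⟩
    · exact ⟨0, fun h => absurd h hs'⟩
  choose ay hay using hvy
  have hvd : ∀ s' : Place k F₁ × Place k F₂, ∃ a : k, s' ∈ S.nodes →
      VanAt s'.2 (d₂ - algebraMap k F₂ a) := by
    intro s'
    by_cases hs' : s' ∈ S.nodes
    · obtain ⟨a, ha⟩ := exists_value s'.2 (H₂.deg_one s'.2)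
        (regAt_of_ord_nonneg (hd₂reg s' hs'))
      exact ⟨a, fun _ => ha⟩
    · exact ⟨0, fun h => absurd h hs'⟩
  choose ad had using hvd
  have hads : ad s ≠ 0 := by
    intro h0
    have h1 := had s hs
    rw [h0, map_zero, sub_zero] at h1
    have := h1.ord_pos hd₂0
    omega
  -- the functions on the first component
  obtain ⟨y₁, hy₁⟩ := exists_values₁ S ay
  obtain ⟨d₁, hd₁⟩ := exists_values₁ S ad
  have hd₁0 : d₁ ≠ 0 := (H60.ord_eq_zero_of_vanAt_sub hads (hd₁ s hs)).1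
  -- the good lifts
  obtain ⟨u, hu₁, hu₂, hur₁, hur₂, -, -, hureg⟩ :=
    BAD.H28.stmt_GoodLift K F k F₁ F₂ S H H₁ H₂ g g₁ g₂ c c₁ c₂ hR hR₁ hR₂ hnum y₁ y₂ ∅ ∅
      (fun Q hQ => absurd hQ (Finset.notMem_empty Q))
      (fun Q hQ => absurd hQ (Finset.notMem_empty Q))
      (fun s' hs' => ⟨ay s', hy₁ s' hs', hay s' hs'⟩)
  obtain ⟨v, hv₁, hv₂, hvr₁, hvr₂, -, -, hvreg⟩ :=
    BAD.H28.stmt_GoodLift K F k F₁ F₂ S H H₁ H₂ g g₁ g₂ c c₁ c₂ hR hR₁ hR₂ hnum d₁ d₂ ∅ ∅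
      (fun Q hQ => absurd hQ (Finset.notMem_empty Q))
      (fun Q hQ => absurd hQ (Finset.notMem_empty Q))
      (fun s' hs' => ⟨ad s', hd₁ s' hs', had s' hs'⟩)
  have hvregs : ∀ P, S.c₁.r P = some s.1 → 0 ≤ P.ord v := fun P hP => hvreg P ⟨s, hs, hP⟩
  have huregs : ∀ P, S.c₁.r P = some s.1 → 0 ≤ P.ord u := fun P hP => hureg P ⟨s, hs, hP⟩
  obtain ⟨hG₁, hG₂, hvz⟩ := S.ord_eq_zero_of_value₁ H.principal hs hv₁ hv₂ hvregs hads
    (by rw [hvr₁]; exact hd₁ s hs)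
  refine ⟨u * v⁻¹, S.c₁.V.mul_mem _ _ hu₁ hG₁.inv.1, S.c₂.V.mul_mem _ _ hu₂ hG₂.inv.1, ?_, ?_⟩
  · rw [S.c₂.rd_mul hu₂ hG₂.inv.1, hG₂.rd_inv, hur₂, hvr₂, hy₂, mul_assoc,
      mul_inv_cancel₀ hd₂0, mul_one]
  · intro P hP
    rcases eq_or_ne u 0 with rfl | hu0
    · rw [zero_mul, Place.ord_zero]
    rw [P.ord_mul hu0 (inv_ne_zero hG₁.ne_zero), P.ord_inv, hvz P hP]
    have := huregs P hP
    omega

include H H₁ H₂ hR hR₁ hR₂ hnum in
/-- **START**: a function integral for both valuations without pole on the fibre of `s`, whose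
first reduction has a simple zero at `s.1` and whose second reduction is `0`. -/
theorem exists_start {s : Place k F₁ × Place k F₂} (hs : s ∈ S.nodes) :
    ∃ x : F, x ∈ S.c₁.V ∧ x ∈ S.c₂.V ∧ s.1.ord (S.c₁.rd x) = 1 ∧ S.c₂.rd x = 0 ∧
      PoleFree S s x := by
  obtain ⟨y₁, hy₁0, hy₁⟩ := H51.exists_ord_eq_family (S.nodes.image Prod.fst) (fun _ => 1)
  have hy₁s : ∀ s' ∈ S.nodes, s'.1.ord y₁ = 1 := fun s' hs' =>
    hy₁ s'.1 (Finset.mem_image_of_mem _ hs')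
  obtain ⟨u, hu₁, hu₂, hur₁, hur₂, -, -, hureg⟩ :=
    BAD.H28.stmt_GoodLift K F k F₁ F₂ S H H₁ H₂ g g₁ g₂ c c₁ c₂ hR hR₁ hR₂ hnum y₁ 0 ∅ ∅
      (fun Q hQ => absurd hQ (Finset.notMem_empty Q))
      (fun Q hQ => absurd hQ (Finset.notMem_empty Q))
      (fun s' hs' => ⟨0, by
        rw [map_zero, sub_zero, vanAt_iff_ord]
        exact Or.inr (by rw [hy₁s s' hs']; exact one_pos), by
        rw [map_zero, sub_zero, vanAt_iff_ord]
        exact Or.inl rfl⟩)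
  exact ⟨u, hu₁, hu₂, by rw [hur₁]; exact hy₁s s hs, hur₂, fun P hP => hureg P ⟨s, hs, hP⟩⟩

include H H₁ H₂ hR hR₁ hR₂ hnum in
/-- **COORD, abstract form**: an annulus coordinate in `F0` at the node `s`, of thickness
`c₀ ^ n`, `n a = w`. -/
theorem exists_isAnnCoord_of_goodLift {s : Place k F₁ × Place k F₂} (hs : s ∈ S.nodes)
    {c₀ : K} (hc₀ : c₀ ≠ 0) (hϖ₁ : algebraMap K F c₀ ∈ S.c₁.V)
    (hϖ0 : S.c₁.rd (algebraMap K F c₀) = 0)
    (F0 : Subfield F) (hϖF : algebraMap K F c₀ ∈ F0)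
    (hK0 : ∀ u : F, u ∈ S.c₁.V → u ∈ S.c₂.V → PoleFree S s u →
      ∃ u0 ∈ F0, u0 ∈ S.c₁.V ∧ u0 ∈ S.c₂.V ∧ S.c₁.rd u0 = S.c₁.rd u ∧
        S.c₂.rd u0 = S.c₂.rd u ∧ PoleFree S s u0)
    (hdisc : ∀ f ∈ F0, f ∈ S.c₂.V → S.c₂.rd f = 0 → f / algebraMap K F c₀ ∈ S.c₂.V)
    {U : F} (hU : S.c₁.IsGU U) (hUzf : ZeroFree S s U) {w : ℕ}
    (hU₂ : S.c₂.IsGU (U / algebraMap K F c₀ ^ w)) {a : ℕ} (ha0 : 0 < a)
    (ha : s.1.ord (S.c₁.rd U) = a) :
    ∃ t ∈ F0, ∃ n : ℕ, 0 < n ∧ S.IsAnnCoord s t (c₀ ^ n) ∧ n * a = w := by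
  obtain ⟨x, hx₁, hx₂, hxo, hxr, hxpf⟩ := exists_start S H H₁ H₂ hR hR₁ hR₂ hnum hs
  obtain ⟨x₀, hx₀F, hx₀₁, hx₀₂, hx₀r₁, hx₀r₂, hx₀pf⟩ := hK0 x hx₁ hx₂ hxpf
  refine exists_isAnnCoord hs H.principal hc₀ hϖ₁ hϖ0 F0 hϖF ?_ hdisc hU hUzf hU₂ ha0 ha
    hx₀F hx₀₁ (by rw [hx₀r₁]; exact hxo) hx₀₂ (by rw [hx₀r₂]; exact hxr) hx₀pf
  intro ψ hψ
  obtain ⟨u, hu₁, hu₂, hur, hupf⟩ := exists_lift S H H₁ H₂ hR hR₁ hR₂ hnum hs ψ hψ
  obtain ⟨u0, hu0F, hu0₁, hu0₂, -, hu0r₂, hu0pf⟩ := hK0 u hu₁ hu₂ hupf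
  exact ⟨u0, hu0F, hu0₁, hu0₂, by rw [hu0r₂]; exact hur, hu0pf⟩

end Fermat.Agent.BADP.H21
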