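import Fermat.Agent.BADP.H21_CoordK0
import Fermat.Agent.BADP.H11_Arith0Mod

/-!
# S44 / S43 / S15, package COORD (helper21): the unconditional form

Level `N = M q`, `q ∤ M` tame (`H91.TameAt M q`), `A` a place of `ℚ̄` over `q`,
`theS = H21.theS A q M a b hab hq hA hqM ht` the modular semistable Deuring datum.

* `isModDatum_theS` : `theS` is a modular datum in the sense of helper93's `BADP.IsModDatum`
  (any tame `(M, q)`);
* `isK0Lift_theS` : (K0) for `theS` (helper11's ARITH-0);
* `coord_final` : **COORD, unconditional**: at every node `s` of `theS` there are `n ≥ 1`,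
  `n ∣ 12`, and a function `t` fixed by the inertia group with `IsAnnCoord s t (q ^ n)`;
* `theS_cusp_good`, `theS_unit` : the cusps are good places; the modular unit at the nodes.
-/

set_option autoImplicit false
set_option linter.style.haveILetI false
set_option linter.unusedSectionVars false
set_option synthInstance.maxHeartbeats 400000
set_option maxHeartbeats 1000000

noncomputable section

open HahnSeries IntermediateField AlgebraicCurve ModularCurve
open Fermat.Agent.S28.H73 Fermat.Agent.RED.H73 Fermat.Agent.RED Fermat.Agent.S24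
open Fermat.Agent.BAD.H88

namespace Fermat.Agent.BADP.H21

open Fermat.Agent.BAD Fermat.Agent.BAD.H91 Fermat.Agent.S15.Desc.H67

attribute [local instance 5000] SubalgebraClass.toAlgebra

section Final

variable (A : ValuationSubring Kbar) (q M : ℕ) (a b : ℤ) (hab : a * q + b * M = 1)
  (hq : q.Prime) [NeZero M] [NeZero (M * q)] [NeZero q] (hA : A.LiesOverPrime q)
  (hqM : ¬ q ∣ M) (ht : TameAt M q)

/-- **The modular datum is a modular datum** (any tame `(M, q)`). -/
theorem isModDatum_theS :
    IsModDatum A q M a b hab hq (theS A q M a b hab hq hA hqM ht) where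
  mem₁ := fun _ => Iff.rfl
  red₁ := fun _ _ => rfl
  mem₂ := fun _ => Iff.rfl
  red₂ := fun _ _ _ => rfl
  ff := ffL q M
  ff₁ := ff1 A q M a b hab hq hA hqM ht
  genus := modS_genus A q M a b hab hq hA hqM ht (totModAt A q M a b hab hq hA hqM ht)
  inertial := fun _ hσ =>
    modS_inertial A q M a b hab hq hA hqM ht (totModAt A q M a b hab hq hA hqM ht) hσ

/-- **(K0)** for the modular datum (helper11's ARITH-0). -/
theorem isK0Lift_theS :
    IsK0Lift (theS A q M a b hab hq hA hqM ht) (inertiaSet A (M * q)) :=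
  Fermat.Agent.BADP.H11.isK0Lift_mod hA (isModDatum_theS A q M a b hab hq hA hqM ht) _
    (fun _ hτ => hτ)

/-- **COORD, unconditional**: at every node of the modular datum of level `M q` there is an
annulus coordinate of thickness `q ^ n`, `n ∣ 12`, fixed by the inertia group. -/
theorem coord_final {s : Place (kV A) (F1 A q M) × Place (kV A) (F1 A q M)}
    (hs : s ∈ (theS A q M a b hab hq hA hqM ht).nodes) :
    ∃ (n : ℕ) (t : FN (M * q)), 0 < n ∧ n ∣ 12 ∧
      (theS A q M a b hab hq hA hqM ht).IsAnnCoord s t ((q : Kbar) ^ n) ∧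
      ∀ σ ∈ A.inertiaSubgroupIn ℚ, galF (M * q) σ • t = t :=
  coord_theS A q M a b hab hq hA hqM ht (isK0Lift_theS A q M a b hab hq hA hqM ht) hs

/-- The thickness exponent is prime to every prime `p ≥ 5`. -/
theorem not_dvd_of_dvd_twelve {p n : ℕ} (hp : p.Prime) (h5 : 5 ≤ p) (_hn : 0 < n)
    (h12 : n ∣ 12) : ¬ p ∣ n := by
  intro hpn
  have h1 : p ∣ 12 := hpn.trans h12
  have h2 : p ≤ 12 := Nat.le_of_dvd (by norm_num) h1
  interval_cases p <;> simp_all (config := { decide := true })

/-- **COORD, unconditional**, in the form of `S43.CompEis.H60.Stmt_CE_Coord`: thickness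
`q ^ e`, `p ∤ e`. -/
theorem coord_final_prime {p : ℕ} (hp : p.Prime) (h5 : 5 ≤ p)
    {s : Place (kV A) (F1 A q M) × Place (kV A) (F1 A q M)}
    (hs : s ∈ (theS A q M a b hab hq hA hqM ht).nodes) :
    ∃ (e : ℕ) (t : FN (M * q)), ¬ p ∣ e ∧
      (theS A q M a b hab hq hA hqM ht).IsAnnCoord s t ((q : Kbar) ^ e) ∧
      ∀ σ ∈ A.inertiaSubgroupIn ℚ, galF (M * q) σ • t = t := by
  obtain ⟨n, t, hn, h12, hc, hfix⟩ := coord_final A q M a b hab hq hA hqM ht hs
  exact ⟨n, t, not_dvd_of_dvd_twelve hp h5 hn h12, hc, hfix⟩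

/-- The cusps are good places of the first component. -/
theorem theS_cusp_good {z : Place (kV A) (F1 A q M)}
    (hz : z.ord (jRed A (M * q) : F1 A q M) < 0) :
    z ∈ (theS A q M a b hab hq hA hqM ht).c₁.good :=
  modS_cusp_good A q M a b hab hq hA hqM ht (totModAt A q M a b hab hq hA hqM ht)
    (cuspHyp A q M a b hab hq hA hqM ht) hz

end Final

end Fermat.Agent.BADP.H21
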