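import Fermat.Agent.BADP.H21_Coord
import Fermat.Agent.BADP.AbsStmts
import Fermat.Agent.S15.Desc.H69_CoordCuspGen
import Fermat.Agent.BAD.H23_TotMod

/-!
# S44 / S43 / S15, package COORD (helper21): the final form

* `totModAt`, `cuspHyp` : the law of total conservation (helper23) and CUSP (helper69) for the
  modular datum of level `M q`;
* `theS A q M a b hab hq hA hqM ht` : **the** modular semistable Deuring datum (`H21.modS` with
  helper23's law; definitionally equal to helper33's `BADP.H33.modS` when `ht = Or.inl h5`);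
* `coord_theS` : **COORD** from helper93's `IsK0Lift` (ARITH-0, consumer form): at every node of
  `theS` there are an inertia-fixed function `t` and `n ≥ 1`, `n ∣ 12`, with
  `IsAnnCoord s t (q ^ n)`.
-/

set_option autoImplicit false
set_option linter.style.haveILetI false
set_option linter.unusedSectionVars false
set_option synthInstance.maxHeartbeats 400000
set_option maxHeartbeats 1000000

noncomputable section

open HahnSeries IntermediateField AlgebraicCurve ModularCurve
open Fermat.Agent.S28.H73 Fermat.Agent.RED.H73 Fermat.Agent.RED Fermat.Agent.S24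
open Fermat.Agent.BAD.H88

namespace Fermat.Agent.BADP.H21

open Fermat.Agent.BAD Fermat.Agent.BAD.H91 Fermat.Agent.S15.Desc.H67

attribute [local instance 5000] SubalgebraClass.toAlgebra

section Final

variable (A : ValuationSubring Kbar) (q M : ℕ) (a b : ℤ) (hab : a * q + b * M = 1)
  (hq : q.Prime) [NeZero M] [NeZero (M * q)] [NeZero q] (hA : A.LiesOverPrime q)
  (hqM : ¬ q ∣ M) (ht : TameAt M q)

/-- The law of total conservation (helper23's `tot_mod`). -/
theorem totModAt : ∀ (u₁ : ↥(V1 A q M)) (u₂ : ↥(V2 A q M a b hab hq)), red1 A q M u₁ ≠ 0 →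
    red2 A q M a b hab hq u₂ ≠ 0 →
    (∃ c : Kbar, (u₂ : FN (M * q)) = algebraMap Kbar (FN (M * q)) c * (u₁ : FN (M * q))) →
    ∀ D : Divisor Kbar (FN (M * q)), (∀ P, D P = P.ord (u₁ : FN (M * q))) →
      ∀ z : Place (kV A) (F1 A q M),
        Finsupp.mapDomain (rhoF1 a b hab hq hA hqM ht) D z
          = z.ord (red1 A q M u₁)
            + (H73.betaF1 A q M hq hA M (H82.redField_eq_fullC q M a b hab hq A hA) z).ord
                (red2 A q M a b hab hq u₂) :=
  Fermat.Agent.BAD.H23.tot_mod A q M a b hab hq hA hqM ht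
    (Fermat.Agent.BAD.H82.redField_eq_fullC q M a b hab hq A hA)

/-- **CUSP** (helper69's `coordCusp_gen`). -/
theorem cuspHyp : CuspHyp A q M a b hab hq hA hqM ht (totModAt A q M a b hab hq hA hqM ht) :=
  fun z₀ hz₀ => Fermat.Agent.S15.Desc.H69C.coordCusp_gen a b hab hq hA hqM ht
    (totModAt A q M a b hab hq hA hqM ht) z₀ hz₀

/-- **The modular semistable Deuring datum** of level `M q` at `A`. -/
def theS : SSD Kbar (FN (M * q)) (kV A) (F1 A q M) (F1 A q M) :=
  modS A q M a b hab hq hA hqM ht (totModAt A q M a b hab hq hA hqM ht)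

/-- The set of the automorphisms of the inertia group (helper93's `BADP.inertiaAuts`). -/
def inertiaSet (N : ℕ) : Set (SemilinearAut Kbar (FN N)) :=
  {τ | ∃ σ ∈ A.inertiaSubgroupIn ℚ, τ = galF N σ}

/-- (K0) at every node from helper93's `IsK0Lift`. -/
theorem k0At_of_isK0Lift
    (hK0 : IsK0Lift (theS A q M a b hab hq hA hqM ht) (inertiaSet A (M * q)))
    (s : Place (kV A) (F1 A q M) × Place (kV A) (F1 A q M)) :
    K0At A q M a b hab hq hA hqM ht (totModAt A q M a b hab hq hA hqM ht) s := by
  intro u hu1 hu2 hpf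
  obtain ⟨u0, hfix, h01, h02, hr1, hr2, hpole⟩ := hK0 u hu1 hu2
  refine ⟨u0, fun σ hσ => hfix _ ⟨σ, hσ, rfl⟩, h01, h02, hr1, hr2, ?_⟩
  intro P hP
  by_contra hneg
  obtain ⟨P', hP'1, -, hP'⟩ := hpole P (not_le.mp hneg)
  have h3 := hpf P' (hP'1.trans hP)
  omega

/-- **COORD**: at every node of the modular datum there is an inertia-fixed annulus coordinate
of thickness `q ^ n`, `n ∣ 12`. -/
theorem coord_theS
    (hK0 : IsK0Lift (theS A q M a b hab hq hA hqM ht) (inertiaSet A (M * q)))
    {s : Place (kV A) (F1 A q M) × Place (kV A) (F1 A q M)}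
    (hs : s ∈ (theS A q M a b hab hq hA hqM ht).nodes) :
    ∃ (n : ℕ) (t : FN (M * q)), 0 < n ∧ n ∣ 12 ∧
      (theS A q M a b hab hq hA hqM ht).IsAnnCoord s t ((q : Kbar) ^ n) ∧
      ∀ σ ∈ A.inertiaSubgroupIn ℚ, galF (M * q) σ • t = t := by
  obtain ⟨t, htF, n, hn, hn12, hcoord⟩ :=
    coord_modS_core A q M a b hab hq hA hqM ht (totModAt A q M a b hab hq hA hqM ht)
      (cuspHyp A q M a b hab hq hA hqM ht) hs (k0At_of_isK0Lift A q M a b hab hq hA hqM ht hK0 s)
  exact ⟨n, t, hn, hn12, hcoord, fun σ hσ => htF σ hσ⟩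

end Final

end Fermat.Agent.BADP.H21
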