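import Fermat.Agent.BADP.H28_KeyPTheta

/-!
# Row 38 (S44, BADP), helper28: RAY-K3 abstract core: the key lemma for the exponent `p = char k`

`H28.keyP` : the nodal key lemma (`BAD.Stmt_KeyNodal`) for the exponent `n = p = char k`, `p` odd,
for a function `f` without zeros and poles off the discs, under arithmetic hypotheses:

* (A0) `π, ϖ ∈ K` in the maximal ideal, `θ ∈ K` integral, `rd (π ^ (p - 1) / p) = -1`,
  `ϖ ^ p / p` a unit;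
* (A1) `σ` inertial, fixing the coordinates `s_Q`;
* (A2) `R` a subfield of `F` containing `f`, the `s_Q` and the `a_Q`, with
  `c ∈ R ∩ V_i ⇒ (σ c - c) / (π θ) ∈ V_i`;
* (A3) for the constants `a = a_Q`: `a / ϖ` integral, `rd ((σ a - a) / (π θ)) = rd (a / ϖ)`, and
  `rd (a / ϖ) = 0 ⇒ a / ϖ²` integral.

(peu ramifié `K₃ = K₀(u^{1/p})`: `θ = 1`; très ramifié `K₀((p u)^{1/p})`: `θ = ϖ`.)

Proof: (A) `(f₂ - 1) / p` is integral (`f₂ = f / ∏ ((s_Q - a_Q) / s_Q) ^ p`); (B) the function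
`Θ = (σ f / f - 1) / (p π θ) + (θ ^ (p - 1) / u₁) (f - 1) / p` has reductions
`(regular on the discs) - ∑ rd (a_Q / ϖ) / rd s_Q`, so `rd (a_Q / ϖ) = 0` by the residue argument;
(C) then `a_Q ^ p = p a_Q ε_Q` with `ε_Q` in the maximal ideal, and `keyNodal_lin` applies.

Plan: `NOTES/plan/L_S44.md` §12.3 (e1) (helper93).
-/

set_option autoImplicit false
set_option linter.style.haveILetI false
set_option maxHeartbeats 4000000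

noncomputable section

open AlgebraicCurve

attribute [local instance] Classical.propDecidable

namespace Fermat.Agent.BAD

open Fermat.Agent.RED.H17 Fermat.Agent.RED

local notation "L" => riemannRochSpace

namespace H28

/-- The identity behind `ε = a ^ (p - 1) / p`. -/
theorem eps_identity {K : Type*} [Field K] {p : ℕ} (hp3 : 3 ≤ p) {ϖ : K} (hϖ : ϖ ≠ 0)
    (hpK : (p : K) ≠ 0) (a : K) :
    a ^ (p - 1) / p = (a / ϖ ^ 2) ^ (p - 1) * (ϖ ^ p / p) * ϖ ^ (p - 2) := by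
  have e1 : (ϖ ^ 2) ^ (p - 1) = ϖ ^ p * ϖ ^ (p - 2) := by
    rw [← pow_add, ← pow_mul]
    congr 1
    omega
  rw [div_pow, e1]
  field_simp

section Main

variable {K F k F₁ F₂ : Type} [Field K] [Field F] [Algebra K F] [Field k] [Field F₁]
  [Algebra k F₁] [Field F₂] [Algebra k F₂]

/-- **The nodal key lemma for the exponent `p = char k`** (abstract core of RAY-K3). -/
theorem keyP (S : SSD K F k F₁ F₂) (H : FFHyp K F)
    (A₁ : Finset (Place k F₁)) (A₂ : Finset (Place k F₂))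
    (hA₁ : Disjoint A₁ S.br₁) (hA₂ : Disjoint A₂ S.br₂) (hNS : S.IsNS A₁ A₂)
    (s₁ : Place k F₁ → F) (s₂ : Place k F₂ → F)
    (hs₁ : ∀ Q ∈ A₁, S.IsCoordA₁ A₁ A₂ (s₁ Q) Q) (hs₂ : ∀ Q ∈ A₂, S.IsCoordA₂ A₁ A₂ (s₂ Q) Q)
    (p : ℕ) (hp : p.Prime) (hp2 : p ≠ 2) (hpk : (p : k) = 0) (hpK : (p : K) ≠ 0)
    (f : F) (hf₁ : f ∈ S.c₁.V) (hf₂ : f ∈ S.c₂.V) (hrd₁ : S.c₁.rd f = 1) (hrd₂ : S.c₂.rd f = 1)
    (Pinf : Place K F) (Qinf : Place k F₁) (hQinfg : Qinf ∈ S.c₁.good) (hQinfA : Qinf ∉ A₁)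
    (hPinf : S.c₁.r Pinf = some Qinf) (hfinf : VanAt Pinf (f - 1))
    (a₁ : Place k F₁ → K) (a₂ : Place k F₂ → K)
    (ha₁ : ∀ Q ∈ A₁, algebraMap K F (a₁ Q) ∈ S.c₁.V ∧ S.c₁.rd (algebraMap K F (a₁ Q)) = 0)
    (ha₂ : ∀ Q ∈ A₂, algebraMap K F (a₂ Q) ∈ S.c₂.V ∧ S.c₂.rd (algebraMap K F (a₂ Q)) = 0)
    (hord0 : ∀ P, (∀ Q ∈ A₁, S.c₁.r P ≠ some Q) → (∀ Q ∈ A₂, S.c₂.r P ≠ some Q) →
      P.ord f = 0)
    (hord₁ : ∀ Q ∈ A₁, ∀ P, S.c₁.r P = some Q →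
      P.ord f = p * (P.ord (s₁ Q - algebraMap K F (a₁ Q)) - P.ord (s₁ Q)))
    (hord₂ : ∀ Q ∈ A₂, ∀ P, S.c₂.r P = some Q →
      P.ord f = p * (P.ord (s₂ Q - algebraMap K F (a₂ Q)) - P.ord (s₂ Q)))
    -- the arithmetic hypotheses
    (π ϖ θ : K) (hπ : S.IsCM π) (hπne : π ≠ 0) (hθ : algebraMap K F θ ∈ S.c₁.V) (hθne : θ ≠ 0)
    (hπp : S.c₁.rd (algebraMap K F (π ^ (p - 1) / p)) = -1)
    (hϖ : S.IsCM ϖ) (hϖp : S.IsCU (ϖ ^ p / p))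
    (σ : SemilinearAut K F) (hσ : S.IsInertial σ)
    (hσs₁ : ∀ Q ∈ A₁, σ • s₁ Q = s₁ Q) (hσs₂ : ∀ Q ∈ A₂, σ • s₂ Q = s₂ Q)
    (R : Subfield F) (hfR : f ∈ R) (hsR₁ : ∀ Q ∈ A₁, s₁ Q ∈ R) (hsR₂ : ∀ Q ∈ A₂, s₂ Q ∈ R)
    (haR₁ : ∀ Q ∈ A₁, algebraMap K F (a₁ Q) ∈ R) (haR₂ : ∀ Q ∈ A₂, algebraMap K F (a₂ Q) ∈ R)
    (hR₁ : ∀ c ∈ R, c ∈ S.c₁.V → (σ • c - c) / algebraMap K F (π * θ) ∈ S.c₁.V)
    (hR₂ : ∀ c ∈ R, c ∈ S.c₂.V → (σ • c - c) / algebraMap K F (π * θ) ∈ S.c₂.V)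
    (hA3₁ : ∀ Q ∈ A₁, algebraMap K F (a₁ Q / ϖ) ∈ S.c₁.V ∧
      S.c₁.rd (algebraMap K F ((SemilinearAut.baseAut σ (a₁ Q) - a₁ Q) / (π * θ))) =
        S.c₁.rd (algebraMap K F (a₁ Q / ϖ)) ∧
      (S.c₁.rd (algebraMap K F (a₁ Q / ϖ)) = 0 → algebraMap K F (a₁ Q / ϖ ^ 2) ∈ S.c₁.V))
    (hA3₂ : ∀ Q ∈ A₂, algebraMap K F (a₂ Q / ϖ) ∈ S.c₁.V ∧
      S.c₁.rd (algebraMap K F ((SemilinearAut.baseAut σ (a₂ Q) - a₂ Q) / (π * θ))) =
        S.c₁.rd (algebraMap K F (a₂ Q / ϖ)) ∧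
      (S.c₁.rd (algebraMap K F (a₂ Q / ϖ)) = 0 → algebraMap K F (a₂ Q / ϖ ^ 2) ∈ S.c₁.V)) :
    f = 1 := by
  have hP := H.principal
  have hK : S.KeyHyp A₁ A₂ s₁ s₂ := ⟨hA₁, hA₂, hs₁, hs₂⟩
  obtain ⟨⟨hHGU₁, hHrd₁⟩, ⟨hHGU₂, hHrd₂⟩, ⟨hf₂GU₁, hf₂rd₁⟩, ⟨hf₂GU₂, hf₂rd₂⟩, hf₂ord₁,
    hf₂ord₂⟩ := hK.key_f₂ hP ha₁ ha₂ p hf₁ hf₂ hrd₁ hrd₂ hord₁ hord₂
  set A : Finset (Place k F₁ ⊕ Place k F₂) := SSD.keyA A₁ A₂ with hAdef
  set s : Place k F₁ ⊕ Place k F₂ → F := Sum.elim s₁ s₂ with hsdef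
  set a : Place k F₁ ⊕ Place k F₂ → K := Sum.elim a₁ a₂ with hadef
  set Hp : F := ∏ i ∈ A, (s i - algebraMap K F (a i)) / s i with hHp
  set f₂ : F := f / Hp ^ p with hf₂def
  have haCM : ∀ i ∈ A, S.IsCM (a i) := fun i hi => S.inM_keyA ha₁ ha₂ hi
  have hsGU₁ : ∀ i ∈ A, S.c₁.IsGU (s i) := fun i hi => hK.isGU₁ hi
  have hsGU₂ : ∀ i ∈ A, S.c₂.IsGU (s i) := fun i hi => hK.isGU₂ hi
  have haM₁ : ∀ i ∈ A, S.c₁.InM (algebraMap K F (a i)) := fun i hi =>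
    ⟨(haCM i hi).mem₁, (haCM i hi).rd₁⟩
  have haM₂ : ∀ i ∈ A, S.c₂.InM (algebraMap K F (a i)) := fun i hi =>
    ⟨(haCM i hi).mem₂, (haCM i hi).rd₂⟩
  have hpF : (p : F) ≠ 0 := by
    have : (p : F) = algebraMap K F (p : K) := by simp
    rw [this]
    exact (map_ne_zero_iff _ (algebraMap K F).injective).mpr hpK
  have hpM₁ : S.c₁.InM (p : F) := PRed.inM_natCast hpk
  have hpM₂ : S.c₂.InM (p : F) := PRed.inM_natCast hpk
  have hϖne : ϖ ≠ 0 := by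
    rintro rfl
    have h0 : ((0 : K) ^ p / p) = 0 := by rw [zero_pow hp.ne_zero, zero_div]
    rw [h0] at hϖp
    exact hϖp.isGU₁.ne_zero (map_zero _)
  have hπθne : π * θ ≠ 0 := mul_ne_zero hπne hθne
  have hπθF : algebraMap K F (π * θ) ≠ 0 :=
    (map_ne_zero_iff _ (algebraMap K F).injective).mpr hπθne
  have hθ₂ : algebraMap K F θ ∈ S.c₂.V := (S.const_mem θ).mp hθ
  -- (A3) on the index set
  have hA3 : ∀ i ∈ A, algebraMap K F (a i / ϖ) ∈ S.c₁.V ∧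
      S.c₁.rd (algebraMap K F ((SemilinearAut.baseAut σ (a i) - a i) / (π * θ))) =
        S.c₁.rd (algebraMap K F (a i / ϖ)) ∧
      (S.c₁.rd (algebraMap K F (a i / ϖ)) = 0 → algebraMap K F (a i / ϖ ^ 2) ∈ S.c₁.V) := by
    intro i hi
    rcases SSD.mem_keyA.mp hi with ⟨Q, hQ, rfl⟩ | ⟨Q, hQ, rfl⟩
    · exact hA3₁ Q hQ
    · exact hA3₂ Q hQ
  have hsR : ∀ i ∈ A, s i ∈ R := by
    intro i hi
    rcases SSD.mem_keyA.mp hi with ⟨Q, hQ, rfl⟩ | ⟨Q, hQ, rfl⟩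
    · exact hsR₁ Q hQ
    · exact hsR₂ Q hQ
  have haR : ∀ i ∈ A, algebraMap K F (a i) ∈ R := by
    intro i hi
    rcases SSD.mem_keyA.mp hi with ⟨Q, hQ, rfl⟩ | ⟨Q, hQ, rfl⟩
    · exact haR₁ Q hQ
    · exact haR₂ Q hQ
  have hσs : ∀ i ∈ A, σ • s i = s i := by
    intro i hi
    rcases SSD.mem_keyA.mp hi with ⟨Q, hQ, rfl⟩ | ⟨Q, hQ, rfl⟩
    · exact hσs₁ Q hQ
    · exact hσs₂ Q hQ
  -- the constants `e_i = a_i ^ p / p = (a_i / ϖ) ^ p u₁`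
  set u₁ : K := ϖ ^ p / p with hu₁
  set e : Place k F₁ ⊕ Place k F₂ → K := fun i => a i ^ p / p with he
  have hpow : ∀ i ∈ A, a i ^ p = p * e i := fun i _ => by
    simp only [he]
    field_simp
  have heq : ∀ i, e i = (a i / ϖ) ^ p * u₁ := fun i => by
    simp only [he, hu₁]
    rw [div_pow]
    field_simp
  have he₁ : ∀ i ∈ A, algebraMap K F (e i) ∈ S.c₁.V := fun i hi => by
    rw [heq i, map_mul, map_pow]
    exact S.c₁.V.mul_mem _ _ (S.c₁.V.pow_mem (hA3 i hi).1 p) hϖp.isGU₁.1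
  have he₂ : ∀ i ∈ A, algebraMap K F (e i) ∈ S.c₂.V := fun i hi =>
    (S.const_mem _).mp (he₁ i hi)
  -- regularity of `f₂` on the discs
  have hf₂reg₁ : ∀ Q ∈ A₁, ∀ P, S.c₁.r P = some Q → RegAt P f₂ := fun Q hQ P hPQ =>
    regAt_of_ord_nonneg (le_of_eq (hf₂ord₁ Q hQ P hPQ).symm)
  have hf₂reg₂ : ∀ Q ∈ A₂, ∀ P, S.c₂.r P = some Q → RegAt P f₂ := fun Q hQ P hPQ =>
    regAt_of_ord_nonneg (le_of_eq (hf₂ord₂ Q hQ P hPQ).symm)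
  have hfreg : ∀ P, (∀ Q ∈ A₁, S.c₁.r P ≠ some Q) → (∀ Q ∈ A₂, S.c₂.r P ≠ some Q) →
      RegAt P f := fun P h1 h2 => regAt_of_ord_nonneg (le_of_eq (hord0 P h1 h2).symm)
  -- Step A: `(f₂ - 1) / p` is integral
  have hZ : (f₂ - 1) / p ∈ S.c₁.V ∧ (f₂ - 1) / p ∈ S.c₂.V := by
    by_cases h1 : f₂ - 1 = 0
    · rw [h1, zero_div]
      exact ⟨S.c₁.V.zero_mem, S.c₂.V.zero_mem⟩
    have hImem : ∀ z ∈ ({f₂ - 1} : Finset F),
        (z ∈ S.c₁.V ∧ S.c₁.rd z = 0) ∧ (z ∈ S.c₂.V ∧ S.c₂.rd z = 0) := by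
      intro z hz
      rw [Finset.mem_singleton] at hz
      subst hz
      exact ⟨⟨S.c₁.V.sub_mem hf₂GU₁.1 S.c₁.V.one_mem, by
        rw [S.c₁.rd_sub hf₂GU₁.1 S.c₁.V.one_mem, hf₂rd₁, S.c₁.rd_one, sub_self]⟩,
        ⟨S.c₂.V.sub_mem hf₂GU₂.1 S.c₂.V.one_mem, by
        rw [S.c₂.rd_sub hf₂GU₂.1 S.c₂.V.one_mem, hf₂rd₂, S.c₂.rd_one, sub_self]⟩⟩
    obtain ⟨c, hc, ⟨hdV₁, hdrd₁⟩, ⟨hdV₂, hdrd₂⟩, hcI, z₀, hz₀, hz₀GU⟩ :=
      S.exists_scale_max₂ {f₂ - 1} hImem ⟨f₂ - 1, Finset.mem_singleton_self _, h1⟩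
    rw [Finset.mem_singleton] at hz₀
    subst hz₀
    have hαV₁ : algebraMap K F c * (f₂ - 1) ∈ S.c₁.V :=
      (hcI _ (Finset.mem_singleton_self _)).1
    have hαV₂ : algebraMap K F c * (f₂ - 1) ∈ S.c₂.V :=
      (hcI _ (Finset.mem_singleton_self _)).2
    have hcF : algebraMap K F c ≠ 0 := (map_ne_zero_iff _ (algebraMap K F).injective).mpr hc
    have hinv : algebraMap K F (c * p)⁻¹ ∈ S.c₁.V → (f₂ - 1) / p ∈ S.c₁.V ∧
        (f₂ - 1) / p ∈ S.c₂.V := by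
      intro h
      have h' := (S.const_mem _).mp h
      have e1 : (f₂ - 1) / p = algebraMap K F (c * p)⁻¹ * (algebraMap K F c * (f₂ - 1)) := by
        rw [map_inv₀, map_mul, map_natCast]
        field_simp
      rw [e1]
      exact ⟨S.c₁.V.mul_mem _ _ h hαV₁, S.c₂.V.mul_mem _ _ h' hαV₂⟩
    rcases S.isCU_or_isCM (c * p) with hU | hM | hM'
    · apply hinv
      rw [map_inv₀]
      exact hU.isGU₁.inv_mem
    · exfalso
      obtain ⟨hφV₁, hφrd₁⟩ := S.c₁.depth_formula A s a e hsGU₁ haM₁ he₁ hp hp2 hpM₁ hpow f c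
        ⟨hM.mem₁, hM.rd₁⟩ hαV₁
      obtain ⟨hφV₂, hφrd₂⟩ := S.c₂.depth_formula A s a e hsGU₂ haM₂ he₂ hp hp2 hpM₂ hpow f c
        ⟨hM.mem₂, hM.rd₂⟩ hαV₂
      have hφreg : ∀ P, (∀ Q ∈ A₁, S.c₁.r P ≠ some Q) → (∀ Q ∈ A₂, S.c₂.r P ≠ some Q) →
          0 ≤ P.ord (algebraMap K F c * (f - 1)) := fun P h1 h2 =>
        ((regAt_algebraMap P c).mul ((hfreg P h1 h2).sub (regAt_one P))).ord_nonneg
      have hαreg₁ : ∀ Q ∈ A₁, RegAt Q (S.c₁.rd (algebraMap K F c * (f₂ - 1))) := by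
        intro Q hQ
        apply S.c₁.regAt_rd hP hαV₁ (hK.good₁ hQ)
        intro P hPQ
        exact ((regAt_algebraMap P c).mul ((hf₂reg₁ Q hQ P hPQ).sub (regAt_one P))).ord_nonneg
      have hαreg₂ : ∀ Q ∈ A₂, RegAt Q (S.c₂.rd (algebraMap K F c * (f₂ - 1))) := by
        intro Q hQ
        apply S.c₂.regAt_rd hP hαV₂ (hK.good₂ hQ)
        intro P hPQ
        exact ((regAt_algebraMap P c).mul ((hf₂reg₂ Q hQ P hPQ).sub (regAt_one P))).ord_nonneg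
      have hzero₁ : ∀ x : F₁, x = x - ((1 : ℕ) : F₁) *
          ∑ i ∈ A, algebraMap k F₁ ((fun _ => (0 : k)) i) / S.c₁.rd (s i) := by
        intro x
        simp
      have hzero₂ : ∀ x : F₂, x = x - ((1 : ℕ) : F₂) *
          ∑ i ∈ A, algebraMap k F₂ ((fun _ => (0 : k)) i) / S.c₂.rd (s i) := by
        intro x
        simp
      obtain ⟨e', he₁', -, -, hαe₁, hαe₂⟩ := hK.residue_core hP hNS hφV₁ hφV₂ hφreg
        (fun _ => 0) 1 (by rw [Nat.cast_one]; exact one_ne_zero) hαreg₁ hαreg₂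
        (hφrd₁.trans (hzero₁ _)) (hφrd₂.trans (hzero₂ _))
      have he0 : e' = 0 := hK.const_eq_zero hP hφV₁ hφreg hQinfg hQinfA hPinf
        ((regAt_algebraMap Pinf c).mul_vanAt hfinf) he₁'
      rcases hz₀GU with h | h
      · exact h.2 (by rw [hαe₁, he0, map_zero])
      · exact h.2 (by rw [hαe₂, he0, map_zero])
    · apply hinv
      exact hM'.mem₁
  obtain ⟨hZ₁, hZ₂⟩ := hZ
  set Z : F := (f₂ - 1) / p with hZdef
  -- reductions of the constants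
  set ν₀ : K := π ^ (p - 1) / p with hν₀
  have hπp' : π ^ (p - 1) = p * ν₀ := by
    simp only [hν₀]
    field_simp
  have hν₁ : algebraMap K F ν₀ ∈ S.c₁.V := by
    by_contra h
    rw [S.c₁.rd_of_not_mem h] at hπp
    exact (neg_ne_zero.mpr one_ne_zero) hπp.symm
  have hνrd₁ : S.c₁.rd (algebraMap K F ν₀) = algebraMap k F₁ (-1) := by
    rw [hπp, map_neg, map_one]
  have hν₂ : algebraMap K F ν₀ ∈ S.c₂.V := (S.rd₂_const hν₁ hνrd₁).1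
  have hνrd₂ : S.c₂.rd (algebraMap K F ν₀) = -1 := by
    rw [(S.rd₂_const hν₁ hνrd₁).2, map_neg, map_one]
  obtain ⟨θb, hθb₁⟩ := S.c₁.rd_const_eq θ hθ
  have hθb₂ : S.c₂.rd (algebraMap K F θ) = algebraMap k F₂ θb := (S.rd₂_const hθ hθb₁).2
  obtain ⟨ub, hub₁⟩ := S.c₁.rd_const_eq u₁ hϖp.isGU₁.1
  have hub0 : ub ≠ 0 := by
    rintro rfl
    rw [map_zero] at hub₁
    exact hϖp.isGU₁.2 hub₁
  set κ : K := θ ^ (p - 1) / u₁ with hκ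
  have hκ₁ : algebraMap K F κ ∈ S.c₁.V := by
    rw [hκ, map_div₀, map_pow, div_eq_mul_inv]
    exact S.c₁.V.mul_mem _ _ (S.c₁.V.pow_mem hθ _) hϖp.isGU₁.inv_mem
  have hκrd₁ : S.c₁.rd (algebraMap K F κ) = algebraMap k F₁ (θb ^ (p - 1) / ub) := by
    rw [hκ, map_div₀ (algebraMap K F), map_pow, div_eq_mul_inv,
      S.c₁.rd_mul (S.c₁.V.pow_mem hθ _) hϖp.isGU₁.inv_mem, S.c₁.rd_pow hθ,
      hϖp.isGU₁.rd_inv, hθb₁, hub₁, map_div₀, map_pow, div_eq_mul_inv]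
  have hκ₂ : algebraMap K F κ ∈ S.c₂.V := (S.rd₂_const hκ₁ hκrd₁).1
  have hκrd₂ : S.c₂.rd (algebraMap K F κ) = algebraMap k F₂ (θb ^ (p - 1) / ub) :=
    (S.rd₂_const hκ₁ hκrd₁).2
  -- the constants `ω_i = (σ a_i - a_i) / (π θ)`
  obtain ⟨ω, hωdef⟩ : ∃ ω : Place k F₁ ⊕ Place k F₂ → K,
      ∀ i, ω i = (SemilinearAut.baseAut σ (a i) - a i) / (π * θ) := ⟨_, fun _ => rfl⟩
  have hdiff : ∀ i ∈ A, SemilinearAut.baseAut σ (a i) - a i = π * θ * ω i := fun i _ => by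
    rw [hωdef i]
    field_simp
  have hω₁ : ∀ i ∈ A, algebraMap K F (ω i) ∈ S.c₁.V := by
    intro i hi
    have h := hR₁ _ (haR i hi) (haCM i hi).mem₁
    rw [SemilinearAut.smul_algebraMap, ← map_sub, ← map_div₀, ← hωdef i] at h
    exact h
  have hω₂ : ∀ i ∈ A, algebraMap K F (ω i) ∈ S.c₂.V := fun i hi =>
    (S.const_mem _).mp (hω₁ i hi)
  have hwex : ∀ i, ∃ w : k, i ∈ A → S.c₁.rd (algebraMap K F (ω i)) = algebraMap k F₁ w := by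
    intro i
    by_cases hi : i ∈ A
    · obtain ⟨w, hw⟩ := S.c₁.rd_const_eq (ω i) (hω₁ i hi)
      exact ⟨w, fun _ => hw⟩
    · exact ⟨0, fun h => absurd h hi⟩
  choose w hw₁ using hwex
  have hw₂ : ∀ i ∈ A, S.c₂.rd (algebraMap K F (ω i)) = algebraMap k F₂ (w i) :=
    fun i hi => (S.rd₂_const (hω₁ i hi) (hw₁ i hi)).2
  have hA3rd : ∀ i ∈ A, S.c₁.rd (algebraMap K F (a i / ϖ)) = algebraMap k F₁ (w i) := by
    intro i hi
    rw [← (hA3 i hi).2.1, ← hωdef i, hw₁ i hi]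
  have herd₁ : ∀ i ∈ A, S.c₁.rd (algebraMap K F (e i)) = algebraMap k F₁ (w i ^ p * ub) := by
    intro i hi
    rw [heq i, map_mul, map_pow, S.c₁.rd_mul (S.c₁.V.pow_mem (hA3 i hi).1 p) hϖp.isGU₁.1,
      S.c₁.rd_pow (hA3 i hi).1, hA3rd i hi, hub₁, map_mul, map_pow]
  have herd₂ : ∀ i ∈ A, S.c₂.rd (algebraMap K F (e i)) = algebraMap k F₂ (w i ^ p * ub) :=
    fun i hi => (S.rd₂_const (he₁ i hi) (herd₁ i hi)).2
  -- `Z ∈ R` and the function `Λ`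
  have hHpR : Hp ∈ R := by
    rw [hHp]
    exact prod_mem fun i hi => div_mem (sub_mem (hsR i hi) (haR i hi)) (hsR i hi)
  have hf₂R : f₂ ∈ R := div_mem hfR (pow_mem hHpR p)
  have hZR : Z ∈ R := div_mem (sub_mem hf₂R (one_mem R)) (natCast_mem R p)
  set Λ : F := (σ • Z - Z) / algebraMap K F (π * θ) / f₂ with hΛdef
  have hΛ₁ : Λ ∈ S.c₁.V := by
    rw [hΛdef, div_eq_mul_inv]
    exact S.c₁.V.mul_mem _ _ (hR₁ Z hZR hZ₁) hf₂GU₁.inv_mem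
  have hΛ₂ : Λ ∈ S.c₂.V := by
    rw [hΛdef, div_eq_mul_inv]
    exact S.c₂.V.mul_mem _ _ (hR₂ Z hZR hZ₂) hf₂GU₂.inv_mem
  have hf₂ne : f₂ ≠ 0 := hf₂GU₁.ne_zero
  have hf₂Z : f₂ = 1 + p * Z := by
    rw [hZdef]
    field_simp
    ring
  have hσp : σ • (p : F) = p := map_natCast (SemilinearAut.toRingAut σ) p
  have hσf₂ : σ • f₂ = 1 + p * σ • Z := by
    conv_lhs => rw [hf₂Z]
    rw [smul_add, smul_one, smul_mul', hσp]
  have hy₀ : σ • f₂ / f₂ = 1 + (p : F) * algebraMap K F (π * θ) * Λ := by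
    rw [hΛdef, hσf₂]
    field_simp
    linear_combination -hf₂Z
  -- the product identity
  have hff₂ : f = f₂ * Hp ^ p := by
    rw [hf₂def, div_mul_cancel₀ _ (pow_ne_zero _ hHGU₁.ne_zero)]
  have hσh : ∀ i ∈ A, σ • ((s i - algebraMap K F (a i)) / s i) =
      (s i - algebraMap K F (SemilinearAut.baseAut σ (a i))) / s i := by
    intro i hi
    have h1 : σ • ((s i - algebraMap K F (a i)) / s i) =
        (σ • s i - σ • algebraMap K F (a i)) / (σ • s i) := by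
      simp only [SemilinearAut.smul_def, map_div₀, map_sub]
    rw [h1, hσs i hi, SemilinearAut.smul_algebraMap]
  have hσHp : σ • Hp =
      ∏ i ∈ A, (s i - algebraMap K F (SemilinearAut.baseAut σ (a i))) / s i := by
    have h1 : σ • Hp = ∏ i ∈ A, σ • ((s i - algebraMap K F (a i)) / s i) := by
      rw [hHp]
      exact map_prod (SemilinearAut.toRingAut σ) _ A
    rw [h1]
    exact Finset.prod_congr rfl hσh
  have hσf : σ • f / f = (σ • f₂ / f₂) * ∏ i ∈ A,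
      ((s i - algebraMap K F (SemilinearAut.baseAut σ (a i))) /
        (s i - algebraMap K F (a i))) ^ p := by
    have h1 : σ • f = σ • f₂ * (σ • Hp) ^ p := by
      conv_lhs => rw [hff₂]
      rw [smul_mul', smul_pow']
    have h2 : ∏ i ∈ A, ((s i - algebraMap K F (SemilinearAut.baseAut σ (a i))) /
        (s i - algebraMap K F (a i))) ^ p = ((σ • Hp) / Hp) ^ p := by
      rw [Finset.prod_pow, hσHp, hHp, ← Finset.prod_div_distrib]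
      congr 1
      apply Finset.prod_congr rfl
      intro i hi
      have h3 := (hsGU₁ i hi).ne_zero
      have h4 := ((hsGU₁ i hi).sub_const (haM₁ i hi).1 (haM₁ i hi).2).1.ne_zero
      field_simp
    rw [h2, h1, div_pow, ← mul_div_mul_comm]
    conv_lhs => rw [hff₂]
  -- the function `Θ`
  obtain ⟨hΘV₁, hΘrd₁⟩ := S.c₁.theta_formula A s a (fun i => SemilinearAut.baseAut σ (a i)) ω e
    hsGU₁ haM₁ hω₁ he₁ hp hp2 hpM₁ hpF ⟨hπ.mem₁, hπ.rd₁⟩ hθ hπne hθne hν₁ hπp' hκ₁ hdiff hpow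
    w ub θb hub0 hw₁ herd₁ hπp hθb₁ hκrd₁ f hZ₁ hΛ₁ hy₀
  obtain ⟨hΘV₂, hΘrd₂⟩ := S.c₂.theta_formula A s a (fun i => SemilinearAut.baseAut σ (a i)) ω e
    hsGU₂ haM₂ hω₂ he₂ hp hp2 hpM₂ hpF ⟨hπ.mem₂, hπ.rd₂⟩ hθ₂ hπne hθne hν₂ hπp' hκ₂ hdiff hpow
    w ub θb hub0 hw₂ herd₂ hνrd₂ hθb₂ hκrd₂ f hZ₂ hΛ₂ hy₀
  rw [← hσf] at hΘV₁ hΘrd₁ hΘV₂ hΘrd₂
  have hσinv₁ : ∀ P, S.c₁.r (σ⁻¹ • P) = S.c₁.r P := fun P => by
    have := hσ.r₁ (σ⁻¹ • P)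
    rw [smul_inv_smul] at this
    exact this.symm
  have hσinv₂ : ∀ P, S.c₂.r (σ⁻¹ • P) = S.c₂.r P := fun P => by
    have := hσ.r₂ (σ⁻¹ • P)
    rw [smul_inv_smul] at this
    exact this.symm
  have hpc : (p : F) = algebraMap K F (p : K) := by simp
  have hΘreg : ∀ P, (∀ Q ∈ A₁, S.c₁.r P ≠ some Q) → (∀ Q ∈ A₂, S.c₂.r P ≠ some Q) →
      0 ≤ P.ord ((σ • f / f - 1) / ((p : F) * algebraMap K F (π * θ)) +
        algebraMap K F κ * ((f - 1) / p)) := by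
    intro P h1 h2
    have hf0 : P.ord f = 0 := hord0 P h1 h2
    have hσf0 : P.ord (σ • f) = 0 := by
      rw [ord_smul_eq]
      exact hord0 _ (fun Q hQ => by rw [hσinv₁]; exact h1 Q hQ)
        (fun Q hQ => by rw [hσinv₂]; exact h2 Q hQ)
    have hq : RegAt P (σ • f / f) := by
      rw [div_eq_mul_inv]
      exact (regAt_of_ord_nonneg (le_of_eq hσf0.symm)).mul (regAt_inv_of_ord_eq_zero hf0)
    have hΨ : RegAt P ((σ • f / f - 1) / ((p : F) * algebraMap K F (π * θ))) := by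
      have : (p : F) * algebraMap K F (π * θ) = algebraMap K F (p * (π * θ)) := by
        rw [map_mul (algebraMap K F) (p : K), ← hpc]
      rw [this, div_eq_mul_inv, ← map_inv₀]
      exact (hq.sub (regAt_one P)).mul (regAt_algebraMap P _)
    have hΦ : RegAt P ((f - 1) / p) := by
      rw [hpc, div_eq_mul_inv, ← map_inv₀]
      exact ((hfreg P h1 h2).sub (regAt_one P)).mul (regAt_algebraMap P _)
    exact (hΨ.add ((regAt_algebraMap P κ).mul hΦ)).ord_nonneg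
  have hαreg₁ : ∀ Q ∈ A₁, RegAt Q (S.c₁.rd (Λ + algebraMap K F κ * Z)) := by
    intro Q hQ
    apply S.c₁.regAt_rd hP (S.c₁.V.add_mem _ _ hΛ₁ (S.c₁.V.mul_mem _ _ hκ₁ hZ₁)) (hK.good₁ hQ)
    intro P hPQ
    have hZreg : ∀ P', S.c₁.r P' = some Q → RegAt P' Z := fun P' hP' => by
      rw [hZdef, hpc, div_eq_mul_inv, ← map_inv₀]
      exact ((hf₂reg₁ Q hQ P' hP').sub (regAt_one P')).mul (regAt_algebraMap P' _)
    have hσZ : RegAt P (σ • Z) := by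
      apply regAt_of_ord_nonneg
      rw [ord_smul_eq]
      exact (hZreg _ (by rw [hσinv₁]; exact hPQ)).ord_nonneg
    have hΛreg : RegAt P Λ := by
      rw [hΛdef, div_eq_mul_inv, div_eq_mul_inv, ← map_inv₀]
      exact ((hσZ.sub (hZreg P hPQ)).mul (regAt_algebraMap P _)).mul
        (regAt_inv_of_ord_eq_zero (hf₂ord₁ Q hQ P hPQ))
    exact (hΛreg.add ((regAt_algebraMap P κ).mul (hZreg P hPQ))).ord_nonneg
  have hαreg₂ : ∀ Q ∈ A₂, RegAt Q (S.c₂.rd (Λ + algebraMap K F κ * Z)) := by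
    intro Q hQ
    apply S.c₂.regAt_rd hP (S.c₂.V.add_mem _ _ hΛ₂ (S.c₂.V.mul_mem _ _ hκ₂ hZ₂)) (hK.good₂ hQ)
    intro P hPQ
    have hZreg : ∀ P', S.c₂.r P' = some Q → RegAt P' Z := fun P' hP' => by
      rw [hZdef, hpc, div_eq_mul_inv, ← map_inv₀]
      exact ((hf₂reg₂ Q hQ P' hP').sub (regAt_one P')).mul (regAt_algebraMap P' _)
    have hσZ : RegAt P (σ • Z) := by
      apply regAt_of_ord_nonneg
      rw [ord_smul_eq]
      exact (hZreg _ (by rw [hσinv₂]; exact hPQ)).ord_nonneg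
    have hΛreg : RegAt P Λ := by
      rw [hΛdef, div_eq_mul_inv, div_eq_mul_inv, ← map_inv₀]
      exact ((hσZ.sub (hZreg P hPQ)).mul (regAt_algebraMap P _)).mul
        (regAt_inv_of_ord_eq_zero (hf₂ord₂ Q hQ P hPQ))
    exact (hΛreg.add ((regAt_algebraMap P κ).mul (hZreg P hPQ))).ord_nonneg
  -- Step B: the residues `w_i` vanish
  obtain ⟨-, -, -, hw0, -, -⟩ := hK.residue_core hP hNS hΘV₁ hΘV₂ hΘreg w 1
    (by rw [Nat.cast_one]; exact one_ne_zero) hαreg₁ hαreg₂ hΘrd₁ hΘrd₂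
  -- Step C: the linear regime
  have hp3 : 3 ≤ p := by
    have := hp.two_le
    omega
  have hlin : ∀ i ∈ A, ∃ ε : K, S.IsCM ε ∧ a i ^ p = p * a i * ε := by
    intro i hi
    have h0 : S.c₁.rd (algebraMap K F (a i / ϖ)) = 0 := by
      rw [hA3rd i hi, hw0 i hi, map_zero]
    have h2 := (hA3 i hi).2.2 h0
    refine ⟨a i ^ (p - 1) / p, ?_, ?_⟩
    · rw [eps_identity hp3 hϖne hpK (a i)]
      show S.c₁.InM (algebraMap K F ((a i / ϖ ^ 2) ^ (p - 1) * (ϖ ^ p / p) * ϖ ^ (p - 2)))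
      rw [map_mul, map_mul, map_pow, map_pow]
      refine PRed.InM.mul_left (S.c₁.V.mul_mem _ _ (S.c₁.V.pow_mem h2 _) hϖp.isGU₁.1) ?_
      exact PRed.InM.pow ⟨hϖ.mem₁, hϖ.rd₁⟩ (by omega)
    · have hp1 : p = (p - 1) + 1 := by omega
      have e1 : a i ^ p = a i ^ (p - 1) * a i := by
        conv_lhs => rw [hp1, pow_succ]
      rw [e1]
      field_simp
  have hlin₁ : ∀ Q ∈ A₁, ∃ ε : K, S.IsCM ε ∧ a₁ Q ^ p = p * a₁ Q * ε := fun Q hQ =>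
    hlin (Sum.inl Q) (SSD.inl_mem_keyA hQ)
  have hlin₂ : ∀ Q ∈ A₂, ∃ ε : K, S.IsCM ε ∧ a₂ Q ^ p = p * a₂ Q * ε := fun Q hQ =>
    hlin (Sum.inr Q) (SSD.inr_mem_keyA hQ)
  exact keyNodal_lin S H A₁ A₂ hA₁ hA₂ hNS s₁ s₂ hs₁ hs₂ p hp f hf₁ hf₂ hrd₁ hrd₂ Pinf Qinf
    hQinfg hQinfA hPinf hfinf a₁ a₂ ha₁ ha₂ hlin₁ hlin₂
    (fun P h1 h2 => le_of_eq (hord0 P h1 h2).symm) hord₁ hord₂

end Main

end H28

end Fermat.Agent.BAD
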