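import Fermat.Agent.BAD.H28_Key
import Fermat.Agent.BAD.H28_NodeRad

/-!
# Row 38 (S44, BADP), helper28: RAY-K3 abstract core ("Key-p"), part 1: generic tools

* `H28.one_add_pow_prime_expand` : `(1 + x) ^ p = 1 + p x + p x² r + x ^ p`.
* `PRed.InM` : the maximal ideal of `V`; `PRed.CongM d α y` : `y = 1 + d (α + μ)`, `μ ∈ m`
  ("`y ≡ 1 + d α` modulo `d m`"), with its product rule and `PRed.congM_formula`.
* `SSD.residue_core` : the residue argument of the nodal key lemma, for an arbitrary function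
  `φ` whose reductions are `αb_i - m ∑ b_j / rd_i (s_j)`.

Plan: `NOTES/plan/L_S44.md` §12.3 (e1) (helper93).
-/

set_option autoImplicit false
set_option linter.style.haveILetI false
set_option maxHeartbeats 1000000

noncomputable section

open AlgebraicCurve

attribute [local instance] Classical.propDecidable

namespace Fermat.Agent.BAD

open Fermat.Agent.RED.H17 Fermat.Agent.RED

local notation "L" => riemannRochSpace

namespace H28

/-- The binomial expansion of `(1 + x) ^ p`, `p` prime, with the terms of degree `0`, `1`, `p`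
isolated. -/
theorem one_add_pow_prime_expand {R : Type*} [CommRing R] {p : ℕ} (hp : p.Prime) (x : R) :
    ∃ r : R, (1 + x) ^ p = 1 + p * x + p * x ^ 2 * r + x ^ p := by
  have h := add_pow_prime_eq hp x (1 : R)
  have h1p : 1 < p := hp.one_lt
  have hIoo : Finset.Ioo 0 p = insert 1 (Finset.Ioo 1 p) := by
    ext k
    simp only [Finset.mem_Ioo, Finset.mem_insert]
    omega
  have hnot : (1 : ℕ) ∉ Finset.Ioo 1 p := by simp
  refine ⟨∑ k ∈ Finset.Ioo 1 p, x ^ (k - 2) * ((p.choose k / p : ℕ) : R), ?_⟩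
  have hc1 : p.choose 1 / p = 1 := by
    rw [Nat.choose_one_right]
    exact Nat.div_self hp.pos
  have hsum : ∑ k ∈ Finset.Ioo 1 p, x ^ (k - 1) * (1 : R) ^ (p - k - 1) *
      ((p.choose k / p : ℕ) : R) =
      x * ∑ k ∈ Finset.Ioo 1 p, x ^ (k - 2) * ((p.choose k / p : ℕ) : R) := by
    rw [Finset.mul_sum]
    apply Finset.sum_congr rfl
    intro k hk
    have hk2 : 2 ≤ k := by
      have := (Finset.mem_Ioo.mp hk).1
      omega
    have e : k - 1 = (k - 2) + 1 := by omega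
    rw [e, pow_succ, one_pow]
    ring
  rw [add_comm 1 x, h, hIoo, Finset.sum_insert hnot, hsum, hc1]
  simp only [Nat.sub_self, pow_zero, one_pow, Nat.cast_one, mul_one]
  ring

end H28

namespace PRed

variable {K F k F' : Type*} [Field K] [Field F] [Algebra K F] [Field k] [Field F']
  [Algebra k F'] (S : PRed K F k F')

/-- The maximal ideal of `V`. -/
def InM (x : F) : Prop := x ∈ S.V ∧ S.rd x = 0

variable {S}

theorem inM_zero : S.InM (0 : F) := ⟨S.V.zero_mem, S.rd_zero⟩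

theorem InM.add {x y : F} (hx : S.InM x) (hy : S.InM y) : S.InM (x + y) :=
  ⟨S.V.add_mem _ _ hx.1 hy.1, by rw [S.rd_add hx.1 hy.1, hx.2, hy.2, add_zero]⟩

theorem InM.neg {x : F} (hx : S.InM x) : S.InM (-x) :=
  ⟨S.V.neg_mem _ hx.1, by rw [S.rd_neg hx.1, hx.2, neg_zero]⟩

theorem InM.sub {x y : F} (hx : S.InM x) (hy : S.InM y) : S.InM (x - y) := by
  rw [sub_eq_add_neg]
  exact hx.add hy.neg

theorem InM.mul_left {x y : F} (hx : x ∈ S.V) (hy : S.InM y) : S.InM (x * y) :=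
  ⟨S.V.mul_mem _ _ hx hy.1, by rw [S.rd_mul hx hy.1, hy.2, mul_zero]⟩

theorem InM.mul_right {x y : F} (hx : S.InM x) (hy : y ∈ S.V) : S.InM (x * y) :=
  ⟨S.V.mul_mem _ _ hx.1 hy, by rw [S.rd_mul hx.1 hy, hx.2, zero_mul]⟩

theorem InM.pow {x : F} (hx : S.InM x) {n : ℕ} (hn : n ≠ 0) : S.InM (x ^ n) :=
  ⟨S.V.pow_mem hx.1 n, by rw [S.rd_pow hx.1, hx.2, zero_pow hn]⟩

theorem InM.sum {ι : Type*} (A : Finset ι) (x : ι → F) (hx : ∀ i ∈ A, S.InM (x i)) :
    S.InM (∑ i ∈ A, x i) := by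
  induction A using Finset.induction_on with
  | empty => simpa using inM_zero
  | insert i s hi ih =>
    rw [Finset.sum_insert hi]
    exact (hx i (Finset.mem_insert_self i s)).add
      (ih fun j hj => hx j (Finset.mem_insert_of_mem hj))

/-- `(p : F)` lies in the maximal ideal if `p = 0` in `k`. -/
theorem inM_natCast {p : ℕ} (hpk : (p : k) = 0) : S.InM (p : F) := by
  refine ⟨S.natCast_mem_V p, ?_⟩
  rw [S.rd_natCast]
  have : (p : F') = algebraMap k F' (p : k) := by simp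
  rw [this, hpk, map_zero]

variable (S) in
/-- `y ≡ 1 + d α` modulo `d m`. -/
def CongM (d α y : F) : Prop := ∃ μ : F, S.InM μ ∧ y = 1 + d * (α + μ)

theorem congM_one (d : F) : S.CongM d 0 1 :=
  ⟨0, inM_zero, by ring⟩

theorem congM_self (d α : F) : S.CongM d α (1 + d * α) :=
  ⟨0, inM_zero, by ring⟩

theorem CongM.mul {d α β y z : F} (hd : S.InM d) (hα : α ∈ S.V) (hβ : β ∈ S.V)
    (hy : S.CongM d α y) (hz : S.CongM d β z) : S.CongM d (α + β) (y * z) := by
  obtain ⟨μ, hμ, rfl⟩ := hy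
  obtain ⟨ν, hν, rfl⟩ := hz
  refine ⟨μ + ν + d * ((α + μ) * (β + ν)), (hμ.add hν).add (hd.mul_right
    (S.V.mul_mem _ _ (S.V.add_mem _ _ hα hμ.1) (S.V.add_mem _ _ hβ hν.1))), ?_⟩
  ring

theorem CongM.prod {d : F} (hd : S.InM d) {ι : Type*} (A : Finset ι) (α y : ι → F)
    (hα : ∀ i ∈ A, α i ∈ S.V) (h : ∀ i ∈ A, S.CongM d (α i) (y i)) :
    S.CongM d (∑ i ∈ A, α i) (∏ i ∈ A, y i) := by
  induction A using Finset.induction_on with
  | empty => simpa using congM_one d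
  | insert i s hi ih =>
    rw [Finset.prod_insert hi, Finset.sum_insert hi]
    exact (h i (Finset.mem_insert_self i s)).mul hd (hα i (Finset.mem_insert_self i s))
      (Subring.sum_mem S.V.toSubring fun j hj => hα j (Finset.mem_insert_of_mem hj))
      (ih (fun j hj => hα j (Finset.mem_insert_of_mem hj))
        fun j hj => h j (Finset.mem_insert_of_mem hj))

/-- Change of the leading term by an element of the maximal ideal. -/
theorem CongM.congr {d α β y : F} (hy : S.CongM d α y) (h : S.InM (α - β)) :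
    S.CongM d β y := by
  obtain ⟨μ, hμ, rfl⟩ := hy
  exact ⟨μ + (α - β), hμ.add h, by ring⟩

theorem CongM.quot {d α y : F} (hd : d ≠ 0) (hα : α ∈ S.V) (hy : S.CongM d α y) :
    (y - 1) / d ∈ S.V ∧ S.rd ((y - 1) / d) = S.rd α := by
  obtain ⟨μ, hμ, rfl⟩ := hy
  have e : (1 + d * (α + μ) - 1) / d = α + μ := by
    field_simp
    ring
  rw [e]
  exact ⟨S.V.add_mem _ _ hα hμ.1, by rw [S.rd_add hα hμ.1, hμ.2, add_zero]⟩

/-- **The first order formula.**  If `y₀ ≡ 1 + d α₀` and `y_i ≡ 1 + d α_i` modulo `d m`, then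
`(y₀ ∏ y_i - 1) / d` is integral with reduction `rd α₀ + ∑ rd α_i`. -/
theorem congM_formula {d : F} (hd : S.InM d) (hd0 : d ≠ 0) {ι : Type*} (A : Finset ι)
    (α y : ι → F) (hα : ∀ i ∈ A, α i ∈ S.V) (h : ∀ i ∈ A, S.CongM d (α i) (y i))
    {α₀ y₀ : F} (hα₀ : α₀ ∈ S.V) (h₀ : S.CongM d α₀ y₀) :
    (y₀ * ∏ i ∈ A, y i - 1) / d ∈ S.V ∧
      S.rd ((y₀ * ∏ i ∈ A, y i - 1) / d) = S.rd α₀ + ∑ i ∈ A, S.rd (α i) := by
  have hsum : ∑ i ∈ A, α i ∈ S.V := Subring.sum_mem S.V.toSubring hα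
  have h1 := h₀.mul hd hα₀ hsum (CongM.prod hd A α y hα h)
  obtain ⟨h2, h3⟩ := h1.quot hd0 (S.V.add_mem _ _ hα₀ hsum)
  refine ⟨h2, ?_⟩
  rw [h3, S.rd_add hα₀ hsum, (S.rd_sum A α hα).2]

variable (S) in
/-- The binomial expansion inside `V`. -/
theorem one_add_pow_prime_mem {p : ℕ} (hp : p.Prime) {x : F} (hx : x ∈ S.V) :
    ∃ r ∈ S.V, (1 + x) ^ p = 1 + p * x + p * x ^ 2 * r + x ^ p := by
  obtain ⟨r, hr⟩ := H28.one_add_pow_prime_expand hp (⟨x, hx⟩ : S.V)
  refine ⟨(r : F), r.2, ?_⟩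
  have := congrArg (Subtype.val : S.V → F) hr
  simpa using this

end PRed

end Fermat.Agent.BAD
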