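import Fermat.Agent.BADP.H28_KeyPLin

/-!
# Row 38 (S44, BADP), helper28: RAY-K3 abstract core ("Key-p"), part 4: first order formulas

One-valuation formulas for the exponent `p = char k` (odd), `h_i = (s_i - a_i) / s_i`,
`a_i ^ p = p e_i` with `e_i` integral:

* `PRed.congM_pow_depth` : `h_i ^ p ≡ 1 - p e_i / s_i ^ p` modulo `p m`;
* `PRed.depth_formula` : if `c p ∈ m` then `rd (c (f - 1)) = rd (c (f₂ - 1))`, `f₂ = f / ∏ h_i ^ p`;
* `PRed.first_formula` : `rd ((f - 1) / p) = rd ((f₂ - 1) / p) - ∑ rd e_i / rd s_i ^ p`;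
* `PRed.congM_pow_sigma`, `PRed.sigma_formula` : the same for the quotients
  `(s_i - a'_i) / (s_i - a_i)`, `a'_i - a_i = π θ ω_i`, `π ^ (p - 1) = p ν₀`, modulo `p π θ m`.
-/

set_option autoImplicit false
set_option linter.style.haveILetI false
set_option maxHeartbeats 1000000

noncomputable section

open AlgebraicCurve

attribute [local instance] Classical.propDecidable

namespace Fermat.Agent.BAD

open Fermat.Agent.RED.H17 Fermat.Agent.RED

namespace PRed

variable {K F k F' : Type*} [Field K] [Field F] [Algebra K F] [Field k] [Field F']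
  [Algebra k F'] (S : PRed K F k F')

/-- The factor `((s - a) / s) ^ p` to first order in `p`. -/
theorem congM_pow_depth {p : ℕ} (hp : p.Prime) (hp2 : p ≠ 2) {s : F} (hs : S.IsGU s) {a e : K}
    (ha : S.InM (algebraMap K F a)) (hpow : a ^ p = p * e) :
    S.CongM (p : F) (-(algebraMap K F e / s ^ p)) (((s - algebraMap K F a) / s) ^ p) := by
  have hsne : s ≠ 0 := hs.ne_zero
  have hx : S.InM (-algebraMap K F a / s) := S.inM_neg_div hs ha
  obtain ⟨r, hr, hexp⟩ := S.one_add_pow_prime_mem hp hx.1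
  have h1 : (s - algebraMap K F a) / s = 1 + -algebraMap K F a / s := by
    field_simp
    ring
  have hpowF : algebraMap K F a ^ p = (p : F) * algebraMap K F e := by
    rw [← map_pow, hpow, map_mul, map_natCast]
  have hodd : Odd p := hp.odd_of_ne_two hp2
  have hxp : (-algebraMap K F a / s) ^ p = -((p : F) * algebraMap K F e) / s ^ p := by
    rw [div_pow, hodd.neg_pow, hpowF]
  refine ⟨-algebraMap K F a / s + (-algebraMap K F a / s) ^ 2 * r,
    hx.add ((hx.pow two_ne_zero).mul_right hr), ?_⟩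
  rw [h1, hexp, hxp]
  field_simp
  ring

section Depth

variable {ι : Type*} (A : Finset ι) (s : ι → F) (a e : ι → K)
  (hs : ∀ i ∈ A, S.IsGU (s i)) (ha : ∀ i ∈ A, S.InM (algebraMap K F (a i)))
  (he : ∀ i ∈ A, algebraMap K F (e i) ∈ S.V)
  {p : ℕ} (hp : p.Prime) (hp2 : p ≠ 2) (hpM : S.InM (p : F))
  (hpow : ∀ i ∈ A, a i ^ p = p * e i)

include hs ha he hp hp2 hpM hpow

/-- `(∏ h_i) ^ p = 1 + p η` with `η` integral of reduction `- ∑ rd e_i / rd s_i ^ p`. -/
theorem prod_pow_depth :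
    ∃ η : F, η ∈ S.V ∧ (∏ i ∈ A, (s i - algebraMap K F (a i)) / s i) ^ p = 1 + p * η ∧
      S.rd η = -∑ i ∈ A, S.rd (algebraMap K F (e i)) / S.rd (s i) ^ p := by
  have hαmem : ∀ i ∈ A, -(algebraMap K F (e i) / s i ^ p) ∈ S.V := fun i hi => by
    rw [div_eq_mul_inv]
    exact S.V.neg_mem _ (S.V.mul_mem _ _ (he i hi) ((hs i hi).pow p).inv_mem)
  obtain ⟨μ, hμ, hprod⟩ := CongM.prod hpM A (fun i => -(algebraMap K F (e i) / s i ^ p))
    (fun i => ((s i - algebraMap K F (a i)) / s i) ^ p) hαmem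
    (fun i hi => S.congM_pow_depth hp hp2 (hs i hi) (ha i hi) (hpow i hi))
  have hsumV : ∑ i ∈ A, -(algebraMap K F (e i) / s i ^ p) ∈ S.V :=
    Subring.sum_mem S.V.toSubring hαmem
  refine ⟨∑ i ∈ A, -(algebraMap K F (e i) / s i ^ p) + μ, S.V.add_mem _ _ hsumV hμ.1, ?_, ?_⟩
  · rw [← Finset.prod_pow]
    exact hprod
  · rw [S.rd_add hsumV hμ.1, hμ.2, add_zero, (S.rd_sum A _ hαmem).2,
      ← Finset.sum_neg_distrib]
    apply Finset.sum_congr rfl
    intro i hi
    have hm : algebraMap K F (e i) / s i ^ p ∈ S.V := by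
      rw [div_eq_mul_inv]
      exact S.V.mul_mem _ _ (he i hi) ((hs i hi).pow p).inv_mem
    rw [S.rd_neg hm, div_eq_mul_inv, S.rd_mul (he i hi) ((hs i hi).pow p).inv_mem,
      ((hs i hi).pow p).rd_inv, S.rd_pow (hs i hi).1, div_eq_mul_inv]

/-- **Depth.**  If `c p` lies in the maximal ideal and `c (f₂ - 1)` is integral, then
`c (f - 1)` is integral with the same reduction. -/
theorem depth_formula (f : F) (c : K) (hcp : S.InM (algebraMap K F (c * p)))
    (hαV : algebraMap K F c *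
      (f / (∏ i ∈ A, (s i - algebraMap K F (a i)) / s i) ^ p - 1) ∈ S.V) :
    algebraMap K F c * (f - 1) ∈ S.V ∧
      S.rd (algebraMap K F c * (f - 1)) =
        S.rd (algebraMap K F c *
          (f / (∏ i ∈ A, (s i - algebraMap K F (a i)) / s i) ^ p - 1)) := by
  obtain ⟨η, hη, hHη, -⟩ := S.prod_pow_depth A s a e hs ha he hp hp2 hpM hpow
  obtain ⟨hHGU, hHrd⟩ := S.isGU_prod_h A s a hs ha
  set Hp : F := ∏ i ∈ A, (s i - algebraMap K F (a i)) / s i with hHp
  have hHne : Hp ^ p ≠ 0 := pow_ne_zero _ hHGU.ne_zero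
  have hHpV : Hp ^ p ∈ S.V := (hHGU.pow p).1
  have hHprd : S.rd (Hp ^ p) = 1 := by rw [S.rd_pow hHGU.1, hHrd, one_pow]
  have e1 : algebraMap K F c * (f - 1) =
      algebraMap K F c * (f / Hp ^ p - 1) * Hp ^ p + algebraMap K F (c * p) * η := by
    have h2 : f = f / Hp ^ p * Hp ^ p := by rw [div_mul_cancel₀ _ hHne]
    rw [map_mul, map_natCast]
    have h3 : Hp ^ p - 1 = p * η := by rw [hHη]; ring
    calc algebraMap K F c * (f - 1)
        = algebraMap K F c * (f / Hp ^ p * Hp ^ p - 1) := by rw [← h2]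
      _ = algebraMap K F c * (f / Hp ^ p - 1) * Hp ^ p + algebraMap K F c * (Hp ^ p - 1) := by
          ring
      _ = _ := by rw [h3]; ring
  have hm1 : algebraMap K F c * (f / Hp ^ p - 1) * Hp ^ p ∈ S.V := S.V.mul_mem _ _ hαV hHpV
  have hm2 : S.InM (algebraMap K F (c * p) * η) := hcp.mul_right hη
  rw [e1]
  refine ⟨S.V.add_mem _ _ hm1 hm2.1, ?_⟩
  rw [S.rd_add hm1 hm2.1, hm2.2, add_zero, S.rd_mul hαV hHpV, hHprd, mul_one]

/-- **First order.**  If `(f₂ - 1) / p` is integral, then `(f - 1) / p` is integral, with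
reduction `rd ((f₂ - 1) / p) - ∑ rd e_i / rd s_i ^ p`. -/
theorem first_formula (hpF : (p : F) ≠ 0) (f : F)
    (hZ : (f / (∏ i ∈ A, (s i - algebraMap K F (a i)) / s i) ^ p - 1) / p ∈ S.V) :
    (f - 1) / p ∈ S.V ∧
      S.rd ((f - 1) / p) =
        S.rd ((f / (∏ i ∈ A, (s i - algebraMap K F (a i)) / s i) ^ p - 1) / p) -
          ∑ i ∈ A, S.rd (algebraMap K F (e i)) / S.rd (s i) ^ p := by
  obtain ⟨η, hη, hHη, hηrd⟩ := S.prod_pow_depth A s a e hs ha he hp hp2 hpM hpow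
  obtain ⟨hHGU, hHrd⟩ := S.isGU_prod_h A s a hs ha
  set Hp : F := ∏ i ∈ A, (s i - algebraMap K F (a i)) / s i with hHp
  have hHne : Hp ^ p ≠ 0 := pow_ne_zero _ hHGU.ne_zero
  have hHpV : Hp ^ p ∈ S.V := (hHGU.pow p).1
  have hHprd : S.rd (Hp ^ p) = 1 := by rw [S.rd_pow hHGU.1, hHrd, one_pow]
  have e1 : (f - 1) / p = (f / Hp ^ p - 1) / p * Hp ^ p + η := by
    have h2 : f = f / Hp ^ p * Hp ^ p := by rw [div_mul_cancel₀ _ hHne]
    have h3 : η = (Hp ^ p - 1) / p := by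
      rw [hHη]
      field_simp
      ring
    rw [h3]
    field_simp
    ring
  have hm1 : (f / Hp ^ p - 1) / p * Hp ^ p ∈ S.V := S.V.mul_mem _ _ hZ hHpV
  rw [e1]
  refine ⟨S.V.add_mem _ _ hm1 hη, ?_⟩
  rw [S.rd_add hm1 hη, S.rd_mul hZ hHpV, hHprd, mul_one, hηrd]
  ring

end Depth

/-- The factor `((s - a') / (s - a)) ^ p`, `a' - a = π θ ω`, to first order in `p π θ`. -/
theorem congM_pow_sigma {p : ℕ} (hp : p.Prime) (hp2 : p ≠ 2) {s : F} (hs : S.IsGU s)
    {a a' ω π θ ν₀ : K} (ha : S.InM (algebraMap K F a)) (hω : algebraMap K F ω ∈ S.V)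
    (hπ : S.InM (algebraMap K F π)) (hθ : algebraMap K F θ ∈ S.V)
    (hdiff : a' - a = π * θ * ω) (hπp : π ^ (p - 1) = p * ν₀) :
    S.CongM ((p : F) * algebraMap K F (π * θ))
      (-(algebraMap K F ω / (s - algebraMap K F a)) -
        algebraMap K F ν₀ * algebraMap K F θ ^ (p - 1) *
          (algebraMap K F ω ^ p / (s - algebraMap K F a) ^ p))
      (((s - algebraMap K F a') / (s - algebraMap K F a)) ^ p) := by
  obtain ⟨hsa, -⟩ := hs.sub_const ha.1 ha.2
  have hsane : s - algebraMap K F a ≠ 0 := hsa.ne_zero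
  have hq : algebraMap K F ω / (s - algebraMap K F a) ∈ S.V := by
    rw [div_eq_mul_inv]
    exact S.V.mul_mem _ _ hω hsa.inv_mem
  set Y : F := algebraMap K F (π * θ) * (algebraMap K F ω / (s - algebraMap K F a)) with hY
  have hπθ : S.InM (algebraMap K F (π * θ)) := by
    rw [map_mul]
    exact hπ.mul_right hθ
  have hYM : S.InM Y := hπθ.mul_right hq
  obtain ⟨r, hr, hexp⟩ := S.one_add_pow_prime_mem hp hYM.neg.1
  have h1 : (s - algebraMap K F a') / (s - algebraMap K F a) = 1 + -Y := by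
    have : algebraMap K F a' = algebraMap K F a + algebraMap K F (π * θ) * algebraMap K F ω := by
      rw [← map_mul, ← map_add, ← hdiff]
      congr 1
      ring
    rw [hY, this]
    field_simp
    ring
  have hodd : Odd p := hp.odd_of_ne_two hp2
  have hp1 : p = (p - 1) + 1 := by
    have := hp.pos
    omega
  have hπpF : algebraMap K F π ^ (p - 1) = (p : F) * algebraMap K F ν₀ := by
    rw [← map_pow, hπp, map_mul, map_natCast]
  have hYp : (-Y) ^ p = -((p : F) * algebraMap K F (π * θ) *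
      (algebraMap K F ν₀ * algebraMap K F θ ^ (p - 1) *
        (algebraMap K F ω ^ p / (s - algebraMap K F a) ^ p))) := by
    rw [hodd.neg_pow, hY, mul_pow, div_pow, map_mul, mul_pow]
    have e1 : algebraMap K F π ^ p = (p : F) * algebraMap K F ν₀ * algebraMap K F π := by
      conv_lhs => rw [hp1, pow_succ, hπpF]
    have e2 : algebraMap K F θ ^ p = algebraMap K F θ ^ (p - 1) * algebraMap K F θ := by
      conv_lhs => rw [hp1, pow_succ]
    rw [e1, e2]
    ring
  refine ⟨Y * (algebraMap K F ω / (s - algebraMap K F a)) * r,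
    (hYM.mul_right hq).mul_right hr, ?_⟩
  rw [h1, hexp, hYp]
  have e3 : (-Y) ^ 2 = algebraMap K F (π * θ) *
      (Y * (algebraMap K F ω / (s - algebraMap K F a))) := by
    rw [hY]; ring
  rw [e3]
  have e4 : (p : F) * -Y = (p : F) * algebraMap K F (π * θ) *
      (-(algebraMap K F ω / (s - algebraMap K F a))) := by
    rw [hY]; ring
  rw [e4]
  ring

/-- **First order, Galois version.** -/
theorem sigma_formula {ι : Type*} (A : Finset ι) (s : ι → F) (a a' ω : ι → K)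
    (hs : ∀ i ∈ A, S.IsGU (s i)) (ha : ∀ i ∈ A, S.InM (algebraMap K F (a i)))
    (hω : ∀ i ∈ A, algebraMap K F (ω i) ∈ S.V)
    {p : ℕ} (hp : p.Prime) (hp2 : p ≠ 2) (hpM : S.InM (p : F)) (hpF : (p : F) ≠ 0)
    {π θ ν₀ : K} (hπ : S.InM (algebraMap K F π)) (hθ : algebraMap K F θ ∈ S.V)
    (hπne : π ≠ 0) (hθne : θ ≠ 0)
    (hν : algebraMap K F ν₀ ∈ S.V) (hπp : π ^ (p - 1) = p * ν₀)
    (hdiff : ∀ i ∈ A, a' i - a i = π * θ * ω i)
    {y₀ Λ : F} (hΛ : Λ ∈ S.V) (hy₀ : y₀ = 1 + (p : F) * algebraMap K F (π * θ) * Λ) :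
    (y₀ * ∏ i ∈ A, ((s i - algebraMap K F (a' i)) / (s i - algebraMap K F (a i))) ^ p - 1) /
        ((p : F) * algebraMap K F (π * θ)) ∈ S.V ∧
      S.rd ((y₀ * ∏ i ∈ A,
          ((s i - algebraMap K F (a' i)) / (s i - algebraMap K F (a i))) ^ p - 1) /
        ((p : F) * algebraMap K F (π * θ))) =
        S.rd Λ + ∑ i ∈ A, (-(S.rd (algebraMap K F (ω i)) / S.rd (s i)) -
          S.rd (algebraMap K F ν₀) * S.rd (algebraMap K F θ) ^ (p - 1) *
            (S.rd (algebraMap K F (ω i)) ^ p / S.rd (s i) ^ p)) := by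
  have hπθ : S.InM (algebraMap K F (π * θ)) := by
    rw [map_mul]
    exact hπ.mul_right hθ
  have hd : S.InM ((p : F) * algebraMap K F (π * θ)) := hpM.mul_right hπθ.1
  have hd0 : (p : F) * algebraMap K F (π * θ) ≠ 0 :=
    mul_ne_zero hpF ((map_ne_zero_iff _ (algebraMap K F).injective).mpr
      (mul_ne_zero hπne hθne))
  have hsa : ∀ i ∈ A, S.IsGU (s i - algebraMap K F (a i)) ∧
      S.rd (s i - algebraMap K F (a i)) = S.rd (s i) := fun i hi =>
    (hs i hi).sub_const (ha i hi).1 (ha i hi).2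
  have hq : ∀ i ∈ A, algebraMap K F (ω i) / (s i - algebraMap K F (a i)) ∈ S.V := fun i hi => by
    rw [div_eq_mul_inv]
    exact S.V.mul_mem _ _ (hω i hi) (hsa i hi).1.inv_mem
  have hq2 : ∀ i ∈ A, algebraMap K F (ω i) ^ p / (s i - algebraMap K F (a i)) ^ p ∈ S.V :=
    fun i hi => by
      rw [← div_pow]
      exact S.V.pow_mem (hq i hi) p
  have hc2 : algebraMap K F ν₀ * algebraMap K F θ ^ (p - 1) ∈ S.V :=
    S.V.mul_mem _ _ hν (S.V.pow_mem hθ _)
  have hαmem : ∀ i ∈ A, -(algebraMap K F (ω i) / (s i - algebraMap K F (a i))) -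
      algebraMap K F ν₀ * algebraMap K F θ ^ (p - 1) *
        (algebraMap K F (ω i) ^ p / (s i - algebraMap K F (a i)) ^ p) ∈ S.V := fun i hi =>
    S.V.sub_mem (S.V.neg_mem _ (hq i hi)) (S.V.mul_mem _ _ hc2 (hq2 i hi))
  have h₀ : S.CongM ((p : F) * algebraMap K F (π * θ)) Λ y₀ := by
    rw [hy₀]
    exact congM_self _ _
  obtain ⟨h1, h2⟩ := congM_formula hd hd0 A _
    (fun i => ((s i - algebraMap K F (a' i)) / (s i - algebraMap K F (a i))) ^ p) hαmem
    (fun i hi => S.congM_pow_sigma hp hp2 (hs i hi) (ha i hi) (hω i hi) hπ hθ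
      (hdiff i hi) hπp) hΛ h₀
  refine ⟨h1, ?_⟩
  rw [h2]
  congr 1
  apply Finset.sum_congr rfl
  intro i hi
  rw [S.rd_sub (S.V.neg_mem _ (hq i hi)) (S.V.mul_mem _ _ hc2 (hq2 i hi)),
    S.rd_neg (hq i hi), S.rd_mul hc2 (hq2 i hi), S.rd_mul hν (S.V.pow_mem hθ _),
    S.rd_pow hθ]
  have e1 : S.rd (algebraMap K F (ω i) / (s i - algebraMap K F (a i))) =
      S.rd (algebraMap K F (ω i)) / S.rd (s i) := by
    rw [div_eq_mul_inv, S.rd_mul (hω i hi) (hsa i hi).1.inv_mem, (hsa i hi).1.rd_inv,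
      (hsa i hi).2, div_eq_mul_inv]
  have e2 : S.rd (algebraMap K F (ω i) ^ p / (s i - algebraMap K F (a i)) ^ p) =
      S.rd (algebraMap K F (ω i)) ^ p / S.rd (s i) ^ p := by
    rw [← div_pow, S.rd_pow (hq i hi), e1, div_pow]
  rw [e1, e2]

end PRed

end Fermat.Agent.BAD
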