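import Fermat.Agent.BADP.H28_KeyPSetup

/-!
# Row 38 (S44, BADP), helper28: RAY-K3 abstract core ("Key-p"), part 3: the linear regime

`keyNodal_lin` : the nodal key lemma for the exponent `p` (a prime, possibly `p = 0` in `k`),
when the parameters `a_Q` satisfy `a_Q ^ p = p a_Q ε_Q` with `ε_Q` in the maximal ideal
("`v(a_Q) > v(p) / (p - 1)`": the linear term `p a_Q / s_Q` dominates `(1 - a_Q / s_Q) ^ p - 1`).
-/

set_option autoImplicit false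
set_option linter.style.haveILetI false
set_option maxHeartbeats 1000000

noncomputable section

open AlgebraicCurve

attribute [local instance] Classical.propDecidable

namespace Fermat.Agent.BAD

open Fermat.Agent.RED.H17 Fermat.Agent.RED

local notation "L" => riemannRochSpace

namespace PRed

variable {K F k F' : Type*} [Field K] [Field F] [Algebra K F] [Field k] [Field F']
  [Algebra k F'] (S : PRed K F k F')

/-- `x = - a / s` lies in the maximal ideal, and `(s - a) / s = 1 + x`. -/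
theorem inM_neg_div {s : F} (hs : S.IsGU s) {a : F} (ha : S.InM a) : S.InM (-a / s) := by
  rw [div_eq_mul_inv]
  exact ha.neg.mul_right hs.inv_mem

/-- The factor `((s - a) / s) ^ p` in the linear regime. -/
theorem congM_pow_lin {p : ℕ} (hp : p.Prime) {s : F} (hs : S.IsGU s) {a ε c : K}
    (ha : S.InM (algebraMap K F a)) (hε : S.InM (algebraMap K F ε))
    (hpow : a ^ p = p * a * ε) (hc : c ≠ 0)
    (hβ : algebraMap K F (c * (p * a)) ∈ S.V) :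
    S.CongM (algebraMap K F c⁻¹) (-(algebraMap K F (c * (p * a)) / s))
      (((s - algebraMap K F a) / s) ^ p) := by
  have hsne : s ≠ 0 := hs.ne_zero
  have hcF : algebraMap K F c ≠ 0 := (map_ne_zero_iff _ (algebraMap K F).injective).mpr hc
  have hx : S.InM (-algebraMap K F a / s) := S.inM_neg_div hs ha
  obtain ⟨r, hr, hexp⟩ := S.one_add_pow_prime_mem hp hx.1
  have h1 : (s - algebraMap K F a) / s = 1 + -algebraMap K F a / s := by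
    field_simp
    ring
  have hpowF : algebraMap K F a ^ p = (p : F) * algebraMap K F a * algebraMap K F ε := by
    rw [← map_pow, hpow, map_mul, map_mul, map_natCast]
  have hxp : (-algebraMap K F a / s) ^ p =
      (-1) ^ p * ((p : F) * algebraMap K F a * algebraMap K F ε) / s ^ p := by
    rw [div_pow, neg_pow, hpowF]
  set μ : F := algebraMap K F (c * (p * a)) *
    (algebraMap K F a / s ^ 2 * r + (-1) ^ p * algebraMap K F ε / s ^ p) with hμ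
  have hμM : S.InM μ := by
    refine InM.mul_left hβ (InM.add ?_ ?_)
    · refine InM.mul_right ?_ hr
      rw [div_eq_mul_inv]
      exact ha.mul_right (hs.pow 2).inv_mem
    · rw [div_eq_mul_inv]
      refine InM.mul_right (InM.mul_left ?_ hε) (hs.pow p).inv_mem
      exact S.V.pow_mem (S.V.neg_mem _ S.V.one_mem) p
  refine ⟨μ, hμM, ?_⟩
  rw [h1, hexp, hxp, hμ]
  simp only [map_mul, map_inv₀, map_natCast]
  field_simp
  ring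

/-- **First order congruence in the linear regime.** -/
theorem cong_formula_lin {ι : Type*} (A : Finset ι) (s : ι → F) (a ε : ι → K)
    (hs : ∀ i ∈ A, S.IsGU (s i))
    (ha : ∀ i ∈ A, S.InM (algebraMap K F (a i)))
    (hε : ∀ i ∈ A, S.InM (algebraMap K F (ε i)))
    {p : ℕ} (hp : p.Prime) (hpow : ∀ i ∈ A, a i ^ p = p * a i * ε i) (f : F)
    (c : K) (hc : c ≠ 0) (hd : S.InM (algebraMap K F c⁻¹))
    (hαV : algebraMap K F c *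
      (f / (∏ i ∈ A, (s i - algebraMap K F (a i)) / s i) ^ p - 1) ∈ S.V)
    (hβV : ∀ i ∈ A, algebraMap K F (c * (p * a i)) ∈ S.V)
    (b : ι → k) (hb : ∀ i ∈ A, S.rd (algebraMap K F (c * (p * a i))) = algebraMap k F' (b i)) :
    algebraMap K F c * (f - 1) ∈ S.V ∧
      S.rd (algebraMap K F c * (f - 1)) =
        S.rd (algebraMap K F c *
          (f / (∏ i ∈ A, (s i - algebraMap K F (a i)) / s i) ^ p - 1)) -
          ((1 : ℕ) : F') * ∑ i ∈ A, algebraMap k F' (b i) / S.rd (s i) := by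
  have hcF : algebraMap K F c ≠ 0 := (map_ne_zero_iff _ (algebraMap K F).injective).mpr hc
  have hdne : algebraMap K F c⁻¹ ≠ 0 :=
    (map_ne_zero_iff _ (algebraMap K F).injective).mpr (inv_ne_zero hc)
  obtain ⟨hHGU, -⟩ := S.isGU_prod_h A s a hs ha
  set Hp : F := ∏ i ∈ A, (s i - algebraMap K F (a i)) / s i with hHp
  set f₂ : F := f / Hp ^ p with hf₂
  have hff₂ : f₂ * ∏ i ∈ A, ((s i - algebraMap K F (a i)) / s i) ^ p = f := by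
    rw [Finset.prod_pow, ← hHp, hf₂, div_mul_cancel₀ _ (pow_ne_zero _ hHGU.ne_zero)]
  have hαmem : ∀ i ∈ A, -(algebraMap K F (c * (p * a i)) / s i) ∈ S.V := fun i hi => by
    rw [div_eq_mul_inv]
    exact S.V.neg_mem _ (S.V.mul_mem _ _ (hβV i hi) (hs i hi).inv_mem)
  have h₀ : S.CongM (algebraMap K F c⁻¹) (algebraMap K F c * (f₂ - 1)) f₂ := by
    refine ⟨0, inM_zero, ?_⟩
    rw [map_inv₀]
    field_simp
    ring
  obtain ⟨h1, h2⟩ := congM_formula hd hdne A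
    (fun i => -(algebraMap K F (c * (p * a i)) / s i))
    (fun i => ((s i - algebraMap K F (a i)) / s i) ^ p) hαmem
    (fun i hi => S.congM_pow_lin hp (hs i hi) (ha i hi) (hε i hi) (hpow i hi) hc (hβV i hi))
    hαV h₀
  rw [hff₂] at h1 h2
  have e : (f - 1) / algebraMap K F c⁻¹ = algebraMap K F c * (f - 1) := by
    rw [map_inv₀]
    field_simp
  rw [e] at h1 h2
  refine ⟨h1, ?_⟩
  have hsum : ∑ i ∈ A, S.rd (-(algebraMap K F (c * (p * a i)) / s i)) =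
      -∑ i ∈ A, algebraMap k F' (b i) / S.rd (s i) := by
    rw [← Finset.sum_neg_distrib]
    apply Finset.sum_congr rfl
    intro i hi
    rw [S.rd_neg (by rw [div_eq_mul_inv]; exact S.V.mul_mem _ _ (hβV i hi) (hs i hi).inv_mem),
      div_eq_mul_inv, S.rd_mul (hβV i hi) (hs i hi).inv_mem, (hs i hi).rd_inv, hb i hi,
      div_eq_mul_inv]
  rw [h2, hsum, Nat.cast_one, one_mul]
  ring

end PRed

namespace SSD

variable {K F k F₁ F₂ : Type*} [Field K] [Field F] [Algebra K F] [Field k] [Field F₁]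
  [Algebra k F₁] [Field F₂] [Algebra k F₂] {S : SSD K F k F₁ F₂}

namespace KeyHyp

variable {A₁ : Finset (Place k F₁)} {A₂ : Finset (Place k F₂)}
  {s₁ : Place k F₁ → F} {s₂ : Place k F₂ → F}

/-- The basic facts on `Hp = ∏ (s_Q - a_Q) / s_Q` and `f₂ = f / Hp ^ n`. -/
theorem key_f₂ (hK : S.KeyHyp A₁ A₂ s₁ s₂) (hP : HasPrincipalDivisors K F)
    {a₁ : Place k F₁ → K} {a₂ : Place k F₂ → K}
    (ha₁ : ∀ Q ∈ A₁, algebraMap K F (a₁ Q) ∈ S.c₁.V ∧ S.c₁.rd (algebraMap K F (a₁ Q)) = 0)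
    (ha₂ : ∀ Q ∈ A₂, algebraMap K F (a₂ Q) ∈ S.c₂.V ∧ S.c₂.rd (algebraMap K F (a₂ Q)) = 0)
    (n : ℕ) {f : F} (hf₁ : f ∈ S.c₁.V) (hf₂ : f ∈ S.c₂.V) (hrd₁ : S.c₁.rd f = 1)
    (hrd₂ : S.c₂.rd f = 1)
    (hord₁ : ∀ Q ∈ A₁, ∀ P, S.c₁.r P = some Q →
      P.ord f = n * (P.ord (s₁ Q - algebraMap K F (a₁ Q)) - P.ord (s₁ Q)))
    (hord₂ : ∀ Q ∈ A₂, ∀ P, S.c₂.r P = some Q →
      P.ord f = n * (P.ord (s₂ Q - algebraMap K F (a₂ Q)) - P.ord (s₂ Q))) :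
    (S.c₁.IsGU (∏ i ∈ keyA A₁ A₂,
        (Sum.elim s₁ s₂ i - algebraMap K F (Sum.elim a₁ a₂ i)) / Sum.elim s₁ s₂ i) ∧
      S.c₁.rd (∏ i ∈ keyA A₁ A₂,
        (Sum.elim s₁ s₂ i - algebraMap K F (Sum.elim a₁ a₂ i)) / Sum.elim s₁ s₂ i) = 1) ∧
    (S.c₂.IsGU (∏ i ∈ keyA A₁ A₂,
        (Sum.elim s₁ s₂ i - algebraMap K F (Sum.elim a₁ a₂ i)) / Sum.elim s₁ s₂ i) ∧
      S.c₂.rd (∏ i ∈ keyA A₁ A₂,
        (Sum.elim s₁ s₂ i - algebraMap K F (Sum.elim a₁ a₂ i)) / Sum.elim s₁ s₂ i) = 1) ∧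
    (S.c₁.IsGU (f / (∏ i ∈ keyA A₁ A₂,
        (Sum.elim s₁ s₂ i - algebraMap K F (Sum.elim a₁ a₂ i)) / Sum.elim s₁ s₂ i) ^ n) ∧
      S.c₁.rd (f / (∏ i ∈ keyA A₁ A₂,
        (Sum.elim s₁ s₂ i - algebraMap K F (Sum.elim a₁ a₂ i)) / Sum.elim s₁ s₂ i) ^ n) = 1) ∧
    (S.c₂.IsGU (f / (∏ i ∈ keyA A₁ A₂,
        (Sum.elim s₁ s₂ i - algebraMap K F (Sum.elim a₁ a₂ i)) / Sum.elim s₁ s₂ i) ^ n) ∧
      S.c₂.rd (f / (∏ i ∈ keyA A₁ A₂,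
        (Sum.elim s₁ s₂ i - algebraMap K F (Sum.elim a₁ a₂ i)) / Sum.elim s₁ s₂ i) ^ n) = 1) ∧
    (∀ Q ∈ A₁, ∀ P, S.c₁.r P = some Q → P.ord (f / (∏ i ∈ keyA A₁ A₂,
        (Sum.elim s₁ s₂ i - algebraMap K F (Sum.elim a₁ a₂ i)) / Sum.elim s₁ s₂ i) ^ n) = 0) ∧
    (∀ Q ∈ A₂, ∀ P, S.c₂.r P = some Q → P.ord (f / (∏ i ∈ keyA A₁ A₂,
        (Sum.elim s₁ s₂ i - algebraMap K F (Sum.elim a₁ a₂ i)) / Sum.elim s₁ s₂ i) ^ n) = 0) := by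
  have hfGU₁ : S.c₁.IsGU f := ⟨hf₁, by rw [hrd₁]; exact one_ne_zero⟩
  have hfGU₂ : S.c₂.IsGU f := ⟨hf₂, by rw [hrd₂]; exact one_ne_zero⟩
  have haM₁ : ∀ i ∈ keyA A₁ A₂, algebraMap K F (Sum.elim a₁ a₂ i) ∈ S.c₁.V ∧
      S.c₁.rd (algebraMap K F (Sum.elim a₁ a₂ i)) = 0 := fun i hi => S.inM_keyA ha₁ ha₂ hi
  have haM₂ : ∀ i ∈ keyA A₁ A₂, algebraMap K F (Sum.elim a₁ a₂ i) ∈ S.c₂.V ∧
      S.c₂.rd (algebraMap K F (Sum.elim a₁ a₂ i)) = 0 := fun i hi =>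
    ⟨(S.inM_keyA ha₁ ha₂ hi).mem₂, (S.inM_keyA ha₁ ha₂ hi).rd₂⟩
  obtain ⟨hHGU₁, hHrd₁⟩ := S.c₁.isGU_prod_h (keyA A₁ A₂) (Sum.elim s₁ s₂) (Sum.elim a₁ a₂)
    (fun i hi => hK.isGU₁ hi) haM₁
  obtain ⟨hHGU₂, hHrd₂⟩ := S.c₂.isGU_prod_h (keyA A₁ A₂) (Sum.elim s₁ s₂) (Sum.elim a₁ a₂)
    (fun i hi => hK.isGU₂ hi) haM₂
  refine ⟨⟨hHGU₁, hHrd₁⟩, ⟨hHGU₂, hHrd₂⟩, ⟨hfGU₁.div (hHGU₁.pow n), ?_⟩,
    ⟨hfGU₂.div (hHGU₂.pow n), ?_⟩, ?_, ?_⟩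
  · rw [hfGU₁.rd_div (hHGU₁.pow n), hrd₁, S.c₁.rd_pow hHGU₁.1, hHrd₁, one_pow, div_one]
  · rw [hfGU₂.rd_div (hHGU₂.pow n), hrd₂, S.c₂.rd_pow hHGU₂.1, hHrd₂, one_pow, div_one]
  · intro Q hQ P hPQ
    exact S.c₁.key_ord_gen hP (keyA A₁ A₂) (Sum.elim s₁ s₂) (Sum.elim a₁ a₂)
      (fun i hi => hK.isGU₁ hi) haM₁ (hK.good₁ hQ) (inl_mem_keyA hQ)
      (fun i hi _ P' hP' => hK.reg₁ hi hQ hP')
      (fun i hi hne => hK.ord0₁ hi hQ hne) n f hfGU₁.ne_zero (hord₁ Q hQ) hPQ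
  · intro Q hQ P hPQ
    exact S.c₂.key_ord_gen hP (keyA A₁ A₂) (Sum.elim s₁ s₂) (Sum.elim a₁ a₂)
      (fun i hi => hK.isGU₂ hi) haM₂ (hK.good₂ hQ) (inr_mem_keyA hQ)
      (fun i hi _ P' hP' => hK.reg₂ hi hQ hP')
      (fun i hi hne => hK.ord0₂ hi hQ hne) n f hfGU₁.ne_zero (hord₂ Q hQ) hPQ

end KeyHyp

end SSD

namespace H28

section Main

variable {K F k F₁ F₂ : Type} [Field K] [Field F] [Algebra K F] [Field k] [Field F₁]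
  [Algebra k F₁] [Field F₂] [Algebra k F₂]

/-- **The nodal key lemma in the linear regime** (exponent `p` prime, `a_Q ^ p = p a_Q ε_Q`
with `ε_Q` in the maximal ideal). -/
theorem keyNodal_lin (S : SSD K F k F₁ F₂) (H : FFHyp K F)
    (A₁ : Finset (Place k F₁)) (A₂ : Finset (Place k F₂))
    (hA₁ : Disjoint A₁ S.br₁) (hA₂ : Disjoint A₂ S.br₂) (hNS : S.IsNS A₁ A₂)
    (s₁ : Place k F₁ → F) (s₂ : Place k F₂ → F)
    (hs₁ : ∀ Q ∈ A₁, S.IsCoordA₁ A₁ A₂ (s₁ Q) Q) (hs₂ : ∀ Q ∈ A₂, S.IsCoordA₂ A₁ A₂ (s₂ Q) Q)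
    (p : ℕ) (hp : p.Prime)
    (f : F) (hf₁ : f ∈ S.c₁.V) (hf₂ : f ∈ S.c₂.V) (hrd₁ : S.c₁.rd f = 1) (hrd₂ : S.c₂.rd f = 1)
    (Pinf : Place K F) (Qinf : Place k F₁) (hQinfg : Qinf ∈ S.c₁.good) (hQinfA : Qinf ∉ A₁)
    (hPinf : S.c₁.r Pinf = some Qinf) (hfinf : VanAt Pinf (f - 1))
    (a₁ : Place k F₁ → K) (a₂ : Place k F₂ → K)
    (ha₁ : ∀ Q ∈ A₁, algebraMap K F (a₁ Q) ∈ S.c₁.V ∧ S.c₁.rd (algebraMap K F (a₁ Q)) = 0)
    (ha₂ : ∀ Q ∈ A₂, algebraMap K F (a₂ Q) ∈ S.c₂.V ∧ S.c₂.rd (algebraMap K F (a₂ Q)) = 0)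
    (hlin₁ : ∀ Q ∈ A₁, ∃ ε : K, S.IsCM ε ∧ a₁ Q ^ p = p * a₁ Q * ε)
    (hlin₂ : ∀ Q ∈ A₂, ∃ ε : K, S.IsCM ε ∧ a₂ Q ^ p = p * a₂ Q * ε)
    (hord0 : ∀ P, (∀ Q ∈ A₁, S.c₁.r P ≠ some Q) → (∀ Q ∈ A₂, S.c₂.r P ≠ some Q) →
      0 ≤ P.ord f)
    (hord₁ : ∀ Q ∈ A₁, ∀ P, S.c₁.r P = some Q →
      P.ord f = p * (P.ord (s₁ Q - algebraMap K F (a₁ Q)) - P.ord (s₁ Q)))
    (hord₂ : ∀ Q ∈ A₂, ∀ P, S.c₂.r P = some Q →
      P.ord f = p * (P.ord (s₂ Q - algebraMap K F (a₂ Q)) - P.ord (s₂ Q))) :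
    f = 1 := by
  have hP := H.principal
  have hK : S.KeyHyp A₁ A₂ s₁ s₂ := ⟨hA₁, hA₂, hs₁, hs₂⟩
  obtain ⟨⟨hHGU₁, hHrd₁⟩, ⟨hHGU₂, hHrd₂⟩, ⟨hf₂GU₁, hf₂rd₁⟩, ⟨hf₂GU₂, hf₂rd₂⟩, hf₂ord₁,
    hf₂ord₂⟩ := hK.key_f₂ hP ha₁ ha₂ p hf₁ hf₂ hrd₁ hrd₂ hord₁ hord₂
  set A : Finset (Place k F₁ ⊕ Place k F₂) := SSD.keyA A₁ A₂ with hAdef
  set s : Place k F₁ ⊕ Place k F₂ → F := Sum.elim s₁ s₂ with hsdef
  set a : Place k F₁ ⊕ Place k F₂ → K := Sum.elim a₁ a₂ with hadef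
  set Hp : F := ∏ i ∈ A, (s i - algebraMap K F (a i)) / s i with hHp
  set f₂ : F := f / Hp ^ p with hf₂def
  have haCM : ∀ i ∈ A, S.IsCM (a i) := fun i hi => S.inM_keyA ha₁ ha₂ hi
  have hff₂ : f = f₂ * Hp ^ p := by
    rw [hf₂def, div_mul_cancel₀ _ (pow_ne_zero _ hHGU₁.ne_zero)]
  -- the `ε`
  have hεex : ∀ i, ∃ ε : K, i ∈ A → S.IsCM ε ∧ a i ^ p = p * a i * ε := by
    intro i
    by_cases hi : i ∈ A
    · rcases SSD.mem_keyA.mp hi with ⟨Q, hQ, rfl⟩ | ⟨Q, hQ, rfl⟩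
      · obtain ⟨ε, h1, h2⟩ := hlin₁ Q hQ
        exact ⟨ε, fun _ => ⟨h1, h2⟩⟩
      · obtain ⟨ε, h1, h2⟩ := hlin₂ Q hQ
        exact ⟨ε, fun _ => ⟨h1, h2⟩⟩
    · exact ⟨0, fun h => absurd h hi⟩
  choose ε hε using hεex
  -- the scale
  set I : Finset F := insert (f₂ - 1) (A.image fun i => algebraMap K F (p * a i)) with hI
  have hImem : ∀ z ∈ I, (z ∈ S.c₁.V ∧ S.c₁.rd z = 0) ∧ (z ∈ S.c₂.V ∧ S.c₂.rd z = 0) := by
    intro z hz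
    rcases Finset.mem_insert.mp hz with rfl | hz
    · exact ⟨⟨S.c₁.V.sub_mem hf₂GU₁.1 S.c₁.V.one_mem, by
        rw [S.c₁.rd_sub hf₂GU₁.1 S.c₁.V.one_mem, hf₂rd₁, S.c₁.rd_one, sub_self]⟩,
        ⟨S.c₂.V.sub_mem hf₂GU₂.1 S.c₂.V.one_mem, by
        rw [S.c₂.rd_sub hf₂GU₂.1 S.c₂.V.one_mem, hf₂rd₂, S.c₂.rd_one, sub_self]⟩⟩
    · obtain ⟨i, hi, rfl⟩ := Finset.mem_image.mp hz
      have h1 : S.c₁.InM (algebraMap K F (p * a i)) := by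
        rw [map_mul, map_natCast]
        exact PRed.InM.mul_left (S.c₁.natCast_mem_V p) ⟨(haCM i hi).mem₁, (haCM i hi).rd₁⟩
      have h2 : S.c₂.InM (algebraMap K F (p * a i)) := by
        rw [map_mul, map_natCast]
        exact PRed.InM.mul_left (S.c₂.natCast_mem_V p) ⟨(haCM i hi).mem₂, (haCM i hi).rd₂⟩
      exact ⟨h1, h2⟩
  by_cases hall : ∀ z ∈ I, z = 0
  · have e1 : f₂ = 1 := sub_eq_zero.mp (hall _ (Finset.mem_insert_self _ _))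
    -- `p a_i = 0`: either `p = 0` in `K` (then `Hp ^ p = 1` by the hypothesis) or `a_i = 0`
    have e2 : ∀ i ∈ A, ((s i - algebraMap K F (a i)) / s i) ^ p = 1 := by
      intro i hi
      have h0 : algebraMap K F (p * a i) = 0 :=
        hall _ (Finset.mem_insert_of_mem (Finset.mem_image_of_mem _ hi))
      have h0' : (p : K) * a i = 0 := (map_eq_zero_iff _ (algebraMap K F).injective).mp h0
      have hap : a i ^ p = 0 := by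
        rw [(hε i hi).2, h0', zero_mul]
      have ha0 : a i = 0 := by
        by_contra hne
        exact pow_ne_zero p hne hap
      rw [ha0, map_zero, sub_zero, div_self (hK.isGU₁ hi).ne_zero, one_pow]
    rw [hff₂, e1, hHp, ← Finset.prod_pow, Finset.prod_eq_one e2, mul_one]
  exfalso
  push Not at hall
  obtain ⟨c, hc, ⟨hdV₁, hdrd₁⟩, ⟨hdV₂, hdrd₂⟩, hcI, z₀, hz₀, hz₀GU⟩ :=
    S.exists_scale_max₂ I hImem hall
  set α : F := algebraMap K F c * (f₂ - 1) with hα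
  have hαV₁ : α ∈ S.c₁.V := (hcI _ (Finset.mem_insert_self _ _)).1
  have hαV₂ : α ∈ S.c₂.V := (hcI _ (Finset.mem_insert_self _ _)).2
  have hβV₁ : ∀ i ∈ A, algebraMap K F (c * (p * a i)) ∈ S.c₁.V := fun i hi => by
    rw [map_mul]
    exact (hcI _ (Finset.mem_insert_of_mem (Finset.mem_image_of_mem _ hi))).1
  have hβV₂ : ∀ i ∈ A, algebraMap K F (c * (p * a i)) ∈ S.c₂.V := fun i hi => by
    rw [map_mul]
    exact (hcI _ (Finset.mem_insert_of_mem (Finset.mem_image_of_mem _ hi))).2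
  -- the constants `b`
  have hbex : ∀ i, ∃ b : k, i ∈ A →
      S.c₁.rd (algebraMap K F (c * (p * a i))) = algebraMap k F₁ b := by
    intro i
    by_cases hi : i ∈ A
    · obtain ⟨b, hb⟩ := S.c₁.rd_const_eq (c * (p * a i)) (hβV₁ i hi)
      exact ⟨b, fun _ => hb⟩
    · exact ⟨0, fun h => absurd h hi⟩
  choose b hb₁ using hbex
  have hb₂ : ∀ i ∈ A, S.c₂.rd (algebraMap K F (c * (p * a i))) = algebraMap k F₂ (b i) :=
    fun i hi => (S.rd₂_const (hβV₁ i hi) (hb₁ i hi)).2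
  -- the congruences
  obtain ⟨hφV₁, hφrd₁⟩ := S.c₁.cong_formula_lin A s a ε (fun i hi => hK.isGU₁ hi)
    (fun i hi => ⟨(haCM i hi).mem₁, (haCM i hi).rd₁⟩)
    (fun i hi => ⟨(hε i hi).1.mem₁, (hε i hi).1.rd₁⟩) hp (fun i hi => (hε i hi).2) f c hc
    ⟨hdV₁, hdrd₁⟩ hαV₁ hβV₁ b hb₁
  obtain ⟨hφV₂, hφrd₂⟩ := S.c₂.cong_formula_lin A s a ε (fun i hi => hK.isGU₂ hi)
    (fun i hi => ⟨(haCM i hi).mem₂, (haCM i hi).rd₂⟩)
    (fun i hi => ⟨(hε i hi).1.mem₂, (hε i hi).1.rd₂⟩) hp (fun i hi => (hε i hi).2) f c hc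
    ⟨hdV₂, hdrd₂⟩ hαV₂ hβV₂ b hb₂
  set φ : F := algebraMap K F c * (f - 1) with hφ
  -- regularity of `φ` away from the discs
  have hφreg : ∀ P, (∀ Q ∈ A₁, S.c₁.r P ≠ some Q) → (∀ Q ∈ A₂, S.c₂.r P ≠ some Q) →
      0 ≤ P.ord φ := by
    intro P h1 h2
    have hf : RegAt P f := regAt_of_ord_nonneg (hord0 P h1 h2)
    exact ((regAt_algebraMap P c).mul (hf.sub (regAt_one P))).ord_nonneg
  have hαreg₁ : ∀ Q ∈ A₁, RegAt Q (S.c₁.rd α) := by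
    intro Q hQ
    apply S.c₁.regAt_rd hP hαV₁ (hK.good₁ hQ)
    intro P hPQ
    have h1 : RegAt P f₂ := regAt_of_ord_nonneg (le_of_eq (hf₂ord₁ Q hQ P hPQ).symm)
    exact ((regAt_algebraMap P c).mul (h1.sub (regAt_one P))).ord_nonneg
  have hαreg₂ : ∀ Q ∈ A₂, RegAt Q (S.c₂.rd α) := by
    intro Q hQ
    apply S.c₂.regAt_rd hP hαV₂ (hK.good₂ hQ)
    intro P hPQ
    have h1 : RegAt P f₂ := regAt_of_ord_nonneg (le_of_eq (hf₂ord₂ Q hQ P hPQ).symm)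
    exact ((regAt_algebraMap P c).mul (h1.sub (regAt_one P))).ord_nonneg
  obtain ⟨e, he₁, he₂, hb0, hαe₁, hαe₂⟩ := hK.residue_core hP hNS hφV₁ hφV₂ hφreg b 1
    (by rw [Nat.cast_one]; exact one_ne_zero) hαreg₁ hαreg₂ hφrd₁ hφrd₂
  have he0 : e = 0 := hK.const_eq_zero hP hφV₁ hφreg hQinfg hQinfA hPinf
    ((regAt_algebraMap Pinf c).mul_vanAt hfinf) he₁
  have hα0₁ : S.c₁.rd α = 0 := by rw [hαe₁, he0, map_zero]
  have hα0₂ : S.c₂.rd α = 0 := by rw [hαe₂, he0, map_zero]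
  -- contradiction
  rcases Finset.mem_insert.mp hz₀ with rfl | hz
  · rcases hz₀GU with h | h
    · exact h.2 hα0₁
    · exact h.2 hα0₂
  · obtain ⟨i, hi, rfl⟩ := Finset.mem_image.mp hz
    rcases hz₀GU with h | h
    · apply h.2
      rw [← map_mul, hb₁ i hi, hb0 i hi, map_zero]
    · apply h.2
      rw [← map_mul, hb₂ i hi, hb0 i hi, map_zero]

end Main

end H28

end Fermat.Agent.BAD
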