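import Fermat.Agent.BADP.H28_KeyPCore

/-!
# Row 38 (S44, BADP), helper28: RAY-K3 abstract core ("Key-p"), part 2: the common setup

* `SSD.keyA`, `SSD.KeyHyp` : the index set `A₁ ⊔ A₂` and the hypotheses on the coordinates of the
  nodal key lemma, with the derived facts.
* `SSD.KeyHyp.residue_core` : the residue argument of the nodal key lemma, for an arbitrary
  function `φ` whose reductions are `αb_i - m ∑ b_j / rd_i (s_j)`: the reductions of `φ` are a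
  constant `e`, all `b_j` vanish and `αb_i = e`.
* `SSD.KeyHyp.const_eq_zero` : `e = 0` if `φ` vanishes at a place over a good point outside `A₁`.
-/

set_option autoImplicit false
set_option linter.style.haveILetI false
set_option maxHeartbeats 1000000

noncomputable section

open AlgebraicCurve

attribute [local instance] Classical.propDecidable

namespace Fermat.Agent.BAD

open Fermat.Agent.RED.H17 Fermat.Agent.RED

local notation "L" => riemannRochSpace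

namespace SSD

variable {K F k F₁ F₂ : Type*} [Field K] [Field F] [Algebra K F] [Field k] [Field F₁]
  [Algebra k F₁] [Field F₂] [Algebra k F₂] (S : SSD K F k F₁ F₂)

/-- The index set of the coordinates. -/
def keyA (A₁ : Finset (Place k F₁)) (A₂ : Finset (Place k F₂)) :
    Finset (Place k F₁ ⊕ Place k F₂) := A₁.disjSum A₂

theorem mem_keyA {A₁ : Finset (Place k F₁)} {A₂ : Finset (Place k F₂)}
    {i : Place k F₁ ⊕ Place k F₂} :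
    i ∈ keyA A₁ A₂ ↔ (∃ Q ∈ A₁, i = Sum.inl Q) ∨ ∃ Q ∈ A₂, i = Sum.inr Q := by
  rw [keyA, Finset.mem_disjSum]
  constructor
  · rintro (⟨Q, hQ, rfl⟩ | ⟨Q, hQ, rfl⟩)
    · exact Or.inl ⟨Q, hQ, rfl⟩
    · exact Or.inr ⟨Q, hQ, rfl⟩
  · rintro (⟨Q, hQ, rfl⟩ | ⟨Q, hQ, rfl⟩)
    · exact Or.inl ⟨Q, hQ, rfl⟩
    · exact Or.inr ⟨Q, hQ, rfl⟩

theorem inl_mem_keyA {A₁ : Finset (Place k F₁)} {A₂ : Finset (Place k F₂)} {Q : Place k F₁}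
    (hQ : Q ∈ A₁) : Sum.inl Q ∈ keyA A₁ A₂ := mem_keyA.mpr (Or.inl ⟨Q, hQ, rfl⟩)

theorem inr_mem_keyA {A₁ : Finset (Place k F₁)} {A₂ : Finset (Place k F₂)} {Q : Place k F₂}
    (hQ : Q ∈ A₂) : Sum.inr Q ∈ keyA A₁ A₂ := mem_keyA.mpr (Or.inr ⟨Q, hQ, rfl⟩)

/-- The hypotheses on the coordinates in the nodal key lemma. -/
structure KeyHyp (A₁ : Finset (Place k F₁)) (A₂ : Finset (Place k F₂))
    (s₁ : Place k F₁ → F) (s₂ : Place k F₂ → F) : Prop where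
  hA₁ : Disjoint A₁ S.br₁
  hA₂ : Disjoint A₂ S.br₂
  hs₁ : ∀ Q ∈ A₁, S.IsCoordA₁ A₁ A₂ (s₁ Q) Q
  hs₂ : ∀ Q ∈ A₂, S.IsCoordA₂ A₁ A₂ (s₂ Q) Q

/-- The elements `a_Q` lie in the maximal ideal (for both valuations). -/
theorem inM_keyA {A₁ : Finset (Place k F₁)} {A₂ : Finset (Place k F₂)}
    {a₁ : Place k F₁ → K} {a₂ : Place k F₂ → K}
    (ha₁ : ∀ Q ∈ A₁, algebraMap K F (a₁ Q) ∈ S.c₁.V ∧ S.c₁.rd (algebraMap K F (a₁ Q)) = 0)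
    (ha₂ : ∀ Q ∈ A₂, algebraMap K F (a₂ Q) ∈ S.c₂.V ∧ S.c₂.rd (algebraMap K F (a₂ Q)) = 0)
    {i : Place k F₁ ⊕ Place k F₂} (hi : i ∈ keyA A₁ A₂) : S.IsCM (Sum.elim a₁ a₂ i) := by
  rcases mem_keyA.mp hi with ⟨Q, hQ, rfl⟩ | ⟨Q, hQ, rfl⟩
  · exact ha₁ Q hQ
  · exact S.rd₁_const_zero (ha₂ Q hQ).1 (ha₂ Q hQ).2

namespace KeyHyp

variable {S} {A₁ : Finset (Place k F₁)} {A₂ : Finset (Place k F₂)}
  {s₁ : Place k F₁ → F} {s₂ : Place k F₂ → F}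

theorem good₁ (hK : S.KeyHyp A₁ A₂ s₁ s₂) {Q : Place k F₁} (hQ : Q ∈ A₁) : Q ∈ S.c₁.good :=
  S.good₁_of_notMem (Finset.disjoint_left.mp hK.hA₁ hQ)

theorem good₂ (hK : S.KeyHyp A₁ A₂ s₁ s₂) {Q : Place k F₂} (hQ : Q ∈ A₂) : Q ∈ S.c₂.good :=
  S.good₂_of_notMem (Finset.disjoint_left.mp hK.hA₂ hQ)

theorem isGU₁ (hK : S.KeyHyp A₁ A₂ s₁ s₂) {i : Place k F₁ ⊕ Place k F₂}
    (hi : i ∈ keyA A₁ A₂) : S.c₁.IsGU (Sum.elim s₁ s₂ i) := by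
  rcases mem_keyA.mp hi with ⟨Q, hQ, rfl⟩ | ⟨Q, hQ, rfl⟩
  · exact (hK.hs₁ Q hQ).1.isGU
  · exact (hK.hs₂ Q hQ).2.1

theorem isGU₂ (hK : S.KeyHyp A₁ A₂ s₁ s₂) {i : Place k F₁ ⊕ Place k F₂}
    (hi : i ∈ keyA A₁ A₂) : S.c₂.IsGU (Sum.elim s₁ s₂ i) := by
  rcases mem_keyA.mp hi with ⟨Q, hQ, rfl⟩ | ⟨Q, hQ, rfl⟩
  · exact (hK.hs₁ Q hQ).2.1
  · exact (hK.hs₂ Q hQ).1.isGU

theorem reg₁ (hK : S.KeyHyp A₁ A₂ s₁ s₂) {i : Place k F₁ ⊕ Place k F₂}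
    (hi : i ∈ keyA A₁ A₂) {Q : Place k F₁} (hQ : Q ∈ A₁) {P : Place K F}
    (hPQ : S.c₁.r P = some Q) : 0 ≤ P.ord (Sum.elim s₁ s₂ i) := by
  rcases mem_keyA.mp hi with ⟨Q', hQ', rfl⟩ | ⟨Q', hQ', rfl⟩
  · exact (hK.hs₁ Q' hQ').2.2.2.2.1 P Q hQ hPQ
  · exact (hK.hs₂ Q' hQ').2.2.2.2.1 P Q hQ hPQ

theorem reg₂ (hK : S.KeyHyp A₁ A₂ s₁ s₂) {i : Place k F₁ ⊕ Place k F₂}
    (hi : i ∈ keyA A₁ A₂) {Q : Place k F₂} (hQ : Q ∈ A₂) {P : Place K F}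
    (hPQ : S.c₂.r P = some Q) : 0 ≤ P.ord (Sum.elim s₁ s₂ i) := by
  rcases mem_keyA.mp hi with ⟨Q', hQ', rfl⟩ | ⟨Q', hQ', rfl⟩
  · exact (hK.hs₁ Q' hQ').2.2.2.2.2.1 P Q hQ hPQ
  · exact (hK.hs₂ Q' hQ').2.2.2.2.2.1 P Q hQ hPQ

theorem ord0₁ (hK : S.KeyHyp A₁ A₂ s₁ s₂) {i : Place k F₁ ⊕ Place k F₂}
    (hi : i ∈ keyA A₁ A₂) {Q : Place k F₁} (hQ : Q ∈ A₁) (hne : i ≠ Sum.inl Q) :
    Q.ord (S.c₁.rd (Sum.elim s₁ s₂ i)) = 0 := by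
  rcases mem_keyA.mp hi with ⟨Q', hQ', rfl⟩ | ⟨Q', hQ', rfl⟩
  · exact (hK.hs₁ Q' hQ').2.2.1 Q hQ (fun h => hne (by rw [h]))
  · exact (hK.hs₂ Q' hQ').2.2.2.1 Q hQ

theorem ord0₂ (hK : S.KeyHyp A₁ A₂ s₁ s₂) {i : Place k F₁ ⊕ Place k F₂}
    (hi : i ∈ keyA A₁ A₂) {Q : Place k F₂} (hQ : Q ∈ A₂) (hne : i ≠ Sum.inr Q) :
    Q.ord (S.c₂.rd (Sum.elim s₁ s₂ i)) = 0 := by
  rcases mem_keyA.mp hi with ⟨Q', hQ', rfl⟩ | ⟨Q', hQ', rfl⟩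
  · exact (hK.hs₁ Q' hQ').2.2.2.1 Q hQ
  · exact (hK.hs₂ Q' hQ').2.2.1 Q hQ (fun h => hne (by rw [h]))

theorem ord1₁ (hK : S.KeyHyp A₁ A₂ s₁ s₂) {Q : Place k F₁} (hQ : Q ∈ A₁) :
    Q.ord (S.c₁.rd (Sum.elim s₁ s₂ (Sum.inl Q))) = 1 := (hK.hs₁ Q hQ).1.ord_one

theorem ord1₂ (hK : S.KeyHyp A₁ A₂ s₁ s₂) {Q : Place k F₂} (hQ : Q ∈ A₂) :
    Q.ord (S.c₂.rd (Sum.elim s₁ s₂ (Sum.inr Q))) = 1 := (hK.hs₂ Q hQ).1.ord_one

/-- A place over a node is off the discs. -/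
theorem off_of_node (hK : S.KeyHyp A₁ A₂ s₁ s₂) {t : Place k F₁ × Place k F₂}
    (ht : t ∈ S.nodes) {P : Place K F} (hPt : S.c₁.r P = some t.1) :
    (∀ Q ∈ A₁, S.c₁.r P ≠ some Q) ∧ (∀ Q ∈ A₂, S.c₂.r P ≠ some Q) := by
  refine ⟨fun Q hQ h => ?_, fun Q hQ h => ?_⟩
  · rw [hPt] at h
    exact S.not_good₁ ht (Option.some.inj h ▸ hK.good₁ hQ)
  · rw [S.r₂_of_node ht hPt] at h
    exact S.not_good₂ ht (Option.some.inj h ▸ hK.good₂ hQ)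

/-- A place over a good point of `C₁` outside `A₁` is off the discs. -/
theorem off_of_good₁ (_hK : S.KeyHyp A₁ A₂ s₁ s₂) {v : Place k F₁} (hvg : v ∈ S.c₁.good)
    (hv : v ∉ A₁) {P : Place K F} (hPv : S.c₁.r P = some v) :
    (∀ Q ∈ A₁, S.c₁.r P ≠ some Q) ∧ (∀ Q ∈ A₂, S.c₂.r P ≠ some Q) := by
  refine ⟨fun Q hQ h => ?_, fun Q hQ h => ?_⟩
  · rw [hPv] at h
    exact hv (Option.some.inj h ▸ hQ)
  · rw [S.r₂_none_of_good₁ hvg hPv] at h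
    exact absurd h (by simp)

/-- A place over a good point of `C₂` outside `A₂` is off the discs. -/
theorem off_of_good₂ (_hK : S.KeyHyp A₁ A₂ s₁ s₂) {v : Place k F₂} (hvg : v ∈ S.c₂.good)
    (hv : v ∉ A₂) {P : Place K F} (hPv : S.c₂.r P = some v) :
    (∀ Q ∈ A₁, S.c₁.r P ≠ some Q) ∧ (∀ Q ∈ A₂, S.c₂.r P ≠ some Q) := by
  refine ⟨fun Q hQ h => ?_, fun Q hQ h => ?_⟩
  · rw [S.r₁_none_of_good₂ hvg hPv] at h
    exact absurd h (by simp)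
  · rw [hPv] at h
    exact hv (Option.some.inj h ▸ hQ)

/-- **The residue argument.** -/
theorem residue_core (hK : S.KeyHyp A₁ A₂ s₁ s₂) (hP : HasPrincipalDivisors K F)
    (hNS : S.IsNS A₁ A₂) {φ : F} (hφV₁ : φ ∈ S.c₁.V) (hφV₂ : φ ∈ S.c₂.V)
    (hφreg : ∀ P, (∀ Q ∈ A₁, S.c₁.r P ≠ some Q) → (∀ Q ∈ A₂, S.c₂.r P ≠ some Q) →
      0 ≤ P.ord φ)
    (b : Place k F₁ ⊕ Place k F₂ → k) (m : ℕ) (hm : (m : k) ≠ 0)
    {αb₁ : F₁} {αb₂ : F₂} (hα₁ : ∀ Q ∈ A₁, RegAt Q αb₁) (hα₂ : ∀ Q ∈ A₂, RegAt Q αb₂)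
    (hφrd₁ : S.c₁.rd φ = αb₁ - (m : F₁) *
      ∑ i ∈ keyA A₁ A₂, algebraMap k F₁ (b i) / S.c₁.rd (Sum.elim s₁ s₂ i))
    (hφrd₂ : S.c₂.rd φ = αb₂ - (m : F₂) *
      ∑ i ∈ keyA A₁ A₂, algebraMap k F₂ (b i) / S.c₂.rd (Sum.elim s₁ s₂ i)) :
    ∃ e : k, S.c₁.rd φ = algebraMap k F₁ e ∧ S.c₂.rd φ = algebraMap k F₂ e ∧
      (∀ i ∈ keyA A₁ A₂, b i = 0) ∧ αb₁ = algebraMap k F₁ e ∧ αb₂ = algebraMap k F₂ e := by
  -- gluing of `φ` at the nodes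
  have hglue : ∀ t ∈ S.nodes, ∃ e : k, VanAt t.1 (S.c₁.rd φ - algebraMap k F₁ e) ∧
      VanAt t.2 (S.c₂.rd φ - algebraMap k F₂ e) := by
    intro t ht
    have hreg : ∀ P, S.c₁.r P = some t.1 → 0 ≤ P.ord φ := fun P hPt =>
      hφreg P (hK.off_of_node ht hPt).1 (hK.off_of_node ht hPt).2
    obtain ⟨e, he1, he2⟩ := S.glue t ht φ hφV₁ hφV₂ hreg
    rw [← S.c₁.rd_of_mem hφV₁] at he1
    rw [← S.c₂.rd_of_mem hφV₂] at he2
    exact ⟨e, he1, he2⟩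
  -- the reductions of `φ` lie in `L(A₁)`, `L(A₂)`
  have hφL₁ : S.c₁.rd φ ∈ L (ptsDiv A₁) := by
    rw [mem_L_iff_ord]
    intro v
    by_cases hv : v ∈ A₁
    · rw [ptsDiv_apply, if_pos hv]
      have := H28.poleLe_formula v (keyA A₁ A₂) (fun i => S.c₁.rd (Sum.elim s₁ s₂ i))
        (fun i hi => (hK.isGU₁ hi).2)
        (fun i hi => by
          by_cases hiv : i = Sum.inl v
          · rw [hiv]; exact le_of_eq (hK.ord1₁ hv)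
          · rw [hK.ord0₁ hi hv hiv]; exact zero_le_one) b m (hα₁ v hv)
      rw [← hφrd₁] at this
      exact this
    · rw [ptsDiv_apply, if_neg hv, neg_zero]
      have hreg : RegAt v (S.c₁.rd φ) := by
        by_cases hvg : v ∈ S.c₁.good
        · apply S.c₁.regAt_rd hP hφV₁ hvg
          intro P hPv
          exact hφreg P (hK.off_of_good₁ hvg hv hPv).1 (hK.off_of_good₁ hvg hv hPv).2
        · have : v ∈ S.br₁ := by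
            by_contra hvb
            exact hvg (S.good₁_of_notMem hvb)
          obtain ⟨t, ht, rfl⟩ := Finset.mem_image.mp this
          obtain ⟨e, he, -⟩ := hglue t ht
          exact RegAt.of_vanAt_sub he
      exact (regAt_iff_ord v _).mp hreg
  have hφL₂ : S.c₂.rd φ ∈ L (ptsDiv A₂) := by
    rw [mem_L_iff_ord]
    intro v
    by_cases hv : v ∈ A₂
    · rw [ptsDiv_apply, if_pos hv]
      have := H28.poleLe_formula v (keyA A₁ A₂) (fun i => S.c₂.rd (Sum.elim s₁ s₂ i))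
        (fun i hi => (hK.isGU₂ hi).2)
        (fun i hi => by
          by_cases hiv : i = Sum.inr v
          · rw [hiv]; exact le_of_eq (hK.ord1₂ hv)
          · rw [hK.ord0₂ hi hv hiv]; exact zero_le_one) b m (hα₂ v hv)
      rw [← hφrd₂] at this
      exact this
    · rw [ptsDiv_apply, if_neg hv, neg_zero]
      have hreg : RegAt v (S.c₂.rd φ) := by
        by_cases hvg : v ∈ S.c₂.good
        · apply S.c₂.regAt_rd hP hφV₂ hvg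
          intro P hPv
          exact hφreg P (hK.off_of_good₂ hvg hv hPv).1 (hK.off_of_good₂ hvg hv hPv).2
        · have : v ∈ S.br₂ := by
            by_contra hvb
            exact hvg (S.good₂_of_notMem hvb)
          obtain ⟨t, ht, rfl⟩ := Finset.mem_image.mp this
          obtain ⟨e, -, he⟩ := hglue t ht
          exact RegAt.of_vanAt_sub he
      exact (regAt_iff_ord v _).mp hreg
  -- the reductions of `φ` are a constant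
  obtain ⟨e, he₁, he₂⟩ := hNS _ hφL₁ _ hφL₂ hglue
  -- the residues vanish
  have hb0 : ∀ i ∈ keyA A₁ A₂, b i = 0 := by
    intro i hi
    rcases mem_keyA.mp hi with ⟨Q, hQ, rfl⟩ | ⟨Q, hQ, rfl⟩
    · refine H28.residue_zero Q (keyA A₁ A₂) (fun i => S.c₁.rd (Sum.elim s₁ s₂ i)) hi
        (hK.ord1₁ hQ) (fun j hj hne => hK.ord0₁ hj hQ hne) (hK.isGU₁ hi).2 b m hm
        (αb := αb₁ - algebraMap k F₁ e) ((hα₁ Q hQ).sub (regAt_algebraMap Q e)) ?_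
      rw [sub_right_comm, ← hφrd₁, he₁, sub_self]
    · refine H28.residue_zero Q (keyA A₁ A₂) (fun i => S.c₂.rd (Sum.elim s₁ s₂ i)) hi
        (hK.ord1₂ hQ) (fun j hj hne => hK.ord0₂ hj hQ hne) (hK.isGU₂ hi).2 b m hm
        (αb := αb₂ - algebraMap k F₂ e) ((hα₂ Q hQ).sub (regAt_algebraMap Q e)) ?_
      rw [sub_right_comm, ← hφrd₂, he₂, sub_self]
  have hsum₁ : ∑ i ∈ keyA A₁ A₂, algebraMap k F₁ (b i) / S.c₁.rd (Sum.elim s₁ s₂ i) = 0 :=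
    Finset.sum_eq_zero fun i hi => by rw [hb0 i hi, map_zero, zero_div]
  have hsum₂ : ∑ i ∈ keyA A₁ A₂, algebraMap k F₂ (b i) / S.c₂.rd (Sum.elim s₁ s₂ i) = 0 :=
    Finset.sum_eq_zero fun i hi => by rw [hb0 i hi, map_zero, zero_div]
  refine ⟨e, he₁, he₂, hb0, ?_, ?_⟩
  · rw [← he₁, hφrd₁, hsum₁, mul_zero, sub_zero]
  · rw [← he₂, hφrd₂, hsum₂, mul_zero, sub_zero]

/-- The constant of `residue_core` vanishes if `φ` vanishes at a place over a good point of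
`C₁` outside `A₁`. -/
theorem const_eq_zero (hK : S.KeyHyp A₁ A₂ s₁ s₂) (hP : HasPrincipalDivisors K F)
    {φ : F} (hφV₁ : φ ∈ S.c₁.V)
    (hφreg : ∀ P, (∀ Q ∈ A₁, S.c₁.r P ≠ some Q) → (∀ Q ∈ A₂, S.c₂.r P ≠ some Q) →
      0 ≤ P.ord φ)
    {Pinf : Place K F} {Qinf : Place k F₁} (hQinfg : Qinf ∈ S.c₁.good) (hQinfA : Qinf ∉ A₁)
    (hPinf : S.c₁.r Pinf = some Qinf) (hφinf : VanAt Pinf φ)
    {e : k} (he : S.c₁.rd φ = algebraMap k F₁ e) : e = 0 := by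
  have h : VanAt Qinf (S.c₁.rd φ) := by
    refine S.c₁.vanAt_rd hP hφV₁ hQinfg ?_ hPinf hφinf
    intro P hPQ
    exact hφreg P (hK.off_of_good₁ hQinfg hQinfA hPQ).1 (hK.off_of_good₁ hQinfg hQinfA hPQ).2
  rw [he] at h
  exact const_eq_zero_of_vanAt h

end KeyHyp

end SSD

end Fermat.Agent.BAD
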