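import Fermat.Agent.BADP.H28_KeyPFirst

/-!
# Row 38 (S44, BADP), helper28: RAY-K3 abstract core ("Key-p"), part 5: the function `Θ`

`PRed.theta_formula` : with `Φ = (f - 1) / p`, `Ψ = (y - 1) / (p π θ)` (`y = y₀ ∏ (h'_i) ^ p`,
`y₀ = 1 + p π θ Λ`) and `κ = θ ^ (p - 1) / u₁`, the function `Θ = Ψ + κ Φ` is integral with
reduction `rd (Λ + κ Z) - ∑ w_i / rd s_i`, where `w_i = rd ω_i`, `rd e_i = w_i ^ p ū₁`.
-/

set_option autoImplicit false
set_option linter.style.haveILetI false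
set_option maxHeartbeats 1000000

noncomputable section

open AlgebraicCurve

attribute [local instance] Classical.propDecidable

namespace Fermat.Agent.BAD

open Fermat.Agent.RED.H17 Fermat.Agent.RED

namespace H28

/-- The order of `σ • x` at `P`. -/
theorem ord_smul_eq {K F : Type*} [Field K] [Field F] [Algebra K F] (σ : SemilinearAut K F)
    (P : Place K F) (x : F) : P.ord (σ • x) = (σ⁻¹ • P).ord x := by
  have := SemilinearAut.ord_smul σ (σ⁻¹ • P) x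
  rwa [smul_inv_smul] at this

end H28

namespace PRed

variable {K F k F' : Type*} [Field K] [Field F] [Algebra K F] [Field k] [Field F']
  [Algebra k F'] (S : PRed K F k F')

/-- **The function `Θ`.** -/
theorem theta_formula {ι : Type*} (A : Finset ι) (s : ι → F) (a a' ω e : ι → K)
    (hs : ∀ i ∈ A, S.IsGU (s i)) (ha : ∀ i ∈ A, S.InM (algebraMap K F (a i)))
    (hω : ∀ i ∈ A, algebraMap K F (ω i) ∈ S.V) (he : ∀ i ∈ A, algebraMap K F (e i) ∈ S.V)
    {p : ℕ} (hp : p.Prime) (hp2 : p ≠ 2) (hpM : S.InM (p : F)) (hpF : (p : F) ≠ 0)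
    {π θ ν₀ κ : K} (hπ : S.InM (algebraMap K F π)) (hθ : algebraMap K F θ ∈ S.V)
    (hπne : π ≠ 0) (hθne : θ ≠ 0)
    (hν : algebraMap K F ν₀ ∈ S.V) (hπp : π ^ (p - 1) = p * ν₀)
    (hκ : algebraMap K F κ ∈ S.V)
    (hdiff : ∀ i ∈ A, a' i - a i = π * θ * ω i) (hpow : ∀ i ∈ A, a i ^ p = p * e i)
    (w : ι → k) (ub θb : k) (hub : ub ≠ 0)
    (hwrd : ∀ i ∈ A, S.rd (algebraMap K F (ω i)) = algebraMap k F' (w i))
    (herd : ∀ i ∈ A, S.rd (algebraMap K F (e i)) = algebraMap k F' (w i ^ p * ub))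
    (hνrd : S.rd (algebraMap K F ν₀) = -1)
    (hθrd : S.rd (algebraMap K F θ) = algebraMap k F' θb)
    (hκrd : S.rd (algebraMap K F κ) = algebraMap k F' (θb ^ (p - 1) / ub))
    (f : F) (hZ : (f / (∏ i ∈ A, (s i - algebraMap K F (a i)) / s i) ^ p - 1) / p ∈ S.V)
    {y₀ Λ : F} (hΛ : Λ ∈ S.V) (hy₀ : y₀ = 1 + (p : F) * algebraMap K F (π * θ) * Λ) :
    (y₀ * ∏ i ∈ A, ((s i - algebraMap K F (a' i)) / (s i - algebraMap K F (a i))) ^ p - 1) /
        ((p : F) * algebraMap K F (π * θ)) + algebraMap K F κ * ((f - 1) / p) ∈ S.V ∧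
      S.rd ((y₀ * ∏ i ∈ A,
          ((s i - algebraMap K F (a' i)) / (s i - algebraMap K F (a i))) ^ p - 1) /
        ((p : F) * algebraMap K F (π * θ)) + algebraMap K F κ * ((f - 1) / p)) =
        S.rd (Λ + algebraMap K F κ *
          ((f / (∏ i ∈ A, (s i - algebraMap K F (a i)) / s i) ^ p - 1) / p)) -
          ((1 : ℕ) : F') * ∑ i ∈ A, algebraMap k F' (w i) / S.rd (s i) := by
  obtain ⟨hΦV, hΦrd⟩ := S.first_formula A s a e hs ha he hp hp2 hpM hpow hpF f hZ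
  obtain ⟨hΨV, hΨrd⟩ := S.sigma_formula A s a a' ω hs ha hω hp hp2 hpM hpF hπ hθ hπne hθne
    hν hπp hdiff hΛ hy₀
  have hκΦ : algebraMap K F κ * ((f - 1) / p) ∈ S.V := S.V.mul_mem _ _ hκ hΦV
  have hκZ : algebraMap K F κ *
      ((f / (∏ i ∈ A, (s i - algebraMap K F (a i)) / s i) ^ p - 1) / p) ∈ S.V :=
    S.V.mul_mem _ _ hκ hZ
  refine ⟨S.V.add_mem _ _ hΨV hκΦ, ?_⟩
  have hsum : ∑ i ∈ A, (-(S.rd (algebraMap K F (ω i)) / S.rd (s i)) -
        S.rd (algebraMap K F ν₀) * S.rd (algebraMap K F θ) ^ (p - 1) *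
          (S.rd (algebraMap K F (ω i)) ^ p / S.rd (s i) ^ p)) -
      S.rd (algebraMap K F κ) * ∑ i ∈ A, S.rd (algebraMap K F (e i)) / S.rd (s i) ^ p =
      -∑ i ∈ A, algebraMap k F' (w i) / S.rd (s i) := by
    rw [Finset.mul_sum, ← Finset.sum_sub_distrib, ← Finset.sum_neg_distrib]
    apply Finset.sum_congr rfl
    intro i hi
    rw [hwrd i hi, herd i hi, hνrd, hθrd, hκrd, map_div₀, map_mul, map_pow, map_pow]
    have hU : algebraMap k F' ub ≠ 0 := (map_ne_zero_iff _ (algebraMap k F').injective).mpr hub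
    have hs0 : S.rd (s i) ≠ 0 := (hs i hi).2
    field_simp
    ring
  rw [S.rd_add hΨV hκΦ, S.rd_mul hκ hΦV, hΨrd, hΦrd, S.rd_add hΛ hκZ, S.rd_mul hκ hZ,
    Nat.cast_one, one_mul]
  linear_combination hsum

end PRed

end Fermat.Agent.BAD
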