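import Fermat.Agent.BADP.H28_KeyPLin

/-!
# S33 (T3), leaf (E) "TI-p" (helper28), part 1: generic tools

* `PRed.CongM.inv`, `PRed.CongM.of_inM` : more rules for `y ≡ 1 + d α` modulo `d m`.
* `PRed.congM_pow_gen` : `(1 + δ x) ^ p ≡ 1 + d (κ x + τ x ^ p)` if `p δ = d κ`, `δ ^ p = d τ`.
* `PRed.round_formula` : the first order formula for `g h ^ p` and `g h ^ p / Hp ^ p`.
* `H28.regAt_of_frob_lin` : `κ ψ + τ ψ ^ p` regular at `v`, `τ ≠ 0`  ⇒  `ψ` regular at `v`.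
* `SSD.KeyHyp.residue_core_gen` : the residue argument, with the regularity hypotheses on `φ`
  split into "regular over the nodes" and "reduction regular at the good points outside `A`".

Plan: `NOTES/plan/L_S44.md` §6 (helper93), two-round shortcut of helper19.
-/

set_option autoImplicit false
set_option linter.style.haveILetI false
set_option maxHeartbeats 1000000

noncomputable section

open AlgebraicCurve

attribute [local instance] Classical.propDecidable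

namespace Fermat.Agent.BAD

open Fermat.Agent.RED.H17 Fermat.Agent.RED

local notation "L" => riemannRochSpace

namespace PRed

variable {K F k F' : Type*} [Field K] [Field F] [Algebra K F] [Field k] [Field F']
  [Algebra k F'] {S : PRed K F k F'}

/-- An element of `1 + d m`. -/
theorem CongM.of_inM {d y : F} (hd0 : d ≠ 0) (h : S.InM ((y - 1) / d)) : S.CongM d 0 y := by
  refine ⟨(y - 1) / d, h, ?_⟩
  field_simp
  ring

/-- An element `y ≡ 1 + d α` modulo `d m`, `d ∈ m`, `α ∈ V`, is a unit with reduction `1`. -/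
theorem CongM.isGU {d α y : F} (hd : S.InM d) (hα : α ∈ S.V) (hy : S.CongM d α y) :
    S.IsGU y ∧ S.rd y = 1 := by
  obtain ⟨μ, hμ, rfl⟩ := hy
  have h1 : S.InM (d * (α + μ)) := hd.mul_right (S.V.add_mem _ _ hα hμ.1)
  have h2 : 1 + d * (α + μ) ∈ S.V := S.V.add_mem _ _ S.V.one_mem h1.1
  have h3 : S.rd (1 + d * (α + μ)) = 1 := by
    rw [S.rd_add S.V.one_mem h1.1, S.rd_one, h1.2, add_zero]
  exact ⟨⟨h2, by rw [h3]; exact one_ne_zero⟩, h3⟩

/-- The inverse of `y ≡ 1 + d α` is `≡ 1 - d α`. -/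
theorem CongM.inv {d α y : F} (hd : S.InM d) (hα : α ∈ S.V) (hy : S.CongM d α y) :
    S.CongM d (-α) y⁻¹ := by
  obtain ⟨hGU, -⟩ := hy.isGU hd hα
  obtain ⟨μ, hμ, hyeq⟩ := hy
  have hy0 : y ≠ 0 := hGU.ne_zero
  refine ⟨(α * (d * (α + μ)) - μ) * y⁻¹, ?_, ?_⟩
  · refine InM.mul_right (InM.sub ?_ hμ) hGU.inv_mem
    exact InM.mul_left hα (hd.mul_right (S.V.add_mem _ _ hα hμ.1))
  · have e1 : y⁻¹ * y = 1 := inv_mul_cancel₀ hy0
    have e2 : (1 + d * (-α + (α * (d * (α + μ)) - μ) * y⁻¹)) * y = 1 := by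
      have : (1 + d * (-α + (α * (d * (α + μ)) - μ) * y⁻¹)) * y =
          y - d * α * y + d * (α * (d * (α + μ)) - μ) * (y⁻¹ * y) := by ring
      rw [this, e1, hyeq]
      ring
    exact (eq_inv_of_mul_eq_one_left e2).symm

/-- The quotient rule. -/
theorem CongM.div {d α β y z : F} (hd : S.InM d) (hα : α ∈ S.V) (hβ : β ∈ S.V)
    (hy : S.CongM d α y) (hz : S.CongM d β z) : S.CongM d (α - β) (y / z) := by
  rw [div_eq_mul_inv, sub_eq_add_neg]
  exact hy.mul hd hα (S.V.neg_mem _ hβ) (hz.inv hd hβ)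

/-- The power rule. -/
theorem CongM.pow {d α y : F} (hd : S.InM d) (hα : α ∈ S.V) (hy : S.CongM d α y) (n : ℕ) :
    S.CongM d (n • α) (y ^ n) := by
  induction n with
  | zero => simpa using congM_one d
  | succ n ih =>
    rw [pow_succ, succ_nsmul]
    exact ih.mul hd (S.V.toSubring.nsmul_mem hα n) hα hy

variable (S) in
/-- `(1 + δ x) ^ p ≡ 1 + d (κ x + τ x ^ p)` modulo `d m`, if `p δ = d κ` and `δ ^ p = d τ`. -/
theorem congM_pow_gen {p : ℕ} (hp : p.Prime) {δ d κ τ x : F} (hδ : S.InM δ)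
    (hκ : κ ∈ S.V) (hx : x ∈ S.V) (h1 : (p : F) * δ = d * κ) (h2 : δ ^ p = d * τ) :
    S.CongM d (κ * x + τ * x ^ p) ((1 + δ * x) ^ p) := by
  obtain ⟨r, hr, hexp⟩ := S.one_add_pow_prime_mem hp (S.V.mul_mem _ _ hδ.1 hx)
  refine ⟨κ * δ * x ^ 2 * r, ?_, ?_⟩
  · refine InM.mul_right (InM.mul_right (InM.mul_left hκ hδ) (S.V.pow_mem hx 2)) hr
  · rw [hexp, mul_pow δ x p, h2]
    have : (1 : F) + (p : F) * (δ * x) + (p : F) * (δ * x) ^ 2 * r + d * τ * x ^ p =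
        1 + (p : F) * δ * (x + δ * x ^ 2 * r) + d * τ * x ^ p := by ring
    rw [this, h1]
    ring

variable (S) in
/-- **The first order formula of a round.**  `h = 1 + δ φ`, `a_i = δ u_i`,
`Hp = ∏ (s_i - a_i) / s_i`, `g ∈ 1 + d m`, `p δ = d κ`, `δ ^ p = d τ`.  Then
`(g h ^ p - 1) / d` and `(g h ^ p / Hp ^ p - 1) / d` are integral, with reductions
`T (rd φ)` and `T (rd φ) - ∑ T (- rd u_i / rd s_i)`, `T x = rd κ x + rd τ x ^ p`. -/
theorem round_formula {p : ℕ} (hp : p.Prime) {δ d κ τ : F} (hδ : S.InM δ) (hd : S.InM d)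
    (hd0 : d ≠ 0) (hκ : κ ∈ S.V) (hτ : τ ∈ S.V) (h1 : (p : F) * δ = d * κ)
    (h2 : δ ^ p = d * τ) {ι : Type*} (A : Finset ι) (s u : ι → F)
    (hs : ∀ i ∈ A, S.IsGU (s i)) (hu : ∀ i ∈ A, u i ∈ S.V)
    {g φ : F} (hg : S.InM ((g - 1) / d)) (hφ : φ ∈ S.V) :
    ((g * (1 + δ * φ) ^ p - 1) / d ∈ S.V ∧
      S.rd ((g * (1 + δ * φ) ^ p - 1) / d) = S.rd κ * S.rd φ + S.rd τ * S.rd φ ^ p) ∧
    ((g * (1 + δ * φ) ^ p / (∏ i ∈ A, (s i - δ * u i) / s i) ^ p - 1) / d ∈ S.V ∧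
      S.rd ((g * (1 + δ * φ) ^ p / (∏ i ∈ A, (s i - δ * u i) / s i) ^ p - 1) / d) =
        S.rd κ * S.rd φ + S.rd τ * S.rd φ ^ p -
          ∑ i ∈ A, (S.rd κ * (-(S.rd (u i) / S.rd (s i))) +
            S.rd τ * (-(S.rd (u i) / S.rd (s i))) ^ p)) := by
  -- the leading terms
  have hT : ∀ x ∈ S.V, κ * x + τ * x ^ p ∈ S.V ∧
      S.rd (κ * x + τ * x ^ p) = S.rd κ * S.rd x + S.rd τ * S.rd x ^ p := by
    intro x hx
    have e1 : κ * x ∈ S.V := S.V.mul_mem _ _ hκ hx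
    have e2 : τ * x ^ p ∈ S.V := S.V.mul_mem _ _ hτ (S.V.pow_mem hx p)
    refine ⟨S.V.add_mem _ _ e1 e2, ?_⟩
    rw [S.rd_add e1 e2, S.rd_mul hκ hx, S.rd_mul hτ (S.V.pow_mem hx p), S.rd_pow hx]
  have hg' : S.CongM d 0 g := CongM.of_inM hd0 hg
  have hh : S.CongM d (κ * φ + τ * φ ^ p) ((1 + δ * φ) ^ p) :=
    S.congM_pow_gen hp hδ hκ hφ h1 h2
  have hgh : S.CongM d (κ * φ + τ * φ ^ p) (g * (1 + δ * φ) ^ p) := by
    have := hg'.mul hd S.V.zero_mem (hT φ hφ).1 hh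
    rwa [zero_add] at this
  -- the factors of `Hp ^ p`
  have hxV : ∀ i ∈ A, -(u i / s i) ∈ S.V := fun i hi => by
    rw [div_eq_mul_inv]
    exact S.V.neg_mem _ (S.V.mul_mem _ _ (hu i hi) (hs i hi).inv_mem)
  have hxrd : ∀ i ∈ A, S.rd (-(u i / s i)) = -(S.rd (u i) / S.rd (s i)) := fun i hi => by
    have hm : u i * (s i)⁻¹ ∈ S.V := S.V.mul_mem _ _ (hu i hi) (hs i hi).inv_mem
    rw [div_eq_mul_inv, S.rd_neg hm, S.rd_mul (hu i hi) (hs i hi).inv_mem, (hs i hi).rd_inv,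
      div_eq_mul_inv]
  have hfac : ∀ i ∈ A, S.CongM d (κ * (-(u i / s i)) + τ * (-(u i / s i)) ^ p)
      (((s i - δ * u i) / s i) ^ p) := by
    intro i hi
    have e : (s i - δ * u i) / s i = 1 + δ * (-(u i / s i)) := by
      have := (hs i hi).ne_zero
      field_simp
      ring
    rw [e]
    exact S.congM_pow_gen hp hδ hκ (hxV i hi) h1 h2
  have hαV : ∀ i ∈ A, κ * (-(u i / s i)) + τ * (-(u i / s i)) ^ p ∈ S.V := fun i hi =>
    (hT _ (hxV i hi)).1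
  have hHp : S.CongM d (∑ i ∈ A, (κ * (-(u i / s i)) + τ * (-(u i / s i)) ^ p))
      ((∏ i ∈ A, (s i - δ * u i) / s i) ^ p) := by
    rw [← Finset.prod_pow]
    exact CongM.prod hd A _ _ hαV hfac
  have hsumV : ∑ i ∈ A, (κ * (-(u i / s i)) + τ * (-(u i / s i)) ^ p) ∈ S.V :=
    Subring.sum_mem S.V.toSubring hαV
  have hf₂ := hgh.div hd (hT φ hφ).1 hsumV hHp
  obtain ⟨a1, a2⟩ := hgh.quot hd0 (hT φ hφ).1
  obtain ⟨b1, b2⟩ := hf₂.quot hd0 (S.V.sub_mem (hT φ hφ).1 hsumV)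
  refine ⟨⟨a1, by rw [a2, (hT φ hφ).2]⟩, b1, ?_⟩
  rw [b2, S.rd_sub (hT φ hφ).1 hsumV, (hT φ hφ).2, (S.rd_sum A _ hαV).2]
  congr 1
  apply Finset.sum_congr rfl
  intro i hi
  rw [(hT _ (hxV i hi)).2, hxrd i hi]

end PRed

namespace H28

/-- If `κ ψ + τ ψ ^ p` is regular at `v`, `τ ≠ 0` a constant and `2 ≤ p`, then `ψ` is regular
at `v`. -/
theorem regAt_of_frob_lin {k F' : Type*} [Field k] [Field F'] [Algebra k F'] (v : Place k F')
    {p : ℕ} (hp : 2 ≤ p) (κ τ : k) (hτ : τ ≠ 0) {ψ : F'}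
    (h : RegAt v (algebraMap k F' κ * ψ + algebraMap k F' τ * ψ ^ p)) : RegAt v ψ := by
  by_contra hψ
  unfold RegAt at h hψ
  push Not at hψ
  have h0 : (0 : WithZero (Multiplicative ℤ)) < v.adicValuation ψ := lt_trans zero_lt_one hψ
  have h1 : v.adicValuation (algebraMap k F' τ * ψ ^ p) = v.adicValuation ψ ^ p := by
    rw [map_mul, map_pow, adicValuation_algebraMap v hτ, one_mul]
  have h2 : v.adicValuation (algebraMap k F' κ * ψ) ≤ v.adicValuation ψ := by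
    rw [map_mul]
    calc v.adicValuation (algebraMap k F' κ) * v.adicValuation ψ
        ≤ 1 * v.adicValuation ψ := by
          gcongr
          exact v.adicValuation_algebraMap_le_one κ
      _ = v.adicValuation ψ := one_mul _
  have h3 : v.adicValuation ψ < v.adicValuation ψ ^ p := by
    have := lt_self_pow₀ hψ (show 1 < p by omega)
    exact this
  have h4 : v.adicValuation (algebraMap k F' κ * ψ + algebraMap k F' τ * ψ ^ p) =
      v.adicValuation ψ ^ p := by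
    rw [Valuation.map_add_eq_of_lt_right _ (by rw [h1]; exact lt_of_le_of_lt h2 h3), h1]
  rw [h4] at h
  exact absurd (lt_trans hψ h3) (not_lt.mpr h)

end H28

namespace SSD

variable {K F k F₁ F₂ : Type*} [Field K] [Field F] [Algebra K F] [Field k] [Field F₁]
  [Algebra k F₁] [Field F₂] [Algebra k F₂] {S : SSD K F k F₁ F₂}

namespace KeyHyp

variable {A₁ : Finset (Place k F₁)} {A₂ : Finset (Place k F₂)}
  {s₁ : Place k F₁ → F} {s₂ : Place k F₂ → F}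

/-- **The residue argument, general form**: `φ` is regular over the nodes and its reductions
are regular at the good points outside `A₁`, `A₂`. -/
theorem residue_core_gen (hK : S.KeyHyp A₁ A₂ s₁ s₂) (hNS : S.IsNS A₁ A₂) {φ : F}
    (hφV₁ : φ ∈ S.c₁.V) (hφV₂ : φ ∈ S.c₂.V)
    (hφnode : ∀ t ∈ S.nodes, ∀ P, S.c₁.r P = some t.1 → 0 ≤ P.ord φ)
    (hφgood₁ : ∀ v ∈ S.c₁.good, v ∉ A₁ → RegAt v (S.c₁.rd φ))
    (hφgood₂ : ∀ v ∈ S.c₂.good, v ∉ A₂ → RegAt v (S.c₂.rd φ))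
    (b : Place k F₁ ⊕ Place k F₂ → k) (m : ℕ) (hm : (m : k) ≠ 0)
    {αb₁ : F₁} {αb₂ : F₂} (hα₁ : ∀ Q ∈ A₁, RegAt Q αb₁) (hα₂ : ∀ Q ∈ A₂, RegAt Q αb₂)
    (hφrd₁ : S.c₁.rd φ = αb₁ - (m : F₁) *
      ∑ i ∈ keyA A₁ A₂, algebraMap k F₁ (b i) / S.c₁.rd (Sum.elim s₁ s₂ i))
    (hφrd₂ : S.c₂.rd φ = αb₂ - (m : F₂) *
      ∑ i ∈ keyA A₁ A₂, algebraMap k F₂ (b i) / S.c₂.rd (Sum.elim s₁ s₂ i)) :
    ∃ e : k, S.c₁.rd φ = algebraMap k F₁ e ∧ S.c₂.rd φ = algebraMap k F₂ e ∧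
      (∀ i ∈ keyA A₁ A₂, b i = 0) ∧ αb₁ = algebraMap k F₁ e ∧ αb₂ = algebraMap k F₂ e := by
  -- gluing of `φ` at the nodes
  have hglue : ∀ t ∈ S.nodes, ∃ e : k, VanAt t.1 (S.c₁.rd φ - algebraMap k F₁ e) ∧
      VanAt t.2 (S.c₂.rd φ - algebraMap k F₂ e) := by
    intro t ht
    obtain ⟨e, he1, he2⟩ := S.glue t ht φ hφV₁ hφV₂ (hφnode t ht)
    rw [← S.c₁.rd_of_mem hφV₁] at he1
    rw [← S.c₂.rd_of_mem hφV₂] at he2
    exact ⟨e, he1, he2⟩
  -- the reductions of `φ` lie in `L(A₁)`, `L(A₂)`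
  have hφL₁ : S.c₁.rd φ ∈ L (ptsDiv A₁) := by
    rw [mem_L_iff_ord]
    intro v
    by_cases hv : v ∈ A₁
    · rw [ptsDiv_apply, if_pos hv]
      have := H28.poleLe_formula v (keyA A₁ A₂) (fun i => S.c₁.rd (Sum.elim s₁ s₂ i))
        (fun i hi => (hK.isGU₁ hi).2)
        (fun i hi => by
          by_cases hiv : i = Sum.inl v
          · rw [hiv]; exact le_of_eq (hK.ord1₁ hv)
          · rw [hK.ord0₁ hi hv hiv]; exact zero_le_one) b m (hα₁ v hv)
      rw [← hφrd₁] at this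
      exact this
    · rw [ptsDiv_apply, if_neg hv, neg_zero]
      have hreg : RegAt v (S.c₁.rd φ) := by
        by_cases hvg : v ∈ S.c₁.good
        · exact hφgood₁ v hvg hv
        · have : v ∈ S.br₁ := by
            by_contra hvb
            exact hvg (S.good₁_of_notMem hvb)
          obtain ⟨t, ht, rfl⟩ := Finset.mem_image.mp this
          obtain ⟨e, he, -⟩ := hglue t ht
          exact RegAt.of_vanAt_sub he
      exact (regAt_iff_ord v _).mp hreg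
  have hφL₂ : S.c₂.rd φ ∈ L (ptsDiv A₂) := by
    rw [mem_L_iff_ord]
    intro v
    by_cases hv : v ∈ A₂
    · rw [ptsDiv_apply, if_pos hv]
      have := H28.poleLe_formula v (keyA A₁ A₂) (fun i => S.c₂.rd (Sum.elim s₁ s₂ i))
        (fun i hi => (hK.isGU₂ hi).2)
        (fun i hi => by
          by_cases hiv : i = Sum.inr v
          · rw [hiv]; exact le_of_eq (hK.ord1₂ hv)
          · rw [hK.ord0₂ hi hv hiv]; exact zero_le_one) b m (hα₂ v hv)
      rw [← hφrd₂] at this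
      exact this
    · rw [ptsDiv_apply, if_neg hv, neg_zero]
      have hreg : RegAt v (S.c₂.rd φ) := by
        by_cases hvg : v ∈ S.c₂.good
        · exact hφgood₂ v hvg hv
        · have : v ∈ S.br₂ := by
            by_contra hvb
            exact hvg (S.good₂_of_notMem hvb)
          obtain ⟨t, ht, rfl⟩ := Finset.mem_image.mp this
          obtain ⟨e, -, he⟩ := hglue t ht
          exact RegAt.of_vanAt_sub he
      exact (regAt_iff_ord v _).mp hreg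
  -- the reductions of `φ` are a constant
  obtain ⟨e, he₁, he₂⟩ := hNS _ hφL₁ _ hφL₂ hglue
  -- the residues vanish
  have hb0 : ∀ i ∈ keyA A₁ A₂, b i = 0 := by
    intro i hi
    rcases mem_keyA.mp hi with ⟨Q, hQ, rfl⟩ | ⟨Q, hQ, rfl⟩
    · refine H28.residue_zero Q (keyA A₁ A₂) (fun i => S.c₁.rd (Sum.elim s₁ s₂ i)) hi
        (hK.ord1₁ hQ) (fun j hj hne => hK.ord0₁ hj hQ hne) (hK.isGU₁ hi).2 b m hm
        (αb := αb₁ - algebraMap k F₁ e) ((hα₁ Q hQ).sub (regAt_algebraMap Q e)) ?_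
      rw [sub_right_comm, ← hφrd₁, he₁, sub_self]
    · refine H28.residue_zero Q (keyA A₁ A₂) (fun i => S.c₂.rd (Sum.elim s₁ s₂ i)) hi
        (hK.ord1₂ hQ) (fun j hj hne => hK.ord0₂ hj hQ hne) (hK.isGU₂ hi).2 b m hm
        (αb := αb₂ - algebraMap k F₂ e) ((hα₂ Q hQ).sub (regAt_algebraMap Q e)) ?_
      rw [sub_right_comm, ← hφrd₂, he₂, sub_self]
  have hsum₁ : ∑ i ∈ keyA A₁ A₂, algebraMap k F₁ (b i) / S.c₁.rd (Sum.elim s₁ s₂ i) = 0 :=
    Finset.sum_eq_zero fun i hi => by rw [hb0 i hi, map_zero, zero_div]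
  have hsum₂ : ∑ i ∈ keyA A₁ A₂, algebraMap k F₂ (b i) / S.c₂.rd (Sum.elim s₁ s₂ i) = 0 :=
    Finset.sum_eq_zero fun i hi => by rw [hb0 i hi, map_zero, zero_div]
  refine ⟨e, he₁, he₂, hb0, ?_, ?_⟩
  · rw [← he₁, hφrd₁, hsum₁, mul_zero, sub_zero]
  · rw [← he₂, hφrd₂, hsum₂, mul_zero, sub_zero]

end KeyHyp

end SSD

end Fermat.Agent.BAD
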