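import Fermat.Agent.BADP.H28_TIpCore

/-!
# S33 (T3), leaf (E) "TI-p" (helper28), part 2: one round

`SSD.KeyHyp.round` : `f = g h ^ p` in canonical position, `g ∈ 1 + d m`, `h = 1 + δ φ`,
`a_Q = δ u_Q` with `φ`, `u_Q` integral, `p δ = d κ`, `δ ^ p = d τ`, `τ` a unit.  Then the
reductions of `φ` are a constant `e`, the reductions of the `u_Q` vanish, and
`rd ((f - 1) / d) = rd κ e + rd τ e ^ p`.
-/

set_option autoImplicit false
set_option linter.style.haveILetI false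
set_option maxHeartbeats 1000000

noncomputable section

open AlgebraicCurve

attribute [local instance] Classical.propDecidable

namespace Fermat.Agent.BAD

open Fermat.Agent.RED.H17 Fermat.Agent.RED

local notation "L" => riemannRochSpace

namespace H28

/-- Additivity of `x ↦ κ x + τ x ^ p` in characteristic `p`. -/
theorem frob_lin_sum {R : Type*} [Field R] (p : ℕ) [Fact p.Prime] [CharP R p] (κ τ x : R)
    {ι : Type*} (A : Finset ι) (y : ι → R) :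
    κ * x + τ * x ^ p - ∑ i ∈ A, (κ * (-y i) + τ * (-y i) ^ p) =
      κ * (x + ∑ i ∈ A, y i) + τ * (x + ∑ i ∈ A, y i) ^ p := by
  have hneg : ∀ z : R, (-z) ^ p = -z ^ p := by
    intro z
    have := sub_pow_char (0 : R) z (p := p)
    rw [zero_sub, zero_pow (Fact.out : p.Prime).ne_zero, zero_sub] at this
    exact this
  haveI : ExpChar R p := ExpChar.prime (Fact.out : p.Prime)
  have e : ∑ i ∈ A, (κ * (-y i) + τ * (-y i) ^ p) =
      -(κ * ∑ i ∈ A, y i) - τ * ∑ i ∈ A, y i ^ p := by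
    rw [Finset.mul_sum, Finset.mul_sum, ← Finset.sum_neg_distrib, ← Finset.sum_sub_distrib]
    exact Finset.sum_congr rfl fun i _ => by rw [hneg (y i)]; ring
  rw [add_pow_char, sum_pow_char, e]
  ring

end H28

namespace SSD

variable {K F k F₁ F₂ : Type*} [Field K] [Field F] [Algebra K F] [Field k] [Field F₁]
  [Algebra k F₁] [Field F₂] [Algebra k F₂] {S : SSD K F k F₁ F₂}

namespace KeyHyp

variable {A₁ : Finset (Place k F₁)} {A₂ : Finset (Place k F₂)}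
  {s₁ : Place k F₁ → F} {s₂ : Place k F₂ → F}

/-- **One round.** -/
theorem round (hK : S.KeyHyp A₁ A₂ s₁ s₂) (hP : HasPrincipalDivisors K F)
    (hNS : S.IsNS A₁ A₂) {p : ℕ} (hp : p.Prime) (hchar : CharP k p)
    {δ d κ τ : K} (hδ : S.IsCM δ) (hδ0 : δ ≠ 0) (hd : S.IsCM d) (hd0 : d ≠ 0)
    (hκ : algebraMap K F κ ∈ S.c₁.V) (hτ : S.IsCU τ)
    (h1 : (p : K) * δ = d * κ) (h2 : δ ^ p = d * τ)
    (a₁ : Place k F₁ → K) (a₂ : Place k F₂ → K)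
    (hu : ∀ i ∈ keyA A₁ A₂, algebraMap K F (Sum.elim a₁ a₂ i / δ) ∈ S.c₁.V)
    {g h f : F} (hfgh : f = g * h ^ p)
    (hg₁ : S.c₁.InM ((g - 1) / algebraMap K F d))
    (hg₂ : S.c₂.InM ((g - 1) / algebraMap K F d))
    (hφ₁ : (h - 1) / algebraMap K F δ ∈ S.c₁.V) (hφ₂ : (h - 1) / algebraMap K F δ ∈ S.c₂.V)
    (hhnode : ∀ t ∈ S.nodes, ∀ P, S.c₁.r P = some t.1 → 0 ≤ P.ord h)
    (hord0 : ∀ P, (∀ Q ∈ A₁, S.c₁.r P ≠ some Q) → (∀ Q ∈ A₂, S.c₂.r P ≠ some Q) →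
      0 ≤ P.ord f)
    (hf₂ord₁ : ∀ Q ∈ A₁, ∀ P, S.c₁.r P = some Q → 0 ≤ P.ord (f / (∏ i ∈ keyA A₁ A₂,
        (Sum.elim s₁ s₂ i - algebraMap K F (Sum.elim a₁ a₂ i)) / Sum.elim s₁ s₂ i) ^ p))
    (hf₂ord₂ : ∀ Q ∈ A₂, ∀ P, S.c₂.r P = some Q → 0 ≤ P.ord (f / (∏ i ∈ keyA A₁ A₂,
        (Sum.elim s₁ s₂ i - algebraMap K F (Sum.elim a₁ a₂ i)) / Sum.elim s₁ s₂ i) ^ p)) :
    ∃ e : k, S.c₁.rd ((h - 1) / algebraMap K F δ) = algebraMap k F₁ e ∧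
      S.c₂.rd ((h - 1) / algebraMap K F δ) = algebraMap k F₂ e ∧
      (∀ i ∈ keyA A₁ A₂, S.c₁.rd (algebraMap K F (Sum.elim a₁ a₂ i / δ)) = 0) ∧
      (f - 1) / algebraMap K F d ∈ S.c₁.V ∧
      S.c₁.rd ((f - 1) / algebraMap K F d) =
        S.c₁.rd (algebraMap K F κ) * algebraMap k F₁ e +
          S.c₁.rd (algebraMap K F τ) * algebraMap k F₁ e ^ p := by
  haveI : Fact p.Prime := ⟨hp⟩
  haveI : CharP k p := hchar
  haveI : CharP F₁ p := charP_of_injective_algebraMap (algebraMap k F₁).injective p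
  haveI : CharP F₂ p := charP_of_injective_algebraMap (algebraMap k F₂).injective p
  set A : Finset (Place k F₁ ⊕ Place k F₂) := keyA A₁ A₂ with hAdef
  set s : Place k F₁ ⊕ Place k F₂ → F := Sum.elim s₁ s₂ with hsdef
  set a : Place k F₁ ⊕ Place k F₂ → K := Sum.elim a₁ a₂ with hadef
  set Hp : F := ∏ i ∈ A, (s i - algebraMap K F (a i)) / s i with hHp
  set φ : F := (h - 1) / algebraMap K F δ with hφdef
  set u : Place k F₁ ⊕ Place k F₂ → F := fun i => algebraMap K F (a i / δ) with hudef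
  have hδF : algebraMap K F δ ≠ 0 := (map_ne_zero_iff _ (algebraMap K F).injective).mpr hδ0
  have hdF : algebraMap K F d ≠ 0 := (map_ne_zero_iff _ (algebraMap K F).injective).mpr hd0
  have hh : 1 + algebraMap K F δ * φ = h := by
    rw [hφdef]
    field_simp
    ring
  have hau : ∀ i, algebraMap K F δ * u i = algebraMap K F (a i) := by
    intro i
    rw [hudef]
    simp only
    rw [← map_mul, mul_div_cancel₀ _ hδ0]
  have hHp' : ∏ i ∈ A, (s i - algebraMap K F δ * u i) / s i = Hp := by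
    rw [hHp]
    exact Finset.prod_congr rfl fun i _ => by rw [hau i]
  have h1F : (p : F) * algebraMap K F δ = algebraMap K F d * algebraMap K F κ := by
    rw [← map_mul, ← h1, map_mul, map_natCast]
  have h2F : algebraMap K F δ ^ p = algebraMap K F d * algebraMap K F τ := by
    rw [← map_pow, h2, map_mul]
  have hu₂ : ∀ i ∈ A, u i ∈ S.c₂.V := fun i hi => (S.const_mem _).mp (hu i hi)
  -- the formulas
  obtain ⟨⟨hΦV₁, hΦrd₁⟩, hΨV₁, hΨrd₁⟩ := S.c₁.round_formula hp ⟨hδ.mem₁, hδ.rd₁⟩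
    ⟨hd.mem₁, hd.rd₁⟩ hdF hκ hτ.isGU₁.1 h1F h2F A s u (fun i hi => hK.isGU₁ hi) hu hg₁ hφ₁
  obtain ⟨⟨hΦV₂, hΦrd₂⟩, hΨV₂, hΨrd₂⟩ := S.c₂.round_formula hp ⟨hδ.mem₂, hδ.rd₂⟩
    ⟨hd.mem₂, hd.rd₂⟩ hdF ((S.const_mem _).mp hκ) hτ.isGU₂.1 h1F h2F A s u
    (fun i hi => hK.isGU₂ hi) hu₂ hg₂ hφ₂
  rw [hh, ← hfgh] at hΦV₁ hΦrd₁ hΦV₂ hΦrd₂
  rw [hh, ← hfgh, hHp'] at hΨV₁ hΨrd₁ hΨV₂ hΨrd₂
  -- the constants
  obtain ⟨kb, hkb₁⟩ := S.c₁.rd_const_eq κ hκ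
  have hkb₂ := (S.rd₂_const hκ hkb₁).2
  obtain ⟨tb, htb₁⟩ := S.c₁.rd_const_eq τ hτ.isGU₁.1
  have htb₂ := (S.rd₂_const hτ.isGU₁.1 htb₁).2
  have htb0 : tb ≠ 0 := by
    rintro rfl
    exact hτ.isGU₁.2 (by rw [htb₁, map_zero])
  have hbex : ∀ i, ∃ b : k, i ∈ A → S.c₁.rd (u i) = algebraMap k F₁ b := by
    intro i
    by_cases hi : i ∈ A
    · obtain ⟨b, hb⟩ := S.c₁.rd_const_eq (a i / δ) (hu i hi)
      exact ⟨b, fun _ => hb⟩
    · exact ⟨0, fun h => absurd h hi⟩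
  choose b hb₁ using hbex
  have hb₂ : ∀ i ∈ A, S.c₂.rd (u i) = algebraMap k F₂ (b i) :=
    fun i hi => (S.rd₂_const (hu i hi) (hb₁ i hi)).2
  -- the functions `ψ`
  set ψ₁ : F₁ := S.c₁.rd φ + ∑ i ∈ A, algebraMap k F₁ (b i) / S.c₁.rd (s i) with hψ₁
  set ψ₂ : F₂ := S.c₂.rd φ + ∑ i ∈ A, algebraMap k F₂ (b i) / S.c₂.rd (s i) with hψ₂
  have hΨ₁ : S.c₁.rd ((f / Hp ^ p - 1) / algebraMap K F d) =
      algebraMap k F₁ kb * ψ₁ + algebraMap k F₁ tb * ψ₁ ^ p := by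
    rw [hΨrd₁, hkb₁, htb₁, hψ₁, ← H28.frob_lin_sum]
    congr 1
    exact Finset.sum_congr rfl fun i hi => by rw [hb₁ i hi]
  have hΨ₂ : S.c₂.rd ((f / Hp ^ p - 1) / algebraMap K F d) =
      algebraMap k F₂ kb * ψ₂ + algebraMap k F₂ tb * ψ₂ ^ p := by
    rw [hΨrd₂, hkb₂, htb₂, hψ₂, ← H28.frob_lin_sum]
    congr 1
    exact Finset.sum_congr rfl fun i hi => by rw [hb₂ i hi]
  have hp2 : 2 ≤ p := hp.two_le
  have hdiv : ∀ (P : Place K F) (w : F), RegAt P w → 0 ≤ P.ord ((w - 1) / algebraMap K F d) := by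
    intro P w hw
    rw [div_eq_mul_inv, ← map_inv₀]
    exact ((hw.sub (regAt_one P)).mul (regAt_algebraMap P d⁻¹)).ord_nonneg
  have hψreg₁ : ∀ Q ∈ A₁, RegAt Q ψ₁ := by
    intro Q hQ
    refine H28.regAt_of_frob_lin Q hp2 kb tb htb0 ?_
    rw [← hΨ₁]
    apply S.c₁.regAt_rd hP hΨV₁ (hK.good₁ hQ)
    intro P hPQ
    exact hdiv P _ (regAt_of_ord_nonneg (hf₂ord₁ Q hQ P hPQ))
  have hψreg₂ : ∀ Q ∈ A₂, RegAt Q ψ₂ := by
    intro Q hQ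
    refine H28.regAt_of_frob_lin Q hp2 kb tb htb0 ?_
    rw [← hΨ₂]
    apply S.c₂.regAt_rd hP hΨV₂ (hK.good₂ hQ)
    intro P hPQ
    exact hdiv P _ (regAt_of_ord_nonneg (hf₂ord₂ Q hQ P hPQ))
  have hφgood₁ : ∀ v ∈ S.c₁.good, v ∉ A₁ → RegAt v (S.c₁.rd φ) := by
    intro v hvg hv
    refine H28.regAt_of_frob_lin v hp2 kb tb htb0 ?_
    rw [← hkb₁, ← htb₁, ← hΦrd₁]
    apply S.c₁.regAt_rd hP hΦV₁ hvg
    intro P hPv
    exact hdiv P _ (regAt_of_ord_nonneg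
      (hord0 P (hK.off_of_good₁ hvg hv hPv).1 (hK.off_of_good₁ hvg hv hPv).2))
  have hφgood₂ : ∀ v ∈ S.c₂.good, v ∉ A₂ → RegAt v (S.c₂.rd φ) := by
    intro v hvg hv
    refine H28.regAt_of_frob_lin v hp2 kb tb htb0 ?_
    rw [← hkb₂, ← htb₂, ← hΦrd₂]
    apply S.c₂.regAt_rd hP hΦV₂ hvg
    intro P hPv
    exact hdiv P _ (regAt_of_ord_nonneg
      (hord0 P (hK.off_of_good₂ hvg hv hPv).1 (hK.off_of_good₂ hvg hv hPv).2))
  have hφnode : ∀ t ∈ S.nodes, ∀ P, S.c₁.r P = some t.1 → 0 ≤ P.ord φ := by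
    intro t ht P hPt
    rw [hφdef, div_eq_mul_inv, ← map_inv₀]
    exact (((regAt_of_ord_nonneg (hhnode t ht P hPt)).sub (regAt_one P)).mul
      (regAt_algebraMap P δ⁻¹)).ord_nonneg
  obtain ⟨e, he₁, he₂, hb0, -, -⟩ := hK.residue_core_gen hNS hφ₁ hφ₂ hφnode hφgood₁ hφgood₂
    b 1 (by rw [Nat.cast_one]; exact one_ne_zero) hψreg₁ hψreg₂
    (by rw [hψ₁, Nat.cast_one, one_mul, add_sub_cancel_right])
    (by rw [hψ₂, Nat.cast_one, one_mul, add_sub_cancel_right])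
  refine ⟨e, he₁, he₂, fun i hi => ?_, hΦV₁, ?_⟩
  · have := hb₁ i hi
    rw [hb0 i hi, map_zero] at this
    exact this
  · rw [hΦrd₁, he₁]

end KeyHyp

end SSD

end Fermat.Agent.BAD
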