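/-
helper38, row 38 (S44), package BAD_p, EIS-ABS leaf (N) NODE-VAL: the statement.
Plan: helper97's note (EIS-ABS split), `NOTES/plan/L_S44.md` §12.2 (d3), (d5).

Setting of `Stmt_EisAbs` / `Stmt_EisAbsTame`: `S : SSD K F k F₁ F₂`, `char k = p`, `𝓘' ⊆ 𝓘` sets of
inertial semilinear automorphisms, `F0` = the functions fixed by `𝓘`, the values of `F0` for `V₂`
are powers of the value of `p`; `U` the unit; `f` a `V₁`-unit fixed by `𝓘'` with `p ∣ div f`.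

`Stmt_NodeVal`: for every node `s` there are `e_s ≥ 1` with `e_s · ord_{s.1} (rd₁ U) = w`, a
function `G_s` fixed by `𝓘'`, a `V₁`-unit, with `p · ord_P (G_s) = ord_P f` on the fibre of `s`,
and `d_s ∈ ℤ` (`= ∑_{P → s} ord_P f / p`) such that
`v₂ f = v₂ p ^ (e_s (ord_{s.1} (rd₁ f) - p d_s)) · v₂ (G_s) ^ p`.
-/
import Fermat.Agent.BADP.EisAbs

set_option autoImplicit false

noncomputable section

open AlgebraicCurve

namespace Fermat.Agent.BADP.H38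

open Fermat.Agent.RED.H17 Fermat.Agent.RED Fermat.Agent.BAD Fermat.Agent.BADP

/-- **EIS-ABS (N) = NODE-VAL.** -/
def Stmt_NodeVal : Prop :=
  ∀ (K F k F₁ F₂ : Type) [Field K] [Field F] [Algebra K F] [Field k] [Field F₁]
    [Algebra k F₁] [Field F₂] [Algebra k F₂] [IsAlgClosed K] [IsAlgClosed k]
    (S : SSD K F k F₁ F₂), FFHyp K F → FFHyp k F₁ → FFHyp k F₂ →
    ∀ (g g₁ g₂ : ℕ) (c c₁ c₂ : ℤ), IsGenus K F g c → IsGenus k F₁ g₁ c₁ → IsGenus k F₂ g₂ c₂ →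
    g + 1 ≤ g₁ + g₂ + S.nodes.card →
    ∀ (p : ℕ), p.Prime → CharP k p → (p : K) ≠ 0 →
    ∀ (𝓘 𝓘' : Set (SemilinearAut K F)), (∀ τ ∈ 𝓘, S.IsInertial τ) → 𝓘' ⊆ 𝓘 →
      IsK0Lift S 𝓘 →
    ∀ (F0 : Subfield F), (∀ y : F, y ∈ F0 ↔ ∀ τ ∈ 𝓘, τ • y = y) →
      -- the values of `F0` for `V₂` are powers of the value of `p`
      (∀ y ∈ F0, y ≠ 0 → ∃ n : ℤ, S.c₂.V.valuation y = S.c₂.V.valuation (p : F) ^ n) →
    -- the unit
    ∀ (U : F) (w : ℕ), S.c₁.IsGU U → (∀ τ ∈ 𝓘, τ • U = U) →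
      (∀ P : Place K F, S.IsNodeP P → P.ord U = 0) →
      S.c₂.IsGU (U / algebraMap K F ((p : K) ^ w)) → ¬ p ∣ w →
    -- the Kummer function
    ∀ (f : F), S.c₁.IsGU f → (∀ P : Place K F, (p : ℤ) ∣ P.ord f) → (∀ τ ∈ 𝓘', τ • f = f) →
      ∃ (e : Place k F₁ × Place k F₂ → ℕ) (G : Place k F₁ × Place k F₂ → F)
        (d : Place k F₁ × Place k F₂ → ℤ), ∀ s ∈ S.nodes,
        (e s : ℤ) * s.1.ord (S.c₁.rd U) = w ∧
        (∀ τ ∈ 𝓘', τ • G s = G s) ∧ S.c₁.IsGU (G s) ∧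
        (∀ P : Place K F, S.c₁.r P = some s.1 → (p : ℤ) * P.ord (G s) = P.ord f) ∧
        S.c₂.V.valuation f =
          S.c₂.V.valuation (p : F) ^ ((e s : ℤ) * (s.1.ord (S.c₁.rd f) - p * d s)) *
            S.c₂.V.valuation (G s) ^ p

end Fermat.Agent.BADP.H38
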