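import Fermat.Agent.BADP.H51_MoveP
import Fermat.Agent.BAD.H01_P5

/-!
# S44, package CANON (helper51), part 1: the canonical form of a function in TIss-position

Setting: `S : SSD K F k F₁ F₂`, a non-special pair `(A₁, A₂)` of sets of regular points of the two
components with `#A₁ + #A₂ ≥ g`, adapted coordinates `s₁ Q`, `s₂ Q` on the residue discs (shape
of `Stmt_Coords` / `SSD.KeyHyp`), `Y_Q` the zero of the coordinate on the disc of `Q`.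

`canon` (every exponent `n ≠ 0`): if `f ≡ 1` for both valuations, `n ∣ div f` and `f` has neither
zero nor pole on the fibres of the nodes (TIss-position), then there is `h`, a unit for both
valuations with constant reductions `ζ`, `ζ ^ n = 1`, such that `f₁ = f h ^ n` satisfies ALL the
hypotheses of the nodal key lemma `Stmt_KeyNodal` (except `(n : k) ≠ 0`): `f₁ ≡ 1` for both
valuations, `f₁(P∞) = 1`, `f₁` has no zero or pole outside the discs, and on the disc of `Q`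
`div f₁ = n (X_Q - Y_Q)`, `X_Q` the zero of `s_Q - a_Q`, `a_Q` in the maximal ideal.

`canon_p` : for `n = p = char k` moreover `h ≡ 1` for both valuations.

This is the first half of the proof of `BAD.H01.stmt_TIss_of` (helper1, after helper17's
`RedSetup.ticore`), which does not use that `n` is invertible in `k`.
-/

set_option autoImplicit false
set_option linter.style.haveILetI false
set_option maxHeartbeats 2000000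

noncomputable section

open AlgebraicCurve

attribute [local instance] Classical.propDecidable

namespace Fermat.Agent.BADP.H51

open Fermat.Agent.RED.H17 Fermat.Agent.RED Fermat.Agent.BAD Fermat.Agent.BAD.H01

local notation "L" => riemannRochSpace

section Main

variable {K F k F₁ F₂ : Type} [Field K] [Field F] [Algebra K F] [Field k] [Field F₁]
  [Algebra k F₁] [Field F₂] [Algebra k F₂]

/-- The conclusion of `canon`: the function `f₁` (`= f h ^ n`) is in canonical form with respect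
to the coordinates `s₁`, `s₂`, with values `a₁`, `a₂` and points `X₁`, `X₂`. -/
structure IsCanon (S : SSD K F k F₁ F₂) (A₁ : Finset (Place k F₁)) (A₂ : Finset (Place k F₂))
    (s₁ : Place k F₁ → F) (s₂ : Place k F₂ → F) (n : ℕ) (Pinf : Place K F) (f₁ : F)
    (a₁ : Place k F₁ → K) (a₂ : Place k F₂ → K) (X₁ : Place k F₁ → Place K F)
    (X₂ : Place k F₂ → Place K F) : Prop where
  mem₁ : f₁ ∈ S.c₁.V
  mem₂ : f₁ ∈ S.c₂.V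
  rd₁ : S.c₁.rd f₁ = 1
  rd₂ : S.c₂.rd f₁ = 1
  inf : VanAt Pinf (f₁ - 1)
  ha₁ : ∀ Q ∈ A₁, algebraMap K F (a₁ Q) ∈ S.c₁.V ∧ S.c₁.rd (algebraMap K F (a₁ Q)) = 0
  ha₂ : ∀ Q ∈ A₂, algebraMap K F (a₂ Q) ∈ S.c₂.V ∧ S.c₂.rd (algebraMap K F (a₂ Q)) = 0
  hX₁ : ∀ Q ∈ A₁, S.c₁.r (X₁ Q) = some Q ∧ VanAt (X₁ Q) (s₁ Q - algebraMap K F (a₁ Q))
  hX₂ : ∀ Q ∈ A₂, S.c₂.r (X₂ Q) = some Q ∧ VanAt (X₂ Q) (s₂ Q - algebraMap K F (a₂ Q))
  off : ∀ P, (∀ Q ∈ A₁, S.c₁.r P ≠ some Q) → (∀ Q ∈ A₂, S.c₂.r P ≠ some Q) → P.ord f₁ = 0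
  on₁ : ∀ Q ∈ A₁, ∀ P, S.c₁.r P = some Q →
    P.ord f₁ = n * (P.ord (s₁ Q - algebraMap K F (a₁ Q)) - P.ord (s₁ Q))
  on₂ : ∀ Q ∈ A₂, ∀ P, S.c₂.r P = some Q →
    P.ord f₁ = n * (P.ord (s₂ Q - algebraMap K F (a₂ Q)) - P.ord (s₂ Q))
  onX₁ : ∀ Q ∈ A₁, ∀ P, S.c₁.r P = some Q →
    P.ord (s₁ Q - algebraMap K F (a₁ Q)) = if P = X₁ Q then 1 else 0
  onX₂ : ∀ Q ∈ A₂, ∀ P, S.c₂.r P = some Q →
    P.ord (s₂ Q - algebraMap K F (a₂ Q)) = if P = X₂ Q then 1 else 0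

/-- **CANON, existence** (every exponent). -/
theorem canon [IsAlgClosed K] (S : SSD K F k F₁ F₂) (H : FFHyp K F) (H₁ : FFHyp k F₁)
    (H₂ : FFHyp k F₂) {g : ℕ} {c : ℤ} (hR : IsGenus K F g c)
    {A₁ : Finset (Place k F₁)} {A₂ : Finset (Place k F₂)}
    (hdis₁ : Disjoint A₁ S.br₁) (hdis₂ : Disjoint A₂ S.br₂) (hNSA : S.IsNS A₁ A₂)
    (hcard : g ≤ A₁.card + A₂.card)
    {s₁ : Place k F₁ → F} {s₂ : Place k F₂ → F}
    (hs₁ : ∀ Q ∈ A₁, S.IsCoordA₁ A₁ A₂ (s₁ Q) Q) (hs₂ : ∀ Q ∈ A₂, S.IsCoordA₂ A₁ A₂ (s₂ Q) Q)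
    {n : ℕ} (hn0 : n ≠ 0) {f : F} (hf₁ : f ∈ S.c₁.V) (hf₂ : f ∈ S.c₂.V)
    (hrd₁ : S.c₁.rd f = 1) (hrd₂ : S.c₂.rd f = 1) (hdiv : ∀ P : Place K F, (n : ℤ) ∣ P.ord f)
    (hnode : ∀ P : Place K F, S.IsNodeP P → P.ord f = 0)
    {Pinf : Place K F} {Qinf : Place k F₁} (hQinfg : Qinf ∈ S.c₁.good) (hQinfA : Qinf ∉ A₁)
    (hPinf : S.c₁.r Pinf = some Qinf) :
    ∃ (h : F) (ζ : k) (a₁ : Place k F₁ → K) (a₂ : Place k F₂ → K)
      (X₁ : Place k F₁ → Place K F) (X₂ : Place k F₂ → Place K F),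
      S.c₁.IsGU h ∧ S.c₂.IsGU h ∧ S.c₁.rd h = algebraMap k F₁ ζ ∧
      S.c₂.rd h = algebraMap k F₂ ζ ∧ ζ ^ n = 1 ∧
      IsCanon S A₁ A₂ s₁ s₂ n Pinf (f * h ^ n) a₁ a₂ X₁ X₂ := by
  have hP := H.principal
  have hnZ : (n : ℤ) ≠ 0 := by exact_mod_cast hn0
  have hfGU₁ : S.c₁.IsGU f := ⟨hf₁, by rw [hrd₁]; exact one_ne_zero⟩
  have hfGU₂ : S.c₂.IsGU f := ⟨hf₂, by rw [hrd₂]; exact one_ne_zero⟩
  have hA₁g : ∀ Q ∈ A₁, Q ∈ S.c₁.good := fun Q hQ =>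
    S.good₁_of_notMem (Finset.disjoint_left.mp hdis₁ hQ)
  have hA₂g : ∀ Q ∈ A₂, Q ∈ S.c₂.good := fun Q hQ =>
    S.good₂_of_notMem (Finset.disjoint_left.mp hdis₂ hQ)
  have hsC₁ : ∀ Q ∈ A₁, S.c₁.IsCoord (s₁ Q) Q := fun Q hQ => (hs₁ Q hQ).1
  have hsC₂ : ∀ Q ∈ A₂, S.c₂.IsCoord (s₂ Q) Q := fun Q hQ => (hs₂ Q hQ).1
  -- the zeros `Y` of the coordinates
  have hY₁ex : ∀ Q, ∃ Y : Place K F, Q ∈ A₁ → S.c₁.r Y = some Q ∧ Y.ord (s₁ Q) = 1 ∧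
      ∀ P, S.c₁.r P = some Q → P ≠ Y → P.ord (s₁ Q) = 0 := by
    intro Q
    by_cases hQ : Q ∈ A₁
    · obtain ⟨Y, h1, h2, h3⟩ := (hsC₁ Q hQ).exists_zero hP
      exact ⟨Y, fun _ => ⟨h1, h2, h3⟩⟩
    · exact ⟨Pinf, fun h => absurd h hQ⟩
  choose Y₁ hY₁ using hY₁ex
  have hY₂ex : ∀ Q, ∃ Y : Place K F, Q ∈ A₂ → S.c₂.r Y = some Q ∧ Y.ord (s₂ Q) = 1 ∧
      ∀ P, S.c₂.r P = some Q → P ≠ Y → P.ord (s₂ Q) = 0 := by
    intro Q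
    by_cases hQ : Q ∈ A₂
    · obtain ⟨Y, h1, h2, h3⟩ := (hsC₂ Q hQ).exists_zero hP
      exact ⟨Y, fun _ => ⟨h1, h2, h3⟩⟩
    · exact ⟨Pinf, fun h => absurd h hQ⟩
  choose Y₂ hY₂ using hY₂ex
  have hrY₁ : ∀ Q ∈ A₁, S.c₁.r (Y₁ Q) = some Q := fun Q hQ => (hY₁ Q hQ).1
  have hrY₂ : ∀ Q ∈ A₂, S.c₂.r (Y₂ Q) = some Q := fun Q hQ => (hY₂ Q hQ).1
  -- the set `B` of the zeros and the divisor `E'`
  obtain ⟨B, hBdef⟩ : ∃ B : Finset (Place K F), B = A₁.image Y₁ ∪ A₂.image Y₂ := ⟨_, rfl⟩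
  have hBmem : ∀ P, P ∈ B ↔ (∃ Q ∈ A₁, Y₁ Q = P) ∨ ∃ Q ∈ A₂, Y₂ Q = P := by
    intro P
    rw [hBdef, Finset.mem_union, Finset.mem_image, Finset.mem_image]
  have hB₁ : ∀ P Q, S.c₁.r P = some Q → (P ∈ B ↔ Q ∈ A₁ ∧ P = Y₁ Q) := by
    intro P Q hPQ
    rw [hBmem]
    constructor
    · rintro (⟨Q', hQ', rfl⟩ | ⟨Q', hQ', rfl⟩)
      · have := hrY₁ Q' hQ'
        rw [hPQ] at this
        have e : Q = Q' := Option.some.inj this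
        subst e
        exact ⟨hQ', rfl⟩
      · have := S.r₁_none_of_good₂ (hA₂g Q' hQ') (hrY₂ Q' hQ')
        rw [hPQ] at this
        exact absurd this (by simp)
    · rintro ⟨hQ, rfl⟩
      exact Or.inl ⟨Q, hQ, rfl⟩
  have hB₂ : ∀ P Q, S.c₂.r P = some Q → (P ∈ B ↔ Q ∈ A₂ ∧ P = Y₂ Q) := by
    intro P Q hPQ
    rw [hBmem]
    constructor
    · rintro (⟨Q', hQ', rfl⟩ | ⟨Q', hQ', rfl⟩)
      · have := S.r₂_none_of_good₁ (hA₁g Q' hQ') (hrY₁ Q' hQ')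
        rw [hPQ] at this
        exact absurd this (by simp)
      · have := hrY₂ Q' hQ'
        rw [hPQ] at this
        have e : Q = Q' := Option.some.inj this
        subst e
        exact ⟨hQ', rfl⟩
    · rintro ⟨hQ, rfl⟩
      exact Or.inr ⟨Q, hQ, rfl⟩
  have hBnode : ∀ P, S.IsNodeP P → P ∉ B := by
    intro P hPn hPB
    rcases (hBmem P).mp hPB with ⟨Q', hQ', rfl⟩ | ⟨Q', hQ', rfl⟩
    · exact S.not_isNodeP_of_good₁ (hA₁g Q' hQ') (hrY₁ Q' hQ') hPn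
    · exact S.not_isNodeP_of_good₂ (hA₂g Q' hQ') (hrY₂ Q' hQ') hPn
  have hBcard : B.card = A₁.card + A₂.card := by
    rw [hBdef, Finset.card_union_of_disjoint, Finset.card_image_of_injOn,
      Finset.card_image_of_injOn]
    · intro Q hQ Q' hQ' h
      have h1 := hrY₂ Q hQ
      have h1' : S.c₂.r (Y₂ Q) = some Q' := by
        have := hrY₂ Q' hQ'
        rwa [← show Y₂ Q = Y₂ Q' from h] at this
      rw [h1] at h1'
      exact Option.some.inj h1'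
    · intro Q hQ Q' hQ' h
      have h1 := hrY₁ Q hQ
      have h1' : S.c₁.r (Y₁ Q) = some Q' := by
        have := hrY₁ Q' hQ'
        rwa [← show Y₁ Q = Y₁ Q' from h] at this
      rw [h1] at h1'
      exact Option.some.inj h1'
    · rw [Finset.disjoint_left]
      intro P hP₁ hP₂
      obtain ⟨Q, hQ, rfl⟩ := Finset.mem_image.mp hP₁
      obtain ⟨Q', hQ', hQQ'⟩ := Finset.mem_image.mp hP₂
      have h1 := S.r₂_none_of_good₁ (hA₁g Q hQ) (hrY₁ Q hQ)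
      have h2 := hrY₂ Q' hQ'
      rw [hQQ', h1] at h2
      exact absurd h2 (by simp)
  obtain ⟨E', hE'def⟩ : ∃ E' : Divisor K F, E' = ptsDiv B := ⟨_, rfl⟩
  have hE'a : ∀ P, E' P = if P ∈ B then 1 else 0 := fun P => by
    rw [hE'def, ptsDiv_apply]
  have hdegE' : Divisor.degree E' = (A₁.card + A₂.card : ℕ) := by
    rw [hE'def, degree_ptsDiv H.deg_one, hBcard]
  have hrE'₁ : ∀ Q, Finsupp.mapDomain S.c₁.r E' (some Q) = ptsDiv A₁ Q := by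
    intro Q
    rw [hE'def, ptsDiv_apply]
    by_cases hQ : Q ∈ A₁
    · rw [if_pos hQ]
      refine mapDomain_ptsDiv_eq_one _ _ _ (Y₁ Q) fun P => ?_
      constructor
      · rintro ⟨hPB, hPQ⟩
        exact ((hB₁ P Q hPQ).mp hPB).2
      · rintro rfl
        exact ⟨(hB₁ _ Q (hrY₁ Q hQ)).mpr ⟨hQ, rfl⟩, hrY₁ Q hQ⟩
    · rw [if_neg hQ]
      refine mapDomain_ptsDiv_eq_zero _ _ _ fun P hPB hPQ => ?_
      exact absurd ((hB₁ P Q hPQ).mp hPB).1 hQ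
  have hrE'₂ : ∀ Q, Finsupp.mapDomain S.c₂.r E' (some Q) = ptsDiv A₂ Q := by
    intro Q
    rw [hE'def, ptsDiv_apply]
    by_cases hQ : Q ∈ A₂
    · rw [if_pos hQ]
      refine mapDomain_ptsDiv_eq_one _ _ _ (Y₂ Q) fun P => ?_
      constructor
      · rintro ⟨hPB, hPQ⟩
        exact ((hB₂ P Q hPQ).mp hPB).2
      · rintro rfl
        exact ⟨(hB₂ _ Q (hrY₂ Q hQ)).mpr ⟨hQ, rfl⟩, hrY₂ Q hQ⟩
    · rw [if_neg hQ]
      refine mapDomain_ptsDiv_eq_zero _ _ _ fun P hPB hPQ => ?_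
      exact absurd ((hB₂ P Q hPQ).mp hPB).1 hQ
  -- the divisor `D₀ = (1/n) div f`
  obtain ⟨D₀, hD₀def⟩ : ∃ D₀ : Divisor K F,
      D₀ = (dv hP f).mapRange (fun m : ℤ => m / (n : ℤ)) (by simp) := ⟨_, rfl⟩
  have hD₀a : ∀ P, (n : ℤ) * D₀ P = P.ord f := by
    intro P
    rw [hD₀def, Finsupp.mapRange_apply, dv_apply]
    exact Int.mul_ediv_cancel' (hdiv P)
  have hnD₀ : (n : ℤ) • D₀ = dv hP f := by
    ext P
    rw [Finsupp.smul_apply, smul_eq_mul, hD₀a, dv_apply]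
  have hdegD₀ : Divisor.degree D₀ = 0 := by
    have h1 : Divisor.degree ((n : ℤ) • D₀) = 0 := by rw [hnD₀, degree_dv]
    rw [map_zsmul, smul_eq_mul] at h1
    exact (mul_eq_zero.mp h1).resolve_left hnZ
  have hD₀node : ∀ P, S.IsNodeP P → D₀ P = 0 := by
    intro P hPn
    have := hD₀a P
    rw [hnode P hPn] at this
    exact (mul_eq_zero.mp this).resolve_left hnZ
  have hrD₀₁ : ∀ Q, Finsupp.mapDomain S.c₁.r D₀ (some Q) = 0 := by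
    intro Q
    by_cases hQ : Q ∈ S.c₁.good
    · have h1 : (n : ℤ) • Finsupp.mapDomain S.c₁.r D₀ (some Q) = 0 := by
        rw [← Finsupp.smul_apply, ← Finsupp.mapDomain_smul, hnD₀, mapDomain_dv S.c₁ hP hfGU₁ hQ,
          hrd₁, Place.ord_one]
      exact (smul_eq_zero.mp h1).resolve_left hnZ
    · apply mapDomain_eq_zero_of_fibre
      intro P hPQ
      exact hD₀node P ((S.good₁_or_node hPQ).resolve_left hQ)
  have hrD₀₂ : ∀ Q, Finsupp.mapDomain S.c₂.r D₀ (some Q) = 0 := by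
    intro Q
    by_cases hQ : Q ∈ S.c₂.good
    · have h1 : (n : ℤ) • Finsupp.mapDomain S.c₂.r D₀ (some Q) = 0 := by
        rw [← Finsupp.smul_apply, ← Finsupp.mapDomain_smul, hnD₀, mapDomain_dv S.c₂ hP hfGU₂ hQ,
          hrd₂, Place.ord_one]
      exact (smul_eq_zero.mp h1).resolve_left hnZ
    · apply mapDomain_eq_zero_of_fibre
      intro P hPQ
      exact hD₀node P ((S.good₂_or_node hPQ).resolve_left hQ)
  -- `D₀ + E'` is in good position, with push-forwards `A₁`, `A₂`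
  have hGP : S.GoodPos (D₀ + E') := by
    intro P hne hPn
    apply hne
    rw [Finsupp.add_apply, hD₀node P hPn, hE'a, if_neg (hBnode P hPn), add_zero]
  have hpush₁ : S.push₁ (D₀ + E') = ptsDiv A₁ := by
    ext Q
    rw [S.push₁_apply, Finsupp.mapDomain_add, Finsupp.add_apply, hrD₀₁, hrE'₁, zero_add]
  have hpush₂ : S.push₂ (D₀ + E') = ptsDiv A₂ := by
    ext Q
    rw [S.push₂_apply, Finsupp.mapDomain_add, Finsupp.add_apply, hrD₀₂, hrE'₂, zero_add]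
  -- the function `u`
  have hex : ∃ u₀ : F, u₀ ∈ L (D₀ + E') ∧ u₀ ≠ 0 := by
    have h1 := (hR (D₀ + E')).1
    rw [map_add, hdegD₀, hdegE'] at h1
    have h2 : L (D₀ + E') ≠ ⊥ := by
      intro hbot
      rw [hbot, finrank_bot] at h1
      push_cast at h1
      omega
    exact (Submodule.ne_bot_iff _).mp h2
  obtain ⟨u₀, hu₀, hu₀0⟩ := hex
  obtain ⟨a₀, ha₀, hu₁V, hu₂V, hGU⟩ := S.exists_scale₂ hu₀0 (one_ne_zero : (1 : F) ≠ 0)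
  obtain ⟨u, hudef⟩ : ∃ u : F, u = algebraMap K F a₀ * u₀ := ⟨_, rfl⟩
  rw [← hudef] at hu₁V hu₂V hGU
  rw [one_mul] at hu₂V hGU
  have huL : u ∈ L (D₀ + E') := by
    rw [hudef, ← Algebra.smul_def]
    exact (L (D₀ + E')).smul_mem a₀ hu₀
  have hu0 : u ≠ 0 := by
    rw [hudef]
    exact mul_ne_zero ((map_ne_zero_iff _ (algebraMap K F).injective).mpr ha₀) hu₀0
  -- the reductions of `u` are a constant pair
  have hRs : ((S.c₁.rd u, S.c₂.rd u) : F₁ × F₂) ∈ S.Rsub 1 (D₀ + E') :=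
    ⟨u, huL, hu₁V, by rw [one_mul]; exact hu₂V, rfl, by rw [one_mul]⟩
  have hLam := BAD.H17.stmt_Contain0 K F k F₁ F₂ S H H₁ H₂ (D₀ + E') hGP hRs
  rw [S.mem_Lam, hpush₁, hpush₂] at hLam
  obtain ⟨hL₁, hL₂, hglue⟩ := hLam
  obtain ⟨cu, hcu₁, hcu₂⟩ := hNSA _ hL₁ _ hL₂ (by
    intro s hs
    obtain ⟨a, ha1, ha2⟩ := hglue s hs
    refine ⟨a, ha1, ?_⟩
    simpa using ha2)
  simp only at hcu₁ hcu₂
  have hcu0 : cu ≠ 0 := by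
    rintro rfl
    rw [map_zero] at hcu₁ hcu₂
    rcases hGU with h | h
    · exact h.2 hcu₁
    · exact h.2 hcu₂
  have huGU₁ : S.c₁.IsGU u := ⟨hu₁V, by
    rw [hcu₁]; exact (map_ne_zero_iff _ (algebraMap k F₁).injective).mpr hcu0⟩
  have huGU₂ : S.c₂.IsGU u := ⟨hu₂V, by
    rw [hcu₂]; exact (map_ne_zero_iff _ (algebraMap k F₂).injective).mpr hcu0⟩
  -- the divisor `E`
  obtain ⟨E, hEdef⟩ : ∃ E : Divisor K F, E = dv hP u + D₀ + E' := ⟨_, rfl⟩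
  have hEa : ∀ P, E P = P.ord u + D₀ P + E' P := fun P => by
    rw [hEdef, Finsupp.add_apply, Finsupp.add_apply, dv_apply]
  have hEnn : ∀ P, 0 ≤ E P := by
    intro P
    have := ord_ge_of_mem_L huL hu0 P
    rw [Finsupp.add_apply] at this
    rw [hEa]
    omega
  have hrE₁ : ∀ Q ∈ S.c₁.good, Finsupp.mapDomain S.c₁.r E (some Q) = ptsDiv A₁ Q := by
    intro Q hQ
    rw [hEdef, Finsupp.mapDomain_add, Finsupp.mapDomain_add, Finsupp.add_apply,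
      Finsupp.add_apply, hrD₀₁, hrE'₁, mapDomain_dv S.c₁ hP huGU₁ hQ, hcu₁, ord_algebraMap]
    ring
  have hrE₂ : ∀ Q ∈ S.c₂.good, Finsupp.mapDomain S.c₂.r E (some Q) = ptsDiv A₂ Q := by
    intro Q hQ
    rw [hEdef, Finsupp.mapDomain_add, Finsupp.mapDomain_add, Finsupp.add_apply,
      Finsupp.add_apply, hrD₀₂, hrE'₂, mapDomain_dv S.c₂ hP huGU₂ hQ, hcu₂, ord_algebraMap]
    ring
  have hEnode : ∀ P, S.IsNodeP P → E P = 0 := by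
    intro P hPn
    obtain ⟨s, hs, hPs⟩ := hPn
    have hEu : ∀ P', S.c₁.r P' = some s.1 → E P' = P'.ord u := by
      intro P' hP's
      rw [hEa, hD₀node P' ⟨s, hs, hP's⟩, hE'a, if_neg (hBnode P' ⟨s, hs, hP's⟩)]
      ring
    rw [hEu P hPs]
    refine S.ord_eq_zero_of_node hP hs huGU₁ huGU₂ ⟨1, by rw [map_one, one_mul]⟩ ?_ ?_ ?_ hPs
    · intro P' hP's
      rw [← hEu P' hP's]
      exact hEnn P'
    · rw [hcu₁, ord_algebraMap]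
    · rw [hcu₂, ord_algebraMap]
  -- the points `X`
  have hX₁ex : ∀ Q, ∃ X, Q ∈ A₁ → S.c₁.r X = some Q ∧ E X = 1 ∧
      ∀ P, S.c₁.r P = some Q → P ≠ X → E P = 0 := by
    intro Q
    by_cases hQ : Q ∈ A₁
    · obtain ⟨X, h1, h2, h3⟩ := fibre_one S.c₁.r hEnn (b := some Q) (by
        rw [hrE₁ Q (hA₁g Q hQ), ptsDiv_apply, if_pos hQ])
      exact ⟨X, fun _ => ⟨h1, h2, h3⟩⟩
    · exact ⟨Pinf, fun h => absurd h hQ⟩
  choose X₁ hX₁ using hX₁ex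
  have hX₂ex : ∀ Q, ∃ X, Q ∈ A₂ → S.c₂.r X = some Q ∧ E X = 1 ∧
      ∀ P, S.c₂.r P = some Q → P ≠ X → E P = 0 := by
    intro Q
    by_cases hQ : Q ∈ A₂
    · obtain ⟨X, h1, h2, h3⟩ := fibre_one S.c₂.r hEnn (b := some Q) (by
        rw [hrE₂ Q (hA₂g Q hQ), ptsDiv_apply, if_pos hQ])
      exact ⟨X, fun _ => ⟨h1, h2, h3⟩⟩
    · exact ⟨Pinf, fun h => absurd h hQ⟩
  choose X₂ hX₂ using hX₂ex
  -- outside the discs `E` and `E'` vanish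
  have hout : ∀ P, (∀ Q ∈ A₁, S.c₁.r P ≠ some Q) → (∀ Q ∈ A₂, S.c₂.r P ≠ some Q) →
      E P = 0 ∧ E' P = 0 := by
    intro P h₁ h₂
    have hPB : P ∉ B := by
      intro hPB
      rcases (hBmem P).mp hPB with ⟨Q', hQ', rfl⟩ | ⟨Q', hQ', rfl⟩
      · exact h₁ Q' hQ' (hrY₁ Q' hQ')
      · exact h₂ Q' hQ' (hrY₂ Q' hQ')
    refine ⟨?_, by rw [hE'a, if_neg hPB]⟩
    rcases S.r_cases P with ⟨Q, hQ, hPQ, -⟩ | ⟨Q, hQ, hPQ, -⟩ | ⟨s, hs, hPs, -⟩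
    · have hQA : Q ∉ A₁ := fun hQA => h₁ Q hQA hPQ
      exact fibre_zero S.c₁.r hEnn (b := some Q) (by
        rw [hrE₁ Q hQ, ptsDiv_apply, if_neg hQA]) hPQ
    · have hQA : Q ∉ A₂ := fun hQA => h₂ Q hQA hPQ
      exact fibre_zero S.c₂.r hEnn (b := some Q) (by
        rw [hrE₂ Q hQ, ptsDiv_apply, if_neg hQA]) hPQ
    · exact hEnode P ⟨s, hs, hPs⟩
  -- the values `a`
  have ha₁ex : ∀ Q, ∃ a : K, Q ∈ A₁ → algebraMap K F a ∈ S.c₁.V ∧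
      S.c₁.rd (algebraMap K F a) = 0 ∧ VanAt (X₁ Q) (s₁ Q - algebraMap K F a) := by
    intro Q
    by_cases hQ : Q ∈ A₁
    · obtain ⟨a, h1, h2, h3⟩ := (hsC₁ Q hQ).exists_value hP H.deg_one (hX₁ Q hQ).1
      exact ⟨a, fun _ => ⟨h1, h2, h3⟩⟩
    · exact ⟨0, fun h => absurd h hQ⟩
  choose a₁ ha₁ using ha₁ex
  have ha₂ex : ∀ Q, ∃ a : K, Q ∈ A₂ → algebraMap K F a ∈ S.c₂.V ∧
      S.c₂.rd (algebraMap K F a) = 0 ∧ VanAt (X₂ Q) (s₂ Q - algebraMap K F a) := by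
    intro Q
    by_cases hQ : Q ∈ A₂
    · obtain ⟨a, h1, h2, h3⟩ := (hsC₂ Q hQ).exists_value hP H.deg_one (hX₂ Q hQ).1
      exact ⟨a, fun _ => ⟨h1, h2, h3⟩⟩
    · exact ⟨0, fun h => absurd h hQ⟩
  choose a₂ ha₂ using ha₂ex
  -- the function `f₀ = f u ^ n`
  obtain ⟨f₀, hf₀def⟩ : ∃ f₀ : F, f₀ = f * u ^ n := ⟨_, rfl⟩
  have hf₀GU₁ : S.c₁.IsGU f₀ := by rw [hf₀def]; exact hfGU₁.mul (huGU₁.pow n)
  have hf₀GU₂ : S.c₂.IsGU f₀ := by rw [hf₀def]; exact hfGU₂.mul (huGU₂.pow n)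
  have hf₀rd₁ : S.c₁.rd f₀ = algebraMap k F₁ (cu ^ n) := by
    rw [hf₀def, S.c₁.rd_mul hf₁ (huGU₁.pow n).1, hrd₁, one_mul, S.c₁.rd_pow huGU₁.1, hcu₁,
      map_pow]
  have hf₀rd₂ : S.c₂.rd f₀ = algebraMap k F₂ (cu ^ n) := by
    rw [hf₀def, S.c₂.rd_mul hf₂ (huGU₂.pow n).1, hrd₂, one_mul, S.c₂.rd_pow huGU₂.1, hcu₂,
      map_pow]
  have hf₀ord : ∀ P, P.ord f₀ = n * (E P - E' P) := by
    intro P
    rw [hf₀def, P.ord_mul hfGU₁.ne_zero (pow_ne_zero _ hu0), ord_pow, ← hD₀a, hEa]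
    ring
  have hPinfout : (∀ Q ∈ A₁, S.c₁.r Pinf ≠ some Q) ∧ ∀ Q ∈ A₂, S.c₂.r Pinf ≠ some Q := by
    constructor
    · intro Q hQ h
      rw [hPinf] at h
      exact hQinfA (Option.some.inj h ▸ hQ)
    · intro Q hQ h
      rw [S.r₂_none_of_good₁ hQinfg hPinf] at h
      exact absurd h (by simp)
  have hQinfout : ∀ P, S.c₁.r P = some Qinf →
      (∀ Q ∈ A₁, S.c₁.r P ≠ some Q) ∧ ∀ Q ∈ A₂, S.c₂.r P ≠ some Q := by
    intro P hPQ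
    constructor
    · intro Q hQ h
      rw [hPQ] at h
      exact hQinfA (Option.some.inj h ▸ hQ)
    · intro Q hQ h
      rw [S.r₂_none_of_good₁ hQinfg hPQ] at h
      exact absurd h (by simp)
  have hf₀ord0 : ∀ P, (∀ Q ∈ A₁, S.c₁.r P ≠ some Q) → (∀ Q ∈ A₂, S.c₂.r P ≠ some Q) →
      P.ord f₀ = 0 := by
    intro P h₁ h₂
    obtain ⟨e1, e2⟩ := hout P h₁ h₂
    rw [hf₀ord, e1, e2]
    simp
  -- the value of `f₀` at infinity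
  obtain ⟨e₀, he₀⟩ := exists_value Pinf (H.deg_one Pinf)
    (regAt_of_ord_nonneg (le_of_eq (hf₀ord0 Pinf hPinfout.1 hPinfout.2).symm))
  obtain ⟨he₀V, he₀rd⟩ := S.c₁.const_of_vanAt_of_rd_const hP hf₀GU₁.1 hQinfg
    (fun P hPQ => le_of_eq (hf₀ord0 P (hQinfout P hPQ).1 (hQinfout P hPQ).2).symm)
    hPinf he₀ hf₀rd₁
  have he₀GU₁ : S.c₁.IsGU (algebraMap K F e₀) := ⟨he₀V, by rw [he₀rd]; exact hf₀GU₁.2⟩
  have he₀GU₂ : S.c₂.IsGU (algebraMap K F e₀) := S.isGU₂_const he₀GU₁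
  have he₀rd₂ : S.c₂.rd (algebraMap K F e₀) = S.c₂.rd f₀ := by
    rw [hf₀rd₂]
    exact (S.rd₂_const he₀V (by rw [he₀rd, hf₀rd₁])).2
  have he₀0 : e₀ ≠ 0 := by
    rintro rfl
    rw [map_zero] at he₀GU₁
    exact he₀GU₁.ne_zero rfl
  obtain ⟨f₁, hf₁def⟩ : ∃ f₁ : F, f₁ = f₀ / algebraMap K F e₀ := ⟨_, rfl⟩
  have hf₁GU₁ : S.c₁.IsGU f₁ := by rw [hf₁def]; exact hf₀GU₁.div he₀GU₁
  have hf₁GU₂ : S.c₂.IsGU f₁ := by rw [hf₁def]; exact hf₀GU₂.div he₀GU₂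
  have hf₁rd₁ : S.c₁.rd f₁ = 1 := by
    rw [hf₁def, hf₀GU₁.rd_div he₀GU₁, he₀rd, div_self hf₀GU₁.2]
  have hf₁rd₂ : S.c₂.rd f₁ = 1 := by
    rw [hf₁def, hf₀GU₂.rd_div he₀GU₂, he₀rd₂, div_self hf₀GU₂.2]
  have hf₁ord : ∀ P, P.ord f₁ = n * (E P - E' P) := by
    intro P
    rw [hf₁def, ord_div P hf₀GU₁.ne_zero he₀GU₁.ne_zero, ord_algebraMap, sub_zero, hf₀ord]
  have hf₁inf : VanAt Pinf (f₁ - 1) := by
    have : f₁ - 1 = (f₀ - algebraMap K F e₀) * algebraMap K F e₀⁻¹ := by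
      rw [hf₁def, map_inv₀]
      field_simp [he₀GU₁.ne_zero]
    rw [this]
    exact he₀.mul_regAt (regAt_algebraMap Pinf _)
  -- the `n`-th root of the value at infinity
  obtain ⟨t₀, ht₀⟩ := IsAlgClosed.exists_pow_nat_eq e₀ (Nat.pos_of_ne_zero hn0)
  have ht₀GU₁ : S.c₁.IsGU (algebraMap K F t₀) := by
    apply isGU_of_pow S.c₁ hn0
    rw [← map_pow, ht₀]
    exact he₀GU₁
  have ht₀GU₂ : S.c₂.IsGU (algebraMap K F t₀) := S.isGU₂_const ht₀GU₁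
  obtain ⟨τ, hτ₁⟩ := S.c₁.rd_const_eq t₀ ht₀GU₁.1
  have hτ₂ : S.c₂.rd (algebraMap K F t₀) = algebraMap k F₂ τ := (S.rd₂_const ht₀GU₁.1 hτ₁).2
  have hτ0 : τ ≠ 0 := by
    rintro rfl
    rw [map_zero] at hτ₁
    exact ht₀GU₁.2 hτ₁
  have hτn : τ ^ n = cu ^ n := by
    apply (algebraMap k F₁).injective
    rw [← hf₀rd₁, ← he₀rd, ← ht₀, map_pow, map_pow, S.c₁.rd_pow ht₀GU₁.1, hτ₁]
  have hfh : f * (u / algebraMap K F t₀) ^ n = f₁ := by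
    rw [hf₁def, hf₀def, div_pow, ← map_pow, ht₀, mul_div_assoc]
  refine ⟨u / algebraMap K F t₀, cu / τ, a₁, a₂, X₁, X₂, huGU₁.div ht₀GU₁, huGU₂.div ht₀GU₂, ?_,
    ?_, ?_, ?_⟩
  · rw [huGU₁.rd_div ht₀GU₁, hcu₁, hτ₁, map_div₀]
  · rw [huGU₂.rd_div ht₀GU₂, hcu₂, hτ₂, map_div₀]
  · rw [div_pow, hτn, div_self (pow_ne_zero _ hcu0)]
  rw [hfh]
  have hon₁ : ∀ Q ∈ A₁, ∀ P, S.c₁.r P = some Q →
      P.ord (s₁ Q - algebraMap K F (a₁ Q)) = if P = X₁ Q then 1 else 0 := fun Q hQ P hPQ =>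
    (hsC₁ Q hQ).ord_sub_eq hP (ha₁ Q hQ).1 (ha₁ Q hQ).2.1 (hX₁ Q hQ).1 (ha₁ Q hQ).2.2 hPQ
  have hon₂ : ∀ Q ∈ A₂, ∀ P, S.c₂.r P = some Q →
      P.ord (s₂ Q - algebraMap K F (a₂ Q)) = if P = X₂ Q then 1 else 0 := fun Q hQ P hPQ =>
    (hsC₂ Q hQ).ord_sub_eq hP (ha₂ Q hQ).1 (ha₂ Q hQ).2.1 (hX₂ Q hQ).1 (ha₂ Q hQ).2.2 hPQ
  refine ⟨hf₁GU₁.1, hf₁GU₂.1, hf₁rd₁, hf₁rd₂, hf₁inf,
    fun Q hQ => ⟨(ha₁ Q hQ).1, (ha₁ Q hQ).2.1⟩, fun Q hQ => ⟨(ha₂ Q hQ).1, (ha₂ Q hQ).2.1⟩,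
    fun Q hQ => ⟨(hX₁ Q hQ).1, (ha₁ Q hQ).2.2⟩, fun Q hQ => ⟨(hX₂ Q hQ).1, (ha₂ Q hQ).2.2⟩,
    ?_, ?_, ?_, hon₁, hon₂⟩
  · intro P h₁ h₂
    obtain ⟨e1, e2⟩ := hout P h₁ h₂
    rw [hf₁ord, e1, e2]
    simp
  · intro Q hQ P hPQ
    have h1 := hon₁ Q hQ P hPQ
    have h2 : E P = if P = X₁ Q then 1 else 0 := by
      split_ifs with hPX
      · rw [hPX]; exact (hX₁ Q hQ).2.1
      · exact (hX₁ Q hQ).2.2 P hPQ hPX
    have h3 : P.ord (s₁ Q) = if P = Y₁ Q then 1 else 0 := by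
      split_ifs with hPY
      · rw [hPY]; exact (hY₁ Q hQ).2.1
      · exact (hY₁ Q hQ).2.2 P hPQ hPY
    have h4 : E' P = if P = Y₁ Q then 1 else 0 := by
      rw [hE'a]
      by_cases hPY : P = Y₁ Q
      · rw [if_pos hPY, if_pos ((hB₁ P Q hPQ).mpr ⟨hQ, hPY⟩)]
      · rw [if_neg hPY, if_neg fun hPB => hPY ((hB₁ P Q hPQ).mp hPB).2]
    rw [hf₁ord, h1, h2, h3, h4]
  · intro Q hQ P hPQ
    have h1 := hon₂ Q hQ P hPQ
    have h2 : E P = if P = X₂ Q then 1 else 0 := by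
      split_ifs with hPX
      · rw [hPX]; exact (hX₂ Q hQ).2.1
      · exact (hX₂ Q hQ).2.2 P hPQ hPX
    have h3 : P.ord (s₂ Q) = if P = Y₂ Q then 1 else 0 := by
      split_ifs with hPY
      · rw [hPY]; exact (hY₂ Q hQ).2.1
      · exact (hY₂ Q hQ).2.2 P hPQ hPY
    have h4 : E' P = if P = Y₂ Q then 1 else 0 := by
      rw [hE'a]
      by_cases hPY : P = Y₂ Q
      · rw [if_pos hPY, if_pos ((hB₂ P Q hPQ).mpr ⟨hQ, hPY⟩)]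
      · rw [if_neg hPY, if_neg fun hPB => hPY ((hB₂ P Q hPQ).mp hPB).2]
    rw [hf₁ord, h1, h2, h3, h4]

/-- **CANON, existence, `n = p = char k`**: the multiplier `h` is `≡ 1` for both valuations. -/
theorem canon_p [IsAlgClosed K] (S : SSD K F k F₁ F₂) (H : FFHyp K F) (H₁ : FFHyp k F₁)
    (H₂ : FFHyp k F₂) {g : ℕ} {c : ℤ} (hR : IsGenus K F g c)
    {A₁ : Finset (Place k F₁)} {A₂ : Finset (Place k F₂)}
    (hdis₁ : Disjoint A₁ S.br₁) (hdis₂ : Disjoint A₂ S.br₂) (hNSA : S.IsNS A₁ A₂)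
    (hcard : g ≤ A₁.card + A₂.card)
    {s₁ : Place k F₁ → F} {s₂ : Place k F₂ → F}
    (hs₁ : ∀ Q ∈ A₁, S.IsCoordA₁ A₁ A₂ (s₁ Q) Q) (hs₂ : ∀ Q ∈ A₂, S.IsCoordA₂ A₁ A₂ (s₂ Q) Q)
    (p : ℕ) [hp : Fact p.Prime] [CharP k p] {f : F} (hf₁ : f ∈ S.c₁.V) (hf₂ : f ∈ S.c₂.V)
    (hrd₁ : S.c₁.rd f = 1) (hrd₂ : S.c₂.rd f = 1) (hdiv : ∀ P : Place K F, (p : ℤ) ∣ P.ord f)
    (hnode : ∀ P : Place K F, S.IsNodeP P → P.ord f = 0)
    {Pinf : Place K F} {Qinf : Place k F₁} (hQinfg : Qinf ∈ S.c₁.good) (hQinfA : Qinf ∉ A₁)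
    (hPinf : S.c₁.r Pinf = some Qinf) :
    ∃ (h : F) (a₁ : Place k F₁ → K) (a₂ : Place k F₂ → K)
      (X₁ : Place k F₁ → Place K F) (X₂ : Place k F₂ → Place K F),
      h ∈ S.c₁.V ∧ h ∈ S.c₂.V ∧ S.c₁.rd h = 1 ∧ S.c₂.rd h = 1 ∧
      IsCanon S A₁ A₂ s₁ s₂ p Pinf (f * h ^ p) a₁ a₂ X₁ X₂ := by
  obtain ⟨h, ζ, a₁, a₂, X₁, X₂, hh₁, hh₂, hr₁, hr₂, hζ, hcan⟩ :=
    canon S H H₁ H₂ hR hdis₁ hdis₂ hNSA hcard hs₁ hs₂ hp.out.ne_zero hf₁ hf₂ hrd₁ hrd₂ hdiv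
      hnode hQinfg hQinfA hPinf
  have hζ1 : ζ = 1 := by
    apply frobenius_inj k p
    rw [frobenius_def, frobenius_def, hζ, one_pow]
  rw [hζ1, map_one] at hr₁ hr₂
  exact ⟨h, a₁, a₂, X₁, X₂, hh₁.1, hh₂.1, hr₁, hr₂, hcan⟩

end Main

end Fermat.Agent.BADP.H51
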