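import Fermat.Agent.BAD.H28_ABS
import Fermat.Agent.BAD.H90_Moving

/-!
# S44, package MOVE-p (helper51), part 1: linearisation, twisted surjectivity and the moving
lemma for EVERY exponent `n ≠ 0`

The leaves `Stmt_Linearise`, `Stmt_TwSurj`, `Stmt_Moving` of package ABS of BAD_q are stated
for an exponent `n` invertible in the residue field `k`.  Their proofs use this hypothesis only
through the algebraic lemma `Stmt_Ratio`, which holds for every `n ≠ 0` (evaluate at the root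
`t = -A / A₀`).  Hence the three statements hold for every `n ≠ 0`, in particular for
`n = p = char k`.

* `ratio` : `(A + t A₀)^n = lam (B + t B₀)^n` for all `t`, `A₀ ≠ 0`, `n ≠ 0` ⟹ `A B₀ = B A₀`.
* `stmt_LineariseAny : Stmt_LineariseAny`
* `stmt_TwSurjAny : Stmt_TwSurjAny`
* `stmt_MovingAny : Stmt_MovingAny`
-/

set_option autoImplicit false
set_option linter.style.haveILetI false
set_option maxHeartbeats 1000000

noncomputable section

open AlgebraicCurve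

attribute [local instance] Classical.propDecidable

namespace Fermat.Agent.BADP.H51

open Fermat.Agent.RED.H17 Fermat.Agent.RED Fermat.Agent.BAD

local notation "L" => riemannRochSpace

/-- **ALG (linearisation), every exponent.**  If `(A + t A₀)^n = lam (B + t B₀)^n` for all `t`,
with `A₀ ≠ 0` and `n ≠ 0`, then `A B₀ = B A₀`. -/
theorem ratio {k : Type*} [Field k] {n : ℕ} (hn : n ≠ 0) (A A₀ B B₀ lam : k) (hA₀ : A₀ ≠ 0)
    (h : ∀ t : k, (A + t * A₀) ^ n = lam * (B + t * B₀) ^ n) : A * B₀ = B * A₀ := by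
  have hlam : lam ≠ 0 := by
    rintro rfl
    have h1 := h ((1 - A) / A₀)
    rw [zero_mul, div_mul_cancel₀ _ hA₀, add_sub_cancel, one_pow] at h1
    exact one_ne_zero h1
  have h1 := h (-A / A₀)
  rw [div_mul_cancel₀ _ hA₀, add_neg_cancel, zero_pow hn] at h1
  have h2 : B + -A / A₀ * B₀ = 0 := by
    rcases mul_eq_zero.mp h1.symm with h3 | h3
    · exact absurd h3 hlam
    · exact pow_eq_zero_iff hn |>.mp h3
  field_simp at h2
  linear_combination -h2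

/-- **Linearisation, every exponent**: `Stmt_Linearise` with `n ≠ 0` instead of `(n : k) ≠ 0`
(and without the hypothesis that `k` is infinite). -/
def Stmt_LineariseAny : Prop :=
  ∀ (k F₁ F₂ : Type) [Field k] [Field F₁] [Algebra k F₁] [Field F₂] [Algebra k F₂],
    FFHyp k F₁ → FFHyp k F₂ →
    ∀ (nodes : Finset (Place k F₁ × Place k F₂)) (n : ℕ), n ≠ 0 →
    ∀ (γ : F₂), γ ≠ 0 → (∀ s ∈ nodes, s.2.ord γ = 0) →
    ∀ I : Submodule k (F₁ × F₂),
      (∀ ψ ∈ I, ∀ s ∈ nodes, ∃ a : k, VanAt s.1 (ψ.1 ^ n - algebraMap k F₁ a) ∧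
        VanAt s.2 (γ * ψ.2 ^ n - algebraMap k F₂ a)) →
      ∃ lam : Place k F₁ × Place k F₂ → k, (∀ s ∈ nodes, lam s ≠ 0) ∧
        ∀ ψ ∈ I, ∀ s ∈ nodes, ∃ a : k, VanAt s.1 (ψ.1 - algebraMap k F₁ a) ∧
          VanAt s.2 (algebraMap k F₂ (lam s) * ψ.2 - algebraMap k F₂ a)

/-- **Surjectivity of the twisted reduction, every exponent**: `Stmt_TwSurj` with `n ≠ 0`
instead of `(n : k) ≠ 0`. -/
def Stmt_TwSurjAny : Prop :=
  ∀ (K F k F₁ F₂ : Type) [Field K] [Field F] [Algebra K F] [Field k] [Field F₁]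
    [Algebra k F₁] [Field F₂] [Algebra k F₂] [Infinite k]
    (S : SSD K F k F₁ F₂) (H : FFHyp K F) (_ : FFHyp k F₁) (H₂ : FFHyp k F₂)
    (g g₁ g₂ : ℕ) (c c₁ c₂ : ℤ), IsGenus K F g c → IsGenus k F₁ g₁ c₁ → IsGenus k F₂ g₂ c₂ →
    g + 1 ≤ g₁ + g₂ + S.nodes.card →
    ∀ (n : ℕ), n ≠ 0 → ∀ (x : S.Twist n) (G : Divisor K F), S.GoodPos G →
      c₁ + S.nodes.card ≤ Divisor.degree (S.push₁ G) →
      c₂ + S.nodes.card ≤ Divisor.degree (S.push₂ G) →
      ∃ lam : Place k F₁ × Place k F₂ → k, (∀ s ∈ S.nodes, lam s ≠ 0) ∧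
        S.Rsub x.ϑ (x.Dx H.principal + G) =
          S.Lam lam (S.push₁ G) (S.push₂ G + x.Δ H₂.principal) ∧
        (Module.finrank k (S.Lam lam (S.push₁ G) (S.push₂ G + x.Δ H₂.principal)) : ℤ) =
          Divisor.degree G + 2 - g₁ - g₂ - S.nodes.card

/-- **Moving lemma, every exponent**: `Stmt_Moving` with `n ≠ 0` instead of `(n : k) ≠ 0`. -/
def Stmt_MovingAny : Prop :=
  ∀ (K F k F₁ F₂ : Type) [Field K] [Field F] [Algebra K F] [Field k] [Field F₁]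
    [Algebra k F₁] [Field F₂] [Algebra k F₂] [Infinite k]
    (S : SSD K F k F₁ F₂), FFHyp K F → FFHyp k F₁ → FFHyp k F₂ →
    ∀ (g g₁ g₂ : ℕ) (c c₁ c₂ : ℤ), IsGenus K F g c → IsGenus k F₁ g₁ c₁ → IsGenus k F₂ g₂ c₂ →
    g + 1 ≤ g₁ + g₂ + S.nodes.card →
    ∀ (n : ℕ), n ≠ 0 → ∀ (x : S.Twist n),
      ∃ h : F, S.c₁.IsGU h ∧ S.c₂.IsGU (x.ϑ * h) ∧
        ∀ P : Place K F, S.IsNodeP P → P.ord (x.f * h ^ n) = 0

section Lin

open Fermat.Agent.BAD.H41

variable {k : Type} [Field k]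

/-- The linearisation at one node, every exponent. -/
theorem linearise_node {F₁ F₂ : Type} [Field F₁] [Algebra k F₁] [Field F₂] [Algebra k F₂]
    (H₁ : FFHyp k F₁) (H₂ : FFHyp k F₂) (n : ℕ) (hn0 : n ≠ 0)
    (γ : F₂) (hγ0 : γ ≠ 0) (s₁ : Place k F₁) (s₂ : Place k F₂) (hγ : s₂.ord γ = 0)
    (I : Submodule k (F₁ × F₂))
    (hI : ∀ ψ ∈ I, ∃ a : k, VanAt s₁ (ψ.1 ^ n - algebraMap k F₁ a) ∧
      VanAt s₂ (γ * ψ.2 ^ n - algebraMap k F₂ a)) :
    ∃ lam : k, lam ≠ 0 ∧ ∀ ψ ∈ I, ∃ a : k, VanAt s₁ (ψ.1 - algebraMap k F₁ a) ∧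
      VanAt s₂ (algebraMap k F₂ lam * ψ.2 - algebraMap k F₂ a) := by
  have hd₁ := H₁.deg_one s₁
  have hd₂ := H₂.deg_one s₂
  -- `γ` is a unit at `s₂`
  have hγreg : RegAt s₂ γ := regAt_of_ord_nonneg (by rw [hγ])
  have hγinv : RegAt s₂ γ⁻¹ := by
    apply regAt_of_ord_nonneg
    rw [Place.ord_inv, hγ, neg_zero]
  have hc : valAt s₂ hd₂ γ ≠ 0 := by
    intro h0
    have h1 := (valAt_eq_iff s₂ hd₂ hγreg 0).mp h0
    rw [map_zero, sub_zero] at h1
    have := h1.ord_pos hγ0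
    omega
  -- regularity
  have hR1 : ∀ ψ ∈ I, RegAt s₁ ψ.1 := by
    intro ψ hψ
    obtain ⟨a, ha, -⟩ := hI ψ hψ
    have h1 : RegAt s₁ (ψ.1 ^ n) := by
      have := ha.regAt.add (regAt_algebraMap s₁ a)
      rwa [sub_add_cancel] at this
    exact H41.regAt_of_pow hn0 h1
  have hR2 : ∀ ψ ∈ I, RegAt s₂ ψ.2 := by
    intro ψ hψ
    obtain ⟨a, -, ha⟩ := hI ψ hψ
    have h1 : RegAt s₂ (γ * ψ.2 ^ n) := by
      have := ha.regAt.add (regAt_algebraMap s₂ a)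
      rwa [sub_add_cancel] at this
    have h2 : RegAt s₂ (ψ.2 ^ n) := by
      have := hγinv.mul h1
      rwa [← mul_assoc, inv_mul_cancel₀ hγ0, one_mul] at this
    exact H41.regAt_of_pow hn0 h2
  -- the power relation
  have hpow : ∀ ψ ∈ I, valAt s₁ hd₁ ψ.1 ^ n = valAt s₂ hd₂ γ * valAt s₂ hd₂ ψ.2 ^ n := by
    intro ψ hψ
    obtain ⟨a, ha1, ha2⟩ := hI ψ hψ
    have e1 := (valAt_eq_iff s₁ hd₁ ((hR1 ψ hψ).pow n) a).mpr ha1
    have e2 := (valAt_eq_iff s₂ hd₂ (hγreg.mul ((hR2 ψ hψ).pow n)) a).mpr ha2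
    rw [valAt_pow s₁ hd₁ (hR1 ψ hψ)] at e1
    rw [valAt_mul s₂ hd₂ hγreg ((hR2 ψ hψ).pow n), valAt_pow s₂ hd₂ (hR2 ψ hψ)] at e2
    rw [e1, e2]
  -- the conclusion from a linear relation
  have hfin : ∀ lam : k, (∀ ψ ∈ I, valAt s₁ hd₁ ψ.1 = lam * valAt s₂ hd₂ ψ.2) →
      ∀ ψ ∈ I, ∃ a : k, VanAt s₁ (ψ.1 - algebraMap k F₁ a) ∧
        VanAt s₂ (algebraMap k F₂ lam * ψ.2 - algebraMap k F₂ a) := by
    intro lam hlam ψ hψ
    refine ⟨valAt s₁ hd₁ ψ.1, vanAt_sub_valAt s₁ hd₁ (hR1 ψ hψ), ?_⟩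
    rw [← valAt_eq_iff s₂ hd₂ ((regAt_algebraMap s₂ lam).mul (hR2 ψ hψ)),
      valAt_mul s₂ hd₂ (regAt_algebraMap s₂ lam) (hR2 ψ hψ), valAt_algebraMap, hlam ψ hψ]
  by_cases hex : ∃ ψ0 ∈ I, valAt s₁ hd₁ ψ0.1 ≠ 0
  · obtain ⟨ψ0, hψ0, hA₀⟩ := hex
    have hB₀ : valAt s₂ hd₂ ψ0.2 ≠ 0 := by
      intro h0
      have := hpow ψ0 hψ0
      rw [h0, zero_pow hn0, mul_zero] at this
      exact hA₀ (pow_eq_zero_iff hn0 |>.mp this)
    refine ⟨valAt s₁ hd₁ ψ0.1 / valAt s₂ hd₂ ψ0.2, div_ne_zero hA₀ hB₀, ?_⟩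
    apply hfin
    intro ψ hψ
    have hrat := ratio hn0 (valAt s₁ hd₁ ψ.1) (valAt s₁ hd₁ ψ0.1)
      (valAt s₂ hd₂ ψ.2) (valAt s₂ hd₂ ψ0.2) (valAt s₂ hd₂ γ) hA₀ (by
        intro t
        have hmem : ψ + t • ψ0 ∈ I := I.add_mem hψ (I.smul_mem t hψ0)
        have := hpow _ hmem
        rw [Prod.fst_add, Prod.snd_add, Prod.smul_fst, Prod.smul_snd,
          valAt_add s₁ hd₁ (hR1 ψ hψ) (by
            rw [Algebra.smul_def]; exact (regAt_algebraMap s₁ t).mul (hR1 ψ0 hψ0)),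
          valAt_add s₂ hd₂ (hR2 ψ hψ) (by
            rw [Algebra.smul_def]; exact (regAt_algebraMap s₂ t).mul (hR2 ψ0 hψ0)),
          valAt_smul s₁ hd₁ t (hR1 ψ0 hψ0), valAt_smul s₂ hd₂ t (hR2 ψ0 hψ0)] at this
        exact this)
    field_simp
    linear_combination hrat
  · push Not at hex
    refine ⟨1, one_ne_zero, ?_⟩
    apply hfin
    intro ψ hψ
    have hA := hex ψ hψ
    have := hpow ψ hψ
    rw [hA, zero_pow hn0] at this
    have hB : valAt s₂ hd₂ ψ.2 = 0 := by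
      rcases mul_eq_zero.mp this.symm with h | h
      · exact absurd h hc
      · exact pow_eq_zero_iff hn0 |>.mp h
    rw [hA, hB, mul_zero]

end Lin

/-- **Linearisation, every exponent.** -/
theorem stmt_LineariseAny : Stmt_LineariseAny := by
  classical
  intro k F₁ F₂ _ _ _ _ _ H₁ H₂ nodes n hn γ hγ0 hγ I hI
  have key : ∀ s : Place k F₁ × Place k F₂, s ∈ nodes →
      ∃ lam : k, lam ≠ 0 ∧ ∀ ψ ∈ I, ∃ a : k, VanAt s.1 (ψ.1 - algebraMap k F₁ a) ∧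
        VanAt s.2 (algebraMap k F₂ lam * ψ.2 - algebraMap k F₂ a) := by
    intro s hs
    exact linearise_node H₁ H₂ n hn γ hγ0 s.1 s.2 (hγ s hs) I (fun ψ hψ => hI ψ hψ s hs)
  refine ⟨fun s => if h : s ∈ nodes then Classical.choose (key s h) else 1, ?_, ?_⟩
  · intro s hs
    simp only [dif_pos hs]
    exact (Classical.choose_spec (key s hs)).1
  · intro ψ hψ s hs
    simp only [dif_pos hs]
    exact (Classical.choose_spec (key s hs)).2 ψ hψ

/-- **Surjectivity of the twisted reduction, every exponent.** -/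
theorem stmt_TwSurjAny : Stmt_TwSurjAny := by
  intro K F k F₁ F₂ _ _ _ _ _ _ _ _ _ S H H₁ H₂ g g₁ g₂ c c₁ c₂ hg hg₁ hg₂ hnum n hn0 x G hG
    hd₁ hd₂
  -- linearisation of the gluing condition
  have hcont : ∀ ψ ∈ S.Rsub x.ϑ (x.Dx H.principal + G),
      ψ.1 ∈ L (S.push₁ G) ∧ ψ.2 ∈ L (S.push₂ G + x.Δ H₂.principal) ∧
      ∀ s ∈ S.nodes, ∃ a : k, VanAt s.1 (ψ.1 ^ n - algebraMap k F₁ a) ∧
        VanAt s.2 (x.γ * ψ.2 ^ n - algebraMap k F₂ a) :=
    fun ψ hψ => BAD.H17.contain H H₂ hn0 x G hG hψ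
  obtain ⟨lam, hlam, hlin⟩ := stmt_LineariseAny k F₁ F₂ H₁ H₂ S.nodes n hn0 x.γ
    (H41.γ_ne_zero x) (fun s hs => x.hγ s hs) (S.Rsub x.ϑ (x.Dx H.principal + G))
    (fun ψ hψ s hs => (hcont ψ hψ).2.2 s hs)
  refine ⟨lam, hlam, ?_⟩
  set D : Divisor K F := x.Dx H.principal + G with hD
  set G₁ : Divisor k F₁ := S.push₁ G with hG₁
  set G₂ : Divisor k F₂ := S.push₂ G + x.Δ H₂.principal with hG₂
  have hle : S.Rsub x.ϑ D ≤ S.Lam lam G₁ G₂ := by
    intro ψ hψ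
    exact ⟨(hcont ψ hψ).1, (hcont ψ hψ).2.1, fun s hs => hlin ψ hψ s hs⟩
  haveI hfinLam : Module.Finite k (S.Lam lam G₁ G₂) := H41.finite_Lam S H₁ H₂ lam G₁ G₂
  haveI hfinR : Module.Finite k (S.Rsub x.ϑ D) := Submodule.finiteDimensional_of_le hle
  -- the four inequalities
  have h1 : Divisor.degree D + 1 - g ≤ (Module.finrank K (L D) : ℤ) := (hg D).1
  have hdegD : Divisor.degree D = Divisor.degree G := by
    rw [hD, map_add, H41.degree_Dx hn0 x H.principal, zero_add]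
  have h2 : Module.finrank K (L D) ≤ Module.finrank k (S.Rsub x.ϑ D) :=
    BAD.H17.stmt_Pivot K F k F₁ F₂ S H H₁ H₂ x.ϑ x.hϑ D hfinR
  have h3 : Module.finrank k (S.Rsub x.ϑ D) ≤ Module.finrank k (S.Lam lam G₁ G₂) :=
    Submodule.finrank_mono hle
  have hG₁node : ∀ s ∈ S.nodes, G₁ s.1 = 0 := fun s hs => H41.push₁_node S G hG hs
  have hG₂node : ∀ s ∈ S.nodes, G₂ s.2 = 0 := by
    intro s hs
    rw [hG₂, Finsupp.add_apply, H41.push₂_node S G hG hs, H41.Δ_node x H₂.principal hs,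
      add_zero]
  have h4 := H60.stmt_LamCount K F k F₁ F₂ S H₁ H₂ lam hlam G₁ G₂ hG₁node hG₂node
  -- Riemann equality on the two components
  have hdG₂ : Divisor.degree G₂ = Divisor.degree (S.push₂ G) := by
    rw [hG₂, map_add, H41.degree_Δ hn0 x H.principal H₂.principal, add_zero]
  have e1 : (Module.finrank k (L (G₁ - ptsDiv S.br₁)) : ℤ) =
      Divisor.degree G₁ - S.nodes.card + 1 - g₁ := by
    have hdeg : Divisor.degree (G₁ - ptsDiv S.br₁) = Divisor.degree G₁ - S.nodes.card := by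
      rw [map_sub, degree_ptsDiv H₁.deg_one, H41.card_br₁]
    have := (hg₁ (G₁ - ptsDiv S.br₁)).2 (by rw [hdeg]; linarith)
    rw [this, hdeg]
  have e2 : (Module.finrank k (L (G₂ - ptsDiv S.br₂)) : ℤ) =
      Divisor.degree G₂ - S.nodes.card + 1 - g₂ := by
    have hdeg : Divisor.degree (G₂ - ptsDiv S.br₂) = Divisor.degree G₂ - S.nodes.card := by
      rw [map_sub, degree_ptsDiv H₂.deg_one, H41.card_br₂]
    have := (hg₂ (G₂ - ptsDiv S.br₂)).2 (by rw [hdeg, hdG₂]; linarith)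
    rw [this, hdeg]
  have hsum := H41.degree_push_add S H H₁ H₂ G hG
  have h2' : (Module.finrank K (L D) : ℤ) ≤ (Module.finrank k (S.Rsub x.ϑ D) : ℤ) := by
    exact_mod_cast h2
  have h3' : (Module.finrank k (S.Rsub x.ϑ D) : ℤ) ≤
      (Module.finrank k (S.Lam lam G₁ G₂) : ℤ) := by exact_mod_cast h3
  have h4' : (Module.finrank k (S.Lam lam G₁ G₂) : ℤ) ≤
      (Module.finrank k (L (G₁ - ptsDiv S.br₁)) : ℤ) +
        (Module.finrank k (L (G₂ - ptsDiv S.br₂)) : ℤ) + S.nodes.card := by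
    exact_mod_cast h4
  have hnum' : (g : ℤ) + 1 ≤ g₁ + g₂ + S.nodes.card := by exact_mod_cast hnum
  have hfr : (Module.finrank k (S.Lam lam G₁ G₂) : ℤ) =
      Divisor.degree G + 2 - g₁ - g₂ - S.nodes.card := by
    rw [e1, e2, hdG₂] at h4'
    have hG₁' : Divisor.degree G₁ = Divisor.degree (S.push₁ G) := rfl
    rw [hG₁'] at h4'
    linarith
  have heq : Module.finrank k (S.Rsub x.ϑ D) = Module.finrank k (S.Lam lam G₁ G₂) := by
    have : (Module.finrank k (S.Rsub x.ϑ D) : ℤ) = (Module.finrank k (S.Lam lam G₁ G₂) : ℤ) := by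
      linarith
    exact_mod_cast this
  exact ⟨Submodule.eq_of_le_of_finrank_eq hle heq, hfr⟩

/-- **The moving lemma, every exponent.** -/
theorem stmt_MovingAny : Stmt_MovingAny := by
  classical
  intro K F k F₁ F₂ _ _ _ _ _ _ _ _ _ S H H₁ H₂ g g₁ g₂ c c₁ c₂ hR hR₁ hR₂ hnum n hn0 x
  have hnZ : (n : ℤ) ≠ 0 := by exact_mod_cast hn0
  -- regular points on the two components and places over them
  obtain ⟨Q₁, hQ₁⟩ := H₁.exists_notMem S.br₁
  obtain ⟨Q₂, hQ₂⟩ := H₂.exists_notMem S.br₂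
  have hQ₁n : ∀ s ∈ S.nodes, s.1 ≠ Q₁ := fun s hs h =>
    hQ₁ (h ▸ Finset.mem_image_of_mem Prod.fst hs)
  have hQ₂n : ∀ s ∈ S.nodes, s.2 ≠ Q₂ := fun s hs h =>
    hQ₂ (h ▸ Finset.mem_image_of_mem Prod.snd hs)
  have hQ₁g : Q₁ ∈ S.c₁.good := (S.good₁ Q₁).mpr hQ₁n
  have hQ₂g : Q₂ ∈ S.c₂.good := (S.good₂ Q₂).mpr hQ₂n
  obtain ⟨P₁, hP₁⟩ := S.c₁.r_surjective H.principal Q₁ hQ₁g
  obtain ⟨P₂, hP₂⟩ := S.c₂.r_surjective H.principal Q₂ hQ₂g
  have hP₁' : S.c₂.r P₁ = none := by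
    rcases S.r_cases P₁ with ⟨Q, _, _, h2⟩ | ⟨Q, _, _, h2⟩ | ⟨s, hs, h1, _⟩
    · exact h2
    · rw [hP₁] at h2
      exact absurd h2 (Option.some_ne_none _)
    · rw [hP₁] at h1
      exact absurd (Option.some.inj h1).symm (hQ₁n s hs)
  have hP₂' : S.c₁.r P₂ = none := by
    rcases S.r_cases P₂ with ⟨Q, _, _, h2⟩ | ⟨Q, _, _, h2⟩ | ⟨s, hs, _, h2⟩
    · rw [hP₂] at h2
      exact absurd h2 (Option.some_ne_none _)
    · exact h2
    · rw [hP₂] at h2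
      exact absurd (Option.some.inj h2).symm (hQ₂n s hs)
  -- the divisor `G`
  set Δ : Divisor k F₂ := x.Δ H₂.principal with hΔ
  set M : ℤ := |c₁| + |c₂| + (S.nodes.card : ℤ) + |Divisor.degree Δ| with hM
  set G : Divisor K F := Finsupp.single P₁ M + Finsupp.single P₂ M with hG
  have hpush₁ : S.push₁ G = Finsupp.single Q₁ M := by
    unfold SSD.push₁
    rw [hG, Finsupp.mapDomain_add, Finsupp.mapDomain_single, Finsupp.mapDomain_single, hP₁, hP₂',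
      Finsupp.some_add, Finsupp.some_single_some, Finsupp.some_single_none, add_zero]
  have hpush₂ : S.push₂ G = Finsupp.single Q₂ M := by
    unfold SSD.push₂
    rw [hG, Finsupp.mapDomain_add, Finsupp.mapDomain_single, Finsupp.mapDomain_single, hP₂, hP₁',
      Finsupp.some_add, Finsupp.some_single_some, Finsupp.some_single_none, zero_add]
  have hGood : S.GoodPos G := by
    rintro P hP ⟨s, hs, hsP⟩
    have hPP : P = P₁ ∨ P = P₂ := by
      by_contra hne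
      rw [not_or] at hne
      apply hP
      rw [hG, Finsupp.add_apply, Finsupp.single_apply, Finsupp.single_apply,
        if_neg (Ne.symm hne.1), if_neg (Ne.symm hne.2), add_zero]
    rcases hPP with rfl | rfl
    · rw [hP₁] at hsP
      exact hQ₁n s hs (Option.some.inj hsP).symm
    · rw [hP₂'] at hsP
      exact absurd hsP.symm (Option.some_ne_none _)
  have hdeg₁ : Divisor.degree (S.push₁ G) = M := by
    rw [hpush₁, Divisor.degree_single, H₁.deg_one, Nat.cast_one, mul_one]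
  have hdeg₂ : Divisor.degree (S.push₂ G) = M := by
    rw [hpush₂, Divisor.degree_single, H₂.deg_one, Nat.cast_one, mul_one]
  have hM₁ : c₁ + (S.nodes.card : ℤ) ≤ M := by
    have h1 := le_abs_self c₁
    have h2 := abs_nonneg c₂
    have h3 := abs_nonneg (Divisor.degree Δ)
    linarith
  have hM₂ : c₂ + (S.nodes.card : ℤ) ≤ M + Divisor.degree Δ := by
    have h1 := abs_nonneg c₁
    have h2 := le_abs_self c₂
    have h3 := neg_abs_le (Divisor.degree Δ)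
    linarith
  have hM₂' : c₂ + (S.nodes.card : ℤ) ≤ M := by
    have h1 := abs_nonneg c₁
    have h2 := le_abs_self c₂
    have h3 := abs_nonneg (Divisor.degree Δ)
    linarith
  obtain ⟨lam, hlam0, hRL, -⟩ := stmt_TwSurjAny K F k F₁ F₂ S H H₁ H₂ g g₁ g₂ c c₁ c₂ hR hR₁ hR₂
    hnum n hn0 x G hGood (by rw [hdeg₁]; exact hM₁) (by rw [hdeg₂]; exact hM₂')
  -- the divisors on the components have no support at the branches
  have hG₁ : ∀ w ∈ S.br₁, (S.push₁ G) w = 0 := by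
    intro w hw
    rw [hpush₁, Finsupp.single_apply, if_neg]
    rintro rfl
    exact hQ₁ hw
  have hG₂ : ∀ w ∈ S.br₂, (S.push₂ G + Δ) w = 0 := by
    intro w hw
    obtain ⟨s, hs, rfl⟩ := Finset.mem_image.mp hw
    rw [Finsupp.add_apply, hpush₂, Finsupp.single_apply, if_neg (fun h => hQ₂n s hs h.symm),
      zero_add, hΔ]
    unfold SSD.Twist.Δ
    rw [Finsupp.mapRange_apply, dv_apply]
    have := x.hγ s hs
    unfold SSD.Twist.γ
    rw [this]
    exact Int.zero_ediv _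
  have hcard₁ : (S.br₁.card : ℤ) ≤ (S.nodes.card : ℤ) := by
    exact_mod_cast Finset.card_image_le
  have hcard₂ : (S.br₂.card : ℤ) ≤ (S.nodes.card : ℤ) := by
    exact_mod_cast Finset.card_image_le
  -- the hyperplanes
  let Λ : Submodule k (F₁ × F₂) := S.Lam lam (S.push₁ G) (S.push₂ G + Δ)
  let W : Place k F₁ × Place k F₂ → Submodule k Λ := fun s =>
    (BAD.H90.vanSub (F₂ := F₂) s.1).comap Λ.subtype
  have hprop : ∀ s ∈ S.nodes, W s ≠ ⊤ := by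
    intro s hs htop
    obtain ⟨ψ₁, hψ₁L, hψ₁v, hψ₁r, hψ₁n⟩ := BAD.H90.exists_value_one H₁ hR₁ (S.push₁ G) S.br₁
      (v := s.1) (Finset.mem_image_of_mem Prod.fst hs) hG₁ (by rw [hdeg₁]; linarith)
    obtain ⟨ψ₂, hψ₂L, hψ₂v, hψ₂r, hψ₂n⟩ := BAD.H90.exists_value_one H₂ hR₂ (S.push₂ G + Δ) S.br₂
      (v := s.2) (Finset.mem_image_of_mem Prod.snd hs) hG₂
      (by rw [map_add, hdeg₂]; linarith)
    obtain ⟨a₁, ha₁⟩ := exists_value s.1 (H₁.deg_one _) hψ₁r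
    obtain ⟨b, hb⟩ := exists_value s.2 (H₂.deg_one _) hψ₂r
    have ha₁0 : a₁ ≠ 0 := by
      rintro rfl
      rw [map_zero, sub_zero] at ha₁
      exact hψ₁n ha₁
    have hb0 : b ≠ 0 := by
      rintro rfl
      rw [map_zero, sub_zero] at hb
      exact hψ₂n hb
    have hl0 : lam s ≠ 0 := hlam0 s hs
    have hmem : ((ψ₁, (a₁ / (lam s * b)) • ψ₂) : F₁ × F₂) ∈ Λ := by
      refine ⟨hψ₁L, (L (S.push₂ G + Δ)).smul_mem _ hψ₂L, fun s' hs' => ?_⟩
      by_cases hss : s' = s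
      · subst hss
        refine ⟨a₁, ha₁, ?_⟩
        have h1 := (regAt_algebraMap s'.2 (lam s' * (a₁ / (lam s' * b)))).mul_vanAt hb
        have hab : lam s' * (a₁ / (lam s' * b)) * b = a₁ := by
          field_simp
        have hab' : algebraMap k F₂ (lam s' * (a₁ / (lam s' * b))) * algebraMap k F₂ b
            = algebraMap k F₂ a₁ := by
          rw [← map_mul, hab]
        have e : algebraMap k F₂ (lam s' * (a₁ / (lam s' * b))) * (ψ₂ - algebraMap k F₂ b)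
            = algebraMap k F₂ (lam s') * ((a₁ / (lam s' * b)) • ψ₂) - algebraMap k F₂ a₁ := by
          rw [mul_sub, hab', map_mul, Algebra.smul_def, mul_assoc]
        rwa [e] at h1
      · have h1ne : s'.1 ≠ s.1 := fun h => hss (S.inj₁ s' hs' s hs h)
        have h2ne : s'.2 ≠ s.2 := fun h => hss (S.inj₂ s' hs' s hs h)
        refine ⟨0, ?_, ?_⟩
        · rw [map_zero, sub_zero]
          exact hψ₁v s'.1 (Finset.mem_image_of_mem Prod.fst hs') h1ne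
        · rw [map_zero, sub_zero]
          have h2 := hψ₂v s'.2 (Finset.mem_image_of_mem Prod.snd hs') h2ne
          show VanAt s'.2 (algebraMap k F₂ (lam s') * ((a₁ / (lam s * b)) • ψ₂))
          rw [Algebra.smul_def]
          exact (regAt_algebraMap s'.2 _).mul_vanAt ((regAt_algebraMap s'.2 _).mul_vanAt h2)
    have htop' : (⟨_, hmem⟩ : Λ) ∈ W s := by
      rw [htop]
      exact Submodule.mem_top
    exact hψ₁n htop'
  obtain ⟨v, hv⟩ := BAD.H55.stmt_Avoid k Λ (Place k F₁ × Place k F₂) S.nodes W hprop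
  have hvnv : ∀ s ∈ S.nodes, ¬ VanAt s.1 (v : F₁ × F₂).1 := fun s hs h => hv s hs h
  have hvΛ : (v : F₁ × F₂) ∈ S.Lam lam (S.push₁ G) (S.push₂ G + Δ) := v.2
  have hvR : (v : F₁ × F₂) ∈ S.Rsub x.ϑ (x.Dx H.principal + G) := by
    rw [hRL]
    exact hvΛ
  obtain ⟨h, hhL, hh1, hh2, e1, e2⟩ := S.mem_Rsub.mp hvR
  -- values at the nodes
  have hval : ∀ s ∈ S.nodes, ((v : F₁ × F₂).1 ≠ 0 ∧ s.1.ord (v : F₁ × F₂).1 = 0) ∧
      ((v : F₁ × F₂).2 ≠ 0 ∧ s.2.ord (v : F₁ × F₂).2 = 0) := by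
    intro s hs
    obtain ⟨a, ha1, ha2⟩ := hvΛ.2.2 s hs
    have ha0 : a ≠ 0 := by
      rintro rfl
      rw [map_zero, sub_zero] at ha1
      exact hvnv s hs ha1
    refine ⟨BAD.H90.ord_eq_zero_of_value ha0 ha1, ?_⟩
    obtain ⟨h3, h4⟩ := BAD.H90.ord_eq_zero_of_value ha0 ha2
    have h5 : (v : F₁ × F₂).2 ≠ 0 := right_ne_zero_of_mul h3
    refine ⟨h5, ?_⟩
    rw [ord_algebraMap_mul s.2 (hlam0 s hs)] at h4
    exact h4
  obtain ⟨s₀, hs₀⟩ := S.nodes_nonempty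
  have hGU₁ : S.c₁.IsGU h := ⟨hh1, by rw [e1]; exact (hval s₀ hs₀).1.1⟩
  have hGU₂ : S.c₂.IsGU (x.ϑ * h) := ⟨hh2, by rw [e2]; exact (hval s₀ hs₀).2.1⟩
  refine ⟨h, hGU₁, hGU₂, ?_⟩
  -- the orders on the fibres of the nodes
  have hf0 : x.f ≠ 0 := by
    intro h0
    have := x.hrd₁
    rw [h0, S.c₁.rd_zero] at this
    exact zero_ne_one this
  have hh0 : h ≠ 0 := hGU₁.ne_zero
  have hFh₁ : x.f * h ^ n ∈ S.c₁.V := S.c₁.V.mul_mem _ _ x.hf₁ (S.c₁.V.pow_mem hh1 n)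
  have hFeq : x.f * h ^ n = x.f / x.ϑ ^ n * (x.ϑ * h) ^ n := by
    have := pow_ne_zero n x.hϑ
    rw [mul_pow]
    field_simp
  have hFh₂ : x.f * h ^ n ∈ S.c₂.V := by
    rw [hFeq]
    exact S.c₂.V.mul_mem _ _ x.hf₂.1 (S.c₂.V.pow_mem hh2 n)
  have hrd₁ : S.c₁.rd (x.f * h ^ n) = (v : F₁ × F₂).1 ^ n := by
    rw [S.c₁.rd_mul x.hf₁ (S.c₁.V.pow_mem hh1 n), x.hrd₁, one_mul, S.c₁.rd_pow hh1, e1]
  have hrd₂ : S.c₂.rd (x.f * h ^ n) = S.c₂.rd (x.f / x.ϑ ^ n) * (v : F₁ × F₂).2 ^ n := by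
    rw [hFeq, S.c₂.rd_mul x.hf₂.1 (S.c₂.V.pow_mem hh2 n), S.c₂.rd_pow hh2, e2]
  have hnonneg : ∀ P : Place K F, S.IsNodeP P → 0 ≤ P.ord (x.f * h ^ n) := by
    intro P hP
    have hGP : G P = 0 := by
      by_contra hne
      exact hGood P hne hP
    have h1 := ord_ge_of_mem_L hhL hh0 P
    rw [Finsupp.add_apply, hGP, add_zero] at h1
    unfold SSD.Twist.Dx at h1
    rw [Finsupp.mapRange_apply, dv_apply] at h1
    have h2 := Int.mul_ediv_cancel' (x.hdiv P)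
    rw [P.ord_mul hf0 (pow_ne_zero n hh0), ord_pow]
    have h3 : (n : ℤ) * (P.ord x.f / (n : ℤ)) + (n : ℤ) * P.ord h ≥ 0 := by
      have hnpos : (0 : ℤ) ≤ (n : ℤ) := Int.natCast_nonneg n
      have h4 : 0 ≤ P.ord x.f / (n : ℤ) + P.ord h := by omega
      have h5 := mul_nonneg hnpos h4
      rw [mul_add] at h5
      exact h5
    omega
  intro P hP
  obtain ⟨s, hs, hsP⟩ := hP
  have hDIn := S.DIn s hs ⟨x.f * h ^ n, hFh₁⟩ ⟨x.f * h ^ n, hFh₂⟩
    (by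
      rw [← S.c₁.rd_of_mem hFh₁, hrd₁]
      exact pow_ne_zero n (hval s hs).1.1)
    (by
      rw [← S.c₂.rd_of_mem hFh₂, hrd₂]
      exact mul_ne_zero x.hf₂.2 (pow_ne_zero n (hval s hs).2.1))
    ⟨1, by rw [map_one, one_mul]⟩ (dv H.principal (x.f * h ^ n))
    (fun P' => dv_apply H.principal _ P')
  rw [← S.c₁.rd_of_mem hFh₁, ← S.c₂.rd_of_mem hFh₂, hrd₁, hrd₂, ord_pow, (hval s hs).1.2,
    s.2.ord_mul x.hf₂.2 (pow_ne_zero n (hval s hs).2.1), ord_pow, (hval s hs).2.2, x.hγ s hs,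
    mul_zero, add_zero, add_zero, mapDomain_apply_eq_sum] at hDIn
  have hzero := (Finset.sum_eq_zero_iff_of_nonneg (fun P' _ => by
    split_ifs with hr
    · rw [dv_apply]
      exact hnonneg P' ⟨s, hs, hr⟩
    · exact le_rfl)).mp hDIn
  by_cases hPs : P ∈ (dv H.principal (x.f * h ^ n)).support
  · have := hzero P hPs
    rw [if_pos hsP, dv_apply] at this
    exact this
  · rw [Finsupp.notMem_support_iff, dv_apply] at hPs
    exact hPs

end Fermat.Agent.BADP.H51
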