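import Fermat.Agent.BADP.H51_MoveAny

/-!
# S44, package MOVE-p (helper51), part 2: representatives in TIss-position of the classes of `G₀`

Setting: a semistable Deuring datum `S : SSD K F k F₁ F₂`, `char k = p`.  A class of the
connected part `G₀` of `J[p]` has a Kummer function `f ≡ 1` for the first valuation and another
Kummer function `f' ≡ 1` for the second valuation; `f = c f' h₀ ^ p`.

`stmt_MoveP : Stmt_MoveP`: there is `h ≠ 0` such that `f h ^ p` is `≡ 1` for BOTH valuations and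
has neither zero nor pole on the fibres of the nodes (the hypotheses of `Stmt_TIss`,
"TIss-position").

Proof: the moving lemma for the exponent `p` (`stmt_MovingAny`) gives `h` with `F_h = f h ^ p` a
unit for both valuations without zero or pole on the fibres of the nodes;
`red₁ F_h = y₁ ^ p`, `red₂ F_h = y₂ ^ p` with `y₁ = red₁ h`, `y₂ = red₂ (h₀ h)`.  By the gluing
condition the values of `y₁ ^ p` and `y₂ ^ p` at the two branches of a node agree, hence those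
of `y₁`, `y₂` agree (Frobenius is injective); a good lift `u` of `(y₁, y₂)` (`Stmt_GoodLift`)
has no zero or pole on the fibres of the nodes, and `f (h / u) ^ p` is as required.
-/

set_option autoImplicit false
set_option linter.style.haveILetI false
set_option maxHeartbeats 1000000

noncomputable section

open AlgebraicCurve

attribute [local instance] Classical.propDecidable

namespace Fermat.Agent.BADP.H51

open Fermat.Agent.RED.H17 Fermat.Agent.RED Fermat.Agent.BAD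

local notation "L" => riemannRochSpace

/-- **MOVE-p**: representatives in TIss-position. -/
def Stmt_MoveP : Prop :=
  ∀ (K F k F₁ F₂ : Type) [Field K] [Field F] [Algebra K F] [Field k] [Field F₁]
    [Algebra k F₁] [Field F₂] [Algebra k F₂] [IsAlgClosed K] [Infinite k]
    (S : SSD K F k F₁ F₂), FFHyp K F → FFHyp k F₁ → FFHyp k F₂ →
    ∀ (g g₁ g₂ : ℕ) (c c₁ c₂ : ℤ), IsGenus K F g c → IsGenus k F₁ g₁ c₁ → IsGenus k F₂ g₂ c₂ →
    g + 1 ≤ g₁ + g₂ + S.nodes.card →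
    ∀ (p : ℕ), p.Prime → CharP k p →
    ∀ (f : F), f ∈ S.c₁.V → S.c₁.rd f = 1 → (∀ P : Place K F, (p : ℤ) ∣ P.ord f) →
    ∀ (f' h₀ : F) (a : K), f' ∈ S.c₂.V → S.c₂.rd f' = 1 → f = algebraMap K F a * f' * h₀ ^ p →
      ∃ h : F, h ≠ 0 ∧ f * h ^ p ∈ S.c₁.V ∧ f * h ^ p ∈ S.c₂.V ∧ S.c₁.rd (f * h ^ p) = 1 ∧
        S.c₂.rd (f * h ^ p) = 1 ∧ ∀ P : Place K F, S.IsNodeP P → P.ord (f * h ^ p) = 0

section PRedAux

variable {K F k F' : Type*} [Field K] [Field F] [Algebra K F] [Field k] [Field F']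
  [Algebra k F']

/-- A function with a power which is a Gauss unit is a Gauss unit. -/
theorem isGU_of_pow (c : PRed K F k F') {z : F} {n : ℕ} (hn : n ≠ 0) (h : c.IsGU (z ^ n)) :
    c.IsGU z := by
  have key : ∀ w : F, w ∈ c.V → c.IsGU (w ^ n) → c.IsGU w := by
    intro w hw hwn
    refine ⟨hw, fun h0 => hwn.2 ?_⟩
    rw [c.rd_pow hw, h0, zero_pow hn]
  rcases c.V.mem_or_inv_mem z with hz | hz
  · exact key z hz h
  · have h1 : c.IsGU (z⁻¹ ^ n) := by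
      rw [inv_pow]
      exact h.inv
    have h2 := (key z⁻¹ hz h1).inv
    rwa [inv_inv] at h2

end PRedAux

section Val

variable {k F : Type} [Field k] [Field F] [Algebra k F]

/-- Values of `p`-th roots: if `y₁ ^ p` and `y₂ ^ p` have the same value at `v₁`, `v₂`, and
`char k = p`, then `y₁`, `y₂` have the same value. -/
theorem glue_of_pow {F' : Type} [Field F'] [Algebra k F'] (p : ℕ) [Fact p.Prime] [CharP k p]
    {v₁ : Place k F} {v₂ : Place k F'} (hd₁ : v₁.deg = 1) (hd₂ : v₂.deg = 1) {y₁ : F} {y₂ : F'}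
    {a : k} (h₁ : VanAt v₁ (y₁ ^ p - algebraMap k F a))
    (h₂ : VanAt v₂ (y₂ ^ p - algebraMap k F' a)) :
    ∃ b : k, VanAt v₁ (y₁ - algebraMap k F b) ∧ VanAt v₂ (y₂ - algebraMap k F' b) := by
  have hp0 : p ≠ 0 := (Fact.out : p.Prime).ne_zero
  have hr₁ : RegAt v₁ y₁ := H41.regAt_of_pow hp0 (RegAt.of_vanAt_sub h₁)
  have hr₂ : RegAt v₂ y₂ := H41.regAt_of_pow hp0 (RegAt.of_vanAt_sub h₂)
  have e₁ := (H41.valAt_eq_iff v₁ hd₁ (hr₁.pow p) a).mpr h₁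
  have e₂ := (H41.valAt_eq_iff v₂ hd₂ (hr₂.pow p) a).mpr h₂
  rw [H41.valAt_pow v₁ hd₁ hr₁] at e₁
  rw [H41.valAt_pow v₂ hd₂ hr₂] at e₂
  have e : H41.valAt v₁ hd₁ y₁ = H41.valAt v₂ hd₂ y₂ := by
    apply frobenius_inj k p
    rw [frobenius_def, frobenius_def, e₁, e₂]
  refine ⟨H41.valAt v₁ hd₁ y₁, H41.vanAt_sub_valAt v₁ hd₁ hr₁, ?_⟩
  rw [e]
  exact H41.vanAt_sub_valAt v₂ hd₂ hr₂

end Val

section Main

variable {K F k F₁ F₂ : Type} [Field K] [Field F] [Algebra K F] [Field k] [Field F₁]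
  [Algebra k F₁] [Field F₂] [Algebra k F₂]

/-- **MOVE-p, core**: `f ≡ 1` for `V₁`, `f = f' h₀ ^ p` with `f' ≡ 1` for `V₂`. -/
theorem moveP_core [IsAlgClosed K] [Infinite k] (S : SSD K F k F₁ F₂) (H : FFHyp K F)
    (H₁ : FFHyp k F₁) (H₂ : FFHyp k F₂) {g g₁ g₂ : ℕ} {c c₁ c₂ : ℤ} (hR : IsGenus K F g c)
    (hR₁ : IsGenus k F₁ g₁ c₁) (hR₂ : IsGenus k F₂ g₂ c₂)
    (hnum : g + 1 ≤ g₁ + g₂ + S.nodes.card) (p : ℕ) [hp : Fact p.Prime] [CharP k p]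
    {f : F} (hf₁ : f ∈ S.c₁.V) (hrd₁ : S.c₁.rd f = 1)
    (hdiv : ∀ P : Place K F, (p : ℤ) ∣ P.ord f)
    {f' h₀ : F} (hf' : f' ∈ S.c₂.V) (hrd' : S.c₂.rd f' = 1) (hff' : f = f' * h₀ ^ p) :
    ∃ h : F, h ≠ 0 ∧ f * h ^ p ∈ S.c₁.V ∧ f * h ^ p ∈ S.c₂.V ∧ S.c₁.rd (f * h ^ p) = 1 ∧
      S.c₂.rd (f * h ^ p) = 1 ∧ ∀ P : Place K F, S.IsNodeP P → P.ord (f * h ^ p) = 0 := by
  have hP := H.principal
  have hp0 : p ≠ 0 := hp.out.ne_zero
  have hpZ : (p : ℤ) ≠ 0 := by exact_mod_cast hp0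
  have hred : S.c₁.red ⟨f, hf₁⟩ = 1 := by rw [← S.c₁.rd_of_mem hf₁]; exact hrd₁
  obtain ⟨x, hx⟩ := BAD.H90.stmt_TwistExists K F k F₁ F₂ S H H₁ H₂ p hp0 f hf₁ hred hdiv
  obtain ⟨h, hh₁, hh₂, hnode⟩ := stmt_MovingAny K F k F₁ F₂ S H H₁ H₂ g g₁ g₂ c c₁ c₂ hR hR₁
    hR₂ hnum p hp0 x
  rw [hx] at hnode
  have hfGU₁ : S.c₁.IsGU f := ⟨hf₁, by rw [hrd₁]; exact one_ne_zero⟩
  have hf'GU : S.c₂.IsGU f' := ⟨hf', by rw [hrd']; exact one_ne_zero⟩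
  have hf0 : f ≠ 0 := hfGU₁.ne_zero
  have hh0 : h ≠ 0 := hh₁.ne_zero
  -- the function `F_h`
  obtain ⟨Fh, hFhdef⟩ : ∃ Fh : F, Fh = f * h ^ p := ⟨_, rfl⟩
  rw [← hFhdef] at hnode
  have hFh₁ : S.c₁.IsGU Fh := by rw [hFhdef]; exact hfGU₁.mul (hh₁.pow p)
  have hFh₂ : S.c₂.IsGU Fh := by
    have e : Fh = (x.f / x.ϑ ^ p) * (x.ϑ * h) ^ p := by
      have hϑn : x.ϑ ^ p ≠ 0 := pow_ne_zero _ x.hϑ
      rw [hFhdef, hx, mul_pow]
      field_simp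
    rw [e]
    exact x.hf₂.mul (hh₂.pow p)
  have hFh' : Fh = f' * (h₀ * h) ^ p := by
    rw [hFhdef, hff', mul_pow, mul_assoc]
  have hzGU : S.c₂.IsGU (h₀ * h) := by
    apply isGU_of_pow S.c₂ hp0
    have e : (h₀ * h) ^ p = Fh / f' := by
      rw [hFh', mul_comm f', mul_div_assoc, div_self hf'GU.ne_zero, mul_one]
    rw [e]
    exact hFh₂.div hf'GU
  -- the reductions
  obtain ⟨y₁, hy₁⟩ : ∃ y₁ : F₁, y₁ = S.c₁.rd h := ⟨_, rfl⟩
  obtain ⟨y₂, hy₂⟩ : ∃ y₂ : F₂, y₂ = S.c₂.rd (h₀ * h) := ⟨_, rfl⟩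
  have hy₁0 : y₁ ≠ 0 := by rw [hy₁]; exact hh₁.2
  have hy₂0 : y₂ ≠ 0 := by rw [hy₂]; exact hzGU.2
  have hrdFh₁ : S.c₁.rd Fh = y₁ ^ p := by
    rw [hFhdef, S.c₁.rd_mul hf₁ (hh₁.pow p).1, hrd₁, one_mul, S.c₁.rd_pow hh₁.1, hy₁]
  have hrdFh₂ : S.c₂.rd Fh = y₂ ^ p := by
    rw [hFh', S.c₂.rd_mul hf' (hzGU.pow p).1, hrd', one_mul, S.c₂.rd_pow hzGU.1, hy₂]
  -- gluing of `F_h`
  have hglueF : ∀ s ∈ S.nodes, ∃ a : k, VanAt s.1 (y₁ ^ p - algebraMap k F₁ a) ∧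
      VanAt s.2 (y₂ ^ p - algebraMap k F₂ a) := by
    intro s hs
    obtain ⟨a, ha1, ha2⟩ := S.glue s hs Fh hFh₁.1 hFh₂.1
      (fun P hPs => le_of_eq (hnode P ⟨s, hs, hPs⟩).symm)
    rw [← S.c₁.rd_of_mem hFh₁.1, hrdFh₁] at ha1
    rw [← S.c₂.rd_of_mem hFh₂.1, hrdFh₂] at ha2
    exact ⟨a, ha1, ha2⟩
  have hglue : ∀ s ∈ S.nodes, ∃ a : k, VanAt s.1 (y₁ - algebraMap k F₁ a) ∧
      VanAt s.2 (y₂ - algebraMap k F₂ a) := by
    intro s hs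
    obtain ⟨a, ha1, ha2⟩ := hglueF s hs
    exact glue_of_pow p (H₁.deg_one s.1) (H₂.deg_one s.2) ha1 ha2
  -- the orders of the reductions at the branches
  have hord : ∀ s ∈ S.nodes, s.1.ord y₁ = 0 ∧ s.2.ord y₂ = 0 := by
    intro s hs
    have hsum := S.sum_node hP hs hFh₁ hFh₂ ⟨1, by rw [map_one, one_mul]⟩
    have hz : ∑ P ∈ (dv hP Fh).support, (if S.c₁.r P = some s.1 then P.ord Fh else 0) = 0 := by
      refine Finset.sum_eq_zero fun P _ => ?_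
      split_ifs with hPs
      · exact hnode P ⟨s, hs, hPs⟩
      · rfl
    rw [hz, hrdFh₁, hrdFh₂, ord_pow, ord_pow] at hsum
    obtain ⟨a, ha1, ha2⟩ := hglue s hs
    have h1 : 0 ≤ s.1.ord y₁ := (RegAt.of_vanAt_sub ha1).ord_nonneg
    have h2 : 0 ≤ s.2.ord y₂ := (RegAt.of_vanAt_sub ha2).ord_nonneg
    have hppos : (0 : ℤ) < p := by exact_mod_cast Nat.pos_of_ne_zero hp0
    constructor
    · nlinarith
    · nlinarith
  -- the good lift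
  obtain ⟨u, hu₁, hu₂, hurd₁, hurd₂, -, -, hunode⟩ :=
    BAD.H28.stmt_GoodLift K F k F₁ F₂ S H H₁ H₂ g g₁ g₂ c c₁ c₂ hR hR₁ hR₂ hnum y₁ y₂ ∅ ∅
      (fun Q hQ => absurd hQ (Finset.notMem_empty Q))
      (fun Q hQ => absurd hQ (Finset.notMem_empty Q)) hglue
  have huGU₁ : S.c₁.IsGU u := ⟨hu₁, by rw [hurd₁]; exact hy₁0⟩
  have huGU₂ : S.c₂.IsGU u := ⟨hu₂, by rw [hurd₂]; exact hy₂0⟩
  have hu0 : u ≠ 0 := huGU₁.ne_zero
  have huord : ∀ P, S.IsNodeP P → P.ord u = 0 := by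
    rintro P ⟨s, hs, hPs⟩
    refine S.ord_eq_zero_of_node hP hs huGU₁ huGU₂ ⟨1, by rw [map_one, one_mul]⟩
      (fun P' hP's => hunode P' ⟨s, hs, hP's⟩) ?_ ?_ hPs
    · rw [hurd₁]; exact (hord s hs).1
    · rw [hurd₂]; exact (hord s hs).2
  -- conclusion
  have hupn : u ^ p ≠ 0 := pow_ne_zero _ hu0
  have e : f * (h / u) ^ p = Fh / u ^ p := by
    rw [hFhdef, div_pow, mul_div_assoc]
  refine ⟨h / u, div_ne_zero hh0 hu0, ?_, ?_, ?_, ?_, ?_⟩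
  · rw [e]; exact (hFh₁.div (huGU₁.pow p)).1
  · rw [e]; exact (hFh₂.div (huGU₂.pow p)).1
  · rw [e, hFh₁.rd_div (huGU₁.pow p), hrdFh₁, S.c₁.rd_pow hu₁, hurd₁,
      div_self (pow_ne_zero _ hy₁0)]
  · rw [e, hFh₂.rd_div (huGU₂.pow p), hrdFh₂, S.c₂.rd_pow hu₂, hurd₂,
      div_self (pow_ne_zero _ hy₂0)]
  · intro P hPn
    rw [e, ord_div P hFh₁.ne_zero hupn, ord_pow, hnode P hPn, huord P hPn]
    simp

end Main

/-- **MOVE-p.** -/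
theorem stmt_MoveP : Stmt_MoveP := by
  intro K F k F₁ F₂ _ _ _ _ _ _ _ _ _ _ S H H₁ H₂ g g₁ g₂ c c₁ c₂ hR hR₁ hR₂ hnum p hp hchar f
    hf₁ hrd₁ hdiv f' h₀ a hf' hrd' hff'
  haveI : Fact p.Prime := ⟨hp⟩
  haveI : CharP k p := hchar
  obtain ⟨a₀, ha₀⟩ := IsAlgClosed.exists_pow_nat_eq a hp.pos
  refine moveP_core S H H₁ H₂ hR hR₁ hR₂ hnum p hf₁ hrd₁ hdiv (h₀ := algebraMap K F a₀ * h₀)
    hf' hrd' ?_
  rw [hff', mul_pow, ← map_pow, ha₀]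
  ring

end Fermat.Agent.BADP.H51
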