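import Fermat.Agent.BADP.H51_CanonP
import Fermat.Agent.BADP.H28_KeyP

/-!
# S44, package RAY-ABS (helper51), part 1: invariant coordinates, invariant place at infinity

Setting: `S : SSD K F k F₁ F₂`, `𝓘` a set of inertial semilinear automorphisms.

* `SSD.IsK0Part 𝓘 u u₀` : `u₀` is an `𝓘`-invariant function, integral for both valuations, with
  the same reductions as `u`, whose poles lie in the fibres (of the reduction maps) in which `u`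
  has a pole ("`K₀`-rational part" of `u`, leaf ARITH-0).
* `isCoordA₁_k0`, `isCoordA₂_k0` : the `K₀`-part of an adapted coordinate is an adapted
  coordinate.
* `exists_fixed_place` : over every good point of the first component there is an `𝓘`-fixed
  place (the zero of an invariant coordinate).
* `fixedSub 𝓘` : the subfield of the `𝓘`-invariant functions.
* `exists_inv_coords` : a balanced non-special pair with INVARIANT adapted coordinates.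
-/

set_option autoImplicit false
set_option linter.style.haveILetI false
set_option linter.unusedSectionVars false
set_option maxHeartbeats 1000000

noncomputable section

open AlgebraicCurve

attribute [local instance] Classical.propDecidable

namespace Fermat.Agent.BADP.H51

open Fermat.Agent.RED.H17 Fermat.Agent.RED Fermat.Agent.BAD

local notation "L" => riemannRochSpace

section K0

variable {K F k F₁ F₂ : Type} [Field K] [Field F] [Algebra K F] [Field k] [Field F₁]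
  [Algebra k F₁] [Field F₂] [Algebra k F₂]

/-- `u₀` is an `𝓘`-invariant part of `u`: invariant, integral for both valuations with the same
reductions as `u`, poles only in the fibres where `u` has a pole. -/
structure IsK0Part (S : SSD K F k F₁ F₂) (𝓘 : Set (SemilinearAut K F)) (u u₀ : F) : Prop where
  fixed : ∀ τ ∈ 𝓘, τ • u₀ = u₀
  mem₁ : u₀ ∈ S.c₁.V
  mem₂ : u₀ ∈ S.c₂.V
  rd₁ : S.c₁.rd u₀ = S.c₁.rd u
  rd₂ : S.c₂.rd u₀ = S.c₂.rd u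
  poles : ∀ P : Place K F, P.ord u₀ < 0 →
    ∃ P' : Place K F, S.c₁.r P' = S.c₁.r P ∧ S.c₂.r P' = S.c₂.r P ∧ P'.ord u < 0

/-- The subfield of the `𝓘`-invariant functions. -/
def fixedSub (𝓘 : Set (SemilinearAut K F)) : Subfield F where
  carrier := {c | ∀ τ ∈ 𝓘, τ • c = c}
  mul_mem' := fun {a b} ha hb τ hτ => by rw [smul_mul', ha τ hτ, hb τ hτ]
  one_mem' := fun τ _ => smul_one τ
  add_mem' := fun {a b} ha hb τ hτ => by rw [smul_add, ha τ hτ, hb τ hτ]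
  zero_mem' := fun τ _ => smul_zero τ
  neg_mem' := fun {a} ha τ hτ => by rw [smul_neg, ha τ hτ]
  inv_mem' := fun a ha τ hτ => by rw [smul_inv'', ha τ hτ]

theorem mem_fixedSub {𝓘 : Set (SemilinearAut K F)} {c : F} :
    c ∈ fixedSub 𝓘 ↔ ∀ τ ∈ 𝓘, τ • c = c := Iff.rfl

theorem algebraMap_mem_fixedSub {𝓘 : Set (SemilinearAut K F)} {a : K}
    (ha : ∀ τ ∈ 𝓘, SemilinearAut.baseAut τ a = a) : algebraMap K F a ∈ fixedSub 𝓘 := by
  intro τ hτ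
  rw [SemilinearAut.smul_algebraMap, ha τ hτ]

variable {S : SSD K F k F₁ F₂} {𝓘 : Set (SemilinearAut K F)}

namespace IsK0Part

variable {u u₀ : F} (h : IsK0Part S 𝓘 u u₀)

include h in
theorem isGU₁ (hu : S.c₁.IsGU u) : S.c₁.IsGU u₀ := ⟨h.mem₁, by rw [h.rd₁]; exact hu.2⟩

include h in
theorem isGU₂ (hu : S.c₂.IsGU u) : S.c₂.IsGU u₀ := ⟨h.mem₂, by rw [h.rd₂]; exact hu.2⟩

include h in
/-- No pole on a fibre of the first reduction map. -/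
theorem reg₁ {Q : Place k F₁} (hu : ∀ P, S.c₁.r P = some Q → 0 ≤ P.ord u) (P : Place K F)
    (hP : S.c₁.r P = some Q) : 0 ≤ P.ord u₀ := by
  by_contra hneg
  obtain ⟨P', h1, -, h3⟩ := h.poles P (not_le.mp hneg)
  have := hu P' (by rw [h1, hP])
  omega

include h in
/-- No pole on a fibre of the second reduction map. -/
theorem reg₂ {Q : Place k F₂} (hu : ∀ P, S.c₂.r P = some Q → 0 ≤ P.ord u) (P : Place K F)
    (hP : S.c₂.r P = some Q) : 0 ≤ P.ord u₀ := by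
  by_contra hneg
  obtain ⟨P', -, h2, h3⟩ := h.poles P (not_le.mp hneg)
  have := hu P' (by rw [h2, hP])
  omega

end IsK0Part

/-- A unit for both valuations without zero or pole on the fibre of a node has reductions
without zero or pole at the two branches. -/
theorem ord_rd_node (hP : HasPrincipalDivisors K F) {s : Place k F₁ × Place k F₂}
    (hs : s ∈ S.nodes) {u : F} (h₁ : S.c₁.IsGU u) (h₂ : S.c₂.IsGU u)
    (hord : ∀ P, S.c₁.r P = some s.1 → P.ord u = 0) :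
    s.1.ord (S.c₁.rd u) = 0 ∧ s.2.ord (S.c₂.rd u) = 0 := by
  have hsum := S.sum_node hP hs h₁ h₂ ⟨1, by rw [map_one, one_mul]⟩
  have hz : ∑ P ∈ (dv hP u).support, (if S.c₁.r P = some s.1 then P.ord u else 0) = 0 := by
    refine Finset.sum_eq_zero fun P _ => ?_
    split_ifs with hPs
    · exact hord P hPs
    · rfl
  rw [hz] at hsum
  obtain ⟨a, ha1, ha2⟩ := S.glue s hs u h₁.1 h₂.1 (fun P hPs => le_of_eq (hord P hPs).symm)
  rw [← S.c₁.rd_of_mem h₁.1] at ha1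
  rw [← S.c₂.rd_of_mem h₂.1] at ha2
  have e1 : 0 ≤ s.1.ord (S.c₁.rd u) := (RegAt.of_vanAt_sub ha1).ord_nonneg
  have e2 : 0 ≤ s.2.ord (S.c₂.rd u) := (RegAt.of_vanAt_sub ha2).ord_nonneg
  constructor <;> omega

/-- The `K₀`-part of a function without zero or pole on the fibres of the nodes has no zero or
pole on the fibres of the nodes. -/
theorem IsK0Part.ord_node (hP : HasPrincipalDivisors K F) {u u₀ : F} (h : IsK0Part S 𝓘 u u₀)
    (h₁ : S.c₁.IsGU u) (h₂ : S.c₂.IsGU u) (hord : ∀ P, S.IsNodeP P → P.ord u = 0)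
    (P : Place K F) (hPn : S.IsNodeP P) : P.ord u₀ = 0 := by
  obtain ⟨s, hs, hPs⟩ := hPn
  obtain ⟨o1, o2⟩ := ord_rd_node hP hs h₁ h₂ (fun P' hP' => hord P' ⟨s, hs, hP'⟩)
  refine S.ord_eq_zero_of_node hP hs (h.isGU₁ h₁) (h.isGU₂ h₂) ⟨1, by rw [map_one, one_mul]⟩
    (fun P' hP' => h.reg₁ (fun P'' hP'' => le_of_eq (hord P'' ⟨s, hs, hP''⟩).symm) P' hP')
    ?_ ?_ hPs
  · rw [h.rd₁]; exact o1
  · rw [h.rd₂]; exact o2

/-- The `K₀`-part of an adapted coordinate (first component) is an adapted coordinate. -/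
theorem isCoordA₁_k0 (hP : HasPrincipalDivisors K F) {A₁ : Finset (Place k F₁)}
    {A₂ : Finset (Place k F₂)} {s s₀ : F} {Q : Place k F₁} (hs : S.IsCoordA₁ A₁ A₂ s Q)
    (h : IsK0Part S 𝓘 s s₀) : S.IsCoordA₁ A₁ A₂ s₀ Q := by
  obtain ⟨hc, hGU₂, ho₁, ho₂, hr₁, hr₂, hn⟩ := hs
  refine ⟨⟨hc.good, h.isGU₁ hc.isGU, fun P hPQ => h.reg₁ hc.reg P hPQ, by
    rw [h.rd₁]; exact hc.ord_one⟩, h.isGU₂ hGU₂, ?_, ?_, ?_, ?_, ?_⟩
  · intro Q' hQ' hne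
    rw [h.rd₁]
    exact ho₁ Q' hQ' hne
  · intro Q' hQ'
    rw [h.rd₂]
    exact ho₂ Q' hQ'
  · intro P Q' hQ' hPQ'
    exact h.reg₁ (fun P' hP' => hr₁ P' Q' hQ' hP') P hPQ'
  · intro P Q' hQ' hPQ'
    exact h.reg₂ (fun P' hP' => hr₂ P' Q' hQ' hP') P hPQ'
  · exact h.ord_node hP hc.isGU hGU₂ hn

/-- The `K₀`-part of an adapted coordinate (second component) is an adapted coordinate. -/
theorem isCoordA₂_k0 (hP : HasPrincipalDivisors K F) {A₁ : Finset (Place k F₁)}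
    {A₂ : Finset (Place k F₂)} {s s₀ : F} {Q : Place k F₂} (hs : S.IsCoordA₂ A₁ A₂ s Q)
    (h : IsK0Part S 𝓘 s s₀) : S.IsCoordA₂ A₁ A₂ s₀ Q := by
  obtain ⟨hc, hGU₁, ho₂, ho₁, hr₁, hr₂, hn⟩ := hs
  refine ⟨⟨hc.good, h.isGU₂ hc.isGU, fun P hPQ => h.reg₂ hc.reg P hPQ, by
    rw [h.rd₂]; exact hc.ord_one⟩, h.isGU₁ hGU₁, ?_, ?_, ?_, ?_, ?_⟩
  · intro Q' hQ' hne
    rw [h.rd₂]
    exact ho₂ Q' hQ' hne
  · intro Q' hQ'
    rw [h.rd₁]
    exact ho₁ Q' hQ'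
  · intro P Q' hQ' hPQ'
    exact h.reg₁ (fun P' hP' => hr₁ P' Q' hQ' hP') P hPQ'
  · intro P Q' hQ' hPQ'
    exact h.reg₂ (fun P' hP' => hr₂ P' Q' hQ' hP') P hPQ'
  · exact h.ord_node hP hGU₁ hc.isGU hn

end K0

section Exist

variable {K F k F₁ F₂ : Type} [Field K] [Field F] [Algebra K F] [Field k] [Field F₁]
  [Algebra k F₁] [Field F₂] [Algebra k F₂]

/-- **Invariant adapted coordinates**: a balanced non-special pair `(A₁, A₂)` (avoiding given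
finite sets) with `𝓘`-invariant adapted coordinates. -/
theorem exists_inv_coords [Infinite k] (S : SSD K F k F₁ F₂) (H : FFHyp K F) (H₁ : FFHyp k F₁)
    (H₂ : FFHyp k F₂) {g g₁ g₂ : ℕ} {c c₁ c₂ : ℤ} (hR : IsGenus K F g c)
    (hR₁ : IsGenus k F₁ g₁ c₁) (hR₂ : IsGenus k F₂ g₂ c₂)
    (hnum : g + 1 ≤ g₁ + g₂ + S.nodes.card) {𝓘 : Set (SemilinearAut K F)}
    (hK0 : ∀ u : F, u ∈ S.c₁.V → u ∈ S.c₂.V → ∃ u₀ : F, IsK0Part S 𝓘 u u₀)
    (T₁ : Finset (Place k F₁)) (T₂ : Finset (Place k F₂)) :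
    ∃ (A₁ : Finset (Place k F₁)) (A₂ : Finset (Place k F₂)) (s₁ : Place k F₁ → F)
      (s₂ : Place k F₂ → F),
      Disjoint A₁ S.br₁ ∧ Disjoint A₂ S.br₂ ∧ Disjoint A₁ T₁ ∧ Disjoint A₂ T₂ ∧
      S.IsNS A₁ A₂ ∧ A₁.card + A₂.card + 1 = g₁ + g₂ + S.nodes.card ∧
      (∀ Q ∈ A₁, S.IsCoordA₁ A₁ A₂ (s₁ Q) Q) ∧ (∀ Q ∈ A₂, S.IsCoordA₂ A₁ A₂ (s₂ Q) Q) ∧
      (∀ Q ∈ A₁, ∀ τ ∈ 𝓘, τ • s₁ Q = s₁ Q) ∧ (∀ Q ∈ A₂, ∀ τ ∈ 𝓘, τ • s₂ Q = s₂ Q) := by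
  obtain ⟨A₁, A₂, s₁, s₂, hd₁, hd₂, hT₁, hT₂, hNSA, hcard, hs₁, hs₂⟩ :=
    exists_ns_coords S H H₁ H₂ hR hR₁ hR₂ hnum T₁ T₂
  have ex₁ : ∀ Q, ∃ s₀ : F, Q ∈ A₁ → IsK0Part S 𝓘 (s₁ Q) s₀ := by
    intro Q
    by_cases hQ : Q ∈ A₁
    · obtain ⟨s₀, h0⟩ := hK0 (s₁ Q) (hs₁ Q hQ).1.isGU.1 (hs₁ Q hQ).2.1.1
      exact ⟨s₀, fun _ => h0⟩
    · exact ⟨0, fun h => absurd h hQ⟩
  choose t₁ ht₁ using ex₁
  have ex₂ : ∀ Q, ∃ s₀ : F, Q ∈ A₂ → IsK0Part S 𝓘 (s₂ Q) s₀ := by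
    intro Q
    by_cases hQ : Q ∈ A₂
    · obtain ⟨s₀, h0⟩ := hK0 (s₂ Q) (hs₂ Q hQ).2.1.1 (hs₂ Q hQ).1.isGU.1
      exact ⟨s₀, fun _ => h0⟩
    · exact ⟨0, fun h => absurd h hQ⟩
  choose t₂ ht₂ using ex₂
  exact ⟨A₁, A₂, t₁, t₂, hd₁, hd₂, hT₁, hT₂, hNSA, hcard,
    fun Q hQ => isCoordA₁_k0 H.principal (hs₁ Q hQ) (ht₁ Q hQ),
    fun Q hQ => isCoordA₂_k0 H.principal (hs₂ Q hQ) (ht₂ Q hQ),
    fun Q hQ => (ht₁ Q hQ).fixed, fun Q hQ => (ht₂ Q hQ).fixed⟩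

/-- **An invariant place over a good point** of the first component: the zero of an invariant
coordinate. -/
theorem exists_fixed_place [Infinite k] (S : SSD K F k F₁ F₂) (H : FFHyp K F) (H₁ : FFHyp k F₁)
    (H₂ : FFHyp k F₂) {g g₁ g₂ : ℕ} {c c₁ c₂ : ℤ} (hR : IsGenus K F g c)
    (hR₁ : IsGenus k F₁ g₁ c₁) (hR₂ : IsGenus k F₂ g₂ c₂)
    (hnum : g + 1 ≤ g₁ + g₂ + S.nodes.card) {𝓘 : Set (SemilinearAut K F)}
    (h𝓘 : ∀ τ ∈ 𝓘, S.IsInertial τ)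
    (hK0 : ∀ u : F, u ∈ S.c₁.V → u ∈ S.c₂.V → ∃ u₀ : F, IsK0Part S 𝓘 u u₀)
    {Qinf : Place k F₁} (hQinf : Qinf ∈ S.c₁.good) :
    ∃ Pinf : Place K F, S.c₁.r Pinf = some Qinf ∧ ∀ τ ∈ 𝓘, τ • Pinf = Pinf := by
  have hd₁ : Disjoint ({Qinf} : Finset (Place k F₁)) S.br₁ :=
    Finset.disjoint_singleton_left.mpr (S.notMem_br₁ hQinf)
  have hd₂ : Disjoint (∅ : Finset (Place k F₂)) S.br₂ := Finset.disjoint_empty_left _
  obtain ⟨hco₁, -⟩ := BAD.H28.stmt_Coords K F k F₁ F₂ S H H₁ H₂ g g₁ g₂ c c₁ c₂ hR hR₁ hR₂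
    hnum {Qinf} ∅ hd₁ hd₂
  obtain ⟨s, hs⟩ := hco₁ Qinf (Finset.mem_singleton_self Qinf)
  have hs' : S.IsCoordA₁ {Qinf} ∅ s Qinf := hs
  obtain ⟨s₀, h0⟩ := hK0 s hs'.1.isGU.1 hs'.2.1.1
  have hs₀ := isCoordA₁_k0 H.principal hs' h0
  obtain ⟨Y, hY, hY1, hYu⟩ := hs₀.1.exists_zero H.principal
  refine ⟨Y, hY, fun τ hτ => ?_⟩
  by_contra hne
  have h1 : S.c₁.r (τ • Y) = some Qinf := by rw [(h𝓘 τ hτ).r₁, hY]
  have h2 := hYu (τ • Y) h1 hne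
  have h3 : (τ • Y).ord (τ • s₀) = Y.ord s₀ := SemilinearAut.ord_smul τ Y s₀
  rw [h0.fixed τ hτ, h2, hY1] at h3
  exact zero_ne_one h3

end Exist

end Fermat.Agent.BADP.H51
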