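import Fermat.Agent.BADP.H97_K3
import Fermat.Agent.BADP.H97_KGal

/-!
# BAD_p (S44, row 38), package K-ARITH, part 4 (helper97): `K₃ = K₀(ω)` and `K₁ = K₀(ζ)` in `ℚ̄`

* `val_pi_pow_div` : `v (π ^ (p - 1) / p + 1) < 1` for `p` odd (any valued field; Wilson);
* `exists_k3sum_of_fixed` : an element `c` of `ℚ̄` fixed by `I₃ = {σ ∈ I | σ ω = ω}` is
  `∑_{l < p} g l ϖ ^ l` with `g l ∈ K₀`, and `g l ∈ A` if `c ∈ A`
  (`ℚ̄^{I₃} ∩ A = ⊕ (K₀ ∩ A) ϖ ^ l`);
* the hypotheses (A0), (A2), (A3) of Key-p for the constants fixed by `I₃`: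
  `val_sigma_sub_of_fixed3`, `val_small_of_fixed3`, `val_sigma_sub_div_of_fixed3`,
  `val_small_sq_of_fixed3`;
* `exists_k1sum_of_mem_field`, `val_k1` (abstract) and `val_of_fixed1` : the value group of
  `K₁ = ℚ̄^{I₁}`, `I₁ = {σ ∈ I | σ ζ = ζ}`, is generated by `v π` (tame case).
-/

set_option autoImplicit false
set_option linter.style.haveILetI false

open Finset

namespace Fermat.Agent.BADP.H97

variable {L : Type*} [Field L]

/-! ### `π ^ (p - 1) / p ≡ -1` -/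

section Wilson

variable {Γ₀ : Type*} [LinearOrderedCommGroupWithZero Γ₀] (v : Valuation L Γ₀)

/-- Products of congruent integral elements are congruent. -/
theorem val_prod_sub_prod_lt {ι : Type*} (s : Finset ι) (a b : ι → L)
    (ha : ∀ i ∈ s, v (a i) ≤ 1) (hb : ∀ i ∈ s, v (b i) ≤ 1)
    (hab : ∀ i ∈ s, v (a i - b i) < 1) : v (∏ i ∈ s, a i - ∏ i ∈ s, b i) < 1 := by
  classical
  induction s using Finset.induction_on with
  | empty => simp
  | insert i s hi ih =>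
    rw [prod_insert hi, prod_insert hi]
    have e : a i * ∏ j ∈ s, a j - b i * ∏ j ∈ s, b j =
        a i * (∏ j ∈ s, a j - ∏ j ∈ s, b j) + (a i - b i) * ∏ j ∈ s, b j := by ring
    rw [e]
    have h1 := ih (fun j hj => ha j (mem_insert_of_mem hj)) (fun j hj => hb j (mem_insert_of_mem hj))
      (fun j hj => hab j (mem_insert_of_mem hj))
    have h2 : v (∏ j ∈ s, b j) ≤ 1 := by
      rw [map_prod]
      exact Finset.prod_le_one' fun j hj => hb j (mem_insert_of_mem hj)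
    refine lt_of_le_of_lt (v.map_add _ _) (max_lt ?_ ?_)
    · rw [map_mul]
      calc v (a i) * v (∏ j ∈ s, a j - ∏ j ∈ s, b j)
          ≤ 1 * v (∏ j ∈ s, a j - ∏ j ∈ s, b j) := mul_le_mul_left (ha i (mem_insert_self i s)) _
        _ = v (∏ j ∈ s, a j - ∏ j ∈ s, b j) := one_mul _
        _ < 1 := h1
    · rw [map_mul]
      calc v (a i - b i) * v (∏ j ∈ s, b j) ≤ v (a i - b i) * 1 := mul_le_mul_right h2 _
        _ = v (a i - b i) := mul_one _
        _ < 1 := hab i (mem_insert_self i s)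

/-- **(A0) of Key-p, part 1**: `π ^ (p - 1) / p ≡ -1` modulo the maximal ideal (`p` odd). -/
theorem val_pi_pow_div {p : ℕ} {ζ : L} (hp : p.Prime) (hp2 : p ≠ 2) (hζ : IsPrimitiveRoot ζ p)
    (hv : v (p : L) < 1) (hv0 : v (p : L) ≠ 0) :
    v ((ζ - 1) ^ (p - 1) / (p : L) + 1) < 1 := by
  obtain ⟨n, hn⟩ : ∃ n, p = n + 1 := ⟨p - 1, (Nat.succ_pred_eq_of_pos hp.pos).symm⟩
  have hroot : IsPrimitiveRoot ζ (n + 1) := hn ▸ hζ
  have hvζ : v ζ = 1 := by
    have h1 : v ζ ^ p = 1 := by rw [← map_pow, hζ.pow_eq_one, map_one]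
    exact (pow_eq_one_iff.1 h1).resolve_right hp.ne_zero
  have hneven : Even n := by
    rcases hp.eq_two_or_odd' with h | h
    · exact absurd h hp2
    · rw [hn] at h
      rcases Nat.even_or_odd n with he | ho
      · exact he
      · exact absurd (ho.add_one) (Nat.not_even_iff_odd.2 h)
  -- `p = π ^ n * ∏ G`
  set G : ℕ → L := fun k => ∑ i ∈ range (k + 1), ζ ^ i with hG
  have h1 := hroot.prod_one_sub_pow_eq_order
  have h2 : ∏ k ∈ range n, (1 - ζ ^ (k + 1)) = (ζ - 1) ^ n * ∏ k ∈ range n, G k := by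
    have : ∀ k ∈ range n, (1 - ζ ^ (k + 1)) = (-(ζ - 1)) * G k := by
      intro k _
      have := mul_geom_sum ζ (k + 1)
      simp only [hG]
      linear_combination this
    rw [prod_congr rfl this, prod_mul_distrib, prod_const, card_range, hneven.neg_pow]
  have hpL : (p : L) = (ζ - 1) ^ n * ∏ k ∈ range n, G k := by
    rw [← h2, h1, hn]
    push_cast
    ring
  -- `∏ G ≡ n!`
  have hπlt : v (ζ - 1) < 1 := (val_p_lt_val_pi v hp hp2 hζ hv hv0).1
  have hG1 : ∀ k ∈ range n, v (G k) ≤ 1 := fun k _ =>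
    v.map_sum_le fun i _ => by rw [map_pow, hvζ, one_pow]
  have hGc : ∀ k ∈ range n, v (G k - ((k + 1 : ℕ) : L)) < 1 := by
    intro k _
    have e : G k - ((k + 1 : ℕ) : L) = ∑ i ∈ range (k + 1), (ζ ^ i - 1) := by
      simp only [hG]
      rw [sum_sub_distrib, sum_const, card_range, nsmul_eq_mul, mul_one]
    rw [e]
    refine v.map_sum_lt one_ne_zero fun i _ => ?_
    exact lt_of_le_of_lt (val_pow_sub_one_le v hvζ.le i) hπlt
  have h3 : v (∏ k ∈ range n, G k - ∏ k ∈ range n, ((k + 1 : ℕ) : L)) < 1 :=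
    val_prod_sub_prod_lt v _ _ _ hG1 (fun k _ => val_natCast_le_one v _) hGc
  have hfac : ∏ k ∈ range n, ((k + 1 : ℕ) : L) = ((n.factorial : ℕ) : L) := by
    rw [← Nat.cast_prod, Finset.prod_range_add_one_eq_factorial]
  -- Wilson
  have hW : v (((n.factorial : ℕ) : L) + 1) < 1 := by
    haveI : Fact p.Prime := ⟨hp⟩
    have hn' : n = p - 1 := by omega
    have h4 : ((n.factorial + 1 : ℕ) : ZMod p) = 0 := by
      rw [hn']
      push_cast
      rw [ZMod.wilsons_lemma]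
      ring
    obtain ⟨c, hc⟩ := (ZMod.natCast_eq_zero_iff _ _).1 h4
    have h5 : ((n.factorial : ℕ) : L) + 1 = (p : L) * (c : L) := by
      have := congrArg (Nat.cast : ℕ → L) hc
      push_cast at this
      exact this
    rw [h5, map_mul]
    calc v (p : L) * v (c : L) ≤ v (p : L) * 1 := mul_le_mul_right (val_natCast_le_one v c) _
      _ = v (p : L) := mul_one _
      _ < 1 := hv
  have hQ : v (∏ k ∈ range n, G k + 1) < 1 := by
    have e : ∏ k ∈ range n, G k + 1 =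
        (∏ k ∈ range n, G k - ∏ k ∈ range n, ((k + 1 : ℕ) : L)) +
          (((n.factorial : ℕ) : L) + 1) := by
      rw [hfac]
      ring
    rw [e]
    exact lt_of_le_of_lt (v.map_add _ _) (max_lt h3 hW)
  have hQ1 : v (∏ k ∈ range n, G k) = 1 := by
    have e : ∏ k ∈ range n, G k = (∏ k ∈ range n, G k + 1) - 1 := by ring
    rw [e, v.map_sub_eq_of_lt_right (by rwa [map_one]), map_one]
  have hQ0 : ∏ k ∈ range n, G k ≠ 0 := fun h0 => by
    rw [h0, map_zero] at hQ1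
    exact zero_ne_one hQ1
  have hπ0 : ζ - 1 ≠ 0 := sub_ne_zero.2 (hζ.ne_one hp.one_lt)
  have e : (ζ - 1) ^ (p - 1) / (p : L) + 1 =
      (∏ k ∈ range n, G k + 1) / ∏ k ∈ range n, G k := by
    rw [hpL, hn, Nat.add_sub_cancel]
    field_simp
    ring
  rw [e, map_div₀, hQ1, div_one]
  exact hQ

end Wilson

/-! ### The field `K₁ = L₀(ζ)` (abstract) -/

section K1

variable {Γ₀ : Type*} [LinearOrderedCommGroupWithZero Γ₀] (v : Valuation L Γ₀)
  {L0 : Subfield L} {p : ℕ} {ζ : L}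

/-- Every element of `L₀(ζ)` is a sum `∑_{j < p - 1} g j π ^ j` with coefficients in `L₀`. -/
theorem exists_k1sum_of_mem_field (hp : 1 < p) (hζ : ζ ^ p = 1) (hζ1 : ζ ≠ 1) {c : L}
    (hc : c ∈ IntermediateField.adjoin L0 ({ζ} : Set L)) :
    ∃ g : ℕ → L, (∀ j, g j ∈ L0) ∧ c = ∑ j ∈ range (p - 1), g j * (ζ - 1) ^ j := by
  have h1 : c ∈ IntermediateField.adjoin L0 ({ζ, 1} : Set L) :=
    IntermediateField.adjoin.mono L0 _ _ (by
      intro x hx
      rw [Set.mem_singleton_iff] at hx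
      rw [hx]
      exact Set.mem_insert _ _) hc
  have hω : (1 : L) ^ p ∈ L0 := by
    rw [one_pow]
    exact one_mem L0
  obtain ⟨G, hG, rfl⟩ := exists_ksum_of_mem_field hp hζ hζ1 hω h1
  refine ⟨fun j => G (0, j), fun j => hG _, ?_⟩
  rw [ksum, idx, sum_product, sum_eq_single 0]
  · refine sum_congr rfl fun j _ => ?_
    simp [mono]
  · intro l _ hl
    refine sum_eq_zero fun j _ => ?_
    simp [mono, hl]
  · intro h
    exact absurd (mem_range.2 (by omega)) h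

/-- The value group of `L₀(ζ)` is generated by `v π`. -/
theorem val_k1 (hp : p.Prime) (hζ : IsPrimitiveRoot ζ p) (hv : v (p : L) < 1)
    (hv0 : v (p : L) ≠ 0)
    (hval : ∀ x ∈ L0, x ≠ 0 → ∃ n : ℤ, v x = v (p : L) ^ n) {c : L}
    (hc : c ∈ IntermediateField.adjoin L0 ({ζ} : Set L)) (hc0 : c ≠ 0) :
    ∃ m : ℤ, v c = v (ζ - 1) ^ m := by
  classical
  obtain ⟨g, hg, rfl⟩ := exists_k1sum_of_mem_field hp.one_lt hζ.pow_eq_one (hζ.ne_one hp.one_lt) hc
  have hπpow := val_root_sub_one_pow v hp hζ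
  have hp1 : p - 1 ≠ 0 := Nat.sub_ne_zero_of_lt hp.one_lt
  have hπ0 : v (ζ - 1) ≠ 0 := by
    intro h0
    rw [h0, zero_pow hp1] at hπpow
    exact hv0 hπpow.symm
  have hπpos : 0 < v (ζ - 1) := zero_lt_iff.2 hπ0
  have hπ1 : v (ζ - 1) < 1 := by
    by_contra hge
    rw [not_lt] at hge
    have : (1 : Γ₀) ≤ v (ζ - 1) ^ (p - 1) := one_le_pow₀ hge
    rw [hπpow] at this
    exact absurd hv (not_lt.2 this)
  -- the value of a term
  have hterm : ∀ j, g j ≠ 0 → ∃ n : ℤ, v (g j * (ζ - 1) ^ j) =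
      v (ζ - 1) ^ (((p : ℤ) - 1) * n + j) := by
    intro j hj
    obtain ⟨n, hn⟩ := hval (g j) (hg j) hj
    refine ⟨n, ?_⟩
    rw [map_mul, map_pow, hn, ← hπpow, ← zpow_natCast, ← zpow_mul, zpow_add₀ hπ0, zpow_natCast]
    congr 2
    push_cast [Nat.cast_sub hp.one_le]
    ring
  obtain ⟨j₁, hj₁, hj₁0⟩ := exists_ne_zero_of_sum_ne_zero hc0
  obtain ⟨j₀, hj₀, hmax⟩ := exists_max_image (range (p - 1)) (fun j => v (g j * (ζ - 1) ^ j))
    ⟨j₁, hj₁⟩
  have hpos : v (g j₀ * (ζ - 1) ^ j₀) ≠ 0 := by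
    have h1 : v (g j₁ * (ζ - 1) ^ j₁) ≠ 0 := (Valuation.ne_zero_iff v).2 hj₁0
    intro h0
    have := hmax j₁ hj₁
    rw [h0] at this
    exact h1 (le_antisymm this zero_le)
  have hg0 : g j₀ ≠ 0 := fun h0 => hpos (by rw [h0, zero_mul, map_zero])
  have hlt : ∀ j ∈ range (p - 1), j ≠ j₀ → v (g j * (ζ - 1) ^ j) < v (g j₀ * (ζ - 1) ^ j₀) := by
    intro j hj hne
    refine lt_of_le_of_ne (hmax j hj) fun heq => hne ?_
    have hgj : g j ≠ 0 := fun h0 => hpos (by rw [← heq, h0, zero_mul, map_zero])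
    obtain ⟨n, hn⟩ := hterm j hgj
    obtain ⟨n', hn'⟩ := hterm j₀ hg0
    rw [hn, hn'] at heq
    have h1 := zpow_right_injective₀ hπpos hπ1.ne heq
    have hj' := mem_range.1 hj
    have hj₀' := mem_range.1 hj₀
    have h2 : ((p : ℤ) - 1) ∣ ((j : ℤ) - j₀) := ⟨n' - n, by linear_combination h1⟩
    have h3 : |(j : ℤ) - j₀| < (p : ℤ) - 1 := by
      rw [abs_lt]
      constructor <;> omega
    have := Int.eq_zero_of_abs_lt_dvd h2 h3
    omega
  obtain ⟨n, hn⟩ := hterm j₀ hg0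
  refine ⟨((p : ℤ) - 1) * n + j₀, ?_⟩
  rw [← hn]
  refine Valuation.map_sum_eq_of_lt v hj₀ fun j hj => ?_
  rw [mem_sdiff, mem_singleton] at hj
  exact hlt j hj.1 hj.2

end K1

/-! ### The constants fixed by `I₃` and by `I₁` -/

section Fixed

variable {A : ValuationSubring (AlgebraicClosure ℚ)} {p : ℕ} {ζ ω : AlgebraicClosure ℚ}
  {σ : AlgebraicClosure ℚ ≃ₐ[ℚ] AlgebraicClosure ℚ}

theorem mem_adjoin_omega_of_fixed (hp : p.Prime) (hA : A.LiesOverPrime p)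
    {c : AlgebraicClosure ℚ} (hc : ∀ τ ∈ A.inertiaSubgroupIn ℚ, τ ω = ω → τ c = c) :
    c ∈ IntermediateField.adjoin (K0 A) ({ω} : Set (AlgebraicClosure ℚ)) := by
  refine mem_adjoin_of_fixed hp hA {ω} fun τ hτ hT => hc τ hτ (hT ω ?_)
  simp

theorem mem_adjoin_zeta_of_fixed (hp : p.Prime) (hA : A.LiesOverPrime p)
    {c : AlgebraicClosure ℚ} (hc : ∀ τ ∈ A.inertiaSubgroupIn ℚ, τ ζ = ζ → τ c = c) :
    c ∈ IntermediateField.adjoin (K0 A) ({ζ} : Set (AlgebraicClosure ℚ)) := by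
  refine mem_adjoin_of_fixed hp hA {ζ} fun τ hτ hT => hc τ hτ (hT ζ ?_)
  simp

/-- `ℚ̄^{I₃} = ⊕_{l < p} K₀ ϖ ^ l` and `ℚ̄^{I₃} ∩ A = ⊕_{l < p} (K₀ ∩ A) ϖ ^ l`. -/
theorem exists_k3sum_of_fixed (hA : A.LiesOverPrime p)
    (h : KData A.valuation (K0 A) p ζ ω (σ : AlgebraicClosure ℚ →+* AlgebraicClosure ℚ))
    {c : AlgebraicClosure ℚ} (hc : ∀ τ ∈ A.inertiaSubgroupIn ℚ, τ ω = ω → τ c = c) :
    ∃ g : ℕ → AlgebraicClosure ℚ, (∀ l, g l ∈ K0 A) ∧ c = k3sum p ω g ∧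
      (c ∈ A → ∀ l, l < p → g l ∈ A) := by
  obtain ⟨g, hg, rfl⟩ := h.exists_k3sum (mem_adjoin_omega_of_fixed h.prime hA hc)
  refine ⟨g, hg, rfl, fun hcA l hl => ?_⟩
  rw [← A.valuation_le_one_iff] at hcA ⊢
  exact h.val_k3coeff_le hg hcA hl

/-- **(A2) of Key-p, constants**: `c ∈ A` fixed by `I₃` `⇒ (σ c - c) / π ∈ A`. -/
theorem val_sigma_sub_of_fixed3 (hA : A.LiesOverPrime p)
    (h : KData A.valuation (K0 A) p ζ ω (σ : AlgebraicClosure ℚ →+* AlgebraicClosure ℚ))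
    {c : AlgebraicClosure ℚ} (hcA : c ∈ A)
    (hc : ∀ τ ∈ A.inertiaSubgroupIn ℚ, τ ω = ω → τ c = c) :
    (σ c - c) / (ζ - 1) ∈ A := by
  rw [← A.valuation_le_one_iff, map_div₀]
  exact div_le_one_of_le₀ (h.val_sigma_sub_k3 (mem_adjoin_omega_of_fixed h.prime hA hc)
    ((A.valuation_le_one_iff c).2 hcA)) zero_le

/-- **(A3) of Key-p, part 1, constants**: a non-unit `a` fixed by `I₃` is divisible by `ϖ`. -/
theorem val_small_of_fixed3 (hA : A.LiesOverPrime p)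
    (h : KData A.valuation (K0 A) p ζ ω (σ : AlgebraicClosure ℚ →+* AlgebraicClosure ℚ))
    {a : AlgebraicClosure ℚ} (haA : a ∈ A.nonunits)
    (ha : ∀ τ ∈ A.inertiaSubgroupIn ℚ, τ ω = ω → τ a = a) :
    a / (ω - 1) ∈ A := by
  rw [← A.valuation_le_one_iff, map_div₀]
  exact div_le_one_of_le₀ (h.val_k3_small (mem_adjoin_omega_of_fixed h.prime hA ha)
    (A.mem_nonunits_iff.1 haA)) zero_le

/-- **(A3) of Key-p, part 2, constants**: `(σ a - a) / π ≡ a / ϖ` modulo the maximal ideal. -/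
theorem val_sigma_sub_div_of_fixed3 (hA : A.LiesOverPrime p)
    (h : KData A.valuation (K0 A) p ζ ω (σ : AlgebraicClosure ℚ →+* AlgebraicClosure ℚ))
    {a : AlgebraicClosure ℚ} (haA : a ∈ A.nonunits)
    (ha : ∀ τ ∈ A.inertiaSubgroupIn ℚ, τ ω = ω → τ a = a) :
    (σ a - a) / (ζ - 1) - a / (ω - 1) ∈ A.nonunits := by
  rw [A.mem_nonunits_iff]
  exact h.val_sigma_sub_div_k3 (mem_adjoin_omega_of_fixed h.prime hA ha)
    (A.mem_nonunits_iff.1 haA)

/-- **(A3) of Key-p, part 3, constants**: if `a / ϖ` is a non-unit then `a / ϖ ^ 2 ∈ A`. -/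
theorem val_small_sq_of_fixed3 (hA : A.LiesOverPrime p)
    (h : KData A.valuation (K0 A) p ζ ω (σ : AlgebraicClosure ℚ →+* AlgebraicClosure ℚ))
    {a : AlgebraicClosure ℚ} (haA : a / (ω - 1) ∈ A.nonunits)
    (ha : ∀ τ ∈ A.inertiaSubgroupIn ℚ, τ ω = ω → τ a = a) :
    a / (ω - 1) ^ 2 ∈ A := by
  rw [← A.valuation_le_one_iff, map_div₀, map_pow]
  exact div_le_one_of_le₀ (h.val_k3_small_sq (mem_adjoin_omega_of_fixed h.prime hA ha)
    (A.mem_nonunits_iff.1 haA)) zero_le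

/-- **Tame case**: the value group of `K₁ = ℚ̄^{I₁}` is generated by `v π`. -/
theorem val_of_fixed1 (hp : p.Prime) (hA : A.LiesOverPrime p) (hζ : IsPrimitiveRoot ζ p)
    {c : AlgebraicClosure ℚ} (hc0 : c ≠ 0)
    (hc : ∀ τ ∈ A.inertiaSubgroupIn ℚ, τ ζ = ζ → τ c = c) :
    ∃ m : ℤ, A.valuation c = A.valuation (ζ - 1) ^ m :=
  val_k1 A.valuation hp hζ (val_p_lt hA) (val_p_ne hp) (val_K0 hp hA)
    (mem_adjoin_zeta_of_fixed hp hA hc) hc0

end Fixed

end Fermat.Agent.BADP.H97
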