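/-
helper66, row 38 (S44), package BAD_p: EIS-ABS, the TAME case (T).

`stmt_EisAbsTame_of : Stmt_NodeVal → Stmt_EisAbsTame`, where `Stmt_NodeVal` is leaf (N) NODE-VAL
(helper97's note; owner helper38): for a Kummer function `f` fixed by `𝓘' ⊆ 𝓘` there are, at
every node `s`, a thickness exponent `e s` (`e s · ord_{s.1} (rd₁ U) = w`), a function `G s`
fixed by `𝓘'` and `d s ∈ ℤ` with
`v₂ f = v₂ p ^ (e s · (ord_{s.1} (rd₁ f) - p · d s)) · v₂ (G s) ^ p`.

Proof of (T) from (N) with `𝓘' = 𝓘1`: `G s ∈ F0 (ζ)`, so `v₂ (G s) = v₂ (ζ - 1) ^ j s`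
(`H97.val_k1`) and `v₂ p = v₂ (ζ - 1) ^ (p - 1)`; hence the integer
`(p - 1) · e s · (n_s - p · d s) + p · j s` does not depend on `s`, so `e s · n_s` is constant
modulo `p`; as `e s · n_s (U) = w` is prime to `p`, `n_s ≡ m · n_s (U)` modulo `p` for a fixed
`m`.

* `eisTame_arith` : the arithmetic core (any linearly ordered group with zero).
* `eisTame_core`  : (T) for one datum, from the conclusion of (N) for that datum.
* `stmt_EisAbsTame_of : H38.Stmt_NodeVal → Stmt_EisAbsTame`.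
-/
import Fermat.Agent.BADP.EisAbs
import Fermat.Agent.BADP.H38_EisNodeDefs
import Fermat.Agent.BADP.H97_K3Q

set_option autoImplicit false
set_option linter.style.haveILetI false
set_option linter.unusedSectionVars false

noncomputable section

open AlgebraicCurve

namespace Fermat.Agent.BADP.H66

open Fermat.Agent.RED.H17 Fermat.Agent.RED Fermat.Agent.BAD Fermat.Agent.BADP

/-- **Arithmetic core of (T).**  `π` with `0 < π < 1` in a linearly ordered group with zero,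
`p` prime, `w` prime to `p`; at every node `s` integers `e s`, `nU s`, `nf s`, `d s`, `j s` with
`e s · nU s = w` and `X = (π ^ (p - 1)) ^ (e s · (nf s - p · d s)) · (π ^ j s) ^ p` for a value
`X` which does not depend on `s`.  Then `nf s ≡ m · nU s` modulo `p` for a fixed `m`. -/
theorem eisTame_arith {Γ₀ : Type*} [LinearOrderedCommGroupWithZero Γ₀] {ι : Type*}
    (nodes : Finset ι) {p : ℕ} (hp : p.Prime) {w : ℕ} (hw : ¬ p ∣ w)
    {π X : Γ₀} (hπ0 : 0 < π) (hπ1 : π < 1)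
    (e : ι → ℕ) (nU nf d j : ι → ℤ)
    (he : ∀ s ∈ nodes, (e s : ℤ) * nU s = w)
    (hX : ∀ s ∈ nodes, X = (π ^ (p - 1)) ^ ((e s : ℤ) * (nf s - p * d s)) * (π ^ j s) ^ p) :
    ∃ m : ℤ, ∀ s ∈ nodes, (p : ℤ) ∣ nf s - m * nU s := by
  haveI : Fact p.Prime := ⟨hp⟩
  -- the exponent of `π`
  have hA : ∀ s ∈ nodes,
      X = π ^ (((p : ℤ) - 1) * ((e s : ℤ) * (nf s - p * d s)) + p * j s) := by
    intro s hs
    rw [hX s hs, ← zpow_natCast π (p - 1), ← zpow_mul, ← zpow_natCast (π ^ j s) p, ← zpow_mul,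
      ← zpow_add₀ hπ0.ne']
    congr 1
    push_cast [Nat.cast_sub hp.one_le]
    ring
  -- the exponents agree
  have hAeq : ∀ s ∈ nodes, ∀ s' ∈ nodes,
      ((p : ℤ) - 1) * ((e s : ℤ) * (nf s - p * d s)) + p * j s =
        ((p : ℤ) - 1) * ((e s' : ℤ) * (nf s' - p * d s')) + p * j s' := by
    intro s hs s' hs'
    exact zpow_right_injective₀ hπ0 hπ1.ne ((hA s hs).symm.trans (hA s' hs'))
  -- modulo `p`
  have hmod : ∀ s ∈ nodes, ∀ s' ∈ nodes,
      ((e s : ℕ) : ZMod p) * ((nf s : ℤ) : ZMod p) = ((e s' : ℕ) : ZMod p) * ((nf s' : ℤ) : ZMod p) := by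
    intro s hs s' hs'
    have h := congrArg (fun x : ℤ => (x : ZMod p)) (hAeq s hs s' hs')
    simp only [Int.cast_add, Int.cast_mul, Int.cast_sub, Int.cast_natCast, Int.cast_one,
      CharP.cast_eq_zero, zero_mul, zero_sub, add_zero, sub_zero, neg_mul, one_mul,
      neg_inj] at h
    exact h
  have hw0 : ((w : ℕ) : ZMod p) ≠ 0 := by
    rw [Ne, ZMod.natCast_eq_zero_iff]
    exact hw
  have heU : ∀ s ∈ nodes, ((e s : ℕ) : ZMod p) * ((nU s : ℤ) : ZMod p) = (w : ZMod p) := by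
    intro s hs
    have h := congrArg (fun x : ℤ => (x : ZMod p)) (he s hs)
    simpa using h
  rcases nodes.eq_empty_or_nonempty with hemp | ⟨s₀, hs₀⟩
  · exact ⟨0, fun s hs => absurd hs (by rw [hemp]; exact Finset.notMem_empty s)⟩
  obtain ⟨m, hm⟩ := ZMod.intCast_surjective
    (((e s₀ : ℕ) : ZMod p) * ((nf s₀ : ℤ) : ZMod p) / (w : ZMod p))
  refine ⟨m, fun s hs => ?_⟩
  rw [← ZMod.intCast_zmod_eq_zero_iff_dvd, Int.cast_sub, Int.cast_mul, hm, sub_eq_zero]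
  have hes : ((e s : ℕ) : ZMod p) ≠ 0 := by
    intro h0
    apply hw0
    rw [← heU s hs, h0, zero_mul]
  have hnU : ((nU s : ℤ) : ZMod p) ≠ 0 := by
    intro h0
    apply hw0
    rw [← heU s hs, h0, mul_zero]
  have h1 := hmod s₀ hs₀ s hs
  have h2 := heU s hs
  rw [h1, ← h2]
  field_simp

section Core

variable {K F k F₁ F₂ : Type} [Field K] [Field F] [Algebra K F] [Field k] [Field F₁]
  [Algebra k F₁] [Field F₂] [Algebra k F₂]

/-- `v₂ p < 1` when the residue characteristic is `p`. -/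
theorem val₂_natCast_lt_one (S : SSD K F k F₁ F₂) (p : ℕ) [CharP k p] :
    S.c₂.V.valuation (p : F) < 1 := by
  have h0 : S.c₂.red (p : S.c₂.V) = 0 := by
    rw [map_natCast]
    have h1 : ((p : k) : k) = 0 := CharP.cast_eq_zero k p
    have h2 : ((p : ℕ) : F₂) = algebraMap k F₂ (p : k) := (map_natCast (algebraMap k F₂) p).symm
    rw [h2, h1, map_zero]
  have h3 := (S.c₂.red_eq_zero_iff _).1 h0
  have h4 := (S.c₂.V.valuation_lt_one_iff _).1 h3
  exact_mod_cast h4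

/-- **(T) for one datum**, from the conclusion of (N) for the functions fixed by `𝓘1`. -/
theorem eisTame_core (S : SSD K F k F₁ F₂) {p : ℕ} (hp : p.Prime) [CharP k p]
    (hpK : (p : K) ≠ 0) (𝓘1 : Set (SemilinearAut K F)) (F0 : Subfield F)
    {ζ : K} (hζ : IsPrimitiveRoot ζ p)
    (hval₂ : ∀ y ∈ F0, y ≠ 0 → ∃ n : ℤ, S.c₂.V.valuation y = S.c₂.V.valuation (p : F) ^ n)
    (hdesc : ∀ y : F, (∀ τ ∈ 𝓘1, τ • y = y) →
      y ∈ IntermediateField.adjoin F0 ({algebraMap K F ζ} : Set F))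
    (U : F) {w : ℕ} (hw : ¬ p ∣ w) (f : F)
    (hN : ∃ (e : Place k F₁ × Place k F₂ → ℕ) (G : Place k F₁ × Place k F₂ → F)
        (d : Place k F₁ × Place k F₂ → ℤ), ∀ s ∈ S.nodes,
        (e s : ℤ) * s.1.ord (S.c₁.rd U) = w ∧
        (∀ τ ∈ 𝓘1, τ • G s = G s) ∧ S.c₁.IsGU (G s) ∧
        (∀ P : Place K F, S.c₁.r P = some s.1 → (p : ℤ) * P.ord (G s) = P.ord f) ∧
        S.c₂.V.valuation f =
          S.c₂.V.valuation (p : F) ^ ((e s : ℤ) * (s.1.ord (S.c₁.rd f) - p * d s)) *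
            S.c₂.V.valuation (G s) ^ p) :
    ∃ m : ℤ, ∀ s ∈ S.nodes, (p : ℤ) ∣ s.1.ord (S.c₁.rd f) - m * s.1.ord (S.c₁.rd U) := by
  classical
  obtain ⟨e, G, d, hN⟩ := hN
  have hζF : IsPrimitiveRoot (algebraMap K F ζ) p :=
    hζ.map_of_injective (algebraMap K F).injective
  have hv : S.c₂.V.valuation (p : F) < 1 := val₂_natCast_lt_one S p
  have hpF : (p : F) ≠ 0 := by
    have h : ((p : ℕ) : F) = algebraMap K F (p : K) := (map_natCast (algebraMap K F) p).symm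
    rw [h]
    exact (map_ne_zero (algebraMap K F)).2 hpK
  have hv0 : S.c₂.V.valuation (p : F) ≠ 0 := (Valuation.ne_zero_iff _).2 hpF
  have hπpow := H97.val_root_sub_one_pow S.c₂.V.valuation hp hζF
  have hp1 : p - 1 ≠ 0 := Nat.sub_ne_zero_of_lt hp.one_lt
  have hπ0 : S.c₂.V.valuation (algebraMap K F ζ - 1) ≠ 0 := by
    intro h0
    rw [h0, zero_pow hp1] at hπpow
    exact hv0 hπpow.symm
  have hπ1 : S.c₂.V.valuation (algebraMap K F ζ - 1) < 1 := by
    by_contra hge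
    rw [not_lt] at hge
    have h1 : (1 : S.c₂.V.ValueGroup) ≤ S.c₂.V.valuation (algebraMap K F ζ - 1) ^ (p - 1) :=
      one_le_pow₀ hge
    rw [hπpow] at h1
    exact absurd hv (not_lt.2 h1)
  -- the values of the `G s`
  have hj : ∀ s : Place k F₁ × Place k F₂, ∃ j : ℤ, s ∈ S.nodes →
      S.c₂.V.valuation (G s) = S.c₂.V.valuation (algebraMap K F ζ - 1) ^ j := by
    intro s
    by_cases hs : s ∈ S.nodes
    · obtain ⟨-, hfix, hGU, -, -⟩ := hN s hs
      obtain ⟨j, hj⟩ := H97.val_k1 S.c₂.V.valuation hp hζF hv hv0 hval₂ (hdesc (G s) hfix)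
        hGU.ne_zero
      exact ⟨j, fun _ => hj⟩
    · exact ⟨0, fun h => absurd h hs⟩
  choose j hj using hj
  refine eisTame_arith S.nodes hp hw (zero_lt_iff.2 hπ0) hπ1 e
    (fun s => s.1.ord (S.c₁.rd U)) (fun s => s.1.ord (S.c₁.rd f)) d j
    (X := S.c₂.V.valuation f) (fun s hs => (hN s hs).1) (fun s hs => ?_)
  obtain ⟨-, -, -, -, hval⟩ := hN s hs
  rw [hval, hπpow, hj s hs]

end Core

/-- **EIS-ABS-TAME** from **NODE-VAL** (helper66). -/
theorem stmt_EisAbsTame_of (hN : H38.Stmt_NodeVal) : Stmt_EisAbsTame := by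
  intro K F k F₁ F₂ _ _ _ _ _ _ _ _ _ _ S H H₁ H₂ g g₁ g₂ c c₁ c₂ hR hR₁ hR₂ hnum p hp _hp2
    hchar hpK 𝓘 𝓘1 hI h1 hK0 F0 hF0 ζ hζ _hval₁ hval₂ hdesc _hζfix U w hU hUfix hUnode hU₂ hw
    f hf hfdiv hffix
  haveI : CharP k p := hchar
  exact eisTame_core S hp hpK 𝓘1 F0 hζ hval₂ hdesc U hw f
    (hN K F k F₁ F₂ S H H₁ H₂ g g₁ g₂ c c₁ c₂ hR hR₁ hR₂ hnum p hp hchar hpK 𝓘 𝓘1 hI h1 hK0 F0
      hF0 hval₂ U w hU hUfix hUnode hU₂ hw f hf hfdiv hffix)

end Fermat.Agent.BADP.H66
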