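import Fermat.Agent.S43.Old.H35_Abs
import Mathlib.Data.Nat.Prime.Int

/-!
# S44, BADP leaf H-DROP (helper74), abstract part

Setting as in `Fermat.Agent.S43.Old.H35` (helper35): `L / K` a function field with a valuation
ring `V` and a reduction map `red : V → F'` into a function field `F' / k`; Hecke towers
`α, β : L → L'` and `α', β' : F' → F''` with NORM-RED
(`red (Norm_α (β f)) = Norm_α' (β' (red f))`).

* `dvd_ord_normAlong` : if `p ∣ ord_w h` for all places `w` over `v` then `p ∣ ord_v (Norm h)`;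
* `ord_norm_red_eq` : if `p D = div f`, `f` a unit of `V`, and `T D - t D = div h` then
  `ord_Q (Norm_α' (β' (red f))) = t · ord_Q (red f) + p · ord_Q (red h₁)`  (Hecke on slopes);
* `hdrop_abs` : **H-DROP, abstract form.**  If moreover the slope vector `ord_Q (red f)` is,
  modulo `p`, a multiple `A' · ord_Q U` off a set `C` of places ("cusps") and `0` on `C`, where
  `β' U / α' U` has no zeros and poles off the cusps, and `t ≠ deg α'` modulo `p`, then all
  slopes vanish modulo `p`.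
-/

set_option autoImplicit false
set_option linter.style.haveILetI false

noncomputable section

open AlgebraicCurve

namespace Fermat.Agent.BADP.H74

open Fermat.Agent.RED.H17 Fermat.Agent.S43.Old.H35

section Push

variable {K F F' : Type*} [Field K] [Field F] [Field F'] [Algebra K F] [Algebra K F']

/-- If `p` divides the order of `h` at every place over `v` then `p` divides the order of the
norm of `h` at `v`. -/
theorem dvd_ord_normAlong (α : F →ₐ[K] F') (hα : α.toRingHom.IsIntegral)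
    [HasPrincipalDivisors K F'] (hfin : FiniteAlong K α) (hN : NormFormulaAlong K α hfin)
    (p : ℤ) {h : F'} (hh : h ≠ 0) (v : Place K F)
    (hw : ∀ w : Place K F', w.restrictAlong α hα = v → p ∣ w.ord h) :
    p ∣ v.ord (normAlong α h) := by
  classical
  letI := algebraAlong α
  haveI := isScalarTower_along α
  haveI := isIntegral_along α hα
  haveI : Module.Finite F F' := hfin
  obtain ⟨D, hD, -⟩ := HasPrincipalDivisors.exists_divisor (K := K) h hh
  have h1 : Divisor.pushforward F D v = v.ord (Algebra.norm F h) := hN h hh D hD v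
  show p ∣ v.ord (Algebra.norm F h)
  rw [← h1, Divisor.pushforward_apply]
  refine Finset.dvd_sum fun w _ => ?_
  split_ifs with h2
  · rw [hD w]
    exact Dvd.dvd.mul_right (hw w h2) _
  · exact dvd_zero _

theorem normAlong_mul (α : F →ₐ[K] F') (x y : F') :
    normAlong α (x * y) = normAlong α x * normAlong α y := by
  letI := algebraAlong α
  exact map_mul (Algebra.norm F) x y

theorem normAlong_inv (α : F →ₐ[K] F') {x : F'} (hx : x ≠ 0) :
    normAlong α x⁻¹ = (normAlong α x)⁻¹ := by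
  apply eq_inv_of_mul_eq_one_left
  rw [← normAlong_mul, inv_mul_cancel₀ hx]
  letI := algebraAlong α
  exact map_one (Algebra.norm F)

theorem normAlong_pow (α : F →ₐ[K] F') (x : F') (n : ℕ) :
    normAlong α (x ^ n) = normAlong α x ^ n := by
  letI := algebraAlong α
  exact map_pow (Algebra.norm F) x n

theorem normAlong_zpow (α : F →ₐ[K] F') {x : F'} (hx : x ≠ 0) (n : ℤ) :
    normAlong α (x ^ n) = normAlong α x ^ n := by
  cases n with
  | ofNat m => simp only [Int.ofNat_eq_natCast, zpow_natCast, normAlong_pow]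
  | negSucc m =>
    rw [zpow_negSucc, zpow_negSucc, normAlong_inv α (pow_ne_zero _ hx), normAlong_pow]

theorem normAlong_apply (α : F →ₐ[K] F') (x : F) :
    normAlong α (α x) = x ^ finrankAlong K α := by
  letI := algebraAlong α
  exact Algebra.norm_algebraMap x

end Push

section LevelN

variable {K L L' k F' F'' : Type*} [Field K] [Field L] [Field L'] [Algebra K L] [Algebra K L']
  [Field k] [Field F'] [Field F''] [Algebra k F'] [Algebra k F'']

/-- **Hecke on slopes.**  If `p D = div f` with `f` a unit of `V` and `T D - t D` is principal,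
then the divisor of `Norm_α' (β' (red f))` is `t · div (red f)` modulo `p`. -/
theorem ord_norm_red_eq
    (hconstL : ∀ g : L, g ≠ 0 → (∀ P : Place K L, P.ord g = 0) → ∃ c : K, g = algebraMap K L c)
    (α β : L →ₐ[K] L') (hα : α.toRingHom.IsIntegral) (hβ : β.toRingHom.IsIntegral)
    [HasPrincipalDivisors K L'] (hfin : FiniteAlong K α) (hNF : NormFormulaAlong K α hfin)
    (α' β' : F' →ₐ[k] F'') (hfin' : FiniteAlong k α')
    (V : ValuationSubring L) (red : ↥V →+* F')
    (hred0 : ∀ u : ↥V, red u = 0 ↔ ¬ IsUnit u)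
    (hscale : ∀ f : L, f ≠ 0 → ∃ c : K, c ≠ 0 ∧
      ∃ h : algebraMap K L c * f ∈ V, red ⟨_, h⟩ ≠ 0)
    (hconst : ∀ (c : K) (h : algebraMap K L c ∈ V), ∃ c' : k,
      red ⟨_, h⟩ = algebraMap k F' c')
    (hnorm : ∀ f : ↥V, ∃ h : normAlong α (β (f : L)) ∈ V,
      red ⟨_, h⟩ = normAlong α' (β' (red f)))
    (p : ℕ) (t : ℤ)
    (D : Divisor K L) (f : ↥V) (hf : red f ≠ 0)
    (hD : ∀ P : Place K L, (p : ℤ) * D P = P.ord (f : L))
    (heig : (Divisor.correspondence β α hβ hα D - t • D).IsPrincipal) :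
    normAlong α' (β' (red f)) ≠ 0 ∧
    ∃ h' : F', h' ≠ 0 ∧ ∀ Q : Place k F',
      Q.ord (normAlong α' (β' (red f))) = t * Q.ord (red f) + (p : ℤ) * Q.ord h' := by
  obtain ⟨h, hh0, hh⟩ := heig
  have hne : ∀ u : ↥V, red u ≠ 0 → (u : L) ≠ 0 := by
    intro u hu h0
    have : u = 0 := Subtype.ext h0
    rw [this, map_zero] at hu
    exact hu rfl
  have hf0 : (f : L) ≠ 0 := hne f hf
  -- the Kummer function of `T D`
  obtain ⟨hnfV, hnfred⟩ := hnorm f
  set nf : ↥V := ⟨normAlong α (β (f : L)), hnfV⟩ with hnf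
  have hβ'g : β' (red f) ≠ 0 := by
    intro h0
    exact hf (β'.toRingHom.injective (by simpa using h0))
  have hN0 : normAlong α' (β' (red f)) ≠ 0 := normAlong_ne_zero α' hfin' hβ'g
  have hnfred0 : red nf ≠ 0 := by
    rw [hnfred]
    exact hN0
  have hnf0 : (nf : L) ≠ 0 := hne nf hnfred0
  have hordnf : ∀ P : Place K L,
      P.ord (nf : L) = (p : ℤ) * Divisor.correspondence β α hβ hα D P := fun P =>
    (corr_ord β α hβ hα hfin hNF (p : ℤ) D hf0 hD P).symm
  -- scale `h`
  obtain ⟨c₁, hc₁, hh1V, hh1red⟩ := hscale h hh0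
  set h1 : ↥V := ⟨algebraMap K L c₁ * h, hh1V⟩ with hh1
  have hh10 : (h1 : L) ≠ 0 := hne h1 hh1red
  have hordh1 : ∀ P : Place K L, P.ord (h1 : L) = P.ord h := fun P =>
    ord_algebraMap_mul P hc₁ h
  -- exponents
  obtain ⟨a, b, hab⟩ : ∃ a b : ℕ, t = (a : ℤ) - (b : ℤ) :=
    ⟨t.toNat, (-t).toNat, by omega⟩
  set w : ↥V := nf * f ^ b with hw
  set u : ↥V := f ^ a * h1 ^ p with hu
  have hwred : red w ≠ 0 := by
    rw [hw, map_mul, map_pow]
    exact mul_ne_zero hnfred0 (pow_ne_zero _ hf)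
  have hured : red u ≠ 0 := by
    rw [hu, map_mul, map_pow, map_pow]
    exact mul_ne_zero (pow_ne_zero _ hf) (pow_ne_zero _ hh1red)
  have hw0 : (w : L) ≠ 0 := hne w hwred
  have hu0 : (u : L) ≠ 0 := hne u hured
  have huU : IsUnit u := by
    by_contra hcon
    exact hured ((hred0 u).2 hcon)
  obtain ⟨uu, huu⟩ := huU
  -- the quotient has no zeros and poles
  have hwcoe : (w : L) = (nf : L) * (f : L) ^ b := rfl
  have hucoe : (u : L) = (f : L) ^ a * (h1 : L) ^ p := rfl
  have hord : ∀ P : Place K L, P.ord ((w : L) / (u : L)) = 0 := by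
    intro P
    rw [ord_div P hw0 hu0, hwcoe, hucoe, P.ord_mul hnf0 (pow_ne_zero _ hf0),
      P.ord_mul (pow_ne_zero _ hf0) (pow_ne_zero _ hh10), ord_pow, ord_pow, ord_pow,
      hordnf P, hordh1 P, ← hh P, ← hD P, Finsupp.sub_apply, Finsupp.smul_apply, smul_eq_mul,
      hab]
    ring
  obtain ⟨c₀, hc₀⟩ := hconstL _ (div_ne_zero hw0 hu0) hord
  have hc₀V : algebraMap K L c₀ ∈ V := by
    rw [← hc₀]
    have h1' : (w : L) / (u : L) = ((w * ((uu⁻¹ : (↥V)ˣ) : ↥V) : ↥V) : L) := by
      have h2 : ((uu⁻¹ : (↥V)ˣ) : ↥V) * u = 1 := by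
        rw [← huu]
        exact Units.inv_mul uu
      have h3 : ((((uu⁻¹ : (↥V)ˣ) : ↥V)) : L) * (u : L) = 1 := by
        have := congrArg (fun z : ↥V => (z : L)) h2
        simpa using this
      have h4 : ((((uu⁻¹ : (↥V)ˣ) : ↥V)) : L) = (u : L)⁻¹ := eq_inv_of_mul_eq_one_left h3
      rw [div_eq_mul_inv, ← h4]
      rfl
    rw [h1']
    exact Subtype.property _
  obtain ⟨c₀', hc₀'⟩ := hconst c₀ hc₀V
  have hrel : (⟨algebraMap K L c₀, hc₀V⟩ : ↥V) * u = w := by
    apply Subtype.ext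
    show algebraMap K L c₀ * (u : L) = (w : L)
    rw [← hc₀, div_mul_cancel₀ _ hu0]
  have hrelred : algebraMap k F' c₀' * red u = red w := by
    rw [← hc₀', ← map_mul, hrel]
  have hc₀'0 : c₀' ≠ 0 := by
    rintro rfl
    rw [map_zero, zero_mul] at hrelred
    exact hwred hrelred.symm
  -- orders of the reductions
  refine ⟨hN0, red h1, hh1red, fun Q => ?_⟩
  have hQ2 := congrArg Q.ord hrelred
  rw [ord_algebraMap_mul Q hc₀'0, hu, hw, map_mul, map_pow, map_pow, map_mul, map_pow,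
    Q.ord_mul (pow_ne_zero _ hf) (pow_ne_zero _ hh1red),
    Q.ord_mul hnfred0 (pow_ne_zero _ hf), ord_pow, ord_pow, ord_pow, hnfred] at hQ2
  rw [hab]
  linear_combination -hQ2

/-- **H-DROP, abstract form.** -/
theorem hdrop_abs
    (hconstL : ∀ g : L, g ≠ 0 → (∀ P : Place K L, P.ord g = 0) → ∃ c : K, g = algebraMap K L c)
    (α β : L →ₐ[K] L') (hα : α.toRingHom.IsIntegral) (hβ : β.toRingHom.IsIntegral)
    [HasPrincipalDivisors K L'] (hfin : FiniteAlong K α) (hNF : NormFormulaAlong K α hfin)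
    (α' β' : F' →ₐ[k] F'') (hα' : α'.toRingHom.IsIntegral) (hβ' : β'.toRingHom.IsIntegral)
    [HasPrincipalDivisors k F''] (hfin' : FiniteAlong k α') (hNF' : NormFormulaAlong k α' hfin')
    (V : ValuationSubring L) (red : ↥V →+* F')
    (hred0 : ∀ u : ↥V, red u = 0 ↔ ¬ IsUnit u)
    (hscale : ∀ f : L, f ≠ 0 → ∃ c : K, c ≠ 0 ∧
      ∃ h : algebraMap K L c * f ∈ V, red ⟨_, h⟩ ≠ 0)
    (hconst : ∀ (c : K) (h : algebraMap K L c ∈ V), ∃ c' : k,
      red ⟨_, h⟩ = algebraMap k F' c')
    (hnorm : ∀ f : ↥V, ∃ h : normAlong α (β (f : L)) ∈ V,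
      red ⟨_, h⟩ = normAlong α' (β' (red f)))
    (p : ℕ) (hp : p.Prime) (t : ℤ) (htd : ¬ (p : ℤ) ∣ t - (finrankAlong k α' : ℤ))
    (D : Divisor K L) (f : ↥V) (hf : red f ≠ 0)
    (hD : ∀ P : Place K L, (p : ℤ) * D P = P.ord (f : L))
    (heig : (Divisor.correspondence β α hβ hα D - t • D).IsPrincipal)
    (U : F') (hU : U ≠ 0) (A' : ℤ) (C : Set (Place k F'))
    (hnc : ∀ Q : Place k F', Q ∉ C → (p : ℤ) ∣ Q.ord (red f) - A' * Q.ord U)
    (hc : ∀ Q ∈ C, (p : ℤ) ∣ Q.ord (red f))
    (hcusp : ∀ Q'' : Place k F'',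
      Q''.restrictAlong α' hα' ∉ C → Q''.restrictAlong β' hβ' ∉ C)
    (hW : ∀ Q'' : Place k F'', Q''.restrictAlong α' hα' ∉ C →
      Q''.ord (β' U) = Q''.ord (α' U)) :
    ∀ Q : Place k F', (p : ℤ) ∣ Q.ord (red f) := by
  intro Q
  by_cases hQ : Q ∈ C
  · exact hc Q hQ
  obtain ⟨hN0, h', hh', hrel⟩ := ord_norm_red_eq hconstL α β hα hβ hfin hNF α' β' hfin' V red
    hred0 hscale hconst hnorm p t D f hf hD heig
  set g : F' := red f with hg
  have hβg : β' g ≠ 0 := by
    intro h0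
    exact hf (β'.toRingHom.injective (by simpa using h0))
  have hαU : α' U ≠ 0 := by
    intro h0
    exact hU (α'.toRingHom.injective (by simpa using h0))
  -- the auxiliary function
  set H : F'' := β' g * (α' U) ^ (-A') with hH
  have hH0 : H ≠ 0 := mul_ne_zero hβg (zpow_ne_zero _ hαU)
  have hHord : ∀ w : Place k F'', w.restrictAlong α' hα' = Q → (p : ℤ) ∣ w.ord H := by
    intro w hw
    have hwC : w.restrictAlong α' hα' ∉ C := by rw [hw]; exact hQ
    have hwβ : w.restrictAlong β' hβ' ∉ C := hcusp w hwC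
    have h1 := hnc _ hwβ
    have h2 : w.ord H = w.ord (β' g) - A' * w.ord (β' U) := by
      rw [hH, w.ord_mul hβg (zpow_ne_zero _ hαU), w.ord_zpow, hW w hwC]
      ring
    rw [h2, Place.ord_restrictAlong β' hβ' w g, Place.ord_restrictAlong β' hβ' w U]
    have h3 : (Place.ramificationIndexAlong β' w : ℤ) * (w.restrictAlong β' hβ').ord g
        - A' * ((Place.ramificationIndexAlong β' w : ℤ) * (w.restrictAlong β' hβ').ord U)
        = (Place.ramificationIndexAlong β' w : ℤ) *
          ((w.restrictAlong β' hβ').ord g - A' * (w.restrictAlong β' hβ').ord U) := by ring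
    rw [h3]
    exact Dvd.dvd.mul_left h1 _
  have h4 := dvd_ord_normAlong α' hα' hfin' hNF' (p : ℤ) hH0 Q hHord
  have h5 : normAlong α' H = normAlong α' (β' g) * (U ^ finrankAlong k α') ^ (-A') := by
    rw [hH, normAlong_mul, normAlong_zpow α' hαU, normAlong_apply]
  have hUd : U ^ finrankAlong k α' ≠ 0 := pow_ne_zero _ hU
  rw [h5, Q.ord_mul hN0 (zpow_ne_zero _ hUd), Q.ord_zpow, ord_pow, hrel Q] at h4
  have h6 := hnc Q hQ
  -- arithmetic modulo `p`
  have hpZ : Prime (p : ℤ) := Nat.prime_iff_prime_int.mp hp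
  have h7 : (p : ℤ) ∣ (t - (finrankAlong k α' : ℤ)) * (A' * Q.ord U) := by
    have e : (t - (finrankAlong k α' : ℤ)) * (A' * Q.ord U)
        = (t * Q.ord g + (p : ℤ) * Q.ord h' + -A' * ((finrankAlong k α' : ℤ) * Q.ord U))
          - t * (Q.ord g - A' * Q.ord U) - (p : ℤ) * Q.ord h' := by ring
    rw [e]
    exact dvd_sub (dvd_sub h4 (Dvd.dvd.mul_left h6 t)) (dvd_mul_right _ _)
  rcases hpZ.dvd_or_dvd h7 with h | h
  · exact absurd h htd
  · have e : Q.ord g = (Q.ord g - A' * Q.ord U) + A' * Q.ord U := by ring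
    rw [e]
    exact dvd_add h6 h

end LevelN

end Fermat.Agent.BADP.H74
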