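/-
helper74, row 38 (S44), package BAD_p, leaf H-DROP (d6): the eigen-equation on divisors.

`heig_of_eigen` : `T_ℓ [D] = t [D]` in `J₀(N)` gives that `α_* β^* D - t D` is principal.
-/
import Fermat.Agent.BADP.Defs
import Fermat.Agent.Lib.HeckeComm.H2_CommOf
import Fermat.Agent.RED.H51_HKA

set_option autoImplicit false
set_option synthInstance.maxHeartbeats 400000
set_option maxHeartbeats 1000000

noncomputable section

open AlgebraicCurve ModularCurve

namespace Fermat.Agent.BADP.H74

/-- The class of a degree-zero divisor is zero iff the divisor is principal. -/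
theorem isPrincipal_of_mk_eq {K F : Type*} [Field K] [Field F] [Algebra K F]
    (D E : Divisor.degZero (K := K) (F := F)) (h : Pic0.mk D = Pic0.mk E) :
    ((D : Divisor K F) - (E : Divisor K F)).IsPrincipal := by
  have h1 : -D + E ∈ (Divisor.principal (K := K) (F := F)).addSubgroupOf
      (Divisor.degZero (K := K) (F := F)) := QuotientAddGroup.eq.mp h
  rw [AddSubgroup.mem_addSubgroupOf] at h1
  have h2 := (Divisor.principal (K := K) (F := F)).neg_mem h1
  have h3 : -((-D + E : Divisor.degZero (K := K) (F := F)) : Divisor K F)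
      = (D : Divisor K F) - (E : Divisor K F) := by
    push_cast
    abel
  rw [h3] at h2
  exact h2

theorem mk_zsmul {K F : Type*} [Field K] [Field F] [Algebra K F]
    (D : Divisor.degZero (K := K) (F := F)) (t : ℤ) :
    t • Pic0.mk D = Pic0.mk (t • D) := rfl

/-- The eigen-equation in `J₀(N)` gives the eigen-equation on divisors, up to a principal
divisor. -/
theorem heig_of_eigen (N : ℕ) [NeZero N] (ℓ : ℕ) [NeZero ℓ] (hℓ : ℓ.Prime)
    (hα : HeckeAlphaBarIntegral (AlgebraicClosure ℚ) N ℓ)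
    (hβ : HeckeBetaBarIntegral (AlgebraicClosure ℚ) N ℓ)
    [hP : HasPrincipalDivisors (AlgebraicClosure ℚ)
      (laurentBaseChange (AlgebraicClosure ℚ) (modularFunctionFieldFull (N * ℓ)))]
    (hfin : FiniteAlong (AlgebraicClosure ℚ) (heckeAlphaBar (AlgebraicClosure ℚ) N ℓ))
    (hFI : FundamentalIdentityAlong (AlgebraicClosure ℚ)
      (heckeBetaBar (AlgebraicClosure ℚ) N ℓ) hβ)
    (hN : NormFormulaAlong (AlgebraicClosure ℚ) (heckeAlphaBar (AlgebraicClosure ℚ) N ℓ) hfin)
    (D : Divisor.degZero (K := AlgebraicClosure ℚ) (F := ↥(Fermat.Agent.BAD.FNbar N))) (t : ℤ)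
    (h : heckeOperatorBar N ⟨ℓ, hℓ⟩ (Pic0.mk D) = t • Pic0.mk D) :
    (Divisor.correspondence (heckeBetaBar (AlgebraicClosure ℚ) N ℓ)
      (heckeAlphaBar (AlgebraicClosure ℚ) N ℓ) hβ hα
        (D : Divisor (AlgebraicClosure ℚ) ↥(Fermat.Agent.BAD.FNbar N))
      - t • (D : Divisor (AlgebraicClosure ℚ) ↥(Fermat.Agent.BAD.FNbar N))).IsPrincipal := by
  have h1 := Fermat.Agent.Lib.HeckeComm.heckeOperatorBar_mk N ⟨ℓ, hℓ⟩ hα hβ hP hfin hFI hN D
  rw [h1, mk_zsmul] at h
  have h2 := isPrincipal_of_mk_eq _ _ h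
  exact h2

end Fermat.Agent.BADP.H74
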