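/-
helper74, row 38 (S44), package BAD_p, leaf H-DROP (d6): reduction of integral functions.

`A` a valuation ring of `ℚ̄` over `p`, `ℓ` a level prime to `p`, `k = kV A`.

* `isIntegral_adjoin_map` : integrality over `K[x]` is preserved by algebra homomorphisms;
* `isIntegral_of_adjoin_map` : and reflected by injective ones;
* `red_isIntegral` (**KL**) : `f` in the Gauss valuation ring of `F_ℓ · ℚ̄`, integral over `ℚ̄[j]`,
  has a reduction which is, as a Laurent series, integral over `k[j~]`.
-/
import Fermat.Agent.RED.H42_Gen1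
import Fermat.Agent.RED.H73_GAFinal
import Fermat.Agent.BAD.Defs
import Fermat.Agent.S15.H30_CuspTors

set_option autoImplicit false
set_option synthInstance.maxHeartbeats 400000
set_option maxHeartbeats 1000000

noncomputable section

open AlgebraicCurve ModularCurve Fermat.Agent.S28.H73 Fermat.Agent.RED.H73

namespace Fermat.Agent.BADP.H74

section General

variable {K F E : Type*} [Field K] [Field F] [Field E] [Algebra K F] [Algebra K E]

/-- The restriction of an algebra homomorphism to `K[x] → K[φ x]`. -/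
def adjoinMap (φ : F →ₐ[K] E) (x : F) :
    ↥(Algebra.adjoin K ({x} : Set F)) →+* ↥(Algebra.adjoin K ({φ x} : Set E)) :=
  ((φ : F →+* E).comp (algebraMap ↥(Algebra.adjoin K ({x} : Set F)) F)).codRestrict
    (Algebra.adjoin K ({φ x} : Set E)).toSubring (by
      intro z
      have h1 : φ (z : F) ∈ (Algebra.adjoin K ({x} : Set F)).map φ := ⟨z, z.2, rfl⟩
      rw [AlgHom.map_adjoin_singleton] at h1
      exact h1)

theorem coe_adjoinMap (φ : F →ₐ[K] E) (x : F) (z : ↥(Algebra.adjoin K ({x} : Set F))) :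
    ((adjoinMap φ x z : ↥(Algebra.adjoin K ({φ x} : Set E))) : E) = φ (z : F) := rfl

/-- Integrality over `K[x]` is preserved by algebra homomorphisms. -/
theorem isIntegral_adjoin_map (φ : F →ₐ[K] E) {x y : F}
    (h : IsIntegral ↥(Algebra.adjoin K ({x} : Set F)) y) :
    IsIntegral ↥(Algebra.adjoin K ({φ x} : Set E)) (φ y) :=
  IsIntegral.map_of_comp_eq (adjoinMap φ x) (φ : F →+* E) (by ext z; rfl) h

theorem adjoinMap_surjective (φ : F →ₐ[K] E) (x : F) :
    Function.Surjective (adjoinMap φ x) := by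
  intro w
  have h1 : (w : E) ∈ (Algebra.adjoin K ({x} : Set F)).map φ := by
    rw [AlgHom.map_adjoin_singleton]
    exact w.2
  obtain ⟨z, hz, hzw⟩ := h1
  exact ⟨⟨z, hz⟩, Subtype.ext hzw⟩

/-- Integrality over `K[x]` is reflected by injective algebra homomorphisms. -/
theorem isIntegral_of_adjoin_map (φ : F →ₐ[K] E) (hφ : Function.Injective φ) {x y : F}
    (h : IsIntegral ↥(Algebra.adjoin K ({φ x} : Set E)) (φ y)) :
    IsIntegral ↥(Algebra.adjoin K ({x} : Set F)) y := by
  obtain ⟨G', hG'm, hG'r⟩ := h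
  have hl : G' ∈ Polynomial.lifts (adjoinMap φ x) := by
    rw [Polynomial.lifts_iff_coeff_lifts]
    intro n
    exact adjoinMap_surjective φ x _
  obtain ⟨G, hGmap, -, hGm⟩ := Polynomial.lifts_and_natDegree_eq_and_monic hl hG'm
  refine ⟨G, hGm, ?_⟩
  apply hφ
  rw [map_zero]
  have h1 := Polynomial.hom_eval₂ G (algebraMap ↥(Algebra.adjoin K ({x} : Set F)) F)
    (φ : F →+* E) y
  have h2 : Polynomial.eval₂ ((φ : F →+* E).comp
      (algebraMap ↥(Algebra.adjoin K ({x} : Set F)) F)) (φ y) G
      = Polynomial.eval₂ (algebraMap ↥(Algebra.adjoin K ({φ x} : Set E)) E) (φ y) G' := by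
    rw [← hGmap, Polynomial.eval₂_map]
    rfl
  exact h1.trans (h2.trans hG'r)

/-- An element which is integral over `K[x]`, with `x` regular at the place `P`, is regular
at `P`. -/
theorem mem_place_of_isIntegral (P : Place K F) {x y : F} (hx : x ∈ P.toValuationSubring)
    (hy : IsIntegral ↥(Algebra.adjoin K ({x} : Set F)) y) : y ∈ P.toValuationSubring :=
  Fermat.Agent.S15.H30.mem_of_isIntegral_map (AlgHom.id K F) Function.injective_id P x hx y hy

/-- The same, through an embedding. -/
theorem mem_place_of_isIntegral_map (φ : F →ₐ[K] E) (hφ : Function.Injective φ)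
    (P : Place K F) {x y : F} (hx : x ∈ P.toValuationSubring)
    (hy : IsIntegral ↥(Algebra.adjoin K ({φ x} : Set E)) (φ y)) : y ∈ P.toValuationSubring :=
  Fermat.Agent.S15.H30.mem_of_isIntegral_map φ hφ P x hx y hy

/-- A function `y ≠ 0` such that `y` and `y⁻¹` are integral over `K[x]` has order `0` at the
places where `x` is regular. -/
theorem ord_eq_zero_of_isIntegral_map (φ : F →ₐ[K] E) (hφ : Function.Injective φ)
    (P : Place K F) {x y : F} (hx : 0 ≤ P.ord x)
    (hy : IsIntegral ↥(Algebra.adjoin K ({φ x} : Set E)) (φ y))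
    (hy' : IsIntegral ↥(Algebra.adjoin K ({φ x} : Set E)) (φ y)⁻¹) : P.ord y = 0 := by
  have hx' : x ∈ P.toValuationSubring := Fermat.Agent.S24.H85.mem_of_ord_nonneg P hx
  have h1 := mem_place_of_isIntegral_map φ hφ P hx' hy
  have h2 : y⁻¹ ∈ P.toValuationSubring := by
    refine mem_place_of_isIntegral_map φ hφ P hx' ?_
    rw [map_inv₀]
    exact hy'
  have h3 := Fermat.Agent.S24.H85.ord_nonneg_of_mem P h1
  have h4 := Fermat.Agent.S24.H85.ord_nonneg_of_mem P h2
  rw [Place.ord_inv] at h4
  omega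

end General

section KL

open Fermat.Agent.BAD

variable (A : ValuationSubring (AlgebraicClosure ℚ)) (ℓ : ℕ) [NeZero ℓ]

/-- **KL, reduction of integral functions**: for a level `ℓ` prime to the residue characteristic
`p`, the reduction of a Gauss-integral function which is integral over `ℚ̄[j]` is integral over
`k[j~]` (as a Laurent series). -/
theorem red_isIntegral {p : ℕ} (hp : p.Prime) (hpℓ : ¬ p ∣ ℓ) (hA : A.LiesOverPrime p)
    (f : ↥(gaussV A ℓ))
    (hf : IsIntegral ↥(Algebra.adjoin (AlgebraicClosure ℚ)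
      ({Fermat.Agent.RED.H73.jF (L := AlgebraicClosure ℚ) ℓ} : Set ↥(FNbar ℓ))) (f : ↥(FNbar ℓ))) :
    IsIntegral ↥(Algebra.adjoin (kV A) ({jqModC (kV A)} : Set (LaurentSeries (kV A))))
      ((gaussRes A ℓ f : ↥(redField A (FNbar ℓ) (hasScale_laurentBaseChange A ℓ))) :
        LaurentSeries (kV A)) := by
  obtain ⟨hxt, hfd, -, hdeg, -⟩ := goodChart_pre ℓ p hp hpℓ A hA
  haveI := hfd
  have h1 := Fermat.Agent.RED.H42.gen_red_isIntegral
    (S := redSetting A (hasScale_laurentBaseChange A ℓ)) (jF_mem A ℓ) hxt hdeg f hf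
  have h2 := isIntegral_adjoin_map
    ((redField A (FNbar ℓ) (hasScale_laurentBaseChange A ℓ)).val) h1
  have h3 : (redField A (FNbar ℓ) (hasScale_laurentBaseChange A ℓ)).val
      ((redSetting A (hasScale_laurentBaseChange A ℓ)).red
        ⟨Fermat.Agent.RED.H73.jF (L := AlgebraicClosure ℚ) ℓ, jF_mem A ℓ⟩) = jqModC (kV A) :=
    red_jF A ℓ
  rw [h3] at h2
  exact h2

end KL

end Fermat.Agent.BADP.H74
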