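/-
helper74, row 38 (S44), package BAD_p, leaf H-DROP (d6): the functions `j(q^ℓ)` and
`Δ(q)/Δ(q^ℓ)` modulo `p`.

`A` a valuation ring of `ℚ̄` over `p`, `ℓ ≠ p` a prime, `k = kV A`.  In `k((q))`:

* `isIntegral_jTwo` : `j~(q^ℓ)` is integral over `k[j~]`;
* `isIntegral_unitG`, `isIntegral_unitG_inv` : `Δ~(q)/Δ~(q^ℓ)` and its inverse are integral
  over `k[j~]`.

(Reduction of the corresponding statements of characteristic `0` at level `ℓ`, where the Gauss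
valuation has good reduction: `H74.red_isIntegral`.)
-/
import Fermat.Agent.BADP.H74_HDropKL
import Fermat.Agent.BAD.H30_UnitGauss

set_option autoImplicit false
set_option linter.unusedSectionVars false
set_option synthInstance.maxHeartbeats 400000
set_option maxHeartbeats 1000000

noncomputable section

open AlgebraicCurve ModularCurve Fermat.Agent.S28.H73 Fermat.Agent.RED.H73 Polynomial

namespace Fermat.Agent.BADP.H74

open Fermat.Agent.S23.H22 (Q q1)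
open Fermat.Agent.S28.H90 (chi chi_eval chi_eval_self chi_monic coeff_mem_of_eval_mem)
open Fermat.Agent.RED.H73 (JL)
open Fermat.Agent.BAD.H30

section Transfer

variable {K : Type} [Field K] [IsAlgClosed K] (ι : K →+* ℂ) {N : ℕ} [NeZero N] {d : ℕ}

/-- The conjugates of `u + s X` are integral over `K[J]`. -/
theorem isIntegral_liftUnit_add [Infinite K] (hd : d ∣ N) (s : K) (q : Q N) :
    IsIntegral ↥(Algebra.adjoin K ({JL K N} : Set (LaurentSeries K)))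
      (liftUnit ι hd q + HahnSeries.C s * liftXN ι N q) := by
  have hcoeff : ∀ k : ℕ,
      (chi (fun q : Q N => liftUnit ι hd q + HahnSeries.C s * liftXN ι N q)).coeff k ∈
      Algebra.adjoin K ({JL K N} : Set (LaurentSeries K)) := by
    intro k
    have := coeff_mem_of_eval_mem (C := K)
      (Subalgebra.toSubmodule (Algebra.adjoin K ({JL K N} : Set (LaurentSeries K))))
      (chi (fun q : Q N => liftUnit ι hd q + HahnSeries.C s * liftXN ι N q))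
      (fun c => by
        rw [chi_eval, LaurentSeries.algebraMap_apply]
        have h := sym_lift ι hd c s
        have e : (∏ q : Q N, (HahnSeries.C c - liftUnit ι hd q - HahnSeries.C s * liftXN ι N q))
            = ∏ q : Q N, (HahnSeries.C c - (liftUnit ι hd q + HahnSeries.C s * liftXN ι N q)) :=
          Finset.prod_congr rfl fun q _ => by rw [sub_sub]
        rw [e] at h
        exact h) k
    exact this
  have hl : chi (fun q : Q N => liftUnit ι hd q + HahnSeries.C s * liftXN ι N q) ∈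
      Polynomial.lifts
      (algebraMap ↥(Algebra.adjoin K ({JL K N} : Set (LaurentSeries K))) (LaurentSeries K)) := by
    rw [Polynomial.lifts_iff_coeff_lifts]
    intro n
    exact ⟨⟨_, hcoeff n⟩, rfl⟩
  obtain ⟨P, hP, -, hm⟩ := Polynomial.lifts_and_natDegree_eq_and_monic hl (chi_monic _)
  refine ⟨P, hm, ?_⟩
  rw [← aeval_def, aeval_def, ← eval_map, hP]
  exact chi_eval_self (fun q : Q N => liftUnit ι hd q + HahnSeries.C s * liftXN ι N q) q

/-- The conjugates of `j(N z)` are integral over `K[J]`. -/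
theorem isIntegral_liftXN [Infinite K] (q : Q N) :
    IsIntegral ↥(Algebra.adjoin K ({JL K N} : Set (LaurentSeries K))) (liftXN ι N q) := by
  have h1 := isIntegral_liftUnit_add ι (dvd_refl N) 1 q
  have h0 := isIntegral_liftUnit ι (dvd_refl N) q
  have h2 := h1.sub h0
  have e : liftUnit ι (dvd_refl N) q + HahnSeries.C (1 : K) * liftXN ι N q
      - liftUnit ι (dvd_refl N) q = liftXN ι N q := by
    rw [map_one, one_mul, add_sub_cancel_left]
  rw [e] at h2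
  exact h2

end Transfer

section FunctionField

open Fermat.Agent.S24 (Kbar FN iotaC)
open Fermat.Agent.S15.H30 (psi psi_apply psi_injective)
open Fermat.Agent.BAD

variable (ℓ : ℕ) [NeZero ℓ]

theorem psi_jF_red : psi ℓ (Fermat.Agent.RED.H73.jF (L := Kbar) ℓ) = JL Kbar ℓ := rfl

theorem isIntegral_C_JL (c : Kbar) :
    IsIntegral ↥(Algebra.adjoin Kbar ({JL Kbar ℓ} : Set (LaurentSeries Kbar)))
      (HahnSeries.C c : LaurentSeries Kbar) := by
  have : (HahnSeries.C c : LaurentSeries Kbar)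
      = algebraMap ↥(Algebra.adjoin Kbar ({JL Kbar ℓ} : Set (LaurentSeries Kbar)))
          (LaurentSeries Kbar) (algebraMap Kbar _ c) := by
    rw [← LaurentSeries.algebraMap_apply]
    rfl
  rw [this]
  exact isIntegral_algebraMap

/-- `Δ(q)/Δ(q^ℓ)` is integral over `ℚ̄[j]`. -/
theorem isIntegral_unitF :
    IsIntegral ↥(Algebra.adjoin Kbar
      ({Fermat.Agent.RED.H73.jF (L := Kbar) ℓ} : Set ↥(FNbar ℓ)))
      (unitF ℓ ℓ (dvd_refl ℓ) : ↥(FNbar ℓ)) := by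
  apply isIntegral_of_adjoin_map (psi ℓ) (psi_injective ℓ)
  rw [psi_jF_red, psi_unitF]
  exact IsIntegral.mul (isIntegral_C_JL ℓ _) (isIntegral_liftUnit iotaC _ _)

/-- `Δ(q^ℓ)/Δ(q)` is integral over `ℚ̄[j]`. -/
theorem isIntegral_unitF_inv :
    IsIntegral ↥(Algebra.adjoin Kbar
      ({Fermat.Agent.RED.H73.jF (L := Kbar) ℓ} : Set ↥(FNbar ℓ)))
      ((unitF ℓ ℓ (dvd_refl ℓ))⁻¹ : ↥(FNbar ℓ)) := by
  apply isIntegral_of_adjoin_map (psi ℓ) (psi_injective ℓ)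
  rw [psi_jF_red, map_inv₀, psi_unitF, mul_inv, ← map_inv₀]
  exact IsIntegral.mul (isIntegral_C_JL ℓ _) (isIntegral_liftUnit_inv iotaC _)

/-- `j(q^ℓ)` as an element of `F_ℓ · ℚ̄`. -/
def jTwoF : ↥(FNbar ℓ) :=
  ⟨qExpand Kbar ℓ (jqModC Kbar), by
    show qExpand Kbar ℓ (jqModC Kbar) ∈ laurentBaseChange Kbar (modularFunctionFieldFull ℓ)
    rw [laurentBaseChange_full_eq]
    exact jqModCd_mem_full Kbar ℓ (dvd_refl ℓ)⟩

theorem coe_jTwoF : ((jTwoF ℓ : ↥(FNbar ℓ)) : LaurentSeries Kbar) = qExpand Kbar ℓ (jqModC Kbar) :=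
  rfl

/-- `j(q^ℓ)` is integral over `ℚ̄[j]`. -/
theorem isIntegral_jTwoF :
    IsIntegral ↥(Algebra.adjoin Kbar
      ({Fermat.Agent.RED.H73.jF (L := Kbar) ℓ} : Set ↥(FNbar ℓ))) (jTwoF ℓ) := by
  apply isIntegral_of_adjoin_map (psi ℓ) (psi_injective ℓ)
  rw [psi_jF_red, psi_apply, coe_jTwoF, ← liftXN_q1 iotaC ℓ]
  exact isIntegral_liftXN iotaC _

end FunctionField

section Reduction

open Fermat.Agent.S24 (Kbar)
open Fermat.Agent.BAD

variable (A : ValuationSubring (AlgebraicClosure ℚ)) (ℓ : ℕ) [NeZero ℓ] {p : ℕ}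

/-- `j~(q^ℓ)` is integral over `k[j~]`. -/
theorem isIntegral_jTwo (hp : p.Prime) (hpℓ : ¬ p ∣ ℓ) (hA : A.LiesOverPrime p) :
    IsIntegral ↥(Algebra.adjoin (kV A) ({jqModC (kV A)} : Set (LaurentSeries (kV A))))
      (qExpand (kV A) ℓ (jqModC (kV A))) := by
  have hmem : jTwoF ℓ ∈ gaussV A ℓ := qExpand_jqModC_mem_gaussRingV A ℓ
  have h := red_isIntegral A ℓ hp hpℓ hA ⟨jTwoF ℓ, hmem⟩ (isIntegral_jTwoF ℓ)
  have e : ((gaussRes A ℓ ⟨jTwoF ℓ, hmem⟩ :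
      ↥(redField A (FNbar ℓ) (hasScale_laurentBaseChange A ℓ))) : LaurentSeries (kV A))
      = qExpand (kV A) ℓ (jqModC (kV A)) := gaussRedV_qExpand_jqModC A ℓ _
  rw [e] at h
  exact h

/-- `Δ~(q)/Δ~(q^ℓ)` is integral over `k[j~]`. -/
theorem isIntegral_unitG (hp : p.Prime) (hpℓ : ¬ p ∣ ℓ) (hA : A.LiesOverPrime p) :
    IsIntegral ↥(Algebra.adjoin (kV A) ({jqModC (kV A)} : Set (LaurentSeries (kV A))))
      (deltaR (kV A) * (qExpand (kV A) ℓ (deltaR (kV A)))⁻¹) := by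
  have h := red_isIntegral A ℓ hp hpℓ hA
    ⟨unitF ℓ ℓ (dvd_refl ℓ), unitF_mem_gaussV A ℓ ℓ (dvd_refl ℓ)⟩ (isIntegral_unitF ℓ)
  rw [gaussRes_unitF] at h
  exact h

/-- `Δ~(q^ℓ)/Δ~(q)` is integral over `k[j~]`. -/
theorem isIntegral_unitG_inv (hp : p.Prime) (hpℓ : ¬ p ∣ ℓ) (hA : A.LiesOverPrime p) :
    IsIntegral ↥(Algebra.adjoin (kV A) ({jqModC (kV A)} : Set (LaurentSeries (kV A))))
      (deltaR (kV A) * (qExpand (kV A) ℓ (deltaR (kV A)))⁻¹)⁻¹ := by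
  have hne := gaussRes_unitF_ne_zero A ℓ ℓ (dvd_refl ℓ)
  have hu : IsUnit (⟨unitF ℓ ℓ (dvd_refl ℓ), unitF_mem_gaussV A ℓ ℓ (dvd_refl ℓ)⟩ :
      ↥(gaussV A ℓ)) := by
    by_contra hnu
    have hmax : (RingHom.ker (gaussRes A ℓ)).IsMaximal :=
      RingHom.ker_isMaximal_of_surjective _ (gaussResF'_surjective A _)
    have hker : RingHom.ker (gaussRes A ℓ) = IsLocalRing.maximalIdeal ↥(gaussV A ℓ) :=
      IsLocalRing.eq_maximalIdeal hmax
    have : (⟨unitF ℓ ℓ (dvd_refl ℓ), unitF_mem_gaussV A ℓ ℓ (dvd_refl ℓ)⟩ : ↥(gaussV A ℓ))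
        ∈ IsLocalRing.maximalIdeal ↥(gaussV A ℓ) := (IsLocalRing.mem_maximalIdeal _).2 hnu
    rw [← hker] at this
    exact hne ((RingHom.mem_ker).1 this)
  obtain ⟨u, hu⟩ := hu
  have hinv : (((u⁻¹ : (↥(gaussV A ℓ))ˣ) : ↥(gaussV A ℓ)) : ↥(FNbar ℓ))
      = (unitF ℓ ℓ (dvd_refl ℓ))⁻¹ := by
    have h3 : ((u : ↥(gaussV A ℓ)) : ↥(FNbar ℓ)) *
        (((u⁻¹ : (↥(gaussV A ℓ))ˣ) : ↥(gaussV A ℓ)) : ↥(FNbar ℓ)) = 1 :=
      congrArg Subtype.val u.mul_inv
    rw [hu] at h3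
    exact (inv_eq_of_mul_eq_one_right h3).symm
  have hint : IsIntegral ↥(Algebra.adjoin Kbar
      ({Fermat.Agent.RED.H73.jF (L := Kbar) ℓ} : Set ↥(FNbar ℓ)))
      ((((u⁻¹ : (↥(gaussV A ℓ))ˣ) : ↥(gaussV A ℓ)) : ↥(FNbar ℓ))) := by
    rw [hinv]
    exact isIntegral_unitF_inv ℓ
  have h := red_isIntegral A ℓ hp hpℓ hA _ hint
  have hred : gaussRes A ℓ ((u⁻¹ : (↥(gaussV A ℓ))ˣ) : ↥(gaussV A ℓ))
      = (gaussRes A ℓ ⟨unitF ℓ ℓ (dvd_refl ℓ), unitF_mem_gaussV A ℓ ℓ (dvd_refl ℓ)⟩)⁻¹ := by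
    have h1 : gaussRes A ℓ (u : ↥(gaussV A ℓ)) *
        gaussRes A ℓ ((u⁻¹ : (↥(gaussV A ℓ))ˣ) : ↥(gaussV A ℓ)) = 1 := by
      rw [← map_mul, Units.mul_inv, map_one]
    rw [hu] at h1
    exact eq_inv_of_mul_eq_one_right h1
  rw [hred] at h
  have e : (((gaussRes A ℓ ⟨unitF ℓ ℓ (dvd_refl ℓ), unitF_mem_gaussV A ℓ ℓ (dvd_refl ℓ)⟩)⁻¹ :
      ↥(redField A (FNbar ℓ) (hasScale_laurentBaseChange A ℓ))) : LaurentSeries (kV A))
      = (deltaR (kV A) * (qExpand (kV A) ℓ (deltaR (kV A)))⁻¹)⁻¹ := by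
    rw [← gaussRes_unitF A ℓ ℓ (dvd_refl ℓ)]
    rfl
  rw [e] at h
  exact h

end Reduction

end Fermat.Agent.BADP.H74
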