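/-
helper74, row 38 (S44), package BAD_p, leaf H-DROP (d6): the modular instance of `hdrop_abs`.

`N = M p`, `p ∤ M`, `A` over `p`, `ℓ ∤ M p` a prime, `k = kV A`, reduced Hecke tower
`α~, β~ : Ft A M → Ft A (M ℓ)` (helper35).

* `ord_betaT_nonneg` : `j~(q^ℓ)` is regular where `j~` is (cusps go to cusps);
* `ord_betaT_unit` : `β~ U` and `α~ U` have the same order off the cusps, `U = (Δ~^(p-1))⁻¹`;
* `hdrop_core` : H-DROP with values in `Ft A M`;
* `hdrop_E` : the same with values in any intermediate field `E = Ft A M`.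
-/
import Fermat.Agent.BADP.H74_HDropAbs
import Fermat.Agent.BADP.H74_HDropEig
import Fermat.Agent.BADP.H74_HDropUnit
import Fermat.Agent.S43.Old.H35_LevelN
import Fermat.Agent.GTor.H33_CurveQbar

set_option autoImplicit false
set_option linter.style.haveILetI false
set_option linter.unusedSectionVars false
set_option synthInstance.maxHeartbeats 400000
set_option maxHeartbeats 1000000

noncomputable section

open AlgebraicCurve ModularCurve Fermat.Agent.S28.H73 Fermat.Agent.RED.H73 Fermat.Agent.RED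
open Fermat.Agent.BAD Fermat.Agent.S43.Old.H35

namespace Fermat.Agent.BADP.H74

section Ram

variable {K F F' : Type*} [Field K] [Field F] [Field F'] [Algebra K F] [Algebra K F']

theorem ramIdxAlong_pos (φ : F →ₐ[K] F') (hφ : φ.toRingHom.IsIntegral) (w : Place K F') :
    0 < Place.ramificationIndexAlong φ w := by
  letI := algebraAlong φ
  haveI := isScalarTower_along φ
  haveI := isIntegral_along φ hφ
  exact w.ramificationIndex_pos (F := F)

theorem ord_along_nonneg_iff (φ : F →ₐ[K] F') (hφ : φ.toRingHom.IsIntegral) (w : Place K F')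
    (x : F) : 0 ≤ w.ord (φ x) ↔ 0 ≤ (w.restrictAlong φ hφ).ord x := by
  rw [Place.ord_restrictAlong φ hφ w x]
  have h := ramIdxAlong_pos φ hφ w
  have h' : (0 : ℤ) < (Place.ramificationIndexAlong φ w : ℤ) := by exact_mod_cast h
  constructor
  · intro h1
    by_contra h2
    rw [not_le] at h2
    have := mul_neg_of_pos_of_neg h' h2
    omega
  · intro h1
    exact mul_nonneg h'.le h1

end Ram

section Tower

variable (A : ValuationSubring (AlgebraicClosure ℚ)) (M ℓ : ℕ) [NeZero M] [NeZero ℓ]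

/-- **Cusps go to cusps**: if `j~` is regular at a place of the upper field, so is `j~(q^ℓ)`. -/
theorem ord_betaT_nonneg {p : ℕ} (hp : p.Prime) (hpℓ : ¬ p ∣ ℓ) (hA : A.LiesOverPrime p)
    (x : ↥(Ft A M)) (hx : (x : LaurentSeries (kV A)) = jqModC (kV A))
    (Q : Place (kV A) ↥(Ft A (M * ℓ))) (h : 0 ≤ Q.ord (alphaT A M ℓ x)) :
    0 ≤ Q.ord (betaT A M ℓ x) := by
  have hmem : alphaT A M ℓ x ∈ Q.toValuationSubring :=
    Fermat.Agent.S24.H85.mem_of_ord_nonneg Q h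
  have hint : IsIntegral ↥(Algebra.adjoin (kV A)
      ({(Ft A (M * ℓ)).val (alphaT A M ℓ x)} : Set (LaurentSeries (kV A))))
      ((Ft A (M * ℓ)).val (betaT A M ℓ x)) := by
    have e1 : (Ft A (M * ℓ)).val (alphaT A M ℓ x) = jqModC (kV A) := by
      show ((alphaT A M ℓ x : ↥(Ft A (M * ℓ))) : LaurentSeries (kV A)) = _
      rw [coe_alphaT, hx]
    have e2 : (Ft A (M * ℓ)).val (betaT A M ℓ x) = qExpand (kV A) ℓ (jqModC (kV A)) := by
      show ((betaT A M ℓ x : ↥(Ft A (M * ℓ))) : LaurentSeries (kV A)) = _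
      rw [coe_betaT, hx]
    rw [e1, e2]
    exact isIntegral_jTwo A ℓ hp hpℓ hA
  exact Fermat.Agent.S24.H85.ord_nonneg_of_mem Q
    (mem_place_of_isIntegral_map (Ft A (M * ℓ)).val (Ft A (M * ℓ)).val.injective Q hmem hint)

/-- **The unit off the cusps**: `β~ U` and `α~ U` have the same order at the places where `j~`
is regular, for `U = (Δ~ ^ n)⁻¹`. -/
theorem ord_betaT_unit {p : ℕ} (hp : p.Prime) (hpℓ : ¬ p ∣ ℓ) (hA : A.LiesOverPrime p)
    (x : ↥(Ft A M)) (hx : (x : LaurentSeries (kV A)) = jqModC (kV A))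
    (U : ↥(Ft A M)) (n : ℕ)
    (hU : (U : LaurentSeries (kV A)) = (Fermat.Agent.BAD.H30.deltaR (kV A) ^ n)⁻¹)
    (Q : Place (kV A) ↥(Ft A (M * ℓ))) (h : 0 ≤ Q.ord (alphaT A M ℓ x)) :
    Q.ord (betaT A M ℓ U) = Q.ord (alphaT A M ℓ U) := by
  have hd0 := Fermat.Agent.BAD.H30.deltaR_ne_zero (kV A)
  have hqd0 := Fermat.Agent.BAD.H30.qExpand_deltaR_ne_zero (kV A) ℓ
  have hU0 : U ≠ 0 := by
    intro h0
    rw [h0] at hU
    exact inv_ne_zero (pow_ne_zero n hd0) hU.symm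
  have ha0 : alphaT A M ℓ U ≠ 0 := fun h0 =>
    hU0 ((alphaT A M ℓ).toRingHom.injective (by simpa using h0))
  have hb0 : betaT A M ℓ U ≠ 0 := fun h0 =>
    hU0 ((betaT A M ℓ).toRingHom.injective (by simpa using h0))
  have e1 : (Ft A (M * ℓ)).val (alphaT A M ℓ x) = jqModC (kV A) := by
    show ((alphaT A M ℓ x : ↥(Ft A (M * ℓ))) : LaurentSeries (kV A)) = _
    rw [coe_alphaT, hx]
  have eW : (Ft A (M * ℓ)).val (alphaT A M ℓ U * (betaT A M ℓ U)⁻¹)
      = ((Fermat.Agent.BAD.H30.deltaR (kV A) *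
          (qExpand (kV A) ℓ (Fermat.Agent.BAD.H30.deltaR (kV A)))⁻¹)⁻¹) ^ n := by
    rw [map_mul, map_inv₀]
    show ((alphaT A M ℓ U : ↥(Ft A (M * ℓ))) : LaurentSeries (kV A)) *
      (((betaT A M ℓ U : ↥(Ft A (M * ℓ))) : LaurentSeries (kV A)))⁻¹ = _
    rw [coe_alphaT, coe_betaT, hU, map_inv₀, map_pow, inv_inv, mul_inv, inv_inv, mul_pow,
      inv_pow]
  have h1 : IsIntegral ↥(Algebra.adjoin (kV A)
      ({(Ft A (M * ℓ)).val (alphaT A M ℓ x)} : Set (LaurentSeries (kV A))))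
      ((Ft A (M * ℓ)).val (alphaT A M ℓ U * (betaT A M ℓ U)⁻¹)) := by
    rw [e1, eW]
    exact (isIntegral_unitG_inv A ℓ hp hpℓ hA).pow n
  have h2 : IsIntegral ↥(Algebra.adjoin (kV A)
      ({(Ft A (M * ℓ)).val (alphaT A M ℓ x)} : Set (LaurentSeries (kV A))))
      ((Ft A (M * ℓ)).val (alphaT A M ℓ U * (betaT A M ℓ U)⁻¹))⁻¹ := by
    rw [e1, eW, ← inv_pow, inv_inv]
    exact (isIntegral_unitG A ℓ hp hpℓ hA).pow n
  have h3 := ord_eq_zero_of_isIntegral_map (Ft A (M * ℓ)).val (Ft A (M * ℓ)).val.injective Q h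
    h1 h2
  rw [Place.ord_mul Q ha0 (inv_ne_zero hb0), Place.ord_inv] at h3
  omega

end Tower

section Core

variable (A : ValuationSubring (AlgebraicClosure ℚ)) (M p ℓ : ℕ) [NeZero M] [NeZero (M * p)]
  [NeZero ℓ] [NeZero p]

/-- The reduction of `j` with values in `E`. -/
def jTo (E : IntermediateField (kV A) (LaurentSeries (kV A))) (hle : Ft A (M * p) ≤ E) : ↥E :=
  resTo A (M * p) E hle ⟨Fermat.Agent.RED.H73.jF (L := AlgebraicClosure ℚ) (M * p),
    jF_mem A (M * p)⟩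

/-- The reduction of the modular unit with values in `E`. -/
def unitTo (hd : p ∣ M * p) (E : IntermediateField (kV A) (LaurentSeries (kV A)))
    (hle : Ft A (M * p) ≤ E) : ↥E :=
  resTo A (M * p) E hle ⟨Fermat.Agent.BAD.H30.unitF (M * p) p hd,
    Fermat.Agent.BAD.H30.unitF_mem_gaussV A (M * p) p hd⟩

theorem coe_jTo (E : IntermediateField (kV A) (LaurentSeries (kV A)))
    (hle : Ft A (M * p) ≤ E) :
    ((jTo A M p E hle : ↥E) : LaurentSeries (kV A)) = jqModC (kV A) :=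
  red_jF A (M * p)

theorem coe_unitTo (hp : p.Prime) (hA : A.LiesOverPrime p) (hd : p ∣ M * p)
    (E : IntermediateField (kV A) (LaurentSeries (kV A))) (hle : Ft A (M * p) ≤ E) :
    ((unitTo A M p hd E hle : ↥E) : LaurentSeries (kV A))
      = (Fermat.Agent.BAD.H30.deltaR (kV A) ^ (p - 1))⁻¹ := by
  haveI : Fact p.Prime := ⟨hp⟩
  exact Fermat.Agent.BAD.H30.gaussRes_unitF_char A (M * p) p hA hd

/-- **H-DROP with values in `Ft A M`.** -/
theorem hdrop_core (hp : p.Prime) (hpM : ¬ p ∣ M) (hℓ : ℓ.Prime) (hℓN : ¬ ℓ ∣ M * p)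
    (hA : A.LiesOverPrime p) (hle : Ft A (M * p) ≤ Ft A M)
    (t : ℤ) (ht : ¬ (p : ℤ) ∣ t - ((ℓ : ℤ) + 1))
    (D : Divisor.degZero (K := AlgebraicClosure ℚ) (F := ↥(FNbar (M * p))))
    (f : ↥(gaussV A (M * p)))
    (hf : resTo A (M * p) (Ft A M) hle f ≠ 0)
    (hD : ∀ P : Place (AlgebraicClosure ℚ) ↥(FNbar (M * p)),
      (p : ℤ) * (D : Divisor (AlgebraicClosure ℚ) ↥(FNbar (M * p))) P
        = P.ord ((f : ↥(FNbar (M * p)))))
    (hT : heckeOperatorBar (M * p) ⟨ℓ, hℓ⟩ (Pic0.mk D) = t • Pic0.mk D)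
    (hd : p ∣ M * p) (c : ℤ)
    (hE : ∀ Q : Place (kV A) ↥(Ft A M),
      (0 ≤ Q.ord (jTo A M p (Ft A M) hle) →
        (p : ℤ) ∣ Q.ord (resTo A (M * p) (Ft A M) hle f)
          - c * Q.ord (unitTo A M p hd (Ft A M) hle)) ∧
      (Q.ord (jTo A M p (Ft A M) hle) < 0 →
        (p : ℤ) ∣ Q.ord (resTo A (M * p) (Ft A M) hle f))) :
    ∀ Q : Place (kV A) ↥(Ft A M), (p : ℤ) ∣ Q.ord (resTo A (M * p) (Ft A M) hle f) := by
  have hℓp : ℓ ≠ p := fun h => hℓN (h ▸ dvd_mul_left ℓ M)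
  have hℓM : ¬ ℓ ∣ M := fun h => hℓN (h.mul_right p)
  have hpℓ : ¬ p ∣ ℓ := fun h => hℓp ((Nat.prime_dvd_prime_iff_eq hp hℓ).1 h).symm
  have hpMℓ : ¬ p ∣ M * ℓ := by
    intro h
    rcases (Nat.Prime.dvd_mul hp).1 h with h1 | h1
    · exact hpM h1
    · exact hpℓ h1
  obtain ⟨hα, hβ, hP, hfin, hFI, hNF⟩ := RED.H51.stmt_HKA (M * p) ℓ
  haveI := hP
  have hTI := towerInputs (A := A) (M := M) (ℓ := ℓ) hp hA hpMℓ
  haveI := hTI.hP
  have hdeg := finrank_alphaT A M ℓ p hℓ hℓM hp hpMℓ hA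
  have heig := heig_of_eigen (M * p) ℓ hℓ hα hβ hfin hFI hNF D t hT
  have hjc := coe_jTo A M p (Ft A M) hle
  have hUc := coe_unitTo A M p hp hA hd (Ft A M) hle
  have hU0 : unitTo A M p hd (Ft A M) hle ≠ 0 := by
    intro h0
    rw [h0] at hUc
    exact inv_ne_zero (pow_ne_zero _ (Fermat.Agent.BAD.H30.deltaR_ne_zero (kV A))) hUc.symm
  have htd : ¬ (p : ℤ) ∣ t - (finrankAlong (kV A) (alphaT A M ℓ) : ℤ) := by
    rw [hdeg]
    push_cast
    exact ht
  refine hdrop_abs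
    (fun g hg h => by
      obtain ⟨c', hc'⟩ := Fermat.Agent.GTor.H33.exists_algebraMap_eq_FN (M * p) g hg h
      exact ⟨c', hc'.symm⟩)
    (heckeAlphaBar (AlgebraicClosure ℚ) (M * p) ℓ) (heckeBetaBar (AlgebraicClosure ℚ) (M * p) ℓ)
    hα hβ hfin hNF (alphaT A M ℓ) (betaT A M ℓ) hTI.hα hTI.hβ hTI.hfin hTI.hNF
    (gaussV A (M * p)) (resTo A (M * p) (Ft A M) hle)
    (fun u => resTo_eq_zero_iff A (M * p) (Ft A M) hle u)
    (fun g hg => resTo_scale A (M * p) (Ft A M) hle g hg)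
    (fun c' h => resTo_const A (M * p) (Ft A M) hle c' h)
    (fun g => hnorm_levelN A p M ℓ hp hpM hℓ hℓN hA hle g)
    p hp t htd (D : Divisor (AlgebraicClosure ℚ) ↥(FNbar (M * p))) f hf hD heig
    (unitTo A M p hd (Ft A M) hle) hU0 c
    {Q | Q.ord (jTo A M p (Ft A M) hle) < 0} ?_ ?_ ?_ ?_
  · intro Q hQ
    exact (hE Q).1 (not_lt.mp hQ)
  · intro Q hQ
    exact (hE Q).2 hQ
  · intro Q hQ
    have h1 : 0 ≤ (Q.restrictAlong (alphaT A M ℓ) hTI.hα).ord (jTo A M p (Ft A M) hle) :=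
      not_lt.mp hQ
    have h2 := (ord_along_nonneg_iff (alphaT A M ℓ) hTI.hα Q _).2 h1
    have h3 := ord_betaT_nonneg A M ℓ hp hpℓ hA _ hjc Q h2
    have h4 := (ord_along_nonneg_iff (betaT A M ℓ) hTI.hβ Q _).1 h3
    exact not_lt.mpr h4
  · intro Q hQ
    have h1 : 0 ≤ (Q.restrictAlong (alphaT A M ℓ) hTI.hα).ord (jTo A M p (Ft A M) hle) :=
      not_lt.mp hQ
    have h2 := (ord_along_nonneg_iff (alphaT A M ℓ) hTI.hα Q _).2 h1
    exact ord_betaT_unit A M ℓ hp hpℓ hA _ hjc _ (p - 1) hUc Q h2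

/-- **H-DROP with values in an intermediate field `E = Ft A M`.** -/
theorem hdrop_E (hp : p.Prime) (hpM : ¬ p ∣ M) (hℓ : ℓ.Prime) (hℓN : ¬ ℓ ∣ M * p)
    (hA : A.LiesOverPrime p)
    (E : IntermediateField (kV A) (LaurentSeries (kV A))) (hME : Ft A M = E)
    (hle : Ft A (M * p) ≤ E)
    (t : ℤ) (ht : ¬ (p : ℤ) ∣ t - ((ℓ : ℤ) + 1))
    (D : Divisor.degZero (K := AlgebraicClosure ℚ) (F := ↥(FNbar (M * p))))
    (f : ↥(gaussV A (M * p)))
    (hf : resTo A (M * p) E hle f ≠ 0)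
    (hD : ∀ P : Place (AlgebraicClosure ℚ) ↥(FNbar (M * p)),
      (p : ℤ) * (D : Divisor (AlgebraicClosure ℚ) ↥(FNbar (M * p))) P
        = P.ord ((f : ↥(FNbar (M * p)))))
    (hT : heckeOperatorBar (M * p) ⟨ℓ, hℓ⟩ (Pic0.mk D) = t • Pic0.mk D)
    (hd : p ∣ M * p) (c : ℤ)
    (hE : ∀ Q : Place (kV A) ↥E,
      (0 ≤ Q.ord (jTo A M p E hle) →
        (p : ℤ) ∣ Q.ord (resTo A (M * p) E hle f) - c * Q.ord (unitTo A M p hd E hle)) ∧
      (Q.ord (jTo A M p E hle) < 0 → (p : ℤ) ∣ Q.ord (resTo A (M * p) E hle f))) :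
    ∀ Q : Place (kV A) ↥E, (p : ℤ) ∣ Q.ord (resTo A (M * p) E hle f) := by
  subst hME
  exact hdrop_core A M p ℓ hp hpM hℓ hℓN hA hle t ht D f hf hD hT hd c hE

end Core

end Fermat.Agent.BADP.H74
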