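/-
helper74, row 38 (S44), package BAD_p, leaf H-DROP (d6): `stmt_HDropP : BADP.Stmt_HDropP`.

A common eigenvector of the Hecke operators with a non-Eisenstein system of eigenvalues which
has an Eisenstein Kummer pair lies in the finite part.

Proof: `hdrop_abs` (Hecke on slopes, `BADP/H74_HDropAbs.lean`) for the tower of level
`N = M p → N ℓ` and its reduction `Ft A M → Ft A (M ℓ)` (helper35, NORM-RED at the level `N`),
with `U = (Δ~ ^ (p - 1))⁻¹` and the cusps `C = {j~ = ∞}` (`BADP/H74_HDropCore.lean`).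
-/
import Fermat.Agent.BADP.H74_HDropCore
import Fermat.Agent.BADP.Defs

set_option autoImplicit false
set_option linter.style.haveILetI false
set_option linter.unusedSectionVars false
set_option synthInstance.maxHeartbeats 400000
set_option maxHeartbeats 1000000

noncomputable section

open AlgebraicCurve ModularCurve Fermat.Agent.S28.H73 Fermat.Agent.RED.H73 Fermat.Agent.RED
open Fermat.Agent.BAD Fermat.Agent.S43.Old.H35 Fermat.Agent.S44 Fermat.Agent.S43.BadQ

namespace Fermat.Agent.BADP.H74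

theorem resTo_self (A : ValuationSubring (AlgebraicClosure ℚ)) (N : ℕ)
    (f : ↥(gaussV A N)) : resTo A N (Ft A N) le_rfl f = gaussRes A N f := rfl

/-- **(d6) = H-DROP.** -/
theorem stmt_HDropP : Fermat.Agent.BADP.Stmt_HDropP := by
  intro p _ hp hp5 N _ hd hp2 A hA S t x hEig hNE D f c hpair
  obtain ⟨ℓ, hℓ, hℓS, hℓN, hℓp, hne⟩ := hNE
  haveI : NeZero ℓ := ⟨hℓ.ne_zero⟩
  obtain ⟨M, hM⟩ : ∃ M, N = M * p := by
    obtain ⟨M, hM⟩ := hd
    exact ⟨M, by rw [hM, mul_comm]⟩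
  subst hM
  haveI hM0 : NeZero M := ⟨fun h0 => NeZero.ne (M * p) (by rw [h0, zero_mul])⟩
  have hpM : ¬ p ∣ M := by
    rintro ⟨k, hk⟩
    apply hp2
    refine ⟨k, ?_⟩
    rw [hk]
    ring
  obtain ⟨hx, hfne, hD, hQ⟩ := hpair
  -- the eigen-equation
  have hT : heckeOperatorBar (M * p) ⟨ℓ, hℓ⟩ (Pic0.mk D) = t ℓ • Pic0.mk D := by
    have h1 := hEig ℓ hℓ hℓS hℓN hℓp
    have h2 := congrArg (jzModule.pt (M * p) p) h1
    rw [jzModule.pt_T (M * p) p hℓ hℓN] at h2
    rw [← hx]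
    exact h2.trans (coe_intCast_smul p (M * p) (t ℓ) x)
  -- the system is not Eisenstein at `ℓ`
  have ht : ¬ (p : ℤ) ∣ t ℓ - ((ℓ : ℤ) + 1) := by
    intro h
    apply hne
    have h1 := (ZMod.intCast_eq_intCast_iff_dvd_sub ((ℓ : ℤ) + 1) (t ℓ) p).2 h
    rw [← h1]
    push_cast
    ring
  have key := hdrop_E A M p ℓ hp hpM hℓ hℓN hA (Ft A (M * p)) (ft_mul_eq A p M hp hpM hA).symm
    le_rfl (t ℓ) ht D f hfne hD hT hd c hQ
  exact ⟨D, f, hx, hfne, hD, fun Q => key Q⟩

end Fermat.Agent.BADP.H74
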