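import Fermat.Agent.BAD.H28_NodeRad
import Fermat.Agent.BAD.H28_Skel

/-!
# S33, `p`-new case: the abstract form of (T3)  (helper86)

`Stmt_ABSP` is the statement of `S33.New.H54.Stmt_TorsOrdNew` on an abstract semistable Deuring
datum `S : SSD K F k F₁ F₂` with `char k = p`:

* `f ≡ 1` for the first valuation, `p ∣ div f`;
* **(R2)** `f = a' f' h₀ ^ p` with `f' ≡ 1` for the second valuation;
* **(PW)** for every Kummer function `e f u ^ p = 1 + c₀ φ` of the same class with `φ` integral for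
  both valuations and `c₀` a constant of depth `< p / (p - 1) · v(p)`
  (`p ^ p / c₀ ^ (p - 1)` in the maximal ideal), the reductions of `φ` are `p`-th powers;
* `σ` inertial with `σ ζ = ζ ^ a`, `ζ` a primitive `p`-th root of unity.

Conclusion: `σ f / f ^ a` is a `p`-th power.

In the modular case (R2) comes from NORM-RED and (PW) from TRACE-RED (`BADP.H18.traceRed_insep`)
and PTH-ROOT (`BADP.H86.pthRoot`) for the two degeneracy maps, for the `p`-new classes of `K1(p)`.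

Proof of `Stmt_ABSP` (plan `NOTES/plan/R_S33_NEW.md`, helper86's note "geometry leaves"):
MOVE-p (`BADP.H51.stmt_MoveP`), CANON-p, NS-STEP (G4'), TORIC-CHI, TI-p.
Definitions only.
-/

set_option autoImplicit false

noncomputable section

open AlgebraicCurve

namespace Fermat.Agent.BADP.H86

open Fermat.Agent.RED.H17 Fermat.Agent.RED Fermat.Agent.BAD

/-- **(PW)**: the leading terms of the Kummer functions of the class of `f` are `p`-th powers in
both residue fields, in depth `< p / (p - 1) · v(p)`. -/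
def PW {K F k F₁ F₂ : Type} [Field K] [Field F] [Algebra K F] [Field k] [Field F₁]
    [Algebra k F₁] [Field F₂] [Algebra k F₂] (S : SSD K F k F₁ F₂) (p : ℕ) (f : F) : Prop :=
  ∀ (u φ : F) (e c₀ : K), u ≠ 0 → e ≠ 0 → c₀ ≠ 0 → S.IsCM c₀ →
    S.IsCM ((p : K) ^ p / c₀ ^ (p - 1)) →
    algebraMap K F e * f * u ^ p = 1 + algebraMap K F c₀ * φ → φ ∈ S.c₁.V → φ ∈ S.c₂.V →
      (∃ ψ : F₁, S.c₁.rd φ = ψ ^ p) ∧ ∃ ψ : F₂, S.c₂.rd φ = ψ ^ p

/-- **(T3), abstract form.** -/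
def Stmt_ABSP : Prop :=
  ∀ (K F k F₁ F₂ : Type) [Field K] [Field F] [Algebra K F] [Field k] [Field F₁]
    [Algebra k F₁] [Field F₂] [Algebra k F₂] [IsAlgClosed K] [IsAlgClosed k]
    (S : SSD K F k F₁ F₂), FFHyp K F → FFHyp k F₁ → FFHyp k F₂ →
    ∀ (g g₁ g₂ : ℕ) (c c₁ c₂ : ℤ), IsGenus K F g c → IsGenus k F₁ g₁ c₁ → IsGenus k F₂ g₂ c₂ →
    g + 1 ≤ g₁ + g₂ + S.nodes.card →
    ∀ (p : ℕ), p.Prime → p ≠ 2 → CharP k p → (p : K) ≠ 0 →
    ∀ (ζ : K), ζ ^ p = 1 → ζ ≠ 1 →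
    ∀ (σ : SemilinearAut K F), S.IsInertial σ →
    ∀ (a : ℕ), SemilinearAut.baseAut σ ζ = ζ ^ a →
    ∀ (f : F), f ∈ S.c₁.V → S.c₁.rd f = 1 → (∀ P : Place K F, (p : ℤ) ∣ P.ord f) →
      (∃ (f' h₀ : F) (a' : K), f' ∈ S.c₂.V ∧ S.c₂.rd f' = 1 ∧
        f = algebraMap K F a' * f' * h₀ ^ p) →
      PW S p f →
      ∃ h : F, h ^ p = (σ • f) / f ^ a

end Fermat.Agent.BADP.H86
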