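import Mathlib.RingTheory.Valuation.ValuationSubring
import Mathlib.Algebra.CharP.Lemmas

/-!
# S33, `p`-new case, leaf PTH-ROOT (helper86)

`V` a valuation ring of a field `F`, `p` a prime.  If `t ^ p = 1 + c₀ θ` with `θ ∈ V`,
`c₀ = c₁ ^ p` in the maximal ideal and of depth `< p / (p - 1) · v(p)`
(multiplicatively: `v(p) ^ p < v(c₀) ^ (p - 1)`), then the reduction of `θ` is a `p`-th power:
there is `ψ ∈ V` with `θ - ψ ^ p` in the maximal ideal.

Proof: `t = 1 + y`, `(1 + y) ^ p = 1 + y ^ p + p y r` with `r ∈ V`.  If `v(y) ^ (p - 1) ≤ v(p)`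
both terms are deeper than `c₀`, and `ψ = 0`.  Otherwise `y ^ p` dominates strictly and
`ψ = y / c₁`.
-/

set_option autoImplicit false

namespace Fermat.Agent.BADP.H86

variable {F : Type*} [Field F]

/-- `(1 + y) ^ p = 1 + y ^ p + p y r` with `r` in the valuation ring. -/
theorem one_add_pow_prime (V : ValuationSubring F) {p : ℕ} (hp : p.Prime) {y : F}
    (hy : y ∈ V) : ∃ r ∈ V, (1 + y) ^ p = 1 + y ^ p + (p : F) * y * r := by
  obtain ⟨r, hr⟩ := exists_add_pow_prime_eq hp (1 : ↥V) ⟨y, hy⟩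
  refine ⟨(r : F), r.2, ?_⟩
  have h := congrArg (fun z : ↥V => (z : F)) hr
  simp only [one_pow, mul_one] at h
  push_cast at h
  simpa using h

/-- **PTH-ROOT.** -/
theorem pthRoot (V : ValuationSubring F) {p : ℕ} (hp : p.Prime) {t c₀ c₁ θ : F}
    (hθ : θ ∈ V) (hc : c₁ ^ p = c₀) (hc0 : c₀ ≠ 0) (hc1 : V.valuation c₀ < 1)
    (hdepth : V.valuation (p : F) ^ p < V.valuation c₀ ^ (p - 1))
    (ht : t ^ p = 1 + c₀ * θ) :
    ∃ ψ ∈ V, V.valuation (θ - ψ ^ p) < 1 := by
  set v := V.valuation with hv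
  have hp0 : p ≠ 0 := hp.ne_zero
  have hp1 : p - 1 ≠ 0 := by have := hp.two_le; omega
  have hpow : ∀ x : V.ValueGroup, x ^ p = x ^ (p - 1) * x := fun x => by
    rw [← pow_succ, Nat.sub_add_cancel hp.one_le]
  have hθ1 : v θ ≤ 1 := (V.valuation_le_one_iff θ).2 hθ
  have hvc0 : v c₀ ≠ 0 := (Valuation.ne_zero_iff _).2 hc0
  have hc1ne : c₁ ≠ 0 := by
    rintro rfl
    exact hc0 (by rw [← hc, zero_pow hp0])
  -- `v p < 1`
  have hvp : v (p : F) < 1 := by
    by_contra h
    rw [not_lt] at h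
    have h1 : (1 : V.ValueGroup) ≤ v (p : F) ^ p := one_le_pow₀ h
    have h2 : v c₀ ^ (p - 1) ≤ 1 := pow_le_one₀ zero_le hc1.le
    exact absurd (lt_of_le_of_lt h1 hdepth) (not_lt.2 h2)
  -- `t ∈ V`
  have htV : t ∈ V := by
    rw [← V.valuation_le_one_iff]
    have h1 : v (t ^ p) ≤ 1 := by
      rw [ht]
      refine (v.map_add _ _).trans (max_le (by rw [map_one]) ?_)
      rw [map_mul]
      exact mul_le_one₀ hc1.le zero_le hθ1
    rw [map_pow] at h1
    exact (pow_le_one_iff_of_nonneg zero_le hp0).1 h1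
  set y := t - 1 with hy
  have hyV : y ∈ V := V.sub_mem htV V.one_mem
  have hty : t = 1 + y := by rw [hy]; ring
  obtain ⟨r, hrV, hr⟩ := one_add_pow_prime V hp hyV
  have hr1 : v r ≤ 1 := (V.valuation_le_one_iff r).2 hrV
  have hy1 : v y ≤ 1 := (V.valuation_le_one_iff y).2 hyV
  -- the key identity
  have key : c₀ * θ = y ^ p + (p : F) * y * r := by
    have h1 : 1 + c₀ * θ = 1 + y ^ p + (p : F) * y * r := by rw [← ht, hty, hr]
    linear_combination h1
  have hpyr : v ((p : F) * y * r) ≤ v (p : F) * v y := by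
    rw [map_mul, map_mul]
    exact mul_le_of_le_one_right zero_le hr1
  by_cases hcase : v y ^ (p - 1) ≤ v (p : F)
  · -- case A: everything is deep, `ψ = 0`
    refine ⟨0, V.zero_mem, ?_⟩
    rw [zero_pow hp0, sub_zero]
    by_contra hnot
    have hθ' : v θ = 1 := le_antisymm hθ1 (not_lt.1 hnot)
    have h1 : v c₀ ≤ v (p : F) * v y := by
      have h2 : v (c₀ * θ) = v c₀ := by rw [map_mul, hθ', mul_one]
      rw [← h2, key]
      refine (v.map_add _ _).trans (max_le ?_ hpyr)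
      rw [map_pow, hpow]
      exact mul_le_mul_left hcase _
    have h3 : v c₀ ^ (p - 1) ≤ (v (p : F) * v y) ^ (p - 1) := pow_le_pow_left₀ zero_le h1 _
    have h4 : (v (p : F) * v y) ^ (p - 1) ≤ v (p : F) ^ p := by
      rw [mul_pow, hpow (v (p : F))]
      exact mul_le_mul_right hcase _
    exact absurd hdepth (not_lt.2 (h3.trans h4))
  · -- case B: `y ^ p` dominates
    rw [not_le] at hcase
    have hy0 : y ≠ 0 := by
      rintro h0
      rw [h0, map_zero, zero_pow hp1] at hcase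
      exact not_lt_zero hcase
    have hvy0 : v y ≠ 0 := (Valuation.ne_zero_iff _).2 hy0
    have hlt : v ((p : F) * y * r) < v y ^ p := by
      refine lt_of_le_of_lt hpyr ?_
      rw [hpow (v y)]
      exact mul_lt_mul_of_pos_right hcase (zero_lt_iff.2 hvy0)
    have hval : v (c₀ * θ) = v y ^ p := by
      rw [key, ← map_pow]
      exact v.map_add_eq_of_lt_left (by rwa [map_pow])
    have hle : v y ^ p ≤ v c₁ ^ p := by
      rw [← hval, map_mul, ← map_pow, hc]
      exact mul_le_of_le_one_right zero_le hθ1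
    have hyc : v y ≤ v c₁ := (pow_le_pow_iff_left₀ zero_le zero_le hp0).1 hle
    have hvc1 : v c₁ ≠ 0 := (Valuation.ne_zero_iff _).2 hc1ne
    have hψ : y / c₁ ∈ V := by
      rw [← V.valuation_le_one_iff, map_div₀]
      exact (div_le_one₀ (zero_lt_iff.2 hvc1)).2 hyc
    refine ⟨y / c₁, hψ, ?_⟩
    have h1 : θ - (y / c₁) ^ p = ((p : F) * y * r) / c₀ := by
      rw [div_pow, hc]
      field_simp
      linear_combination key
    rw [h1, map_div₀]
    rw [div_lt_one₀ (zero_lt_iff.2 hvc0)]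
    refine lt_of_lt_of_le hlt ?_
    rw [← hval, map_mul]
    exact mul_le_of_le_one_right zero_le hθ1

end Fermat.Agent.BADP.H86
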