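/-
helper93, row 38 (S44), package BAD_p: EIS-MOD, part EM-PAIR.
Plan: `NOTES/plan/L_S44.md` §12.2, §14.

A Kummer pair `(D, f)`, `f` a unit of the first valuation of the modular datum, with the
congruence `ord_s (rd₁ f) ≡ m ord_s (rd₁ U)` modulo `p` at the nodes, is an Eisenstein pair:
at the good places the divisor identity gives `p ∣ ord_Q (rd₁ f)` and, outside the cusps,
`ord_Q (rd₁ U) = 0`.
-/
import Fermat.Agent.BADP.EisModParts
import Fermat.Agent.BAD.H28_PRed

set_option autoImplicit false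
set_option synthInstance.maxHeartbeats 400000
set_option maxHeartbeats 1000000

noncomputable section

open AlgebraicCurve ModularCurve

namespace Fermat.Agent.BADP.H93

open Fermat.Agent.BAD Fermat.Agent.S44 Fermat.Agent.S43.BadQ Fermat.Agent.S28.H73
  Fermat.Agent.RED.H73 Fermat.Agent.BADP

/-- **(EM-PAIR)**. -/
theorem stmt_EisPairP : Stmt_EisPairP := by
  intro p _ hp5 M a b hab hp _ A hA S hS x D f m hxD hGU hdiv hnode
  have hf : f ∈ gaussV A (M * p) := (hS.datum.mem₁ f).1 hGU.1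
  have hrd : S.c₁.rd f = gaussRes A (M * p) ⟨f, hf⟩ := by
    rw [S.c₁.rd_of_mem hGU.1]
    exact hS.datum.red₁ ⟨f, hf⟩ hGU.1
  have hUmem : Fermat.Agent.BAD.H30.unitF (M * p) p (Dvd.intro_left M rfl) ∈ gaussV A (M * p) :=
    Fermat.Agent.BAD.H30.unitF_mem_gaussV A (M * p) p (Dvd.intro_left M rfl)
  have hU₁ : Fermat.Agent.BAD.H30.unitF (M * p) p (Dvd.intro_left M rfl) ∈ S.c₁.V :=
    (hS.datum.mem₁ _).2 hUmem
  have hrdU : S.c₁.rd (Fermat.Agent.BAD.H30.unitF (M * p) p (Dvd.intro_left M rfl))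
      = unitRed A (M * p) p (Dvd.intro_left M rfl) := by
    rw [S.c₁.rd_of_mem hU₁]
    exact hS.datum.red₁ ⟨_, hUmem⟩ hU₁
  have hUGU : S.c₁.IsGU (Fermat.Agent.BAD.H30.unitF (M * p) p (Dvd.intro_left M rfl)) := by
    refine ⟨hU₁, ?_⟩
    rw [hrdU]
    exact Fermat.Agent.BAD.H30.gaussRes_unitF_ne_zero A (M * p) p (Dvd.intro_left M rfl)
  have hPD := hS.datum.ff.principal
  refine ⟨hf, hxD, by rw [← hrd]; exact hGU.2, hdiv, fun Q => ?_⟩
  by_cases hQ : Q ∈ S.c₁.good
  · -- a good place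
    have h1 : (p : ℤ) ∣ Q.ord (S.c₁.rd f) := by
      rw [S.c₁.ord_rd_eq_sum hPD hGU Q hQ]
      refine Finset.dvd_sum fun P _ => ?_
      split_ifs
      · exact ⟨_, (hdiv P).symm⟩
      · exact dvd_zero _
    constructor
    · intro hj
      have h2 : Q.ord (S.c₁.rd (Fermat.Agent.BAD.H30.unitF (M * p) p (Dvd.intro_left M rfl)))
          = 0 := by
        rw [S.c₁.ord_rd_eq_sum hPD hUGU Q hQ]
        refine Finset.sum_eq_zero fun P _ => ?_
        split_ifs with h
        · exact hS.unit_ord P Q h hj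
        · rfl
      rw [← hrd, ← hrdU, h2, mul_zero, sub_zero]
      exact h1
    · intro _
      rw [← hrd]
      exact h1
  · -- a branch of a node
    have hQ' : ∃ s ∈ S.nodes, s.1 = Q := by
      by_contra hcon
      push_neg at hcon
      exact hQ ((S.good₁ Q).2 hcon)
    obtain ⟨s, hs, rfl⟩ := hQ'
    constructor
    · intro _
      rw [← hrd, ← hrdU]
      exact hnode s hs
    · intro hj
      exact absurd (hS.cusp_good _ hj) hQ

end Fermat.Agent.BADP.H93
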