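/-
helper93, row 38 (S44), package BAD_p: ARITH-0 at the function level.
Plan: `NOTES/plan/L_S44.md` §12.1 (ARITH-0).

* `Stmt_Lambda` **(LAMBDA, field level, helper9)** : for every finite set `T ⊆ ℚ̄` there is a
  finite combination `λ = ∑ c σ • σ` of elements of the inertia group with `λ y` fixed by the
  inertia group and `λ y ≡ y` modulo the maximal ideal for the integral `y ∈ T`.
* `stmt_K0LiftP_of : Stmt_Lambda → Stmt_K0LiftP` : the function `u0 = ∑ c σ • (σ u)` is the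
  inertia-fixed part of `u` (coefficients in an orthonormal rational family, helper15).
-/
import Fermat.Agent.BADP.ModStmts
import Fermat.Agent.BADP.H15_Desc
import Fermat.Agent.BAD.H79_Inert

set_option autoImplicit false
set_option linter.style.haveILetI false
set_option linter.unusedSectionVars false
set_option synthInstance.maxHeartbeats 400000
set_option maxHeartbeats 1000000

noncomputable section

open AlgebraicCurve ModularCurve

namespace Fermat.Agent.BADP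

open Fermat.Agent.BAD Fermat.Agent.S44 Fermat.Agent.S43.BadQ Fermat.Agent.S28.H73
  Fermat.Agent.RED.H73 Fermat.Agent.RED Fermat.Agent.S24 Fermat.Agent.FL.H22

/-- **(LAMBDA)**, field level. -/
def Stmt_Lambda : Prop :=
  ∀ (p : ℕ), p.Prime → ∀ A : ValuationSubring (AlgebraicClosure ℚ), A.LiesOverPrime p →
    ∀ T : Finset (AlgebraicClosure ℚ),
      ∃ (s : Finset GalQ) (c : GalQ → AlgebraicClosure ℚ),
        (∀ σ ∈ s, σ ∈ A.inertiaSubgroupIn ℚ) ∧
        ∀ y ∈ T,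
          (∀ τ ∈ A.inertiaSubgroupIn ℚ, τ (∑ σ ∈ s, c σ * σ y) = ∑ σ ∈ s, c σ * σ y) ∧
          (y ∈ A → (∑ σ ∈ s, c σ * σ y) ∈ A ∧ (∑ σ ∈ s, c σ * σ y) - y ∈ A.nonunits)

namespace H93

section Lift

variable (N : ℕ) [NeZero N] (A : ValuationSubring (AlgebraicClosure ℚ))

/-- The operator `λ = ∑ c σ • σ` on functions. -/
def lamF (s : Finset GalQ) (c : GalQ → AlgebraicClosure ℚ) (u : ↥(FNbar N)) : ↥(FNbar N) :=
  ∑ σ ∈ s, c σ • (galF N σ • u)

/-- The operator `λ = ∑ c σ • σ` on constants. -/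
def lamK (s : Finset GalQ) (c : GalQ → AlgebraicClosure ℚ) (y : AlgebraicClosure ℚ) :
    AlgebraicClosure ℚ :=
  ∑ σ ∈ s, c σ * σ y

theorem lamF_sum_smul (s : Finset GalQ) (c : GalQ → AlgebraicClosure ℚ) {n : ℕ}
    (α : Fin n → AlgebraicClosure ℚ) (e : Fin n → ↥(modularFunctionFieldFull N)) :
    lamF N s c (∑ i, α i • bcF N (e i)) = ∑ i, lamK s c (α i) • bcF N (e i) := by
  unfold lamF lamK
  have h1 : ∀ σ ∈ s, c σ • (galF N σ • (∑ i, α i • bcF N (e i)))
      = ∑ i, (c σ * σ (α i)) • bcF N (e i) := by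
    intro σ _
    rw [H15.galF_sum_smul, Finset.smul_sum]
    refine Finset.sum_congr rfl fun i _ => ?_
    rw [H15.galF_bcF, smul_smul]
  rw [Finset.sum_congr rfl h1, Finset.sum_comm]
  refine Finset.sum_congr rfl fun i _ => ?_
  rw [Finset.sum_smul]

/-- `λ` commutes with a `ℚ̄`-linear automorphism which commutes with the Galois action. -/
theorem smul_lamF (w : SemilinearAut (AlgebraicClosure ℚ) ↥(FNbar N))
    (hw : ∀ c : AlgebraicClosure ℚ, SemilinearAut.baseAut w c = c)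
    (hcomm : ∀ σ : GalQ, w * galF N σ = galF N σ * w)
    (s : Finset GalQ) (c : GalQ → AlgebraicClosure ℚ) (u : ↥(FNbar N)) :
    w • lamF N s c u = lamF N s c (w • u) := by
  unfold lamF
  rw [Finset.smul_sum]
  refine Finset.sum_congr rfl fun σ _ => ?_
  rw [Algebra.smul_def, Algebra.smul_def, smul_mul', SemilinearAut.smul_algebraMap, hw,
    ← mul_smul, hcomm σ, mul_smul]

/-- The function `λ u` is fixed by `τ` if the coefficients `λ (α i)` are. -/
theorem galF_lamF_repr (s : Finset GalQ) (c : GalQ → AlgebraicClosure ℚ) {n : ℕ}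
    (α : Fin n → AlgebraicClosure ℚ) (e : Fin n → ↥(modularFunctionFieldFull N)) (τ : GalQ)
    (hτ : ∀ i, τ (lamK s c (α i)) = lamK s c (α i)) :
    galF N τ • lamF N s c (∑ i, α i • bcF N (e i)) = lamF N s c (∑ i, α i • bcF N (e i)) := by
  rw [lamF_sum_smul, H15.galF_sum_smul]
  refine Finset.sum_congr rfl fun i _ => ?_
  rw [hτ i, H15.galF_bcF]

/-- Integrality and reduction of `λ u`. -/
theorem lamF_mem_red (s : Finset GalQ) (c : GalQ → AlgebraicClosure ℚ) {n : ℕ}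
    (α : Fin n → AlgebraicClosure ℚ)
    (e : Fin n → ↥(gaussValSub (subV ℚ A) (modularFunctionFieldFull N) (hasScale_full _ N)))
    (he : LinearIndependent (kV (subV ℚ A))
      (fun i => gaussResF' (subV ℚ A) (hasScale_full _ N) (e i)))
    (hu : ∑ i, α i • bcF N (e i) ∈ gaussV A N)
    (hlam : ∀ i, α i ∈ A → lamK s c (α i) ∈ A ∧ lamK s c (α i) - α i ∈ A.nonunits) :
    ∃ h0 : lamF N s c (∑ i, α i • bcF N (e i)) ∈ gaussV A N,
      gaussRes A N ⟨_, h0⟩ = gaussRes A N ⟨_, hu⟩ := by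
  have hαA : ∀ i, α i ∈ A :=
    H15.coeff_mem_of_sum_mem (E := H15.bcE N A e) (H15.linearIndependent_red_bcE N A e he) α hu
  have hlA : ∀ i, lamK s c (α i) ∈ A := fun i => (hlam i (hαA i)).1
  have hmem : ∑ i, lamK s c (α i) • (((H15.bcE N A e i : ↥(gaussV A N)) : ↥(FNbar N)))
      ∈ gaussV A N :=
    H15.sum_mem A (hasScale_laurentBaseChange A N) (H15.bcE N A e) _ hlA
  have e1 : lamF N s c (∑ i, α i • bcF N (e i))
      = ∑ i, lamK s c (α i) • (((H15.bcE N A e i : ↥(gaussV A N)) : ↥(FNbar N))) :=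
    lamF_sum_smul N s c α _
  refine ⟨e1 ▸ hmem, ?_⟩
  have e2 : (⟨_, e1 ▸ hmem⟩ : ↥(gaussV A N)) = ⟨_, hmem⟩ := Subtype.ext e1
  rw [e2]
  have r1 := H15.red_sum A (hasScale_laurentBaseChange A N) (H15.bcE N A e) _ hlA hmem
  have r2 := H15.red_sum A (hasScale_laurentBaseChange A N) (H15.bcE N A e) α hαA hu
  refine r1.trans (Eq.trans ?_ r2.symm)
  refine Finset.sum_congr rfl fun i _ => ?_
  congr 1
  have h3 := (hlam i (hαA i)).2
  have h4 : (⟨lamK s c (α i), hlA i⟩ : ↥A) - ⟨α i, hαA i⟩ ∈ IsLocalRing.maximalIdeal ↥A := by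
    rw [IsLocalRing.mem_maximalIdeal, mem_nonunits_iff]
    intro hunit
    have h5 := (ValuationSubring.valuation_eq_one_iff A _).mp hunit
    have h6 : A.valuation (lamK s c (α i) - α i) < 1 := A.mem_nonunits_iff.mp h3
    exact absurd h5 (ne_of_lt h6)
  have h7 := (IsLocalRing.residue_eq_zero_iff _).2 h4
  rw [map_sub, sub_eq_zero] at h7
  exact h7

/-- The poles of `λ u` are Galois conjugates of poles of `u`. -/
theorem exists_pole_of_lamF (s : Finset GalQ) (c : GalQ → AlgebraicClosure ℚ) (u : ↥(FNbar N))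
    (P : Place (AlgebraicClosure ℚ) ↥(FNbar N)) (hP : P.ord (lamF N s c u) < 0) :
    ∃ σ ∈ s, ((galF N σ)⁻¹ • P).ord u < 0 := by
  by_contra hcon
  push Not at hcon
  have hreg : RED.H17.RegAt P (lamF N s c u) := by
    unfold lamF
    refine RED.H17.RegAt.sum s _ fun σ hσ => ?_
    rw [Algebra.smul_def]
    refine (RED.H17.regAt_algebraMap P (c σ)).mul ?_
    have h1 : RED.H17.RegAt ((galF N σ)⁻¹ • P) u := RED.H17.regAt_of_ord_nonneg (hcon σ hσ)
    have h2 := (Fermat.Agent.BAD.H79.regAt_smul_iff (galF N σ) ((galF N σ)⁻¹ • P) u).2 h1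
    rwa [smul_inv_smul] at h2
  exact absurd hreg.ord_nonneg (not_le.mpr hP)

end Lift

section Main

/-- **(ARITH-0), function level**: `Stmt_K0LiftP` from (LAMBDA). -/
theorem stmt_K0LiftP_of (hL : Stmt_Lambda) : Stmt_K0LiftP := by
  intro p hp5 M a b hab hp _ A hA S hS u hu₁ hu₂
  have hu1 : u ∈ gaussV A (M * p) := (hS.mem₁ u).1 hu₁
  have hu2 : wS p M a b hab hp • u ∈ gaussV A (M * p) := (hS.mem₂ u).1 hu₂
  obtain ⟨n, α, e, he, hrep⟩ := H15.exists_repr_ortho (M * p) A u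
  obtain ⟨n', α', e', he', hrep'⟩ := H15.exists_repr_ortho (M * p) A (wS p M a b hab hp • u)
  classical
  obtain ⟨s, c, hs, hlam⟩ := hL p hp A hA (Finset.univ.image α ∪ Finset.univ.image α')
  have hα : ∀ i, α i ∈ Finset.univ.image α ∪ Finset.univ.image α' := fun i =>
    Finset.mem_union_left _ (Finset.mem_image_of_mem α (Finset.mem_univ i))
  have hα' : ∀ j, α' j ∈ Finset.univ.image α ∪ Finset.univ.image α' := fun j =>
    Finset.mem_union_right _ (Finset.mem_image_of_mem α' (Finset.mem_univ j))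
  -- the fixed part
  set u0 : ↥(FNbar (M * p)) := lamF (M * p) s c u with hu0
  have hw : ∀ y : AlgebraicClosure ℚ,
      SemilinearAut.baseAut (wS p M a b hab hp) y = y := fun y => rfl
  have hwu0 : wS p M a b hab hp • u0 = lamF (M * p) s c (wS p M a b hab hp • u) :=
    smul_lamF (M * p) (wS p M a b hab hp) hw (fun σ => wS_comm_gal p M a b hab hp σ) s c u
  -- integrality and reductions
  have hu1' : ∑ i, α i • bcF (M * p) (e i) ∈ gaussV A (M * p) := hrep ▸ hu1
  have hu2' : ∑ j, α' j • bcF (M * p) (e' j) ∈ gaussV A (M * p) := hrep' ▸ hu2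
  obtain ⟨hm1, hr1⟩ := lamF_mem_red (M * p) A s c α e he hu1'
    (fun i => (hlam (α i) (hα i)).2)
  obtain ⟨hm2, hr2⟩ := lamF_mem_red (M * p) A s c α' e' he' hu2'
    (fun j => (hlam (α' j) (hα' j)).2)
  have hm1' : u0 ∈ gaussV A (M * p) := by
    rw [hu0, hrep]
    exact hm1
  have hm2' : wS p M a b hab hp • u0 ∈ gaussV A (M * p) := by
    rw [hwu0, hrep']
    exact hm2
  have h0₁ : u0 ∈ S.c₁.V := (hS.mem₁ u0).2 hm1'
  have h0₂ : u0 ∈ S.c₂.V := (hS.mem₂ u0).2 hm2'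
  refine ⟨u0, ?_, h0₁, h0₂, ?_, ?_, ?_⟩
  · -- fixed
    rintro τ ⟨σ, hσ, rfl⟩
    rw [hu0, hrep]
    exact galF_lamF_repr (M * p) s c α _ σ (fun i => (hlam (α i) (hα i)).1 σ hσ)
  · -- first reduction
    rw [S.c₁.rd_of_mem h0₁, S.c₁.rd_of_mem hu₁, hS.red₁ ⟨u0, hm1'⟩ h0₁, hS.red₁ ⟨u, hu1⟩ hu₁]
    have e1 : (⟨u0, hm1'⟩ : ↥(gaussV A (M * p))) = ⟨_, hm1⟩ :=
      Subtype.ext (show u0 = lamF (M * p) s c (∑ i, α i • bcF (M * p) (e i)) by
        rw [hu0, ← hrep])
    have e2 : (⟨u, hu1⟩ : ↥(gaussV A (M * p))) = ⟨_, hu1'⟩ := Subtype.ext hrep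
    rw [e1, e2]
    exact hr1
  · -- second reduction
    rw [S.c₂.rd_of_mem h0₂, S.c₂.rd_of_mem hu₂, hS.red₂ u0 h0₂ hm2', hS.red₂ u hu₂ hu2]
    have e1 : (⟨wS p M a b hab hp • u0, hm2'⟩ : ↥(gaussV A (M * p))) = ⟨_, hm2⟩ :=
      Subtype.ext (show wS p M a b hab hp • u0
          = lamF (M * p) s c (∑ j, α' j • bcF (M * p) (e' j)) by
        rw [hwu0, ← hrep'])
    have e2 : (⟨wS p M a b hab hp • u, hu2⟩ : ↥(gaussV A (M * p))) = ⟨_, hu2'⟩ :=
      Subtype.ext hrep'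
    rw [e1, e2]
    exact hr2
  · -- poles
    intro P hP
    obtain ⟨σ, hσ, hord⟩ := exists_pole_of_lamF (M * p) s c u P hP
    have hin := hS.inertial σ (hs σ hσ)
    refine ⟨(galF (M * p) σ)⁻¹ • P, ?_, ?_, hord⟩
    · have := hin.r₁ ((galF (M * p) σ)⁻¹ • P)
      rw [smul_inv_smul] at this
      exact this.symm
    · have := hin.r₂ ((galF (M * p) σ)⁻¹ • P)
      rw [smul_inv_smul] at this
      exact this.symm

end Main

end H93

end Fermat.Agent.BADP
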