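/-
helper9, rows 37/38 (S43 COMP-EIS / S44 BAD_p), leaf ARITH-0, sub-leaf LAMBDA (field level):
the statement.

`A` a valuation subring of `ℚ̄` over the prime `ℓ`, `I = A.inertiaSubgroupIn ℚ` its inertia group,
`L ⊆ ℚ̄` a finite extension of `ℚ`.  There are finitely many `σ ∈ I` and constants `c σ ∈ ℚ̄` such
that `λ y := ∑ σ ∈ s, c σ * σ y` satisfies, for every `y ∈ L`:
* `λ y` is fixed by `I`;
* if `y ∈ A` then `λ y ∈ A` and `λ y ≡ y` modulo the maximal ideal of `A`.

(`λ` is the coordinate of `1` in a basis `1, b₂, …, bₙ`, `bᵢ ∈ 𝔪`, of the valuation ring of `L`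
over the valuation ring of the inertia field of `L`, which is a discrete valuation ring with the
same residue field; Dedekind independence writes it as a combination of the elements of the
inertia group of `L`.)
-/
import Mathlib
import Fermat.Prelude.Def_FLTPrelim_Ramification

set_option autoImplicit false

namespace Fermat.Agent.BADP.H9

/-- **LAMBDA** for the valuation subring `A` and the finite extension `L`. -/
def LambdaAt (A : ValuationSubring (AlgebraicClosure ℚ))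
    (L : IntermediateField ℚ (AlgebraicClosure ℚ)) : Prop :=
  ∃ (s : Finset (AlgebraicClosure ℚ ≃ₐ[ℚ] AlgebraicClosure ℚ))
    (c : (AlgebraicClosure ℚ ≃ₐ[ℚ] AlgebraicClosure ℚ) → AlgebraicClosure ℚ),
    (∀ σ ∈ s, σ ∈ A.inertiaSubgroupIn ℚ) ∧
    ∀ y ∈ L,
      (∀ τ ∈ A.inertiaSubgroupIn ℚ, τ (∑ σ ∈ s, c σ * σ y) = ∑ σ ∈ s, c σ * σ y) ∧
      (y ∈ A → (∑ σ ∈ s, c σ * σ y) ∈ A ∧ (∑ σ ∈ s, c σ * σ y) - y ∈ A.nonunits)

/-- **LAMBDA**: the statement. -/
def Stmt_Lambda : Prop :=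
  ∀ (ℓ : ℕ), ℓ.Prime → ∀ A : ValuationSubring (AlgebraicClosure ℚ), A.LiesOverPrime ℓ →
    ∀ (L : IntermediateField ℚ (AlgebraicClosure ℚ)), FiniteDimensional ℚ L → LambdaAt A L

end Fermat.Agent.BADP.H9
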