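/-
helper93, row 38 (S44), package BAD_p: ARITH-0, bridge between the two forms of (LAMBDA):
helper9's intermediate-field form `H9.Stmt_Lambda` gives the finite-set form `Stmt_Lambda`
(apply it to the field generated by the finite set).
-/
import Fermat.Agent.BADP.H93_K0Lift
import Fermat.Agent.BADP.H9_LambdaStmt

set_option autoImplicit false

namespace Fermat.Agent.BADP.H93

/-- helper9's (LAMBDA) gives the finite-set form. -/
theorem stmt_Lambda_of_H9 (h : Fermat.Agent.BADP.H9.Stmt_Lambda) :
    Fermat.Agent.BADP.Stmt_Lambda := by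
  intro p hp A hA T
  have hfd : FiniteDimensional ℚ
      (IntermediateField.adjoin ℚ ((T : Set (AlgebraicClosure ℚ)))) := by
    apply IntermediateField.finiteDimensional_adjoin
    intro x _
    exact ((AlgebraicClosure.isAlgebraic ℚ).isAlgebraic x).isIntegral
  obtain ⟨s, c, hs, hy⟩ := h p hp A hA _ hfd
  refine ⟨s, c, hs, fun y hyT => hy y ?_⟩
  exact IntermediateField.subset_adjoin ℚ _ (by exact_mod_cast hyT)

/-- **(ARITH-0)** from helper9's (LAMBDA). -/
theorem stmt_K0LiftP_of_H9 (h : Fermat.Agent.BADP.H9.Stmt_Lambda) :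
    Fermat.Agent.BADP.Stmt_K0LiftP :=
  stmt_K0LiftP_of (stmt_Lambda_of_H9 h)

end Fermat.Agent.BADP.H93
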