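import Fermat.Agent.BADP.H97_EisNorm
import Fermat.Agent.BADP.H28_DCore2

/-!
# S44 (row 38), package EIS-ABS (helper97), part 2: the correction factors of D-CORE'

`T : PRed K F k F'`, `θ` a constant of the maximal ideal, `σ` a semilinear automorphism.

* `isFC_of_val_sigma_div` : (K3) `⇒` `G / σ G ≡ 1 + m θ`;
* `isFC_coord` : `(s - a) / s ≡ 1 + 0 θ` if `v a ≤ v θ ^ 2`;
* `ord_corr` : the order of `H (G / σ G) x`;
* `exists_corr_good` : the correction factor at a good place (hypothesis `hR` of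
  `SSD.dcore_gen`).

Plan: `NOTES/plan/L_S44.md` §12.2 (d3), (d4).
-/

set_option autoImplicit false
set_option linter.style.haveILetI false
set_option linter.unusedSectionVars false

noncomputable section

open AlgebraicCurve

attribute [local instance] Classical.propDecidable

namespace Fermat.Agent.BADP.H97

open Fermat.Agent.RED.H17 Fermat.Agent.RED Fermat.Agent.BAD

section FC2

variable {K F k F' : Type*} [Field K] [Field F] [Algebra K F] [Field k] [Field F']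
  [Algebra k F'] {T : PRed K F k F'} {θ : K} {σ : SemilinearAut K F}

theorem smul_ne_zero_of_ne {G : F} (hG : G ≠ 0) : σ • G ≠ 0 := by
  rw [SemilinearAut.smul_def]
  exact (map_ne_zero_iff _ (SemilinearAut.toRingAut σ).injective).mpr hG

/-- (K3) `⇒` first order: if `v (σ G / G - (1 - m θ)) ≤ v θ ^ 2` then `G / σ G ≡ 1 + m θ`. -/
theorem isFC_of_val_sigma_div (hθ : algebraMap K F θ ∈ T.V)
    (hθ0 : T.rd (algebraMap K F θ) = 0) (hθne : θ ≠ 0) {G : F} (m : ℤ)
    (h : T.V.valuation ((σ • G) / G - (1 - (m : F) * algebraMap K F θ)) ≤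
      T.V.valuation (algebraMap K F θ) ^ 2) :
    T.IsFC θ (G / (σ • G)) (m : F') := by
  have hθF : algebraMap K F θ ≠ 0 := (map_ne_zero_iff _ (algebraMap K F).injective).mpr hθne
  set y : F := ((σ • G) / G - (1 - (m : F) * algebraMap K F θ)) / algebraMap K F θ ^ 2 with hy
  have hym : y ∈ T.V := by
    rw [pv_mem_iff, hy, map_div₀, map_pow]
    exact div_le_one_of_le₀ h zero_le
  have hmm : (m : F) ∈ T.V := intCast_mem T.V m
  have hmr : T.rd (m : F) = (m : F') := by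
    have := (rd_intCast (K := K) T m).2
    rwa [map_intCast] at this
  have e1 : (σ • G) / G = 1 + algebraMap K F θ * (-(m : F) + algebraMap K F θ * y) := by
    rw [hy]
    field_simp
    ring
  have hΛ : -(m : F) + algebraMap K F θ * y ∈ T.V :=
    T.V.add_mem _ _ (T.V.neg_mem _ hmm) (T.V.mul_mem _ _ hθ hym)
  have hΛr : T.rd (-(m : F) + algebraMap K F θ * y) = -(m : F') := by
    rw [T.rd_add (T.V.neg_mem _ hmm) (T.V.mul_mem _ _ hθ hym), T.rd_neg hmm, hmr,
      T.rd_mul hθ hym, hθ0, zero_mul, add_zero]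
  have h1 : T.IsFC θ ((σ • G) / G) (-(m : F')) := ⟨_, hΛ, hΛr, e1⟩
  have h2 := h1.inv hθ hθ0
  rwa [inv_div, neg_neg] at h2

/-- `(s - a) / s ≡ 1 + 0 θ` if `v a ≤ v θ ^ 2`. -/
theorem isFC_coord (hθ : algebraMap K F θ ∈ T.V) (hθ0 : T.rd (algebraMap K F θ) = 0)
    (hθne : θ ≠ 0) {s : F} (hs : T.IsGU s) {a : K}
    (ha : T.V.valuation (algebraMap K F a) ≤ T.V.valuation (algebraMap K F θ) ^ 2) :
    T.IsFC θ ((s - algebraMap K F a) / s) 0 := by
  have hθF : algebraMap K F θ ≠ 0 := (map_ne_zero_iff _ (algebraMap K F).injective).mpr hθne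
  refine PRed.isFC_of_sq hθ hθ0 hθne ?_
  have hs0 := hs.ne_zero
  have e : ((s - algebraMap K F a) / s - 1) / algebraMap K F θ ^ 2 =
      -(algebraMap K F a / algebraMap K F θ ^ 2 * s⁻¹) := by
    field_simp
    ring
  rw [e]
  refine T.V.neg_mem _ (T.V.mul_mem _ _ ?_ hs.inv_mem)
  rw [pv_mem_iff, map_div₀, map_pow]
  exact div_le_one_of_le₀ ha zero_le

/-- (K2) `⇒` first order, valuation form. -/
theorem isFC_of_val_sigma_sub (hθ : algebraMap K F θ ∈ T.V)
    (hθ0 : T.rd (algebraMap K F θ) = 0) (hθne : θ ≠ 0) {G : F} (hG : T.IsGU G)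
    (h : T.V.valuation (σ • G - G) ≤ T.V.valuation (algebraMap K F θ) ^ 2) :
    T.IsFC θ (G / (σ • G)) 0 := by
  refine isFC_div_smul_of_sq hθ hθ0 hθne hG ?_
  rw [pv_mem_iff, map_div₀, map_pow]
  exact div_le_one_of_le₀ h zero_le

end FC2

section Ord

variable {K F : Type*} [Field K] [Field F] [Algebra K F] {σ : SemilinearAut K F}

/-- The order of `H (G / σ G) x` at `P`. -/
theorem ord_corr {p : ℕ} (hp : p ≠ 0) {f Hn F0c G x : F} {P : Place K F}
    (hHn : (p : ℤ) * P.ord Hn = (σ⁻¹ • P).ord f - P.ord f - P.ord F0c)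
    (hG0 : G ≠ 0) (hG : (p : ℤ) * P.ord G = P.ord f)
    (hG' : (p : ℤ) * (σ⁻¹ • P).ord G = (σ⁻¹ • P).ord f)
    (hx0 : x ≠ 0) (hx : P.ord F0c = p * P.ord x) :
    0 ≤ P.ord (Hn * (G / (σ • G) * x)) := by
  rcases eq_or_ne Hn 0 with rfl | hH0
  · rw [zero_mul, Place.ord_zero]
  have hσG : σ • G ≠ 0 := smul_ne_zero_of_ne hG0
  rw [P.ord_mul hH0 (mul_ne_zero (div_ne_zero hG0 hσG) hx0),
    P.ord_mul (div_ne_zero hG0 hσG) hx0, Fermat.Agent.RED.H17.ord_div P hG0 hσG,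
    ord_smul_inv]
  have hpZ : (0 : ℤ) < p := by exact_mod_cast Nat.pos_of_ne_zero hp
  have h0 : (p : ℤ) * (P.ord Hn + (P.ord G - (σ⁻¹ • P).ord G + P.ord x)) = 0 := by
    rw [mul_add, mul_add, mul_sub, hHn, hG, hG', hx]
    ring
  rcases mul_eq_zero.mp h0 with h1 | h1
  · omega
  · exact le_of_eq h1.symm

end Ord

section Good

variable {K F k F' : Type*} [Field K] [Field F] [Algebra K F] [Field k] [Field F']
  [Algebra k F'] (T : PRed K F k F')

/-- The divisor `div f / p`. -/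
def divQuot (hP : HasPrincipalDivisors K F) (f : F) (p : ℕ) : Place K F →₀ ℤ :=
  (dv hP f).mapRange (fun n => n / (p : ℤ)) (by simp)

theorem divQuot_apply (hP : HasPrincipalDivisors K F) (f : F) (p : ℕ) (P : Place K F) :
    divQuot hP f p P = P.ord f / (p : ℤ) := by
  rw [divQuot, Finsupp.mapRange_apply, dv_apply]

theorem mul_divQuot (hP : HasPrincipalDivisors K F) {f : F} {p : ℕ}
    (hdiv : ∀ P : Place K F, (p : ℤ) ∣ P.ord f) (P : Place K F) :
    (p : ℤ) * divQuot hP f p P = P.ord f := by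
  rw [divQuot_apply]
  exact Int.mul_ediv_cancel' (hdiv P)

theorem divQuot_smul (hP : HasPrincipalDivisors K F) {f : F} (p : ℕ) {τ : SemilinearAut K F}
    (hτ : τ • f = f) (P : Place K F) : divQuot hP f p (τ • P) = divQuot hP f p P := by
  rw [divQuot_apply, divQuot_apply]
  have := SemilinearAut.ord_smul τ P f
  rw [hτ] at this
  rw [this]

/-- **The correction factor at a good place** (hypothesis `hR` of `SSD.dcore_gen`). -/
theorem exists_corr_good (hP : HasPrincipalDivisors K F) (hdeg : ∀ v : Place K F, v.deg = 1)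
    {θ : K} (hθ : algebraMap K F θ ∈ T.V) (hθ0 : T.rd (algebraMap K F θ) = 0) (hθne : θ ≠ 0)
    {σ : SemilinearAut K F} (hσr : ∀ P : Place K F, T.r (σ • P) = T.r P)
    {𝓘2 : Set (SemilinearAut K F)} (h𝓘2 : ∀ τ ∈ 𝓘2, ∀ P : Place K F, T.r (τ • P) = T.r P)
    (hK2 : ∀ y : F, (∀ τ ∈ 𝓘2, τ • y = y) → T.V.valuation y ≤ 1 →
      T.V.valuation (σ • y - y) ≤ T.V.valuation (algebraMap K F θ) ^ 2)
    {p : ℕ} (hp : p ≠ 0) {f : F} (hdiv : ∀ P : Place K F, (p : ℤ) ∣ P.ord f)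
    (hffix : ∀ τ ∈ 𝓘2, τ • f = f) {Hn F0c : F}
    (hHn : ∀ P : Place K F,
      (p : ℤ) * P.ord Hn = (σ⁻¹ • P).ord f - P.ord f - P.ord F0c)
    {Q : Place k F'} {t : F} (ht : T.IsCoord t Q) (htfix : ∀ τ ∈ 𝓘2, τ • t = t)
    {x : F} (hx0 : x ≠ 0) (hx : T.IsFC θ x 0)
    (hxord : ∀ P : Place K F, T.r P = some Q → P.ord F0c = p * P.ord x) :
    ∃ (c : F) (l : k), T.IsFC θ c (algebraMap k F' l) ∧
      ∀ P : Place K F, T.r P = some Q → 0 ≤ P.ord (Hn * c) := by
  obtain ⟨G, hGfix, hGord, hGU⟩ := local_good T hP hdeg ht 𝓘2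
    (fun τ hτ => ⟨h𝓘2 τ hτ, htfix τ hτ⟩) (divQuot hP f p)
    (fun τ hτ P _ => divQuot_smul hP p (hffix τ hτ) P)
  have hFC : T.IsFC θ (G / (σ • G)) 0 :=
    isFC_of_val_sigma_sub hθ hθ0 hθne hGU (hK2 G hGfix ((pv_mem_iff G).1 hGU.1))
  refine ⟨G / (σ • G) * x, 0, ?_, fun P hPQ => ?_⟩
  · have := hFC.mul hθ hθ0 hx
    rwa [add_zero, ← map_zero (algebraMap k F')] at this
  · have hσP : T.r (σ⁻¹ • P) = some Q := by
      have := hσr (σ⁻¹ • P)
      rw [smul_inv_smul] at this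
      rw [← this]
      exact hPQ
    refine ord_corr hp (hHn P) hGU.ne_zero ?_ ?_ hx0 (hxord P hPQ)
    · rw [hGord P hPQ]
      exact mul_divQuot hP hdiv P
    · rw [hGord _ hσP]
      exact mul_divQuot hP hdiv _

end Good

end Fermat.Agent.BADP.H97
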