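import Fermat.Agent.BADP.H97_EisWild
import Fermat.Agent.BADP.H38_EisNode

/-!
# S44 (row 38), package EIS-ABS (helper97), part 4: `Stmt_EisAbs` is PROVED

`stmt_EisAbs : BADP.Stmt_EisAbs` (statement of helper93, `BADP/EisAbs.lean`), from
* `H38.stmt_NodeVal` (helper38: annulus coordinates, `H97.local_node`, `SSD.nodeRad`),
* `H97.eis_wild_core` (the first-order analysis `SSD.dcore_gen`),
* the arithmetic `KData` ((K1), (K2), (K3) of `H97_KArith`, `H97_KSpan`, `val_k1`).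
-/

set_option autoImplicit false
set_option linter.style.haveILetI false
set_option linter.unusedSectionVars false
set_option maxHeartbeats 1000000

noncomputable section

open AlgebraicCurve

attribute [local instance] Classical.propDecidable

namespace Fermat.Agent.BADP.H97

open Fermat.Agent.RED.H17 Fermat.Agent.RED Fermat.Agent.BAD

/-! ### The final arithmetic -/

section Arith

/-- From `e_s n_s ≡ e_s' n_s'` and `e_s a_s = w`, `p ∤ w`: the vector `n` is proportional to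
the vector `a` modulo `p`. -/
theorem eis_concl {ι : Type*} {p : ℕ} (hp : p.Prime) {nodes : Finset ι}
    (hne : nodes.Nonempty) {e a n : ι → ℤ} {w : ℤ} (hw : ¬ (p : ℤ) ∣ w)
    (hea : ∀ s ∈ nodes, e s * a s = w)
    (hcong : ∀ s ∈ nodes, ∀ s' ∈ nodes, (p : ℤ) ∣ e s * n s - e s' * n s') :
    ∃ c : ℤ, ∀ s ∈ nodes, (p : ℤ) ∣ n s - c * a s := by
  have hpZ : Prime (p : ℤ) := Nat.prime_iff_prime_int.mp hp
  obtain ⟨s₀, hs₀⟩ := hne
  have hcop : IsCoprime w (p : ℤ) := by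
    rw [isCoprime_comm]
    exact (Prime.coprime_iff_not_dvd hpZ).2 hw
  obtain ⟨x, y, hxy⟩ := hcop
  refine ⟨e s₀ * n s₀ * x, fun s hs => ?_⟩
  have h1 : (p : ℤ) ∣ e s * (n s - e s₀ * n s₀ * x * a s) := by
    have e1 : e s * (n s - e s₀ * n s₀ * x * a s) =
        (e s * n s - e s₀ * n s₀) + e s₀ * n s₀ * y * p := by
      have hw' := hea s hs
      linear_combination (-(e s₀ * n s₀ * x)) * hw' - (e s₀ * n s₀) * hxy
    rw [e1]
    exact dvd_add (hcong s hs s₀ hs₀) (Dvd.intro_left _ rfl)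
  rcases hpZ.dvd_or_dvd h1 with h2 | h2
  · exfalso
    apply hw
    rw [← hea s hs]
    exact Dvd.dvd.mul_right h2 _
  · exact h2

/-- The congruence `e_s n_s ≡ e_s' n_s'` from the equality of the exponents. -/
theorem eis_cong {p : ℕ} {e n d m e' n' d' m' : ℤ}
    (h : (p : ℤ) * ((p : ℤ) - 1) * (e * (n - p * d)) + p * m =
      (p : ℤ) * ((p : ℤ) - 1) * (e' * (n' - p * d')) + p * m')
    (hp0 : (p : ℤ) ≠ 0) (hm : (p : ℤ) ∣ m - m') : (p : ℤ) ∣ e * n - e' * n' := by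
  have h1 : ((p : ℤ) - 1) * (e * (n - p * d)) + m = ((p : ℤ) - 1) * (e' * (n' - p * d')) + m' :=
    mul_left_cancel₀ hp0 (by linear_combination h)
  obtain ⟨q, hq⟩ := hm
  refine ⟨e * n - e * d * p + e * d - e' * n' + e' * d' * p - e' * d' + q, ?_⟩
  linear_combination (-1 : ℤ) * h1 + hq

end Arith

section Map

variable {K F : Type*} [Field K] [Field F] [Algebra K F]

theorem theta_algebraMap (ζ ω : K) :
    theta (algebraMap K F ζ) (algebraMap K F ω) = algebraMap K F (theta ζ ω) := by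
  simp only [theta, map_div₀, map_mul, map_sub, map_one]

theorem baseAut_theta (τ : SemilinearAut K F) {ζ ω : K} (hζ : SemilinearAut.baseAut τ ζ = ζ)
    (hω : SemilinearAut.baseAut τ ω = ω) :
    SemilinearAut.baseAut τ (theta ζ ω) = theta ζ ω := by
  simp only [theta, map_div₀, map_mul, map_sub, map_one, hζ, hω]

theorem toRingAut_coe_apply (σ : SemilinearAut K F) (y : F) :
    ((SemilinearAut.toRingAut σ : F ≃+* F) : F →+* F) y = σ • y := by
  rw [SemilinearAut.smul_def]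
  rfl

end Map

section K1

variable {K F k F' : Type*} [Field K] [Field F] [Algebra K F] [Field k] [Field F']
  [Algebra k F'] {T : PRed K F k F'}

/-- (K1') the constants of the maximal ideal in `F0 (ζ)` are divisible by `θ ^ 2`. -/
theorem val_le_theta_sq {F0 : Subfield F} {p : ℕ} {ζ ω : F} {σ : F →+* F}
    (hKD : KData T.V.valuation F0 p ζ ω σ) {y : F}
    (hy : y ∈ IntermediateField.adjoin F0 ({ζ} : Set F)) (hlt : T.V.valuation y < 1) :
    T.V.valuation y ≤ T.V.valuation (theta ζ ω) ^ 2 := by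
  set v := T.V.valuation with hv
  rcases eq_or_ne y 0 with rfl | hy0
  · rw [map_zero]
    exact zero_le
  obtain ⟨j, hj⟩ := val_k1 v hKD.prime hKD.root hKD.vp_lt hKD.vp_ne hKD.val0 hy hy0
  have hπpos : 0 < v (ζ - 1) := zero_lt_iff.2 ((Valuation.ne_zero_iff v).2 hKD.pi_ne_zero)
  have hπlt : v (ζ - 1) < 1 := by
    rw [hKD.val_pi_eq]
    exact pow_lt_one₀ zero_le hKD.val_theta_lt hKD.prime.ne_zero
  have hj1 : 1 ≤ j := by
    by_contra hcon
    have hj0 : j ≤ 0 := by omega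
    have : (1 : _) ≤ v (ζ - 1) ^ j := by
      have h1 := (zpow_le_zpow_iff_right_of_lt_one₀ hπpos hπlt).2 hj0
      rwa [zpow_zero] at h1
    rw [← hj] at this
    exact absurd hlt (not_lt.2 this)
  have h1 : v y ≤ v (ζ - 1) := by
    rw [hj]
    have h1 := (zpow_le_zpow_iff_right_of_lt_one₀ hπpos hπlt).2 hj1
    rwa [zpow_one] at h1
  refine le_trans h1 ?_
  rw [hKD.val_pi_eq]
  exact pow_le_pow_of_le_one zero_le hKD.val_theta_lt.le hKD.prime.two_le

end K1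

/-- **EIS-ABS** (wild case), from NODE-VAL. -/
theorem stmt_EisAbs_of_nodeVal (hNV : H38.Stmt_NodeVal) : Stmt_EisAbs := by
  intro K F k F₁ F₂ _ _ _ _ _ _ _ _ _ _ S H H₁ H₂ g g₁ g₂ c c₁ c₂ hR hR₁ hR₂ hnum p hp hp2 hchar
    hpK 𝓘 𝓘1 𝓘2 h𝓘 h1 h2 hK0 F0 hF0 ζ ω σ hσ hKD₁ hKD₂ hdesc2 hdesc1 hfix2 hfix1 hnorm U w hU
    hUfix hUnode hU₂ hw f hf hdiv hffix f₀ f₀' h₀ T a e hf₀ hf₀r hf₀div hf₀' hf₀'r hff hcls hσf
  -- NODE-VAL
  obtain ⟨en, G, d, hN⟩ := hNV K F k F₁ F₂ S H H₁ H₂ g g₁ g₂ c c₁ c₂ hR hR₁ hR₂ hnum p hp hchar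
    hpK 𝓘 𝓘2 h𝓘 (h2.trans h1) hK0 F0 hF0 hKD₂.val0 U w hU hUfix hUnode hU₂ hw f hf hdiv hffix
  -- `θ`
  have hθF : algebraMap K F (theta ζ ω) = theta (algebraMap K F ζ) (algebraMap K F ω) :=
    (theta_algebraMap ζ ω).symm
  have hθlt₁ : S.c₁.V.valuation (algebraMap K F (theta ζ ω)) < 1 := by
    rw [hθF]; exact hKD₁.val_theta_lt
  have hθ : S.IsCM (theta ζ ω) := ⟨(pv_mem_iff _).2 hθlt₁.le, pv_rd_eq_zero hθlt₁⟩
  have hθne : theta ζ ω ≠ 0 := by
    intro h0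
    have := hKD₁.theta_ne_zero
    rw [← hθF, h0, map_zero] at this
    exact this rfl
  have hθfix : ∀ τ ∈ 𝓘2, SemilinearAut.baseAut τ (theta ζ ω) = theta ζ ω := fun τ hτ =>
    baseAut_theta τ (hfix2 τ hτ).1 (hfix2 τ hτ).2
  -- the main line
  obtain ⟨m, hmv, hmc⟩ := eis_wild_core S H H₁ H₂ hR hR₁ hR₂ hnum p hp hchar h𝓘 h1 h2 hK0 hσ
    hnorm hθ hθne hθfix
    (fun y hy hy0 => by
      obtain ⟨m, h1', h2'⟩ := hKD₁.val_sigma_div_adjoin (hdesc2 y hy) hy0
      rw [toRingAut_coe_apply, ← hθF] at h2'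
      rw [← hθF] at h1'
      exact ⟨m, h1', h2'⟩)
    (fun y hy hy0 => by
      obtain ⟨m, h1', h2'⟩ := hKD₂.val_sigma_div_adjoin (hdesc2 y hy) hy0
      rw [toRingAut_coe_apply, ← hθF] at h2'
      rw [← hθF] at h1'
      exact ⟨m, h1', h2'⟩)
    (fun y hy hle => by
      have := hKD₁.val_sigma_sub_adjoin (hdesc2 y hy) hle
      rwa [toRingAut_coe_apply, ← hθF] at this)
    (fun y hy hle => by
      have := hKD₂.val_sigma_sub_adjoin (hdesc2 y hy) hle
      rwa [toRingAut_coe_apply, ← hθF] at this)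
    (fun b hb hbm => by
      rw [hθF]
      refine val_le_theta_sq hKD₁ (hdesc1 _ fun τ hτ => ?_) (pv_lt_of_rd hbm.mem₁ hbm.rd₁)
      rw [SemilinearAut.smul_algebraMap, hb τ hτ])
    (fun b hb hbm => by
      rw [hθF]
      refine val_le_theta_sq hKD₂ (hdesc1 _ fun τ hτ => ?_) (pv_lt_of_rd hbm.mem₂ hbm.rd₂)
      rw [SemilinearAut.smul_algebraMap, hb τ hτ])
    hf hdiv hffix hf₀ hf₀r hf₀div hf₀' hf₀'r hff hcls hσf G
    (fun s hs => ⟨(hN s hs).2.1, (hN s hs).2.2.1, (hN s hs).2.2.2.1⟩)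
  -- the exponent of `v₂ f`
  have hp0 : (p : ℤ) ≠ 0 := by exact_mod_cast hp.ne_zero
  have hexp : ∀ s ∈ S.nodes, S.c₂.V.valuation f =
      S.c₂.V.valuation (algebraMap K F (theta ζ ω)) ^
        ((p : ℤ) * ((p : ℤ) - 1) * ((en s : ℤ) * (s.1.ord (S.c₁.rd f) - p * d s)) +
          p * m s) := by
    intro s hs
    have hθ0 : S.c₂.V.valuation (algebraMap K F (theta ζ ω)) ≠ 0 := by
      rw [hθF]; exact hKD₂.val_theta_ne_zero
    have hvp : S.c₂.V.valuation (p : F) =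
        S.c₂.V.valuation (algebraMap K F (theta ζ ω)) ^ ((p : ℤ) * ((p : ℤ) - 1)) := by
      rw [hθF, ← hKD₂.val_theta_pow, ← zpow_natCast]
      congr 1
      push_cast [Nat.cast_sub hp.one_le]
      ring
    rw [(hN s hs).2.2.2.2, hvp, hmv s hs, ← zpow_mul, ← zpow_natCast, ← zpow_mul,
      ← zpow_add₀ hθ0]
    congr 1
    ring
  have hcong : ∀ s ∈ S.nodes, ∀ s' ∈ S.nodes,
      (p : ℤ) ∣ (en s : ℤ) * s.1.ord (S.c₁.rd f) - (en s' : ℤ) * s'.1.ord (S.c₁.rd f) := by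
    intro s hs s' hs'
    have h3 := (hexp s hs).symm.trans (hexp s' hs')
    rw [hθF] at h3
    have h4 := hKD₂.zpow_theta_inj h3
    exact eis_cong h4 hp0 (hmc s hs s' hs')
  exact eis_concl hp S.nodes_nonempty
    (fun h => hw (by exact_mod_cast h)) (fun s hs => (hN s hs).1) hcong

/-- **EIS-ABS** (wild case). -/
theorem stmt_EisAbs : Stmt_EisAbs := stmt_EisAbs_of_nodeVal H38.stmt_NodeVal

end Fermat.Agent.BADP.H97
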