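import Fermat.Agent.BADP.H97_KArith

/-!
# BAD_p, package K-ARITH, part 2 (helper97): `L₀[ζ, ω]` is spanned by the monomials `ϖ ^ l π ^ j`

`L₀ ⊂ L` fields, `ζ ^ p = 1`, `ζ ≠ 1`, `ω ^ p ∈ L₀`, `π = ζ - 1`, `ϖ = ω - 1`.

* `mem_adjoin_iff`-type statement `exists_ksum_of_mem_adjoin` : every element of
  `Algebra.adjoin L₀ {ζ, ω}` is of the form `ksum p ζ ω g` with coefficients `g x ∈ L₀`;
* `exists_ksum_of_mem_field` : the same for the field `L₀(ζ, ω)` (`IntermediateField.adjoin`);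
* `KData.val_sigma_sub_adjoin`, `KData.val_sigma_div_adjoin` : (K2), (K3) for the elements of
  `L₀(ζ, ω)`.
-/

set_option autoImplicit false

open Finset

namespace Fermat.Agent.BADP.H97

variable {L : Type*} [Field L]

section Span

variable (L0 : Subfield L) (p : ℕ) (ζ ω : L)

/-- The `L₀`-span of the monomials `ϖ ^ l π ^ j`, `l < p`, `j < p - 1`. -/
def monoSpan : Submodule L0 L := Submodule.span L0 (mono ζ ω '' (idx p : Set (ℕ × ℕ)))

variable {L0 p ζ ω}

theorem mono_mem_monoSpan {x : ℕ × ℕ} (hx : x ∈ idx p) : mono ζ ω x ∈ monoSpan L0 p ζ ω :=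
  Submodule.subset_span ⟨x, hx, rfl⟩

theorem mem_idx {x : ℕ × ℕ} : x ∈ idx p ↔ x.1 < p ∧ x.2 < p - 1 := by
  simp [idx]

theorem coe_mul_mem_monoSpan {a m : L} (ha : a ∈ L0) (hm : m ∈ monoSpan L0 p ζ ω) :
    a * m ∈ monoSpan L0 p ζ ω := by
  have := (monoSpan L0 p ζ ω).smul_mem (⟨a, ha⟩ : L0) hm
  exact this

theorem natCast_mul_mem_monoSpan (n : ℕ) {m : L} (hm : m ∈ monoSpan L0 p ζ ω) :
    (n : L) * m ∈ monoSpan L0 p ζ ω :=
  coe_mul_mem_monoSpan (natCast_mem L0 n) hm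

/-- `ϖ ^ p = a - ∑_{m < p} C(p, m) ϖ ^ m`. -/
theorem varpi_pow_eq {a : L} (hω : ω ^ p = a) :
    (ω - 1) ^ p = a - ∑ m ∈ range p, (p.choose m : L) * (ω - 1) ^ m := by
  have h1 := add_pow (ω - 1) 1 p
  rw [sub_add_cancel, hω, sum_range_succ] at h1
  simp only [one_pow, mul_one, Nat.choose_self, Nat.cast_one, Nat.sub_self, pow_zero] at h1
  rw [h1]
  have : ∑ m ∈ range p, (ω - 1) ^ m * (p.choose m : L) =
      ∑ m ∈ range p, (p.choose m : L) * (ω - 1) ^ m := sum_congr rfl fun m _ => mul_comm _ _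
  rw [this]
  ring

/-- `π ^ (p - 1) = - ∑_{i < p - 1} C(p, i + 1) π ^ i`. -/
theorem pi_pow_eq (hp : 0 < p) (hζ : ζ ^ p = 1) (hζ1 : ζ ≠ 1) :
    (ζ - 1) ^ (p - 1) = -∑ i ∈ range (p - 1), (p.choose (i + 1) : L) * (ζ - 1) ^ i := by
  obtain ⟨n, rfl⟩ : ∃ n, p = n + 1 := ⟨p - 1, (Nat.succ_pred_eq_of_pos hp).symm⟩
  rw [Nat.add_sub_cancel]
  have h1 := add_pow (ζ - 1) 1 (n + 1)
  rw [sub_add_cancel, hζ, sum_range_succ, sum_range_succ'] at h1
  simp only [one_pow, mul_one, Nat.choose_self, Nat.cast_one, pow_zero, Nat.choose_zero_right]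
    at h1
  have h2 : (ζ - 1) * (∑ i ∈ range n, ((n + 1).choose (i + 1) : L) * (ζ - 1) ^ i + (ζ - 1) ^ n)
      = 0 := by
    have e : (ζ - 1) * (∑ i ∈ range n, ((n + 1).choose (i + 1) : L) * (ζ - 1) ^ i + (ζ - 1) ^ n) =
        ∑ i ∈ range n, (ζ - 1) ^ (i + 1) * ((n + 1).choose (i + 1) : L) + (ζ - 1) ^ (n + 1) := by
      rw [mul_add, mul_sum, pow_succ' (ζ - 1) n]
      congr 1
      exact sum_congr rfl fun i _ => by rw [pow_succ']; ring
    rw [e]
    linear_combination -h1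
  rcases mul_eq_zero.1 h2 with h | h
  · exact absurd (sub_eq_zero.1 h) hζ1
  · linear_combination h

variable (hp : 1 < p) (hζ : ζ ^ p = 1) (hζ1 : ζ ≠ 1) (hω : ω ^ p ∈ L0)

include hp hω in
theorem varpi_mul_mono_mem {x : ℕ × ℕ} (hx : x ∈ idx p) :
    (ω - 1) * mono ζ ω x ∈ monoSpan L0 p ζ ω := by
  rw [mem_idx] at hx
  by_cases hl : x.1 + 1 < p
  · have : (ω - 1) * mono ζ ω x = mono ζ ω (x.1 + 1, x.2) := by
      simp only [mono]; ring
    rw [this]
    exact mono_mem_monoSpan (mem_idx.2 ⟨hl, hx.2⟩)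
  · have hl' : x.1 + 1 = p := by omega
    have e : (ω - 1) * mono ζ ω x = (ω - 1) ^ p * (ζ - 1) ^ x.2 := by
      simp only [mono]
      rw [← hl']; ring
    rw [e, varpi_pow_eq rfl, sub_mul, sum_mul]
    refine sub_mem ?_ (sum_mem fun m hm => ?_)
    · have : ω ^ p * (ζ - 1) ^ x.2 = ω ^ p * mono ζ ω (0, x.2) := by simp [mono]
      rw [this]
      exact coe_mul_mem_monoSpan hω (mono_mem_monoSpan (mem_idx.2 ⟨by omega, hx.2⟩))
    · have : (p.choose m : L) * (ω - 1) ^ m * (ζ - 1) ^ x.2 =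
          (p.choose m : L) * mono ζ ω (m, x.2) := by simp only [mono]; ring
      rw [this]
      exact natCast_mul_mem_monoSpan _ (mono_mem_monoSpan (mem_idx.2 ⟨mem_range.1 hm, hx.2⟩))

include hp hζ hζ1 in
theorem pi_mul_mono_mem {x : ℕ × ℕ} (hx : x ∈ idx p) :
    (ζ - 1) * mono ζ ω x ∈ monoSpan L0 p ζ ω := by
  rw [mem_idx] at hx
  by_cases hj : x.2 + 1 < p - 1
  · have : (ζ - 1) * mono ζ ω x = mono ζ ω (x.1, x.2 + 1) := by
      simp only [mono]; ring
    rw [this]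
    exact mono_mem_monoSpan (mem_idx.2 ⟨hx.1, hj⟩)
  · have hj' : x.2 + 1 = p - 1 := by omega
    have e : (ζ - 1) * mono ζ ω x = (ω - 1) ^ x.1 * (ζ - 1) ^ (p - 1) := by
      simp only [mono]
      rw [← hj']; ring
    rw [e, pi_pow_eq (by omega) hζ hζ1, mul_neg, mul_sum]
    refine neg_mem (sum_mem fun i hi => ?_)
    have : (ω - 1) ^ x.1 * ((p.choose (i + 1) : L) * (ζ - 1) ^ i) =
        (p.choose (i + 1) : L) * mono ζ ω (x.1, i) := by simp only [mono]; ring
    rw [this]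
    exact natCast_mul_mem_monoSpan _ (mono_mem_monoSpan (mem_idx.2 ⟨hx.1, mem_range.1 hi⟩))

include hp hω in
theorem varpi_mul_mem {m : L} (hm : m ∈ monoSpan L0 p ζ ω) :
    (ω - 1) * m ∈ monoSpan L0 p ζ ω := by
  induction hm using Submodule.span_induction with
  | mem y hy =>
    obtain ⟨x, hx, rfl⟩ := hy
    exact varpi_mul_mono_mem hp hω hx
  | zero => rw [mul_zero]; exact zero_mem _
  | add y z _ _ hy hz => rw [mul_add]; exact add_mem hy hz
  | smul a y _ hy =>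
    have : (ω - 1) * (a • y) = a • ((ω - 1) * y) := by
      rw [Subfield.smul_def, Subfield.smul_def]; ring
    rw [this]
    exact Submodule.smul_mem _ a hy

include hp hζ hζ1 in
theorem pi_mul_mem {m : L} (hm : m ∈ monoSpan L0 p ζ ω) :
    (ζ - 1) * m ∈ monoSpan L0 p ζ ω := by
  induction hm using Submodule.span_induction with
  | mem y hy =>
    obtain ⟨x, hx, rfl⟩ := hy
    exact pi_mul_mono_mem hp hζ hζ1 hx
  | zero => rw [mul_zero]; exact zero_mem _
  | add y z _ _ hy hz => rw [mul_add]; exact add_mem hy hz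
  | smul a y _ hy =>
    have : (ζ - 1) * (a • y) = a • ((ζ - 1) * y) := by
      rw [Subfield.smul_def, Subfield.smul_def]; ring
    rw [this]
    exact Submodule.smul_mem _ a hy

include hp hζ hζ1 hω in
theorem mono_mul_mem (x : ℕ × ℕ) {m : L} (hm : m ∈ monoSpan L0 p ζ ω) :
    mono ζ ω x * m ∈ monoSpan L0 p ζ ω := by
  obtain ⟨l, j⟩ := x
  simp only [mono]
  have h1 : ∀ j : ℕ, (ζ - 1) ^ j * m ∈ monoSpan L0 p ζ ω := by
    intro j
    induction j with
    | zero => simpa using hm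
    | succ j ih =>
      rw [pow_succ', mul_assoc]
      exact pi_mul_mem hp hζ hζ1 ih
  have h2 : ∀ l : ℕ, (ω - 1) ^ l * ((ζ - 1) ^ j * m) ∈ monoSpan L0 p ζ ω := by
    intro l
    induction l with
    | zero => simpa using h1 j
    | succ l ih =>
      rw [pow_succ', mul_assoc]
      exact varpi_mul_mem hp hω ih
  have := h2 l
  rwa [← mul_assoc] at this

include hp in
theorem one_mem_monoSpan : (1 : L) ∈ monoSpan L0 p ζ ω := by
  have : (1 : L) = mono ζ ω (0, 0) := by simp [mono]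
  rw [this]
  exact mono_mem_monoSpan (mem_idx.2 ⟨by simp only; omega, by simp only; omega⟩)

include hp hζ hζ1 hω in
theorem mul_mem_monoSpan {m m' : L} (hm : m ∈ monoSpan L0 p ζ ω) (hm' : m' ∈ monoSpan L0 p ζ ω) :
    m * m' ∈ monoSpan L0 p ζ ω := by
  induction hm using Submodule.span_induction with
  | mem y hy =>
    obtain ⟨x, -, rfl⟩ := hy
    exact mono_mul_mem hp hζ hζ1 hω x hm'
  | zero => rw [zero_mul]; exact zero_mem _
  | add y z _ _ hy hz => rw [add_mul]; exact add_mem hy hz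
  | smul a y _ hy =>
    have : a • y * m' = a • (y * m') := by
      rw [Subfield.smul_def, Subfield.smul_def]; ring
    rw [this]
    exact Submodule.smul_mem _ a hy

include hp hζ hζ1 hω in
/-- `L₀[ζ, ω]` is contained in the span of the monomials. -/
theorem adjoin_le_monoSpan {c : L} (hc : c ∈ Algebra.adjoin L0 ({ζ, ω} : Set L)) :
    c ∈ monoSpan L0 p ζ ω := by
  induction hc using Algebra.adjoin_induction with
  | mem y hy =>
    have h1 := one_mem_monoSpan (L0 := L0) (ζ := ζ) (ω := ω) hp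
    have hy' : y = ζ ∨ y = ω := by
      simpa [Set.mem_insert_iff, Set.mem_singleton_iff] using hy
    have e : y = (y - 1) * 1 + 1 := by ring
    rw [e]
    rcases hy' with h | h
    · rw [h]
      exact add_mem (pi_mul_mem hp hζ hζ1 h1) h1
    · rw [h]
      exact add_mem (varpi_mul_mem hp hω h1) h1
  | algebraMap r =>
    have : algebraMap L0 L r = r • (1 : L) := by
      rw [Algebra.smul_def, mul_one]
    rw [this]
    exact Submodule.smul_mem _ r (one_mem_monoSpan hp)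
  | add y z _ _ hy hz => exact add_mem hy hz
  | mul y z _ _ hy hz => exact mul_mem_monoSpan hp hζ hζ1 hω hy hz

/-- The elements of the span are the sums `ksum p ζ ω g`. -/
theorem exists_ksum_of_mem_monoSpan {c : L} (hc : c ∈ monoSpan L0 p ζ ω) :
    ∃ g : ℕ × ℕ → L, (∀ x, g x ∈ L0) ∧ c = ksum p ζ ω g := by
  classical
  induction hc using Submodule.span_induction with
  | mem y hy =>
    obtain ⟨x, hx, rfl⟩ := hy
    refine ⟨fun z => if z = x then 1 else 0, fun z => ?_, ?_⟩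
    · by_cases hz : z = x
      · simp only [hz, if_true]; exact one_mem L0
      · simp only [hz, if_false]; exact zero_mem L0
    · rw [ksum, sum_eq_single x]
      · simp
      · intro b _ hb
        simp [hb]
      · intro h
        exact absurd hx h
  | zero =>
    exact ⟨fun _ => 0, fun _ => zero_mem L0, by simp [ksum]⟩
  | add y z _ _ hy hz =>
    obtain ⟨g, hg, rfl⟩ := hy
    obtain ⟨g', hg', rfl⟩ := hz
    refine ⟨fun x => g x + g' x, fun x => add_mem (hg x) (hg' x), ?_⟩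
    simp only [ksum, add_mul, sum_add_distrib]
  | smul a y _ hy =>
    obtain ⟨g, hg, rfl⟩ := hy
    refine ⟨fun x => (a : L) * g x, fun x => mul_mem a.2 (hg x), ?_⟩
    rw [Subfield.smul_def]
    simp only [ksum, smul_eq_mul, mul_sum, mul_assoc]

include hp hζ hζ1 hω in
/-- Every element of `L₀[ζ, ω]` is a sum `∑ g l j ϖ ^ l π ^ j` with coefficients in `L₀`. -/
theorem exists_ksum_of_mem_adjoin {c : L} (hc : c ∈ Algebra.adjoin L0 ({ζ, ω} : Set L)) :
    ∃ g : ℕ × ℕ → L, (∀ x, g x ∈ L0) ∧ c = ksum p ζ ω g :=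
  exists_ksum_of_mem_monoSpan (adjoin_le_monoSpan hp hζ hζ1 hω hc)

include hp hζ hζ1 hω in
/-- Every element of the field `L₀(ζ, ω)` is a sum `∑ g l j ϖ ^ l π ^ j` with coefficients in
`L₀`. -/
theorem exists_ksum_of_mem_field {c : L}
    (hc : c ∈ IntermediateField.adjoin L0 ({ζ, ω} : Set L)) :
    ∃ g : ℕ × ℕ → L, (∀ x, g x ∈ L0) ∧ c = ksum p ζ ω g := by
  have hp0 : p ≠ 0 := by omega
  have halg : ∀ x ∈ ({ζ, ω} : Set L), IsAlgebraic L0 x := by
    intro x hx
    have hx' : x = ζ ∨ x = ω := by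
      simpa [Set.mem_insert_iff, Set.mem_singleton_iff] using hx
    refine IsIntegral.isAlgebraic (IsIntegral.of_pow (Nat.pos_of_ne_zero hp0) ?_)
    rcases hx' with h | h
    · rw [h, hζ]
      exact isIntegral_one
    · rw [h]
      exact (isIntegral_algebraMap (x := (⟨ω ^ p, hω⟩ : L0)))
  have h1 := IntermediateField.adjoin_toSubalgebra_of_isAlgebraic halg
  have h2 : c ∈ (IntermediateField.adjoin L0 ({ζ, ω} : Set L)).toSubalgebra := hc
  rw [h1] at h2
  exact exists_ksum_of_mem_adjoin hp hζ hζ1 hω h2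

end Span

namespace KData

variable {Γ₀ : Type*} [LinearOrderedCommGroupWithZero Γ₀] {v : Valuation L Γ₀} {L0 : Subfield L}
  {p : ℕ} {ζ ω : L} {σ : L →+* L}

theorem omega_pow_mem (h : KData v L0 p ζ ω σ) : ω ^ p ∈ L0 := by
  obtain ⟨u1, hu1, -, hω⟩ := h.pow
  rw [hω]
  exact add_mem (one_mem L0) (mul_mem (natCast_mem L0 p) hu1)

/-- Every element of `L₀(ζ, ω)` is a sum `∑ g l j ϖ ^ l π ^ j` with coefficients in `L₀`. -/
theorem exists_ksum (h : KData v L0 p ζ ω σ) {c : L}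
    (hc : c ∈ IntermediateField.adjoin L0 ({ζ, ω} : Set L)) :
    ∃ g : ℕ × ℕ → L, (∀ x, g x ∈ L0) ∧ c = ksum p ζ ω g :=
  exists_ksum_of_mem_field h.prime.one_lt h.root.pow_eq_one (h.root.ne_one h.prime.one_lt)
    h.omega_pow_mem hc

/-- **(K1)** for the elements of `L₀(ζ, ω)`: the value group is generated by `v θ`. -/
theorem val_adjoin (h : KData v L0 p ζ ω σ) {c : L}
    (hc : c ∈ IntermediateField.adjoin L0 ({ζ, ω} : Set L)) (hc0 : c ≠ 0) :
    ∃ m : ℤ, v c = v (theta ζ ω) ^ m := by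
  obtain ⟨g, hg, rfl⟩ := h.exists_ksum hc
  exact h.val_ksum hg hc0

/-- **(K2)** for the elements of `L₀(ζ, ω)`. -/
theorem val_sigma_sub_adjoin (h : KData v L0 p ζ ω σ) {a : L}
    (ha : a ∈ IntermediateField.adjoin L0 ({ζ, ω} : Set L)) (hle : v a ≤ 1) :
    v (σ a - a) ≤ v (theta ζ ω) ^ 2 := by
  obtain ⟨g, hg, rfl⟩ := h.exists_ksum ha
  exact h.val_sigma_sub hg hle

/-- **(K3)** for the elements of `L₀(ζ, ω)`. -/
theorem val_sigma_div_adjoin (h : KData v L0 p ζ ω σ) {c : L}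
    (hc : c ∈ IntermediateField.adjoin L0 ({ζ, ω} : Set L)) (hc0 : c ≠ 0) :
    ∃ m : ℤ, v c = v (theta ζ ω) ^ m ∧
      v (σ c / c - (1 - (m : L) * theta ζ ω)) ≤ v (theta ζ ω) ^ 2 := by
  obtain ⟨g, hg, rfl⟩ := h.exists_ksum hc
  exact h.val_sigma_div hg hc0

end KData

end Fermat.Agent.BADP.H97
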