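import Fermat.Agent.BADP.EisAbs
import Fermat.Agent.BADP.H51_RayFinal
import Fermat.Agent.BADP.H97_Local
import Fermat.Agent.BADP.H97_KSpan
import Fermat.Agent.BADP.H97_K3Q
import Fermat.Agent.BADP.H97_ToricChi

/-!
# S44 (row 38), package EIS-ABS (helper97), part 1: normalisation

* `IsLC P t y a` : `a` is the leading coefficient of `y` at the place `P` with respect to the
  uniformiser `t`; `IsLC.smul` (equivariance for automorphisms fixing `P` and `t`).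
* `exists_fixed_pow_root` : if `R = e h ^ p` is fixed by a set `𝓘` of automorphisms which fix a
  place `P` and a uniformiser at `P`, then `R = e' H ^ p` with `H` and `e'` fixed by `𝓘`.
* `exists_fixed_unif` : an `𝓘`-fixed place over a good point with an `𝓘`-fixed uniformiser.
* `exists_fixed_const` : every constant of the residue field is the reduction of an `𝓘`-fixed
  constant.

Plan: `NOTES/plan/L_S44.md` §12.2 (d2).
-/

set_option autoImplicit false
set_option linter.style.haveILetI false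
set_option linter.unusedSectionVars false

noncomputable section

open AlgebraicCurve

attribute [local instance] Classical.propDecidable

namespace Fermat.Agent.BADP.H97

open Fermat.Agent.RED.H17 Fermat.Agent.RED Fermat.Agent.BAD

section LC

variable {K F : Type*} [Field K] [Field F] [Algebra K F]

/-- `a` is the leading coefficient of `y` at `P` with respect to `t`. -/
def IsLC (P : Place K F) (t y : F) (a : K) : Prop :=
  VanAt P (y / t ^ (P.ord y) - algebraMap K F a)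

theorem ne_zero_of_ord_eq_one {P : Place K F} {t : F} (ht : P.ord t = 1) : t ≠ 0 := by
  rintro rfl
  rw [Place.ord_zero] at ht
  exact zero_ne_one ht

theorem ord_div_zpow {P : Place K F} {t : F} (ht : P.ord t = 1) {y : F} (hy : y ≠ 0) :
    P.ord (y / t ^ (P.ord y)) = 0 := by
  have ht0 := ne_zero_of_ord_eq_one ht
  rw [Fermat.Agent.RED.H17.ord_div P hy (zpow_ne_zero _ ht0), Place.ord_zpow, ht, mul_one,
    sub_self]

theorem exists_isLC {P : Place K F} (hdeg : P.deg = 1) {t : F} (ht : P.ord t = 1) {y : F}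
    (hy : y ≠ 0) : ∃ a : K, a ≠ 0 ∧ IsLC P t y a := by
  have ht0 := ne_zero_of_ord_eq_one ht
  have h0 := ord_div_zpow ht hy
  obtain ⟨a, ha⟩ := exists_value P hdeg (regAt_of_ord_nonneg (le_of_eq h0.symm))
  refine ⟨a, ?_, ha⟩
  rintro rfl
  rw [map_zero, sub_zero] at ha
  have hne : y / t ^ (P.ord y) ≠ 0 := div_ne_zero hy (zpow_ne_zero _ ht0)
  have := ha.ord_pos hne
  omega

theorem IsLC.unique {P : Place K F} {t y : F} {a b : K} (ha : IsLC P t y a)
    (hb : IsLC P t y b) : a = b :=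
  value_unique P ha hb

theorem ord_smul_of_fixed {τ : SemilinearAut K F} {P : Place K F} (hP : τ • P = P) (y : F) :
    P.ord (τ • y) = P.ord y := by
  have := SemilinearAut.ord_smul τ P y
  rwa [hP] at this

theorem smul_div_zpow (τ : SemilinearAut K F) (y t : F) (n : ℤ) :
    τ • (y / t ^ n) = (τ • y) / (τ • t) ^ n := by
  simp only [SemilinearAut.smul_def, map_div₀, map_zpow₀]

theorem IsLC.smul {τ : SemilinearAut K F} {P : Place K F} {t y : F} {a : K}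
    (hP : τ • P = P) (ht : τ • t = t) (h : IsLC P t y a) :
    IsLC P t (τ • y) (SemilinearAut.baseAut τ a) := by
  unfold IsLC at h ⊢
  have h1 := H28.vanAt_smul_of τ h
  rw [hP, smul_sub, smul_div_zpow, ht, SemilinearAut.smul_algebraMap] at h1
  rwa [ord_smul_of_fixed hP]

theorem IsLC.const_mul {P : Place K F} {t y : F} {a : K} (h : IsLC P t y a) {c : K}
    (hc : c ≠ 0) : IsLC P t (algebraMap K F c * y) (c * a) := by
  unfold IsLC at h ⊢
  rw [ord_algebraMap_mul P hc]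
  have e : algebraMap K F c * y / t ^ (P.ord y) - algebraMap K F (c * a) =
      algebraMap K F c * (y / t ^ (P.ord y) - algebraMap K F a) := by
    rw [map_mul]
    ring
  rw [e]
  exact (regAt_algebraMap P c).mul_vanAt h

end LC

section Root

variable {K F : Type*} [Field K] [Field F] [Algebra K F]

/-- **NORMALISE.**  If `R = e h ^ p` is fixed by `𝓘`, and `𝓘` fixes a place `P` and a
uniformiser `t` at `P`, then `R = e' H ^ p` with `H` and `e'` fixed by `𝓘`. -/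
theorem exists_fixed_pow_root (H : FFHyp K F) {𝓘 : Set (SemilinearAut K F)} {P : Place K F}
    {t : F} (hPfix : ∀ τ ∈ 𝓘, τ • P = P) (htfix : ∀ τ ∈ 𝓘, τ • t = t) (ht : P.ord t = 1)
    {p : ℕ} (hp : p ≠ 0) {R h : F} {e : K} (hR0 : R ≠ 0)
    (hR : R = algebraMap K F e * h ^ p) (hRfix : ∀ τ ∈ 𝓘, τ • R = R) :
    ∃ (H' : F) (e' : K), H' ≠ 0 ∧ e' ≠ 0 ∧ (∀ τ ∈ 𝓘, τ • H' = H') ∧
      (∀ τ ∈ 𝓘, SemilinearAut.baseAut τ e' = e') ∧ R = algebraMap K F e' * H' ^ p := by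
  have he0 : e ≠ 0 := by
    rintro rfl
    rw [map_zero, zero_mul] at hR
    exact hR0 hR
  have hh0 : h ≠ 0 := by
    rintro rfl
    rw [zero_pow hp, mul_zero] at hR
    exact hR0 hR
  obtain ⟨β, hβ0, hβ⟩ := exists_isLC (H.deg_one P) ht hh0
  have hβF : algebraMap K F β ≠ 0 := (map_ne_zero_iff _ (algebraMap K F).injective).mpr hβ0
  set H' : F := algebraMap K F β⁻¹ * h with hH'
  have hH'0 : H' ≠ 0 := mul_ne_zero
    ((map_ne_zero_iff _ (algebraMap K F).injective).mpr (inv_ne_zero hβ0)) hh0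
  have hlc : IsLC P t H' 1 := by
    have := hβ.const_mul (inv_ne_zero hβ0)
    rwa [inv_mul_cancel₀ hβ0] at this
  set e' : K := e * β ^ p with he'
  have he'0 : e' ≠ 0 := mul_ne_zero he0 (pow_ne_zero _ hβ0)
  have hRe : R = algebraMap K F e' * H' ^ p := by
    rw [hR, he', hH', map_mul, map_pow, mul_pow, map_inv₀, inv_pow, mul_assoc,
      mul_inv_cancel_left₀ (pow_ne_zero p hβF)]
  have hfix : ∀ τ ∈ 𝓘, τ • H' = H' := by
    intro τ hτ
    have hτH0 : τ • H' ≠ 0 := by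
      rw [SemilinearAut.smul_def]
      exact (map_ne_zero_iff _ (SemilinearAut.toRingAut τ).injective).mpr hH'0
    have hτe0 : SemilinearAut.baseAut τ e' ≠ 0 :=
      (map_ne_zero_iff _ (SemilinearAut.baseAut τ).injective).mpr he'0
    -- `(τ H' / H') ^ p` is a constant
    have h1 : algebraMap K F (SemilinearAut.baseAut τ e') * (τ • H') ^ p =
        algebraMap K F e' * H' ^ p := by
      have := hRfix τ hτ
      rw [hRe, smul_mul', smul_pow', SemilinearAut.smul_algebraMap] at this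
      exact this
    have h2 : ((τ • H') / H') ^ p = algebraMap K F (e' / SemilinearAut.baseAut τ e') := by
      rw [div_pow, map_div₀]
      have hτeF : algebraMap K F (SemilinearAut.baseAut τ e') ≠ 0 :=
        (map_ne_zero_iff _ (algebraMap K F).injective).mpr hτe0
      field_simp
      linear_combination h1
    have hξ0 : (τ • H') / H' ≠ 0 := div_ne_zero hτH0 hH'0
    have hreg : ∀ v : Place K F, 0 ≤ v.ord ((τ • H') / H') := by
      intro v
      have h3 := congrArg v.ord h2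
      rw [Fermat.Agent.RED.H17.ord_pow, ord_algebraMap] at h3
      have hpZ : (p : ℤ) ≠ 0 := by exact_mod_cast hp
      rcases mul_eq_zero.mp h3 with h4 | h4
      · exact absurd h4 hpZ
      · exact le_of_eq h4.symm
    obtain ⟨c, hc⟩ := H.const_of_regular hreg
    have hc0 : c ≠ 0 := by
      rintro rfl
      rw [map_zero] at hc
      exact hξ0 hc
    have h4 : τ • H' = algebraMap K F c * H' := by
      rw [← hc]
      field_simp
    have h5 : IsLC P t (τ • H') (SemilinearAut.baseAut τ 1) := hlc.smul (hPfix τ hτ) (htfix τ hτ)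
    rw [map_one, h4] at h5
    have h6 : IsLC P t (algebraMap K F c * H') (c * 1) := hlc.const_mul hc0
    have h7 : (1 : K) = c * 1 := h5.unique h6
    rw [mul_one] at h7
    rw [h4, ← h7, map_one, one_mul]
  refine ⟨H', e', hH'0, he'0, hfix, fun τ hτ => ?_, hRe⟩
  have h1 := hRfix τ hτ
  rw [hRe, smul_mul', smul_pow', hfix τ hτ, SemilinearAut.smul_algebraMap] at h1
  have h2 : algebraMap K F (SemilinearAut.baseAut τ e') = algebraMap K F e' :=
    mul_right_cancel₀ (pow_ne_zero p hH'0) h1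
  exact (algebraMap K F).injective h2

end Root

/-! ### Valuation and reduction (general `PRed`) -/

section PV

variable {K F k F' : Type*} [Field K] [Field F] [Algebra K F] [Field k] [Field F']
  [Algebra k F'] {T : PRed K F k F'}

theorem pv_mem_iff (g : F) : g ∈ T.V ↔ T.V.valuation g ≤ 1 :=
  (T.V.valuation_le_one_iff g).symm

theorem pv_rd_eq_zero {g : F} (h : T.V.valuation g < 1) : T.rd g = 0 :=
  (inM_iff_val_lt.2 h).2

theorem pv_lt_of_rd {g : F} (hg : g ∈ T.V) (h : T.rd g = 0) : T.V.valuation g < 1 :=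
  inM_iff_val_lt.1 ⟨hg, h⟩

theorem pv_isGU_iff {g : F} : T.IsGU g ↔ T.V.valuation g = 1 := by
  constructor
  · rintro ⟨hg, h0⟩
    refine le_antisymm ((pv_mem_iff g).1 hg) (not_lt.1 fun hlt => h0 (pv_rd_eq_zero hlt))
  · intro h
    have hg : g ∈ T.V := (pv_mem_iff g).2 h.le
    refine ⟨hg, fun h0 => ?_⟩
    have := pv_lt_of_rd hg h0
    rw [h] at this
    exact lt_irrefl _ this

theorem pv_pow_eq_one {Γ₀ : Type*} [LinearOrderedCommGroupWithZero Γ₀] {x : Γ₀} {n : ℕ}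
    (hn : n ≠ 0) (h : x ^ n = 1) : x = 1 := by
  rcases lt_trichotomy x 1 with hlt | heq | hgt
  · have := pow_lt_one₀ zero_le hlt hn
    rw [h] at this
    exact absurd this (lt_irrefl _)
  · exact heq
  · have := one_lt_pow₀ hgt hn
    rw [h] at this
    exact absurd this (lt_irrefl _)

/-- In characteristic `p`, an element of a field whose `p`-th power is `1` is `1`. -/
theorem eq_one_of_pow_char {E : Type*} [Field E] {p : ℕ} [hp : Fact p.Prime] [CharP E p]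
    {x : E} (h : x ^ p = 1) : x = 1 := by
  have h1 : (x - 1) ^ p = 0 := by
    rw [sub_pow_char, h, one_pow, sub_self]
  exact sub_eq_zero.1 (pow_eq_zero_iff hp.out.ne_zero |>.1 h1)

/-- A constant multiple of a function of the value group `v θ ^ ℤ`, of reduction `1`, is
congruent to `1` modulo `θ`. -/
theorem pv_sub_one_div {θ : K} (hθ : algebraMap K F θ ∈ T.V) (hθ0 : T.rd (algebraMap K F θ) = 0)
    (hθne : θ ≠ 0) {y : F} (hy : y ∈ T.V) (hyr : T.rd y = 1)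
    (hval : y - 1 ≠ 0 → ∃ m : ℤ, T.V.valuation (y - 1) = T.V.valuation (algebraMap K F θ) ^ m) :
    (y - 1) / algebraMap K F θ ∈ T.V := by
  set v := T.V.valuation with hv
  rcases eq_or_ne (y - 1) 0 with h0 | h0
  · rw [h0, zero_div]
    exact T.V.zero_mem
  obtain ⟨m, hm⟩ := hval h0
  have hθF : algebraMap K F θ ≠ 0 := (map_ne_zero_iff _ (algebraMap K F).injective).mpr hθne
  have hθv : v (algebraMap K F θ) < 1 := pv_lt_of_rd hθ hθ0
  have hθpos : 0 < v (algebraMap K F θ) := zero_lt_iff.2 ((Valuation.ne_zero_iff v).2 hθF)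
  have hlt : v (y - 1) < 1 := by
    refine pv_lt_of_rd (T.V.sub_mem hy T.V.one_mem) ?_
    rw [T.rd_sub hy T.V.one_mem, hyr, T.rd_one, sub_self]
  have hm1 : 1 ≤ m := by
    by_contra hcon
    have hm0 : m ≤ 0 := by omega
    have : (1 : _) ≤ v (algebraMap K F θ) ^ m := by
      have h1 := (zpow_le_zpow_iff_right_of_lt_one₀ hθpos hθv).2 hm0
      rwa [zpow_zero] at h1
    rw [← hm] at this
    exact absurd hlt (not_lt.2 this)
  rw [pv_mem_iff, map_div₀, hm, div_le_one₀ hθpos]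
  have h1 := (zpow_le_zpow_iff_right_of_lt_one₀ hθpos hθv).2 hm1
  rwa [zpow_one] at h1

end PV

/-! ### Invariant places, uniformisers, coordinates and constants -/

section Inv

variable {K F k F₁ F₂ : Type} [Field K] [Field F] [Algebra K F] [Field k] [Field F₁]
  [Algebra k F₁] [Field F₂] [Algebra k F₂] [Infinite k]

/-- An `𝓘`-invariant coordinate at every good place of the first component. -/
theorem exists_inv_coord₁ (S : SSD K F k F₁ F₂) (H : FFHyp K F) (H₁ : FFHyp k F₁)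
    (H₂ : FFHyp k F₂) {g g₁ g₂ : ℕ} {c c₁ c₂ : ℤ} (hR : IsGenus K F g c)
    (hR₁ : IsGenus k F₁ g₁ c₁) (hR₂ : IsGenus k F₂ g₂ c₂)
    (hnum : g + 1 ≤ g₁ + g₂ + S.nodes.card) {𝓘 : Set (SemilinearAut K F)}
    (hK0 : ∀ u : F, u ∈ S.c₁.V → u ∈ S.c₂.V → ∃ u₀ : F, H51.IsK0Part S 𝓘 u u₀)
    {Q : Place k F₁} (hQ : Q ∈ S.c₁.good) :
    ∃ t : F, S.c₁.IsCoord t Q ∧ ∀ τ ∈ 𝓘, τ • t = t := by
  have hd₁ : Disjoint ({Q} : Finset (Place k F₁)) S.br₁ :=
    Finset.disjoint_singleton_left.mpr (S.notMem_br₁ hQ)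
  have hd₂ : Disjoint (∅ : Finset (Place k F₂)) S.br₂ := Finset.disjoint_empty_left _
  obtain ⟨hco₁, -⟩ := BAD.H28.stmt_Coords K F k F₁ F₂ S H H₁ H₂ g g₁ g₂ c c₁ c₂ hR hR₁ hR₂
    hnum {Q} ∅ hd₁ hd₂
  obtain ⟨s, hs⟩ := hco₁ Q (Finset.mem_singleton_self Q)
  have hs' : S.IsCoordA₁ {Q} ∅ s Q := hs
  obtain ⟨s₀, h0⟩ := hK0 s hs'.1.isGU.1 hs'.2.1.1
  exact ⟨s₀, (H51.isCoordA₁_k0 H.principal hs' h0).1, h0.fixed⟩

/-- An `𝓘`-invariant coordinate at every good place of the second component. -/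
theorem exists_inv_coord₂ (S : SSD K F k F₁ F₂) (H : FFHyp K F) (H₁ : FFHyp k F₁)
    (H₂ : FFHyp k F₂) {g g₁ g₂ : ℕ} {c c₁ c₂ : ℤ} (hR : IsGenus K F g c)
    (hR₁ : IsGenus k F₁ g₁ c₁) (hR₂ : IsGenus k F₂ g₂ c₂)
    (hnum : g + 1 ≤ g₁ + g₂ + S.nodes.card) {𝓘 : Set (SemilinearAut K F)}
    (hK0 : ∀ u : F, u ∈ S.c₁.V → u ∈ S.c₂.V → ∃ u₀ : F, H51.IsK0Part S 𝓘 u u₀)
    {Q : Place k F₂} (hQ : Q ∈ S.c₂.good) :
    ∃ t : F, S.c₂.IsCoord t Q ∧ ∀ τ ∈ 𝓘, τ • t = t := by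
  have hd₁ : Disjoint (∅ : Finset (Place k F₁)) S.br₁ := Finset.disjoint_empty_left _
  have hd₂ : Disjoint ({Q} : Finset (Place k F₂)) S.br₂ :=
    Finset.disjoint_singleton_left.mpr (S.notMem_br₂ hQ)
  obtain ⟨-, hco₂⟩ := BAD.H28.stmt_Coords K F k F₁ F₂ S H H₁ H₂ g g₁ g₂ c c₁ c₂ hR hR₁ hR₂
    hnum ∅ {Q} hd₁ hd₂
  obtain ⟨s, hs⟩ := hco₂ Q (Finset.mem_singleton_self Q)
  have hs' : S.IsCoordA₂ ∅ {Q} s Q := hs
  obtain ⟨s₀, h0⟩ := hK0 s hs'.2.1.1 hs'.1.isGU.1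
  exact ⟨s₀, (H51.isCoordA₂_k0 H.principal hs' h0).1, h0.fixed⟩

/-- **An invariant place with an invariant uniformiser** over a good point. -/
theorem exists_fixed_unif (S : SSD K F k F₁ F₂) (H : FFHyp K F) (H₁ : FFHyp k F₁)
    (H₂ : FFHyp k F₂) {g g₁ g₂ : ℕ} {c c₁ c₂ : ℤ} (hR : IsGenus K F g c)
    (hR₁ : IsGenus k F₁ g₁ c₁) (hR₂ : IsGenus k F₂ g₂ c₂)
    (hnum : g + 1 ≤ g₁ + g₂ + S.nodes.card) {𝓘 : Set (SemilinearAut K F)}
    (h𝓘 : ∀ τ ∈ 𝓘, S.IsInertial τ)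
    (hK0 : ∀ u : F, u ∈ S.c₁.V → u ∈ S.c₂.V → ∃ u₀ : F, H51.IsK0Part S 𝓘 u u₀)
    {Q : Place k F₁} (hQ : Q ∈ S.c₁.good) :
    ∃ (P : Place K F) (t : F), S.c₁.r P = some Q ∧ (∀ τ ∈ 𝓘, τ • P = P) ∧
      (∀ τ ∈ 𝓘, τ • t = t) ∧ P.ord t = 1 := by
  obtain ⟨t, ht, htfix⟩ := exists_inv_coord₁ S H H₁ H₂ hR hR₁ hR₂ hnum hK0 hQ
  obtain ⟨Y, hY, hY1, hYu⟩ := ht.exists_zero H.principal
  refine ⟨Y, t, hY, fun τ hτ => ?_, htfix, hY1⟩
  by_contra hne
  have h1 : S.c₁.r (τ • Y) = some Q := by rw [(h𝓘 τ hτ).r₁, hY]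
  have h2 := hYu (τ • Y) h1 hne
  have h3 : (τ • Y).ord (τ • t) = Y.ord t := SemilinearAut.ord_smul τ Y t
  rw [htfix τ hτ, h2, hY1] at h3
  exact zero_ne_one h3

/-- **(K0-CONST)** every non-zero constant of the residue field is the reduction of an
`𝓘`-invariant constant. -/
theorem exists_fixed_const (S : SSD K F k F₁ F₂) (H : FFHyp K F)
    {𝓘 : Set (SemilinearAut K F)}
    (hK0 : ∀ u : F, u ∈ S.c₁.V → u ∈ S.c₂.V → ∃ u₀ : F, H51.IsK0Part S 𝓘 u u₀) (κ : k) :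
    ∃ c : K, (∀ τ ∈ 𝓘, SemilinearAut.baseAut τ c = c) ∧ algebraMap K F c ∈ S.c₁.V ∧
      S.c₁.rd (algebraMap K F c) = algebraMap k F₁ κ := by
  obtain ⟨c, hc, hcr⟩ := S.c₁.const_surj κ
  obtain ⟨u₀, h0⟩ := hK0 _ hc ((S.const_mem c).1 hc)
  have hreg : ∀ v : Place K F, 0 ≤ v.ord u₀ := by
    intro v
    by_contra hneg
    obtain ⟨P', -, -, h3⟩ := h0.poles v (not_le.mp hneg)
    rw [ord_algebraMap] at h3
    exact lt_irrefl _ h3
  obtain ⟨c₀, hc₀⟩ := H.const_of_regular hreg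
  refine ⟨c₀, fun τ hτ => ?_, ?_, ?_⟩
  · have := h0.fixed τ hτ
    rw [hc₀, SemilinearAut.smul_algebraMap] at this
    exact (algebraMap K F).injective this
  · rw [← hc₀]
    exact h0.mem₁
  · rw [← hc₀, h0.rd₁, S.c₁.rd_of_mem hc]
    exact hcr

end Inv

/-! ### The normalised root -/

section Norm

variable {K F k F₁ F₂ : Type*} [Field K] [Field F] [Algebra K F] [Field k] [Field F₁]
  [Algebra k F₁] [Field F₂] [Algebra k F₂] {p' : ℕ}

theorem baseAut_zpow (τ : SemilinearAut K F) (a : K) (n : ℤ) :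
    SemilinearAut.baseAut τ (a ^ n) = (SemilinearAut.baseAut τ a) ^ n :=
  map_zpow₀ _ _ _

theorem pow_scale_aux {c e' : K} (he' : e' ≠ 0) {H' R : F}
    (hR : R = algebraMap K F e' * H' ^ p') :
    (algebraMap K F c * H') ^ p' = algebraMap K F (c ^ p' / e') * R := by
  have : algebraMap K F e' ≠ 0 := (map_ne_zero_iff _ (algebraMap K F).injective).mpr he'
  rw [hR, mul_pow, map_div₀, map_pow]
  field_simp

theorem const_eq_aux {c e' : K} (he' : e' ≠ 0) {H' R : F} (hR0 : R ≠ 0)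
    (hR : R = algebraMap K F e' * H' ^ p') :
    algebraMap K F (c ^ p' / e') = (algebraMap K F c * H') ^ p' / R := by
  rw [pow_scale_aux (c := c) he' hR]
  field_simp

/-- **The normalised root.**  `R = e' H' ^ p` with `H'` fixed by `𝓘2`, `R ≡ 1` for both
valuations; the functions fixed by `𝓘2` have values in `v θ ^ ℤ`.  Then a constant multiple
`H = c H'`, fixed by `𝓘2`, satisfies `(H - 1) / θ ∈ V₁ ∩ V₂`. -/
theorem exists_normalised [IsAlgClosed k] (S : SSD K F k F₁ F₂) {p : ℕ} (hp : p.Prime)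
    [CharP k p] {𝓘2 : Set (SemilinearAut K F)}
    (hconst : ∀ κ : k, ∃ c : K, (∀ τ ∈ 𝓘2, SemilinearAut.baseAut τ c = c) ∧
      algebraMap K F c ∈ S.c₁.V ∧ S.c₁.rd (algebraMap K F c) = algebraMap k F₁ κ)
    {θ : K} (hθ : S.IsCM θ) (hθne : θ ≠ 0)
    (hθfix : ∀ τ ∈ 𝓘2, SemilinearAut.baseAut τ θ = θ)
    (hval₁ : ∀ y : F, (∀ τ ∈ 𝓘2, τ • y = y) → y ≠ 0 →
      ∃ m : ℤ, S.c₁.V.valuation y = S.c₁.V.valuation (algebraMap K F θ) ^ m)
    (hval₂ : ∀ y : F, (∀ τ ∈ 𝓘2, τ • y = y) → y ≠ 0 →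
      ∃ m : ℤ, S.c₂.V.valuation y = S.c₂.V.valuation (algebraMap K F θ) ^ m)
    {R H' : F} {e' : K} (hH'0 : H' ≠ 0) (hH'fix : ∀ τ ∈ 𝓘2, τ • H' = H')
    (hR : R = algebraMap K F e' * H' ^ p)
    (hR₁ : R ∈ S.c₁.V) (hRr₁ : S.c₁.rd R = 1) (hR₂ : R ∈ S.c₂.V) (hRr₂ : S.c₂.rd R = 1) :
    ∃ c : K, c ≠ 0 ∧ (∀ τ ∈ 𝓘2, τ • (algebraMap K F c * H') = algebraMap K F c * H') ∧
      (algebraMap K F c * H' - 1) / algebraMap K F θ ∈ S.c₁.V ∧
      (algebraMap K F c * H' - 1) / algebraMap K F θ ∈ S.c₂.V := by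
  haveI : Fact p.Prime := ⟨hp⟩
  haveI : CharP F₁ p := charP_of_injective_algebraMap (algebraMap k F₁).injective p
  haveI : CharP F₂ p := charP_of_injective_algebraMap (algebraMap k F₂).injective p
  have hp0 : p ≠ 0 := hp.ne_zero
  have hθF : algebraMap K F θ ≠ 0 := (map_ne_zero_iff _ (algebraMap K F).injective).mpr hθne
  have hRGU₁ : S.c₁.IsGU R := ⟨hR₁, by rw [hRr₁]; exact one_ne_zero⟩
  have hRGU₂ : S.c₂.IsGU R := ⟨hR₂, by rw [hRr₂]; exact one_ne_zero⟩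
  have he'0 : e' ≠ 0 := by
    rintro rfl
    rw [map_zero, zero_mul] at hR
    exact hRGU₁.ne_zero hR
  -- step 1: a unit for `V₁`
  obtain ⟨m, hm⟩ := hval₁ H' hH'fix hH'0
  obtain ⟨c₁, hc₁⟩ : ∃ c₁ : K, c₁ = θ ^ (-m) := ⟨_, rfl⟩
  have hc₁0 : c₁ ≠ 0 := by rw [hc₁]; exact zpow_ne_zero _ hθne
  have hc₁fix : ∀ τ ∈ 𝓘2, SemilinearAut.baseAut τ c₁ = c₁ := fun τ hτ => by
    rw [hc₁, baseAut_zpow, hθfix τ hτ]
  have hU₁ : S.c₁.IsGU (algebraMap K F c₁ * H') := by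
    rw [pv_isGU_iff, map_mul, hm, hc₁, map_zpow₀, map_zpow₀, ← zpow_add₀
      ((Valuation.ne_zero_iff _).2 hθF), neg_add_cancel, zpow_zero]
  -- step 2: the reduction is a constant
  have hpow₁ : (algebraMap K F c₁ * H') ^ p = algebraMap K F (c₁ ^ p / e') * R :=
    pow_scale_aux he'0 hR
  have hcU : S.c₁.IsGU (algebraMap K F (c₁ ^ p / e')) := by
    rw [const_eq_aux he'0 hRGU₁.ne_zero hR]
    exact (hU₁.pow p).div hRGU₁
  obtain ⟨κ, hκ⟩ := S.c₁.rd_const_eq _ hcU.1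
  have hrdp : S.c₁.rd (algebraMap K F c₁ * H') ^ p = algebraMap k F₁ κ := by
    rw [← S.c₁.rd_pow hU₁.1, hpow₁, S.c₁.rd_mul hcU.1 hR₁, hRr₁, mul_one, hκ]
  obtain ⟨lam, hlam⟩ := IsAlgClosed.exists_pow_nat_eq κ hp.pos
  have hrd₁ : S.c₁.rd (algebraMap K F c₁ * H') = algebraMap k F₁ lam := by
    have h1 : (S.c₁.rd (algebraMap K F c₁ * H') - algebraMap k F₁ lam) ^ p = 0 := by
      rw [sub_pow_char, hrdp, ← map_pow, hlam, sub_self]
    exact sub_eq_zero.1 ((pow_eq_zero_iff hp0).1 h1)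
  have hlam0 : lam ≠ 0 := by
    rintro rfl
    rw [map_zero] at hrd₁
    exact hU₁.2 hrd₁
  -- step 3: divide by an invariant lift of `lam`
  obtain ⟨cl, hclfix, hclm, hclr⟩ := hconst lam
  have hclU : S.c₁.IsGU (algebraMap K F cl) := ⟨hclm, by
    rw [hclr]
    exact (map_ne_zero_iff _ (algebraMap k F₁).injective).mpr hlam0⟩
  have hcl0 : cl ≠ 0 := by
    rintro rfl
    exact hclU.ne_zero (map_zero _)
  obtain ⟨c, hc⟩ : ∃ c : K, c = c₁ / cl := ⟨_, rfl⟩
  have hc0 : c ≠ 0 := by rw [hc]; exact div_ne_zero hc₁0 hcl0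
  have hcH : algebraMap K F c * H' = algebraMap K F c₁ * H' / algebraMap K F cl := by
    rw [hc, map_div₀]
    ring
  have hfix : ∀ τ ∈ 𝓘2, τ • (algebraMap K F c * H') = algebraMap K F c * H' := by
    intro τ hτ
    rw [smul_mul', SemilinearAut.smul_algebraMap, hH'fix τ hτ, hc, map_div₀, hc₁fix τ hτ,
      hclfix τ hτ]
  have hHU₁ : S.c₁.IsGU (algebraMap K F c * H') := by
    rw [hcH]
    exact hU₁.div hclU
  have hHr₁ : S.c₁.rd (algebraMap K F c * H') = 1 := by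
    rw [hcH, hU₁.rd_div hclU, hrd₁, hclr]
    exact div_self ((map_ne_zero_iff _ (algebraMap k F₁).injective).mpr hlam0)
  -- step 4: the second valuation
  have hpow : (algebraMap K F c * H') ^ p = algebraMap K F (c ^ p / e') * R :=
    pow_scale_aux he'0 hR
  have heU : S.c₁.IsGU (algebraMap K F (c ^ p / e')) := by
    rw [const_eq_aux he'0 hRGU₁.ne_zero hR]
    exact (hHU₁.pow p).div hRGU₁
  have her₁ : S.c₁.rd (algebraMap K F (c ^ p / e')) = algebraMap k F₁ 1 := by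
    rw [const_eq_aux he'0 hRGU₁.ne_zero hR, (hHU₁.pow p).rd_div hRGU₁, S.c₁.rd_pow hHU₁.1,
      hHr₁, hRr₁, one_pow, div_one, map_one]
  obtain ⟨hem₂, her₂⟩ := S.rd₂_const heU.1 her₁
  rw [map_one] at her₂
  have heU₂ : S.c₂.IsGU (algebraMap K F (c ^ p / e')) := ⟨hem₂, by
    rw [her₂]; exact one_ne_zero⟩
  have hHpU₂ : S.c₂.IsGU ((algebraMap K F c * H') ^ p) := by
    rw [hpow]
    exact heU₂.mul hRGU₂
  have hHU₂ : S.c₂.IsGU (algebraMap K F c * H') := by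
    rw [pv_isGU_iff] at hHpU₂ ⊢
    rw [map_pow] at hHpU₂
    exact pv_pow_eq_one hp0 hHpU₂
  have hHr₂ : S.c₂.rd (algebraMap K F c * H') = 1 := by
    refine eq_one_of_pow_char (p := p) ?_
    rw [← S.c₂.rd_pow hHU₂.1, hpow, S.c₂.rd_mul hem₂ hR₂, her₂, hRr₂, mul_one]
  -- step 5: `(H - 1) / θ` is integral
  have hsubfix : ∀ τ ∈ 𝓘2, τ • (algebraMap K F c * H' - 1) = algebraMap K F c * H' - 1 := by
    intro τ hτ
    rw [smul_sub, hfix τ hτ, smul_one]
  exact ⟨c, hc0, hfix,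
    pv_sub_one_div hθ.mem₁ hθ.rd₁ hθne hHU₁.1 hHr₁ (fun h0 => hval₁ _ hsubfix h0),
    pv_sub_one_div hθ.mem₂ hθ.rd₂ hθne hHU₂.1 hHr₂ (fun h0 => hval₂ _ hsubfix h0)⟩

end Norm

end Fermat.Agent.BADP.H97
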