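import Fermat.Agent.BADP.H97_EisCorr

/-!
# S44 (row 38), package EIS-ABS (helper97), part 3: the wild main line (D-CORE)

`eis_wild_core` : in the setting of `BADP.Stmt_EisAbs` (arithmetic in the form (K1), (K2),
(K3)), let `G_s` (for every node `s`) be a `V₁`-unit fixed by `𝓘2` with
`p · ord_P (G_s) = ord_P f` on the fibre of `s`.  Then `v₂ (G_s) = v₂ θ ^ (m s)` with `m s`
independent of `s` modulo `p`.

Proof (plan `NOTES/plan/L_S44.md` §12.2): canonical form `f₀c` of the class of `f₀`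
(`H51.rayCanon`), `R = σ f / (f f₀c) = e' H ^ p` with `H` fixed by `𝓘2`
(`exists_fixed_pow_root`), normalised (`exists_normalised`), and `SSD.dcore_gen` for `H` with
the correction factors `G_s / σ G_s` at the nodes and `exists_corr_good` at the good places.
-/

set_option autoImplicit false
set_option linter.style.haveILetI false
set_option linter.unusedSectionVars false
set_option maxHeartbeats 1000000

noncomputable section

open AlgebraicCurve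

attribute [local instance] Classical.propDecidable

namespace Fermat.Agent.BADP.H97

open Fermat.Agent.RED.H17 Fermat.Agent.RED Fermat.Agent.BAD

section Wild

variable {K F k F₁ F₂ : Type} [Field K] [Field F] [Algebra K F] [Field k] [Field F₁]
  [Algebra k F₁] [Field F₂] [Algebra k F₂]

/-- `σ f / f` is a unit of reduction `1` for a valuation with (K3). -/
theorem isGU_smul_div {F' : Type} [Field F'] [Algebra k F'] (T : PRed K F k F') {θ : K}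
    (hθ : algebraMap K F θ ∈ T.V) (hθ0 : T.rd (algebraMap K F θ) = 0)
    {σ : SemilinearAut K F} {f : F} {m : ℤ}
    (h : T.V.valuation ((σ • f) / f - (1 - (m : F) * algebraMap K F θ)) ≤
      T.V.valuation (algebraMap K F θ) ^ 2) :
    (σ • f) / f ∈ T.V ∧ T.rd ((σ • f) / f) = 1 := by
  have hθv : T.V.valuation (algebraMap K F θ) < 1 := pv_lt_of_rd hθ hθ0
  have hEv : T.V.valuation ((σ • f) / f - (1 - (m : F) * algebraMap K F θ)) < 1 := by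
    refine lt_of_le_of_lt h ?_
    exact pow_lt_one₀ zero_le hθv (by norm_num)
  have hEm : (σ • f) / f - (1 - (m : F) * algebraMap K F θ) ∈ T.V := (pv_mem_iff _).2 hEv.le
  have hEr := pv_rd_eq_zero hEv
  have hmm : (m : F) ∈ T.V := intCast_mem T.V m
  have h1m : 1 - (m : F) * algebraMap K F θ ∈ T.V :=
    T.V.sub_mem T.V.one_mem (T.V.mul_mem _ _ hmm hθ)
  have h1r : T.rd (1 - (m : F) * algebraMap K F θ) = 1 := by
    rw [T.rd_sub T.V.one_mem (T.V.mul_mem _ _ hmm hθ), T.rd_one, T.rd_mul hmm hθ, hθ0,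
      mul_zero, sub_zero]
  have e : (σ • f) / f =
      ((σ • f) / f - (1 - (m : F) * algebraMap K F θ)) + (1 - (m : F) * algebraMap K F θ) := by
    ring
  rw [e]
  refine ⟨T.V.add_mem _ _ hEm h1m, ?_⟩
  rw [T.rd_add hEm h1m, hEr, h1r, zero_add]

/-- **EIS-ABS, the wild main line.** -/
theorem eis_wild_core [IsAlgClosed K] [IsAlgClosed k] (S : SSD K F k F₁ F₂) (H : FFHyp K F)
    (H₁ : FFHyp k F₁) (H₂ : FFHyp k F₂) {g g₁ g₂ : ℕ} {c c₁ c₂ : ℤ} (hR : IsGenus K F g c)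
    (hR₁ : IsGenus k F₁ g₁ c₁) (hR₂ : IsGenus k F₂ g₂ c₂)
    (hnum : g + 1 ≤ g₁ + g₂ + S.nodes.card) (p : ℕ) (hp : p.Prime) (hchar : CharP k p)
    {𝓘 𝓘1 𝓘2 : Set (SemilinearAut K F)} (h𝓘 : ∀ τ ∈ 𝓘, S.IsInertial τ) (h1 : 𝓘1 ⊆ 𝓘)
    (h2 : 𝓘2 ⊆ 𝓘1) (hK0 : IsK0Lift S 𝓘) {σ : SemilinearAut K F} (hσ : σ ∈ 𝓘1)
    (hnorm : ∀ y : F, (∀ τ ∈ 𝓘2, τ • y = y) → ∀ τ ∈ 𝓘2, τ • (σ • y) = σ • y)
    {θ : K} (hθ : S.IsCM θ) (hθne : θ ≠ 0)
    (hθfix : ∀ τ ∈ 𝓘2, SemilinearAut.baseAut τ θ = θ)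
    -- the arithmetic
    (hK3₁ : ∀ y : F, (∀ τ ∈ 𝓘2, τ • y = y) → y ≠ 0 → ∃ m : ℤ,
      S.c₁.V.valuation y = S.c₁.V.valuation (algebraMap K F θ) ^ m ∧
      S.c₁.V.valuation ((σ • y) / y - (1 - (m : F) * algebraMap K F θ)) ≤
        S.c₁.V.valuation (algebraMap K F θ) ^ 2)
    (hK3₂ : ∀ y : F, (∀ τ ∈ 𝓘2, τ • y = y) → y ≠ 0 → ∃ m : ℤ,
      S.c₂.V.valuation y = S.c₂.V.valuation (algebraMap K F θ) ^ m ∧
      S.c₂.V.valuation ((σ • y) / y - (1 - (m : F) * algebraMap K F θ)) ≤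
        S.c₂.V.valuation (algebraMap K F θ) ^ 2)
    (hK2₁ : ∀ y : F, (∀ τ ∈ 𝓘2, τ • y = y) → S.c₁.V.valuation y ≤ 1 →
      S.c₁.V.valuation (σ • y - y) ≤ S.c₁.V.valuation (algebraMap K F θ) ^ 2)
    (hK2₂ : ∀ y : F, (∀ τ ∈ 𝓘2, τ • y = y) → S.c₂.V.valuation y ≤ 1 →
      S.c₂.V.valuation (σ • y - y) ≤ S.c₂.V.valuation (algebraMap K F θ) ^ 2)
    (hK1₁ : ∀ a : K, (∀ τ ∈ 𝓘1, SemilinearAut.baseAut τ a = a) → S.IsCM a →
      S.c₁.V.valuation (algebraMap K F a) ≤ S.c₁.V.valuation (algebraMap K F θ) ^ 2)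
    (hK1₂ : ∀ a : K, (∀ τ ∈ 𝓘1, SemilinearAut.baseAut τ a = a) → S.IsCM a →
      S.c₂.V.valuation (algebraMap K F a) ≤ S.c₂.V.valuation (algebraMap K F θ) ^ 2)
    -- the Kummer data
    {f : F} (hf : S.c₁.IsGU f) (hdiv : ∀ P : Place K F, (p : ℤ) ∣ P.ord f)
    (hffix : ∀ τ ∈ 𝓘2, τ • f = f)
    {f₀ f₀' h₀ T : F} {a e : K} (hf₀ : f₀ ∈ S.c₁.V) (hf₀r : S.c₁.rd f₀ = 1)
    (hf₀div : ∀ P : Place K F, (p : ℤ) ∣ P.ord f₀) (hf₀' : f₀' ∈ S.c₂.V)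
    (hf₀'r : S.c₂.rd f₀' = 1) (hff : f₀ = algebraMap K F a * f₀' * h₀ ^ p)
    (hcls : ∀ τ ∈ 𝓘1, ∃ (e' : K) (T' : F), τ • f₀ = algebraMap K F e' * f₀ * T' ^ p)
    (hσf : σ • f = algebraMap K F e * f * f₀ * T ^ p)
    -- the node data
    (G : Place k F₁ × Place k F₂ → F)
    (hG : ∀ s ∈ S.nodes, (∀ τ ∈ 𝓘2, τ • G s = G s) ∧ S.c₁.IsGU (G s) ∧
      ∀ P : Place K F, S.c₁.r P = some s.1 → (p : ℤ) * P.ord (G s) = P.ord f) :
    ∃ m : Place k F₁ × Place k F₂ → ℤ,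
      (∀ s ∈ S.nodes, S.c₂.V.valuation (G s) = S.c₂.V.valuation (algebraMap K F θ) ^ (m s)) ∧
      ∀ s ∈ S.nodes, ∀ s' ∈ S.nodes, (p : ℤ) ∣ m s - m s' := by
  haveI : Fact p.Prime := ⟨hp⟩
  haveI : CharP k p := hchar
  have hP := H.principal
  have hdeg := H.deg_one
  have hp0 : p ≠ 0 := hp.ne_zero
  have hK0' : ∀ u : F, u ∈ S.c₁.V → u ∈ S.c₂.V → ∃ u₀ : F, H51.IsK0Part S 𝓘 u u₀ :=
    fun u hu₁ hu₂ => H51.isK0Part_of_isK0Lift hK0 u hu₁ hu₂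
  have h𝓘2 : ∀ τ ∈ 𝓘2, S.IsInertial τ := fun τ hτ => h𝓘 τ (h1 (h2 hτ))
  have hσI : S.IsInertial σ := h𝓘 σ (h1 hσ)
  -- the canonical form of `f₀`
  obtain ⟨A₁, A₂, s₁, s₂, Pinf, Qinf, h₁, a₁, a₂, X₁, X₂, hd₁, hd₂, hNSA, hs₁, hs₂, hs₁σ, hs₂σ,
    hQinfg, hQinfA, hPinf, hPinffix, hh₁0, hcan, hFfix, hfix₁, hfix₂⟩ :=
    H51.rayCanon S H H₁ H₂ hR hR₁ hR₂ hnum p h1 h𝓘 hK0' hf₀ hf₀r hf₀div hf₀' hf₀'r hff hcls
  obtain ⟨F0c, hF0c⟩ : ∃ F0c : F, F0c = f₀ * h₁ ^ p := ⟨_, rfl⟩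
  rw [← hF0c] at hcan hFfix
  have hF0cGU₁ : S.c₁.IsGU F0c := ⟨hcan.mem₁, by rw [hcan.rd₁]; exact one_ne_zero⟩
  have hF0cGU₂ : S.c₂.IsGU F0c := ⟨hcan.mem₂, by rw [hcan.rd₂]; exact one_ne_zero⟩
  have hF0c0 : F0c ≠ 0 := hF0cGU₁.ne_zero
  have hf₀0 : f₀ ≠ 0 := by
    rintro rfl
    rw [zero_mul] at hF0c
    exact hF0c0 hF0c
  -- an invariant place with an invariant uniformiser
  obtain ⟨Pu, t, -, hPufix, htfix, ht1⟩ :=
    exists_fixed_unif S H H₁ H₂ hR hR₁ hR₂ hnum h𝓘 hK0' hQinfg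
  -- the function `R`
  have hf0 : f ≠ 0 := hf.ne_zero
  have hσf0 : σ • f ≠ 0 := smul_ne_zero_of_ne hf0
  obtain ⟨R, hRdef⟩ : ∃ R : F, R = (σ • f) / (f * F0c) := ⟨_, rfl⟩
  have hR0 : R ≠ 0 := by
    rw [hRdef]
    exact div_ne_zero hσf0 (mul_ne_zero hf0 hF0c0)
  have hRe : R = algebraMap K F e * (T / h₁) ^ p := by
    rw [hRdef, hσf, hF0c, div_pow]
    field_simp
  have hRfix : ∀ τ ∈ 𝓘2, τ • R = R := by
    intro τ hτ
    rw [hRdef, smul_div₀', smul_mul', hnorm f hffix τ hτ, hffix τ hτ, hFfix τ (h2 hτ)]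
  have hσfGU : S.c₁.IsGU (σ • f) := ⟨hσI.mem₁ f hf.1, by
    rw [H51.rd₁_smul hσI hf.1]; exact hf.2⟩
  have hRGU₁ : S.c₁.IsGU R := by
    rw [hRdef]
    exact hσfGU.div (hf.mul hF0cGU₁)
  have hRr₁ : S.c₁.rd R = 1 := by
    rw [hRdef, hσfGU.rd_div (hf.mul hF0cGU₁), H51.rd₁_smul hσI hf.1,
      S.c₁.rd_mul hf.1 hF0cGU₁.1, hcan.rd₁, mul_one]
    exact div_self hf.2
  obtain ⟨mf, -, hmf⟩ := hK3₂ f hffix hf0
  obtain ⟨hq₂, hqr₂⟩ := isGU_smul_div S.c₂ hθ.mem₂ hθ.rd₂ hmf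
  have hqGU₂ : S.c₂.IsGU ((σ • f) / f) := ⟨hq₂, by rw [hqr₂]; exact one_ne_zero⟩
  have hRdef₂ : R = (σ • f) / f / F0c := by rw [hRdef, div_mul_eq_div_div]
  have hRGU₂ : S.c₂.IsGU R := by
    rw [hRdef₂]
    exact hqGU₂.div hF0cGU₂
  have hRr₂ : S.c₂.rd R = 1 := by
    rw [hRdef₂, hqGU₂.rd_div hF0cGU₂, hqr₂, hcan.rd₂, div_one]
  -- the root, fixed by `𝓘2`
  obtain ⟨H', e', hH'0, he'0, hH'fix, -, hRe'⟩ :=
    exists_fixed_pow_root H (𝓘 := 𝓘2) (fun τ hτ => hPufix τ (h1 (h2 hτ)))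
      (fun τ hτ => htfix τ (h1 (h2 hτ))) ht1 hp0 hR0 hRe hRfix
  -- normalisation
  obtain ⟨cn, hcn0, hHnfix, hΨ₁, hΨ₂⟩ :=
    exists_normalised S hp (𝓘2 := 𝓘2)
      (fun κ => by
        obtain ⟨c', h1', h2', h3'⟩ := exists_fixed_const S H hK0' κ
        exact ⟨c', fun τ hτ => h1' τ (h1 (h2 hτ)), h2', h3'⟩)
      hθ hθne hθfix
      (fun y hy hy0 => by
        obtain ⟨m, hm, -⟩ := hK3₁ y hy hy0
        exact ⟨m, hm⟩)
      (fun y hy hy0 => by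
        obtain ⟨m, hm, -⟩ := hK3₂ y hy hy0
        exact ⟨m, hm⟩)
      hH'0 hH'fix hRe' hRGU₁.1 hRr₁ hRGU₂.1 hRr₂
  obtain ⟨Hn, hHndef⟩ : ∃ Hn : F, Hn = algebraMap K F cn * H' := ⟨_, rfl⟩
  rw [← hHndef] at hHnfix hΨ₁ hΨ₂
  -- the divisor of `Hn`
  have hHn : ∀ P : Place K F,
      (p : ℤ) * P.ord Hn = (σ⁻¹ • P).ord f - P.ord f - P.ord F0c := by
    intro P
    have e1 : P.ord R = (p : ℤ) * P.ord Hn := by
      rw [hHndef, ord_algebraMap_mul P hcn0, hRe', ord_algebraMap_mul P he'0,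
        Fermat.Agent.RED.H17.ord_pow]
    have e2 : P.ord R = (σ⁻¹ • P).ord f - P.ord f - P.ord F0c := by
      rw [hRdef, Fermat.Agent.RED.H17.ord_div P hσf0 (mul_ne_zero hf0 hF0c0), ord_smul_inv,
        P.ord_mul hf0 hF0c0]
      ring
    rw [← e1, e2]
  -- the exponents of the `G s`
  have hmex : ∀ s : Place k F₁ × Place k F₂, ∃ m : ℤ, s ∈ S.nodes →
      (S.c₂.V.valuation (G s) = S.c₂.V.valuation (algebraMap K F θ) ^ m ∧
        S.c₂.V.valuation ((σ • G s) / G s - (1 - (m : F) * algebraMap K F θ)) ≤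
          S.c₂.V.valuation (algebraMap K F θ) ^ 2) := by
    intro s
    by_cases hs : s ∈ S.nodes
    · obtain ⟨m, hm⟩ := hK3₂ (G s) (hG s hs).1 (hG s hs).2.1.ne_zero
      exact ⟨m, fun _ => hm⟩
    · exact ⟨0, fun h => absurd h hs⟩
  choose m hm using hmex
  -- D-CORE'
  obtain ⟨b₁, b₂, -, -, hl⟩ := S.dcore_gen hP H₁ H₂ hθne hθ hΨ₁ hΨ₂ (fun _ => 0)
    (fun s => ((m s : ℤ) : k))
    (by
      intro s hs
      obtain ⟨hGfix, hGU, hGord⟩ := hG s hs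
      refine ⟨G s / (σ • G s), ?_, ?_, fun P hPs => ?_⟩
      · rw [map_zero]
        exact isFC_of_val_sigma_sub hθ.mem₁ hθ.rd₁ hθne hGU
          (hK2₁ (G s) hGfix ((pv_mem_iff _).1 hGU.1))
      · rw [map_intCast]
        exact isFC_of_val_sigma_div hθ.mem₂ hθ.rd₂ hθne (m s) (hm s hs).2
      · have hσP : S.c₁.r (σ⁻¹ • P) = some s.1 := by
          have := hσI.r₁ (σ⁻¹ • P)
          rw [smul_inv_smul] at this
          rw [← this]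
          exact hPs
        have hoff : P.ord F0c = 0 := by
          refine hcan.off P (fun Q hQ hPQ => ?_) (fun Q hQ hPQ => ?_)
          · rw [hPs] at hPQ
            have hQs : s.1 = Q := Option.some.inj hPQ
            exact Finset.disjoint_left.mp hd₁ hQ (hQs ▸ Finset.mem_image_of_mem Prod.fst hs)
          · rw [S.r₂_of_node hs hPs] at hPQ
            have hQs : s.2 = Q := Option.some.inj hPQ
            exact Finset.disjoint_left.mp hd₂ hQ (hQs ▸ Finset.mem_image_of_mem Prod.snd hs)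
        have := ord_corr (σ := σ) hp0 (hHn P) hGU.ne_zero (hGord P hPs) (hGord _ hσP)
          (one_ne_zero) (by rw [hoff, Place.ord_one, mul_zero])
        rwa [mul_one] at this)
    (by
      intro Q hQ
      by_cases hQA : Q ∈ A₁
      · have hco : S.c₁.IsCoord (s₁ Q) Q := (hs₁ Q hQA).1
        have ha := hcan.ha₁ Q hQA
        have hsub := hco.sub_const ha.1 ha.2
        refine exists_corr_good S.c₁ hP hdeg hθ.mem₁ hθ.rd₁ hθne hσI.r₁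
          (fun τ hτ => (h𝓘2 τ hτ).r₁) hK2₁ hp0 hdiv hffix hHn hco
          (fun τ hτ => hs₁σ Q hQA τ (h1 (h2 hτ)))
          (x := (s₁ Q - algebraMap K F (a₁ Q)) / s₁ Q)
          (div_ne_zero hsub.isGU.ne_zero hco.isGU.ne_zero)
          (isFC_coord hθ.mem₁ hθ.rd₁ hθne hco.isGU
            (hK1₁ (a₁ Q) (fun τ hτ => (hfix₁ Q hQA τ hτ).2) ha))
          (fun P hPQ => ?_)
        rw [hcan.on₁ Q hQA P hPQ,
          Fermat.Agent.RED.H17.ord_div P hsub.isGU.ne_zero hco.isGU.ne_zero]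
      · obtain ⟨t', ht', ht'fix⟩ := exists_inv_coord₁ S H H₁ H₂ hR hR₁ hR₂ hnum hK0' hQ
        refine exists_corr_good S.c₁ hP hdeg hθ.mem₁ hθ.rd₁ hθne hσI.r₁
          (fun τ hτ => (h𝓘2 τ hτ).r₁) hK2₁ hp0 hdiv hffix hHn ht'
          (fun τ hτ => ht'fix τ (h1 (h2 hτ))) (x := 1) one_ne_zero PRed.isFC_one
          (fun P hPQ => ?_)
        rw [Place.ord_one, mul_zero]
        refine hcan.off P (fun Q' hQ' hPQ' => ?_) (fun Q' hQ' hPQ' => ?_)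
        · rw [hPQ] at hPQ'
          exact hQA (Option.some.inj hPQ' ▸ hQ')
        · rw [S.r₂_none_of_good₁ hQ hPQ] at hPQ'
          exact absurd hPQ' (by simp))
    (by
      intro Q hQ
      by_cases hQA : Q ∈ A₂
      · have hco : S.c₂.IsCoord (s₂ Q) Q := (hs₂ Q hQA).1
        have ha := hcan.ha₂ Q hQA
        have hsub := hco.sub_const ha.1 ha.2
        refine exists_corr_good S.c₂ hP hdeg hθ.mem₂ hθ.rd₂ hθne hσI.r₂
          (fun τ hτ => (h𝓘2 τ hτ).r₂) hK2₂ hp0 hdiv hffix hHn hco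
          (fun τ hτ => hs₂σ Q hQA τ (h1 (h2 hτ)))
          (x := (s₂ Q - algebraMap K F (a₂ Q)) / s₂ Q)
          (div_ne_zero hsub.isGU.ne_zero hco.isGU.ne_zero)
          (isFC_coord hθ.mem₂ hθ.rd₂ hθne hco.isGU
            (hK1₂ (a₂ Q) (fun τ hτ => (hfix₂ Q hQA τ hτ).2) (S.rd₁_const_zero ha.1 ha.2)))
          (fun P hPQ => ?_)
        rw [hcan.on₂ Q hQA P hPQ,
          Fermat.Agent.RED.H17.ord_div P hsub.isGU.ne_zero hco.isGU.ne_zero]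
      · obtain ⟨t', ht', ht'fix⟩ := exists_inv_coord₂ S H H₁ H₂ hR hR₁ hR₂ hnum hK0' hQ
        refine exists_corr_good S.c₂ hP hdeg hθ.mem₂ hθ.rd₂ hθne hσI.r₂
          (fun τ hτ => (h𝓘2 τ hτ).r₂) hK2₂ hp0 hdiv hffix hHn ht'
          (fun τ hτ => ht'fix τ (h1 (h2 hτ))) (x := 1) one_ne_zero PRed.isFC_one
          (fun P hPQ => ?_)
        rw [Place.ord_one, mul_zero]
        refine hcan.off P (fun Q' hQ' hPQ' => ?_) (fun Q' hQ' hPQ' => ?_)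
        · rw [S.r₁_none_of_good₂ hQ hPQ] at hPQ'
          exact absurd hPQ' (by simp)
        · rw [hPQ] at hPQ'
          exact hQA (Option.some.inj hPQ' ▸ hQ'))
  refine ⟨m, fun s hs => (hm s hs).1, fun s hs s' hs' => ?_⟩
  have e1 := hl s hs
  have e2 := hl s' hs'
  rw [sub_zero] at e1 e2
  have e3 : (((m s - m s' : ℤ)) : k) = 0 := by
    push_cast
    rw [e1, e2, sub_self]
  exact (CharP.intCast_eq_zero_iff k p _).1 e3

end Wild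

end Fermat.Agent.BADP.H97
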