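import Fermat.Agent.BADP.H97_KSpan

/-!
# BAD_p (S44, row 38), package K-ARITH, part 3 (helper97): the arithmetic of `L₀(ω)`

Setting of `H97_KArith.lean` (`KData v L0 p ζ ω σ`; `π = ζ - 1`, `ϖ = ω - 1`, `θ = π ω / ϖ`).
The field `K₃ = L₀(ω)`:

* `exists_k3sum_of_mem_field` : every element of `L₀(ω)` is `k3sum p ω g = ∑_{l < p} g l ϖ ^ l`
  with `g l ∈ L₀`;
* `KData.val_k3term_le` : `v (g l ϖ ^ l) ≤ v (k3sum g)`; `KData.val_k3coeff_le` : the
  coefficients of an integral element are integral;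
* `KData.val_sigma_sub_k3` : `c ∈ L₀(ω)` integral `⇒ v (σ c - c) ≤ v π`;
* `KData.val_k3_small` : `a ∈ L₀(ω)`, `v a < 1` `⇒ v a ≤ v ϖ`;
* `KData.val_sigma_sub_div_k3` : `a ∈ L₀(ω)`, `v a < 1` `⇒ v ((σ a - a) / π - a / ϖ) < 1`;
* `KData.val_k3_small_sq` : `a ∈ L₀(ω)`, `v (a / ϖ) < 1` `⇒ v a ≤ v ϖ ^ 2`;
* `KData.val_varpi_pow_div` : `v (ϖ ^ p / p - u₁) < 1`, `u₁ = (ω ^ p - 1) / p`;
* (`val_pi_pow_div` : `v (π ^ (p - 1) / p + 1) < 1`, `p` odd, is in `H97_K3Q.lean`.)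

These are the hypotheses (A0), (A2), (A3) of helper28's Key-p (RAY-K3), for any valued field.
-/

set_option autoImplicit false

open Finset

namespace Fermat.Agent.BADP.H97

variable {L : Type*} [Field L]

/-- The element `∑_{l < p} g l * ϖ ^ l`. -/
def k3sum (p : ℕ) (ω : L) (g : ℕ → L) : L := ∑ l ∈ range p, g l * (ω - 1) ^ l

section Span3

variable (L0 : Subfield L) (p : ℕ) (ω : L)

/-- The `L₀`-span of the powers `ϖ ^ l`, `l < p`. -/
def varSpan : Submodule L0 L :=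
  Submodule.span L0 ((fun l : ℕ => (ω - 1) ^ l) '' (range p : Set ℕ))

variable {L0 p ω}

theorem pow_mem_varSpan {l : ℕ} (hl : l < p) : (ω - 1) ^ l ∈ varSpan L0 p ω :=
  Submodule.subset_span ⟨l, mem_coe.2 (mem_range.2 hl), rfl⟩

theorem coe_mul_mem_varSpan {a m : L} (ha : a ∈ L0) (hm : m ∈ varSpan L0 p ω) :
    a * m ∈ varSpan L0 p ω := by
  have := (varSpan L0 p ω).smul_mem (⟨a, ha⟩ : L0) hm
  exact this

variable (hp : 1 < p) (hω : ω ^ p ∈ L0)

include hp hω in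
theorem varpi_mul_pow_mem3 {l : ℕ} (hl : l < p) : (ω - 1) * (ω - 1) ^ l ∈ varSpan L0 p ω := by
  by_cases h1 : l + 1 < p
  · rw [← pow_succ']
    exact pow_mem_varSpan h1
  · have hl' : l + 1 = p := by omega
    rw [← pow_succ', hl', varpi_pow_eq rfl]
    refine sub_mem ?_ (sum_mem fun m hm => ?_)
    · have : ω ^ p = ω ^ p * (ω - 1) ^ 0 := by simp
      rw [this]
      exact coe_mul_mem_varSpan hω (pow_mem_varSpan (by omega))
    · exact coe_mul_mem_varSpan (natCast_mem L0 _) (pow_mem_varSpan (mem_range.1 hm))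

include hp hω in
theorem varpi_mul_mem3 {m : L} (hm : m ∈ varSpan L0 p ω) : (ω - 1) * m ∈ varSpan L0 p ω := by
  induction hm using Submodule.span_induction with
  | mem y hy =>
    obtain ⟨l, hl, rfl⟩ := hy
    exact varpi_mul_pow_mem3 hp hω (mem_range.1 (mem_coe.1 hl))
  | zero => rw [mul_zero]; exact zero_mem _
  | add y z _ _ hy hz => rw [mul_add]; exact add_mem hy hz
  | smul a y _ hy =>
    have : (ω - 1) * (a • y) = a • ((ω - 1) * y) := by
      rw [Subfield.smul_def, Subfield.smul_def]; ring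
    rw [this]
    exact Submodule.smul_mem _ a hy

include hp in
theorem one_mem_varSpan : (1 : L) ∈ varSpan L0 p ω := by
  have : (1 : L) = (ω - 1) ^ 0 := by simp
  rw [this]
  exact pow_mem_varSpan (by omega)

include hp hω in
theorem mul_mem_varSpan {m m' : L} (hm : m ∈ varSpan L0 p ω) (hm' : m' ∈ varSpan L0 p ω) :
    m * m' ∈ varSpan L0 p ω := by
  induction hm using Submodule.span_induction with
  | mem y hy =>
    obtain ⟨l, -, rfl⟩ := hy
    show (ω - 1) ^ l * m' ∈ varSpan L0 p ω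
    induction l with
    | zero => simpa using hm'
    | succ l ih =>
      rw [pow_succ', mul_assoc]
      exact varpi_mul_mem3 hp hω ih
  | zero => rw [zero_mul]; exact zero_mem _
  | add y z _ _ hy hz => rw [add_mul]; exact add_mem hy hz
  | smul a y _ hy =>
    have : a • y * m' = a • (y * m') := by
      rw [Subfield.smul_def, Subfield.smul_def]; ring
    rw [this]
    exact Submodule.smul_mem _ a hy

include hp hω in
theorem adjoin_le_varSpan {c : L} (hc : c ∈ Algebra.adjoin L0 ({ω} : Set L)) :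
    c ∈ varSpan L0 p ω := by
  induction hc using Algebra.adjoin_induction with
  | mem y hy =>
    have h1 := one_mem_varSpan (L0 := L0) (ω := ω) hp
    have hy' : y = ω := by simpa using hy
    have e : y = (y - 1) * 1 + 1 := by ring
    rw [e, hy']
    exact add_mem (varpi_mul_mem3 hp hω h1) h1
  | algebraMap r =>
    have : algebraMap L0 L r = r • (1 : L) := by
      rw [Algebra.smul_def, mul_one]
    rw [this]
    exact Submodule.smul_mem _ r (one_mem_varSpan hp)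
  | add y z _ _ hy hz => exact add_mem hy hz
  | mul y z _ _ hy hz => exact mul_mem_varSpan hp hω hy hz

theorem exists_k3sum_of_mem_varSpan {c : L} (hc : c ∈ varSpan L0 p ω) :
    ∃ g : ℕ → L, (∀ l, g l ∈ L0) ∧ c = k3sum p ω g := by
  classical
  induction hc using Submodule.span_induction with
  | mem y hy =>
    obtain ⟨l, hl, rfl⟩ := hy
    refine ⟨fun z => if z = l then 1 else 0, fun z => ?_, ?_⟩
    · by_cases hz : z = l
      · simp only [hz, if_true]; exact one_mem L0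
      · simp only [hz, if_false]; exact zero_mem L0
    · rw [k3sum, sum_eq_single l]
      · simp
      · intro b _ hb
        simp [hb]
      · intro h
        exact absurd (mem_coe.1 hl) h
  | zero =>
    exact ⟨fun _ => 0, fun _ => zero_mem L0, by simp [k3sum]⟩
  | add y z _ _ hy hz =>
    obtain ⟨g, hg, rfl⟩ := hy
    obtain ⟨g', hg', rfl⟩ := hz
    refine ⟨fun x => g x + g' x, fun x => add_mem (hg x) (hg' x), ?_⟩
    simp only [k3sum, add_mul, sum_add_distrib]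
  | smul a y _ hy =>
    obtain ⟨g, hg, rfl⟩ := hy
    refine ⟨fun x => (a : L) * g x, fun x => mul_mem a.2 (hg x), ?_⟩
    rw [Subfield.smul_def]
    simp only [k3sum, smul_eq_mul, mul_sum, mul_assoc]

include hp hω in
/-- Every element of the field `L₀(ω)` is a sum `∑_{l < p} g l ϖ ^ l` with coefficients in
`L₀`. -/
theorem exists_k3sum_of_mem_field {c : L}
    (hc : c ∈ IntermediateField.adjoin L0 ({ω} : Set L)) :
    ∃ g : ℕ → L, (∀ l, g l ∈ L0) ∧ c = k3sum p ω g := by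
  have hp0 : p ≠ 0 := by omega
  have halg : ∀ x ∈ ({ω} : Set L), IsAlgebraic L0 x := by
    intro x hx
    have hx' : x = ω := by simpa using hx
    refine IsIntegral.isAlgebraic (IsIntegral.of_pow (Nat.pos_of_ne_zero hp0) ?_)
    rw [hx']
    exact (isIntegral_algebraMap (x := (⟨ω ^ p, hω⟩ : L0)))
  have h1 := IntermediateField.adjoin_toSubalgebra_of_isAlgebraic halg
  have h2 : c ∈ (IntermediateField.adjoin L0 ({ω} : Set L)).toSubalgebra := hc
  rw [h1] at h2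
  exact exists_k3sum_of_mem_varSpan (adjoin_le_varSpan hp hω h2)

end Span3

/-- A sum `∑ g l ϖ ^ l` as a sum `∑ g l j ϖ ^ l π ^ j`. -/
theorem k3sum_eq_ksum {p : ℕ} (hp : 1 < p) (ζ ω : L) (g : ℕ → L) :
    k3sum p ω g = ksum p ζ ω (fun x => if x.2 = 0 then g x.1 else 0) := by
  rw [k3sum, ksum, idx, sum_product]
  refine sum_congr rfl fun l _ => ?_
  rw [sum_eq_single 0]
  · simp [mono]
  · intro j _ hj
    simp [hj]
  · intro h
    exact absurd (mem_range.2 (by omega)) h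

namespace KData

variable {Γ₀ : Type*} [LinearOrderedCommGroupWithZero Γ₀] {v : Valuation L Γ₀} {L0 : Subfield L}
  {p : ℕ} {ζ ω : L} {σ : L →+* L}

/-- Every element of `L₀(ω)` is a sum `∑ g l ϖ ^ l` with coefficients in `L₀`. -/
theorem exists_k3sum (h : KData v L0 p ζ ω σ) {c : L}
    (hc : c ∈ IntermediateField.adjoin L0 ({ω} : Set L)) :
    ∃ g : ℕ → L, (∀ l, g l ∈ L0) ∧ c = k3sum p ω g :=
  exists_k3sum_of_mem_field h.prime.one_lt h.omega_pow_mem hc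

/-- Each term of `∑ g l ϖ ^ l` is bounded by the sum. -/
theorem val_k3term_le (h : KData v L0 p ζ ω σ) {g : ℕ → L} (hg : ∀ l, g l ∈ L0) {l : ℕ}
    (hl : l < p) : v (g l * (ω - 1) ^ l) ≤ v (k3sum p ω g) := by
  rcases eq_or_ne (g l) 0 with h0 | h0
  · rw [h0, zero_mul, map_zero]; exact zero_le
  set G : ℕ × ℕ → L := fun x => if x.2 = 0 then g x.1 else 0 with hG
  have hGm : ∀ x, G x ∈ L0 := by
    intro x
    simp only [hG]
    split_ifs
    · exact hg _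
    · exact zero_mem _
  have hp1 : 0 < p - 1 := by
    have := h.prime.two_le
    omega
  have hmem : (l, 0) ∈ idx p := mem_idx.2 ⟨hl, hp1⟩
  have hGl : G (l, 0) = g l := by simp [hG]
  obtain ⟨x₀, hx₀, -, hlt, hv⟩ := h.exists_dominant_of_coeff hGm ⟨(l, 0), hmem, by rwa [hGl]⟩
  rw [k3sum_eq_ksum h.prime.one_lt ζ ω g, hv]
  have e : g l * (ω - 1) ^ l = G (l, 0) * mono ζ ω (l, 0) := by simp [hGl, mono]
  rw [e]
  by_cases hxx : (l, 0) = x₀
  · rw [hxx]
  · exact (hlt _ hmem hxx).le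

theorem val_varpi_pos (h : KData v L0 p ζ ω σ) : 0 < v (ω - 1) :=
  zero_lt_iff.2 ((Valuation.ne_zero_iff v).2 h.varpi_ne_zero)

/-- An element of `L₀` of value `> 1` has value `≥ v p ⁻¹`; consequence for the terms. -/
theorem val_coeff_le_of_term (h : KData v L0 p ζ ω σ) {a : L} (ha : a ∈ L0) {l : ℕ} (hl : l < p)
    (hle : v (a * (ω - 1) ^ l) ≤ 1) : v a ≤ 1 := by
  rcases eq_or_ne a 0 with rfl | ha0
  · rw [map_zero]; exact zero_le
  obtain ⟨n, hn⟩ := h.val0 a ha ha0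
  have hvp0 : (0 : Γ₀) < v (p : L) := zero_lt_iff.2 h.vp_ne
  by_contra hgt
  rw [not_le] at hgt
  have hn1 : n ≤ -1 := by
    by_contra hcon
    have h0 : 0 ≤ n := by omega
    have h1 : v (p : L) ^ n ≤ v (p : L) ^ (0 : ℤ) :=
      (zpow_le_zpow_iff_right_of_lt_one₀ hvp0 h.vp_lt).2 h0
    rw [zpow_zero, ← hn] at h1
    exact absurd hgt (not_lt.2 h1)
  have h2 : v (p : L) ^ (-1 : ℤ) ≤ v a := by
    rw [hn]
    exact (zpow_le_zpow_iff_right_of_lt_one₀ hvp0 h.vp_lt).2 hn1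
  -- `v p * v a ≥ 1`
  have h3 : (1 : Γ₀) ≤ v (p : L) * v a := by
    calc (1 : Γ₀) = v (p : L) * v (p : L) ^ (-1 : ℤ) := by
          rw [zpow_neg_one, mul_inv_cancel₀ h.vp_ne]
      _ ≤ v (p : L) * v a := mul_le_mul_right h2 _
  -- `v ϖ ^ p < v ϖ ^ l`
  have h4 : v (ω - 1) ^ p < v (ω - 1) ^ l :=
    pow_lt_pow_right_of_lt_one₀ h.val_varpi_pos h.val_varpi_lt hl
  have h5 : v (p : L) * (v a * v (ω - 1) ^ l) ≤ v (p : L) * 1 := by
    rw [← map_pow, ← map_mul]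
    exact mul_le_mul_right hle _
  rw [mul_one, ← mul_assoc] at h5
  have h6 : v (ω - 1) ^ l ≤ v (p : L) * v a * v (ω - 1) ^ l := by
    calc v (ω - 1) ^ l = 1 * v (ω - 1) ^ l := (one_mul _).symm
      _ ≤ v (p : L) * v a * v (ω - 1) ^ l := mul_le_mul_left h3 _
  rw [h.val_varpi] at h4
  exact absurd (lt_of_lt_of_le h4 (le_trans h6 h5)) (lt_irrefl _)

/-- The coefficients of an integral element of `L₀(ω)` are integral. -/
theorem val_k3coeff_le (h : KData v L0 p ζ ω σ) {g : ℕ → L} (hg : ∀ l, g l ∈ L0)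
    (hc : v (k3sum p ω g) ≤ 1) {l : ℕ} (hl : l < p) : v (g l) ≤ 1 :=
  h.val_coeff_le_of_term (hg l) hl (le_trans (h.val_k3term_le hg hl) hc)

/-- `ϖ θ = π ω`. -/
theorem varpi_mul_theta (h : KData v L0 p ζ ω σ) : (ω - 1) * theta ζ ω = (ζ - 1) * ω := by
  rw [theta, mul_div_cancel₀ _ h.varpi_ne_zero]

theorem sigma_varpi_pow (h : KData v L0 p ζ ω σ) (l : ℕ) :
    σ ((ω - 1) ^ l) = (ω - 1) ^ l * (1 + theta ζ ω) ^ l := by
  rw [map_pow, h.sigma_varpi, mul_pow]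

theorem sigma_k3sum (h : KData v L0 p ζ ω σ) {g : ℕ → L} (hg : ∀ l, g l ∈ L0) :
    σ (k3sum p ω g) = ∑ l ∈ range p, g l * (ω - 1) ^ l * (1 + theta ζ ω) ^ l := by
  rw [k3sum, map_sum]
  refine sum_congr rfl fun l _ => ?_
  rw [map_mul, h.σ0 _ (hg l), h.sigma_varpi_pow, mul_assoc]

/-- `(1 + θ) ^ l - 1 = θ * S`, `S = ∑_{i < l} (1 + θ) ^ i`. -/
theorem one_add_theta_pow_sub (t : L) (l : ℕ) :
    (1 + t) ^ l - 1 = t * ∑ i ∈ range l, (1 + t) ^ i := by
  have := mul_geom_sum (1 + t) l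
  rw [add_sub_cancel_left] at this
  exact this.symm

theorem val_geom_theta (h : KData v L0 p ζ ω σ) (l : ℕ) :
    v (∑ i ∈ range l, (1 + theta ζ ω) ^ i) ≤ 1 := by
  refine val_geom_sum_le_one v ?_ l
  exact le_trans (v.map_add _ _) (max_le (by rw [map_one]) h.val_theta_lt.le)

/-- `σ (g ϖ ^ (l + 1)) - g ϖ ^ (l + 1) = g ϖ ^ l π ω S`. -/
theorem sigma_k3term_sub (h : KData v L0 p ζ ω σ) (a : L) (l : ℕ) :
    a * (ω - 1) ^ (l + 1) * (1 + theta ζ ω) ^ (l + 1) - a * (ω - 1) ^ (l + 1) =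
      a * (ω - 1) ^ l * ((ζ - 1) * ω) * ∑ i ∈ range (l + 1), (1 + theta ζ ω) ^ i := by
  rw [← h.varpi_mul_theta]
  have := one_add_theta_pow_sub (theta ζ ω) (l + 1)
  have e : a * (ω - 1) ^ (l + 1) * (1 + theta ζ ω) ^ (l + 1) - a * (ω - 1) ^ (l + 1) =
      a * (ω - 1) ^ (l + 1) * ((1 + theta ζ ω) ^ (l + 1) - 1) := by ring
  rw [e, this, pow_succ]
  ring

/-- **(A2) of Key-p**: `σ c - c ∈ π O` for `c ∈ L₀(ω)` integral. -/
theorem val_sigma_sub_k3sum (h : KData v L0 p ζ ω σ) {g : ℕ → L} (hg : ∀ l, g l ∈ L0)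
    (hc : v (k3sum p ω g) ≤ 1) : v (σ (k3sum p ω g) - k3sum p ω g) ≤ v (ζ - 1) := by
  have e : σ (k3sum p ω g) - k3sum p ω g =
      ∑ l ∈ range p, (g l * (ω - 1) ^ l * (1 + theta ζ ω) ^ l - g l * (ω - 1) ^ l) := by
    rw [h.sigma_k3sum hg, k3sum, ← sum_sub_distrib]
  rw [e]
  refine v.map_sum_le fun l hl => ?_
  rcases Nat.eq_zero_or_pos l with h0 | h0
  · rw [h0]
    simp
  obtain ⟨k, rfl⟩ : ∃ k, l = k + 1 := ⟨l - 1, by omega⟩
  rw [h.sigma_k3term_sub, map_mul, map_mul, map_mul, map_mul, map_pow, h.val_omega, mul_one]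
  have h1 : v (g (k + 1)) ≤ 1 := h.val_k3coeff_le hg hc (mem_range.1 hl)
  have h2 : v (ω - 1) ^ k ≤ 1 := pow_le_one₀ zero_le h.val_varpi_le
  have h3 := h.val_geom_theta (k + 1)
  calc v (g (k + 1)) * v (ω - 1) ^ k * v (ζ - 1) * v (∑ i ∈ range (k + 1), (1 + theta ζ ω) ^ i)
      ≤ 1 * 1 * v (ζ - 1) * 1 :=
        mul_le_mul' (mul_le_mul' (mul_le_mul' h1 h2) le_rfl) h3
    _ = v (ζ - 1) := by rw [one_mul, one_mul, mul_one]

/-- **(A2) of Key-p** for the elements of `L₀(ω)`. -/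
theorem val_sigma_sub_k3 (h : KData v L0 p ζ ω σ) {c : L}
    (hc : c ∈ IntermediateField.adjoin L0 ({ω} : Set L)) (hle : v c ≤ 1) :
    v (σ c - c) ≤ v (ζ - 1) := by
  obtain ⟨g, hg, rfl⟩ := h.exists_k3sum hc
  exact h.val_sigma_sub_k3sum hg hle

/-- An element of `L₀` of value `< 1` has value `≤ v p`. -/
theorem val_le_vp_of_lt (h : KData v L0 p ζ ω σ) {a : L} (ha : a ∈ L0) (hlt : v a < 1) :
    v a ≤ v (p : L) := by
  rcases eq_or_ne a 0 with rfl | ha0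
  · rw [map_zero]; exact zero_le
  obtain ⟨n, hn⟩ := h.val0 a ha ha0
  have hvp0 : (0 : Γ₀) < v (p : L) := zero_lt_iff.2 h.vp_ne
  rw [hn] at hlt ⊢
  have hn1 : 1 ≤ n := by
    by_contra hcon
    have h0 : n ≤ 0 := by omega
    have h1 : v (p : L) ^ (0 : ℤ) ≤ v (p : L) ^ n :=
      (zpow_le_zpow_iff_right_of_lt_one₀ hvp0 h.vp_lt).2 h0
    rw [zpow_zero] at h1
    exact absurd hlt (not_lt.2 h1)
  have h2 := (zpow_le_zpow_iff_right_of_lt_one₀ hvp0 h.vp_lt).2 hn1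
  rwa [zpow_one] at h2

/-- `v p ≤ v ϖ ^ k` for `k ≤ p`. -/
theorem vp_le_varpi_pow (h : KData v L0 p ζ ω σ) {k : ℕ} (hk : k ≤ p) :
    v (p : L) ≤ v (ω - 1) ^ k := by
  rw [← h.val_varpi]
  exact pow_le_pow_of_le_one zero_le h.val_varpi_le hk

theorem vp_le_varpi (h : KData v L0 p ζ ω σ) : v (p : L) ≤ v (ω - 1) := by
  have := h.vp_le_varpi_pow h.prime.one_le
  rwa [pow_one] at this

/-- The coefficient `g 0` of a non-unit is a non-unit. -/
theorem val_k3coeff_zero (h : KData v L0 p ζ ω σ) {g : ℕ → L} (hg : ∀ l, g l ∈ L0)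
    (hc : v (k3sum p ω g) < 1) : v (g 0) ≤ v (p : L) := by
  have h1 := h.val_k3term_le hg h.prime.pos
  rw [pow_zero, mul_one] at h1
  exact h.val_le_vp_of_lt (hg 0) (lt_of_le_of_lt h1 hc)

/-- **(A3) of Key-p, part 1**: a non-unit of `L₀(ω)` is divisible by `ϖ`. -/
theorem val_k3sum_small (h : KData v L0 p ζ ω σ) {g : ℕ → L} (hg : ∀ l, g l ∈ L0)
    (hc : v (k3sum p ω g) < 1) : v (k3sum p ω g) ≤ v (ω - 1) := by
  have h0 := h.val_k3coeff_zero hg hc
  rw [k3sum]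
  refine v.map_sum_le fun l hl => ?_
  rcases Nat.eq_zero_or_pos l with hl0 | hl0
  · rw [hl0, pow_zero, mul_one]
    exact le_trans h0 h.vp_le_varpi
  · rw [map_mul, map_pow]
    have h1 : v (g l) ≤ 1 := h.val_k3coeff_le hg hc.le (mem_range.1 hl)
    have h2 : v (ω - 1) ^ l ≤ v (ω - 1) ^ 1 := pow_le_pow_of_le_one zero_le h.val_varpi_le hl0
    rw [pow_one] at h2
    calc v (g l) * v (ω - 1) ^ l ≤ 1 * v (ω - 1) := mul_le_mul' h1 h2
      _ = v (ω - 1) := one_mul _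

theorem val_k3_small (h : KData v L0 p ζ ω σ) {a : L}
    (ha : a ∈ IntermediateField.adjoin L0 ({ω} : Set L)) (hlt : v a < 1) :
    v a ≤ v (ω - 1) := by
  obtain ⟨g, hg, rfl⟩ := h.exists_k3sum ha
  exact h.val_k3sum_small hg hlt

/-- **(A3) of Key-p, part 3**: if `a / ϖ` is a non-unit then `a` is divisible by `ϖ ^ 2`. -/
theorem val_k3sum_small_sq (h : KData v L0 p ζ ω σ) {g : ℕ → L} (hg : ∀ l, g l ∈ L0)
    (hc : v (k3sum p ω g) < v (ω - 1)) : v (k3sum p ω g) ≤ v (ω - 1) ^ 2 := by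
  have hc1 : v (k3sum p ω g) < 1 := lt_trans hc h.val_varpi_lt
  have h0 := h.val_k3coeff_zero hg hc1
  have hp2 : 2 ≤ p := h.prime.two_le
  -- the coefficient `g 1` is a non-unit
  have h1 : v (g 1) ≤ v (p : L) := by
    refine h.val_le_vp_of_lt (hg 1) ?_
    have h2 := h.val_k3term_le hg (l := 1) (by omega)
    rw [pow_one, map_mul] at h2
    have h3 : v (g 1) * v (ω - 1) < 1 * v (ω - 1) := by
      rw [one_mul]
      exact lt_of_le_of_lt h2 hc
    exact lt_of_mul_lt_mul_right h3 zero_le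
  rw [k3sum]
  refine v.map_sum_le fun l hl => ?_
  rcases Nat.eq_zero_or_pos l with hl0 | hl0
  · rw [hl0, pow_zero, mul_one]
    exact le_trans h0 (h.vp_le_varpi_pow hp2)
  rcases Nat.eq_or_lt_of_le hl0 with hl1 | hl1
  · rw [← hl1, pow_one, map_mul, sq]
    exact mul_le_mul' (le_trans h1 h.vp_le_varpi) le_rfl
  · rw [map_mul, map_pow]
    have h2 : v (g l) ≤ 1 := h.val_k3coeff_le hg hc1.le (mem_range.1 hl)
    have h3 : v (ω - 1) ^ l ≤ v (ω - 1) ^ 2 := pow_le_pow_of_le_one zero_le h.val_varpi_le hl1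
    calc v (g l) * v (ω - 1) ^ l ≤ 1 * v (ω - 1) ^ 2 := mul_le_mul' h2 h3
      _ = v (ω - 1) ^ 2 := one_mul _

theorem val_k3_small_sq (h : KData v L0 p ζ ω σ) {a : L}
    (ha : a ∈ IntermediateField.adjoin L0 ({ω} : Set L)) (hlt : v (a / (ω - 1)) < 1) :
    v a ≤ v (ω - 1) ^ 2 := by
  obtain ⟨g, hg, rfl⟩ := h.exists_k3sum ha
  refine h.val_k3sum_small_sq hg ?_
  rw [map_div₀, div_lt_iff₀ h.val_varpi_pos, one_mul] at hlt
  exact hlt

/-- **(A3) of Key-p, part 2**: `(σ a - a) / π ≡ a / ϖ` modulo the maximal ideal, for a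
non-unit `a ∈ L₀(ω)`. -/
theorem val_sigma_sub_div_k3sum (h : KData v L0 p ζ ω σ) {g : ℕ → L} (hg : ∀ l, g l ∈ L0)
    (hc : v (k3sum p ω g) < 1) :
    v ((σ (k3sum p ω g) - k3sum p ω g) / (ζ - 1) - k3sum p ω g / (ω - 1)) < 1 := by
  have h0 := h.val_k3coeff_zero hg hc
  have hπ := h.pi_ne_zero
  have hϖ := h.varpi_ne_zero
  have e : (σ (k3sum p ω g) - k3sum p ω g) / (ζ - 1) - k3sum p ω g / (ω - 1) =
      ∑ l ∈ range p, ((g l * (ω - 1) ^ l * (1 + theta ζ ω) ^ l - g l * (ω - 1) ^ l) / (ζ - 1) -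
        g l * (ω - 1) ^ l / (ω - 1)) := by
    rw [h.sigma_k3sum hg, k3sum, ← sum_sub_distrib, sum_div, sum_div, ← sum_sub_distrib]
  rw [e]
  refine v.map_sum_lt one_ne_zero fun l hl => ?_
  rcases Nat.eq_zero_or_pos l with hl0 | hl0
  · -- `l = 0`
    rw [hl0]
    simp only [pow_zero, mul_one, sub_self, zero_div, zero_sub, Valuation.map_neg, map_div₀]
    rw [div_lt_iff₀ h.val_varpi_pos, one_mul]
    refine lt_of_le_of_lt h0 ?_
    rw [← h.val_varpi]
    have := pow_lt_pow_right_of_lt_one₀ h.val_varpi_pos h.val_varpi_lt h.prime.one_lt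
    rwa [pow_one] at this
  obtain ⟨k, rfl⟩ : ∃ k, l = k + 1 := ⟨l - 1, by omega⟩
  have h1 : v (g (k + 1)) ≤ 1 := h.val_k3coeff_le hg hc.le (mem_range.1 hl)
  have e2 : (g (k + 1) * (ω - 1) ^ (k + 1) * (1 + theta ζ ω) ^ (k + 1) -
      g (k + 1) * (ω - 1) ^ (k + 1)) / (ζ - 1) - g (k + 1) * (ω - 1) ^ (k + 1) / (ω - 1) =
      g (k + 1) * ((ω - 1) ^ k * (ω * ∑ i ∈ range (k + 1), (1 + theta ζ ω) ^ i - 1)) := by
    rw [h.sigma_k3term_sub, pow_succ]
    field_simp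
  rw [e2, map_mul]
  have h2 : v ((ω - 1) ^ k * (ω * ∑ i ∈ range (k + 1), (1 + theta ζ ω) ^ i - 1)) < 1 := by
    rcases Nat.eq_zero_or_pos k with hk0 | hk0
    · rw [hk0]
      simp only [pow_zero, one_mul, zero_add, range_one, sum_singleton, mul_one]
      exact h.val_varpi_lt
    · rw [map_mul, map_pow]
      have h3 : v (ω - 1) ^ k < 1 := pow_lt_one₀ zero_le h.val_varpi_lt (by omega)
      have h4 : v (ω * ∑ i ∈ range (k + 1), (1 + theta ζ ω) ^ i - 1) ≤ 1 := by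
        refine le_trans (v.map_sub _ _) (max_le ?_ (by rw [map_one]))
        rw [map_mul, h.val_omega, one_mul]
        exact h.val_geom_theta _
      calc v (ω - 1) ^ k * v (ω * ∑ i ∈ range (k + 1), (1 + theta ζ ω) ^ i - 1)
          ≤ v (ω - 1) ^ k * 1 := mul_le_mul_right h4 _
        _ = v (ω - 1) ^ k := mul_one _
        _ < 1 := h3
  calc v (g (k + 1)) * v ((ω - 1) ^ k * (ω * ∑ i ∈ range (k + 1), (1 + theta ζ ω) ^ i - 1))
      ≤ 1 * v ((ω - 1) ^ k * (ω * ∑ i ∈ range (k + 1), (1 + theta ζ ω) ^ i - 1)) :=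
        mul_le_mul_left h1 _
    _ = v ((ω - 1) ^ k * (ω * ∑ i ∈ range (k + 1), (1 + theta ζ ω) ^ i - 1)) := one_mul _
    _ < 1 := h2

theorem val_sigma_sub_div_k3 (h : KData v L0 p ζ ω σ) {a : L}
    (ha : a ∈ IntermediateField.adjoin L0 ({ω} : Set L)) (hlt : v a < 1) :
    v ((σ a - a) / (ζ - 1) - a / (ω - 1)) < 1 := by
  obtain ⟨g, hg, rfl⟩ := h.exists_k3sum ha
  exact h.val_sigma_sub_div_k3sum hg hlt

/-- **(A0) of Key-p, part 2**: `ϖ ^ p / p ≡ u₁`, `u₁ = (ω ^ p - 1) / p`. -/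
theorem val_varpi_pow_div (h : KData v L0 p ζ ω σ) :
    v ((ω - 1) ^ p / (p : L) - (ω ^ p - 1) / (p : L)) < 1 := by
  have h1 := add_pow_prime_eq h.prime (ω - 1) (1 : L)
  rw [sub_add_cancel] at h1
  have hp0 := h.p_ne_zero
  have e : (ω - 1) ^ p / (p : L) - (ω ^ p - 1) / (p : L) =
      -((ω - 1) * ∑ k ∈ Ioo 0 p, (ω - 1) ^ (k - 1) * (1 : L) ^ (p - k - 1) *
        ((p.choose k / p : ℕ) : L)) := by
    rw [h1]
    field_simp
    ring
  rw [e, Valuation.map_neg, map_mul]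
  have h2 : v (∑ k ∈ Ioo 0 p, (ω - 1) ^ (k - 1) * (1 : L) ^ (p - k - 1) *
      ((p.choose k / p : ℕ) : L)) ≤ 1 := by
    refine v.map_sum_le fun k _ => ?_
    rw [map_mul, map_mul, map_pow, map_pow, map_one, one_pow, mul_one]
    exact mul_le_one₀ (pow_le_one₀ zero_le h.val_varpi_le) zero_le (val_natCast_le_one v _)
  calc v (ω - 1) * v (∑ k ∈ Ioo 0 p, (ω - 1) ^ (k - 1) * (1 : L) ^ (p - k - 1) *
        ((p.choose k / p : ℕ) : L)) ≤ v (ω - 1) * 1 := mul_le_mul_right h2 _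
    _ = v (ω - 1) := mul_one _
    _ < 1 := h.val_varpi_lt

end KData

end Fermat.Agent.BADP.H97
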